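/-
M1 (row 38, S44), chapter LINK (helper45): the ABSTRACT CORE of LINK-MAIN (plan = report #954).

"Hecke relations of the good level `N` in characteristic `0` persist on the `p`-torsion of
`Pic⁰` of the special fibre."

Dictionary (everything additive; Mathlib only):

* `Dv` : divisors of `FF N = ℚ̄(X₀(N))`; `Dk` : divisors of `F̃ = k(X₀(N))`, `k = A/𝔪`, char `p`;
  `r : Dv →+ Dk` the reduction `r_*` (Prelude `reductionDivAlong`);
* `U := Additive F̃ˣ`, `dv : U →+ Dk` the divisor map, `dl : U →+ Φ` the `θ`-logarithmic derivative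
  `u ↦ θ u / u ∈ Φ = k((q))`;
* `ι` : the primes `ℓ ∤ N p`; `T ℓ : Dv →+ Dv` the Hecke correspondence on divisors
  (`heckeDivBar`), `Nb ℓ : U →+ U` the multiplicative Hecke operator on functions of the special
  fibre (`ū ↦ ū(q^ℓ) · ∏ ū(ζⁱ q^{1/ℓ})`), `Tf ℓ : Φ →+ Φ` the formal Hecke operator on `q`-series;
* `hT`   (LK6 + LK7): `r E = div ū → r (T_ℓ E) = div (N̄_ℓ ū)`;
* `hdl`  (LK7): `θ`-log of `N̄_ℓ ū` is `Tform_ℓ` of the `θ`-log of `ū`;
* `hker` (LK9): `θ ū = 0 → ū` is a `p`-th power in `F̃`;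
* `Sk`   : the `q`-series satisfying every `ℤ`-linear relation satisfied by `S₂(Γ₀(N))`;
  `hkey` (LK1–LK5): `div ū ∈ p • Dk → θ ū / ū ∈ Sk`;  `hs` (LK0): `s(Tform) = 0` on `Sk`;
* `s : List (ℤ × List ι)` : a non-commutative polynomial (coefficient, ordered word).

Conclusion `link_core`: if `p • r D` is principal then `r (s[[T]] D)` is principal.
-/
import Mathlib

set_option autoImplicit false

namespace Fermat.Agent.M1.Link.Abstract45

section Eval

variable {ι G H : Type*} [AddCommGroup G] [AddCommGroup H]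

/-- ordered evaluation of a word: `evalWord T [ℓ₁, …, ℓ_m] = T ℓ₁ ∘ ⋯ ∘ T ℓ_m`. -/
def evalWord (T : ι → G →+ G) : List ι → G →+ G
  | [] => AddMonoidHom.id G
  | ℓ :: w => (T ℓ).comp (evalWord T w)

@[simp] theorem evalWord_nil (T : ι → G →+ G) (x : G) : evalWord T [] x = x := rfl

@[simp] theorem evalWord_cons (T : ι → G →+ G) (ℓ : ι) (w : List ι) (x : G) :
    evalWord T (ℓ :: w) x = T ℓ (evalWord T w x) := rfl

/-- ordered evaluation of a non-commutative polynomial `Σ c • word`. -/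
def evalS (T : ι → G →+ G) (s : List (ℤ × List ι)) : G →+ G :=
  (s.map fun cw => cw.1 • evalWord T cw.2).sum

@[simp] theorem evalS_nil (T : ι → G →+ G) (x : G) : evalS T [] x = 0 := rfl

@[simp] theorem evalS_cons (T : ι → G →+ G) (cw : ℤ × List ι) (s : List (ℤ × List ι)) (x : G) :
    evalS T (cw :: s) x = cw.1 • evalWord T cw.2 x + evalS T s x := by
  simp [evalS]

/-- an intertwiner commutes with the ordered evaluation of words. -/
theorem map_evalWord (a : G →+ H) (T : ι → G →+ G) (T' : ι → H →+ H)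
    (h : ∀ ℓ x, a (T ℓ x) = T' ℓ (a x)) (w : List ι) (x : G) :
    a (evalWord T w x) = evalWord T' w (a x) := by
  induction w with
  | nil => rfl
  | cons ℓ w ih => rw [evalWord_cons, evalWord_cons, h, ih]

/-- an intertwiner commutes with the ordered evaluation of polynomials. -/
theorem map_evalS (a : G →+ H) (T : ι → G →+ G) (T' : ι → H →+ H)
    (h : ∀ ℓ x, a (T ℓ x) = T' ℓ (a x)) (s : List (ℤ × List ι)) (x : G) :
    a (evalS T s x) = evalS T' s (a x) := by
  induction s with
  | nil => simp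
  | cons cw s ih =>
    rw [evalS_cons, evalS_cons, map_add, map_zsmul, ih, map_evalWord a T T' h]

/-- a relation `R` compatible with the operators, `0`, `+`, `-` is compatible with words. -/
theorem rel_evalWord (R : G → H → Prop) (T : ι → G →+ G) (T' : ι → H →+ H)
    (hT : ∀ ℓ x y, R x y → R (T ℓ x) (T' ℓ y)) (w : List ι) {x : G} {y : H} (hxy : R x y) :
    R (evalWord T w x) (evalWord T' w y) := by
  induction w with
  | nil => exact hxy
  | cons ℓ w ih => exact hT ℓ _ _ ih

/-- a relation `R` compatible with the operators, `0`, `+`, `ℤ`-multiples is compatible with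
the ordered evaluation of polynomials. -/
theorem rel_evalS (R : G → H → Prop) (T : ι → G →+ G) (T' : ι → H →+ H)
    (h0 : R 0 0) (hadd : ∀ x y x' y', R x y → R x' y' → R (x + x') (y + y'))
    (hsmul : ∀ (c : ℤ) x y, R x y → R (c • x) (c • y))
    (hT : ∀ ℓ x y, R x y → R (T ℓ x) (T' ℓ y)) (s : List (ℤ × List ι)) {x : G} {y : H}
    (hxy : R x y) : R (evalS T s x) (evalS T' s y) := by
  induction s with
  | nil => simpa using h0
  | cons cw s ih =>
    rw [evalS_cons, evalS_cons]
    exact hadd _ _ _ _ (hsmul _ _ _ (rel_evalWord R T T' hT cw.2 hxy)) ih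

theorem evalS_nsmul (T : ι → G →+ G) (s : List (ℤ × List ι)) (n : ℕ) (x : G) :
    evalS T s (n • x) = n • evalS T s x := map_nsmul _ _ _

end Eval

section Core

variable {ι Dv Dk U Φ : Type*} [AddCommGroup Dv] [AddCommGroup Dk] [AddCommGroup U]
  [AddCommGroup Φ]

/-- **LINK, abstract core.** -/
theorem link_core (p : ℕ) (r : Dv →+ Dk) (dv : U →+ Dk) (dl : U →+ Φ)
    (T : ι → Dv →+ Dv) (Nb : ι → U →+ U) (Tf : ι → Φ →+ Φ) (Sk : AddSubgroup Φ)
    (hT : ∀ ℓ (E : Dv) (u : U), r E = dv u → r (T ℓ E) = dv (Nb ℓ u))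
    (hdl : ∀ ℓ (u : U), dl (Nb ℓ u) = Tf ℓ (dl u))
    (hker : ∀ u : U, dl u = 0 → ∃ w : U, u = p • w)
    (hkey : ∀ u : U, (∃ E : Dk, dv u = p • E) → dl u ∈ Sk)
    (htf : ∀ E : Dk, p • E = 0 → E = 0)
    (s : List (ℤ × List ι)) (hs : ∀ φ ∈ Sk, evalS Tf s φ = 0)
    (D : Dv) (hD : ∃ u : U, p • r D = dv u) :
    ∃ w : U, r (evalS T s D) = dv w := by
  obtain ⟨u, hu⟩ := hD
  -- the relation `r E = dv u` is stable under the ordered evaluation
  have hrel : r (evalS T s (p • D)) = dv (evalS Nb s u) := by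
    refine rel_evalS (fun E u => r E = dv u) T Nb ?_ ?_ ?_ ?_ s ?_
    · show r 0 = dv 0
      rw [map_zero, map_zero]
    · intro x y x' y' h h'
      show r (x + x') = dv (y + y')
      rw [map_add, map_add, h, h']
    · intro c x y h
      show r (c • x) = dv (c • y)
      rw [map_zsmul, map_zsmul, h]
    · intro ℓ x y h
      exact hT ℓ x y h
    · show r (p • D) = dv u
      rw [map_nsmul, hu]
  -- the `θ`-log of `N̄^s ū` vanishes
  have hdl0 : dl (evalS Nb s u) = 0 := by
    rw [map_evalS dl Nb Tf hdl]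
    exact hs _ (hkey u ⟨r D, hu.symm⟩)
  obtain ⟨w, hw⟩ := hker _ hdl0
  refine ⟨w, ?_⟩
  have h1 : p • (r (evalS T s D) - dv w) = 0 := by
    rw [smul_sub, ← map_nsmul r, ← evalS_nsmul, hrel, hw, map_nsmul, sub_self]
  exact sub_eq_zero.mp (htf _ h1)

end Core

section Relations

/-! ### The space `Sk` of series satisfying the relations of `S₂`, and `hs` from LK0 -/

variable {k : Type*} [CommRing k]

/-- the pairing of a finitely supported integral relation with a sequence. -/
def pair (c : ℕ →₀ ℤ) (a : ℕ → k) : k := c.sum fun n cn => (cn : k) * a n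

theorem pair_add (c : ℕ →₀ ℤ) (a b : ℕ → k) : pair c (a + b) = pair c a + pair c b := by
  simp only [pair, Finsupp.sum, Pi.add_apply, mul_add, Finset.sum_add_distrib]

theorem pair_zero (c : ℕ →₀ ℤ) : pair c (0 : ℕ → k) = 0 := by
  simp [pair, Finsupp.sum]

theorem pair_neg (c : ℕ →₀ ℤ) (a : ℕ → k) : pair c (-a) = -pair c a := by
  simp only [pair, Finsupp.sum, Pi.neg_apply, mul_neg, Finset.sum_neg_distrib]

/-- the sequences satisfying all the relations in `Rel`. -/
def relSubgroup (Rel : Set (ℕ →₀ ℤ)) : AddSubgroup (ℕ → k) where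
  carrier := {a | ∀ c ∈ Rel, pair c a = 0}
  zero_mem' := fun c _ => pair_zero c
  add_mem' := fun {a b} ha hb c hc => by rw [pair_add, ha c hc, hb c hc, add_zero]
  neg_mem' := fun {a} ha c hc => by rw [pair_neg, ha c hc, neg_zero]

theorem mem_relSubgroup {Rel : Set (ℕ →₀ ℤ)} {a : ℕ → k} :
    a ∈ relSubgroup (k := k) Rel ↔ ∀ c ∈ Rel, pair c a = 0 := Iff.rfl

/-- (LK0, abstract form) if every coefficient of `P a` is the pairing of `a` with a relation of
`Rel`, then `P` vanishes on `relSubgroup Rel`. -/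
theorem eq_zero_of_coeff_rel {Rel : Set (ℕ →₀ ℤ)} (P : (ℕ → k) →+ (ℕ → k))
    (hP : ∀ m : ℕ, ∃ c ∈ Rel, ∀ a : ℕ → k, P a m = pair c a)
    {a : ℕ → k} (ha : a ∈ relSubgroup (k := k) Rel) : P a = 0 := by
  funext m
  obtain ⟨c, hc, hPc⟩ := hP m
  rw [hPc a, ha c hc]
  rfl

end Relations

end Fermat.Agent.M1.Link.Abstract45
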