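/-
M1 / LINK, brick LK5a (helper54): the adelic counting lemmas of `RR/Adeles` (helper28) under the WEAK
hypothesis `WeakFF K F` (all places of degree one, finitely many zeros and poles), valid in every
characteristic.  The proofs are those of `RR/Adeles` verbatim; only the hypothesis changed.

* `WeakFF K F`, `WeakFF.of_lHyp : LSpace.LHyp K F → WeakFF K F`;
* `mem_repartitions_iff`, `relrank_repartitionsOf`, `finrank_repartitionsOf`,
  `relrank_L_add_relrank_sup`, `finrank_L_add_finrank_sup`.
-/
import Mathlib
import Fermat.Prelude.Def_AlgebraicCurve_Repartitions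
import Fermat.Agent.X0.FFPrincipal
import Fermat.Agent.X0.FFPlace
import Fermat.Agent.RR.RelRank
import Fermat.Agent.RR.LSpace

set_option autoImplicit false

namespace Fermat.Agent.M1.Link.AdelesWeak54

open AlgebraicCurve Fermat.Agent.X0.FF Fermat.Agent.RR.RelRank

variable {K F : Type*} [Field K] [Field F] [Algebra K F]

/-- The weak standing hypothesis: all places have degree one and a nonzero function has finitely
many zeros and poles. -/
structure WeakFF (K F : Type*) [Field K] [Field F] [Algebra K F] : Prop where
  deg_eq_one : ∀ v : Place K F, v.deg = 1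
  finite_support_ord : ∀ f : F, f ≠ 0 → {v : Place K F | v.ord f ≠ 0}.Finite

/-- `LSpace.LHyp` implies the weak hypothesis (`div f` is a finitely supported function). -/
theorem WeakFF.of_lHyp (HL : Fermat.Agent.RR.LSpace.LHyp K F) : WeakFF K F where
  deg_eq_one := HL.deg_eq_one
  finite_support_ord f hf := by
    obtain ⟨D, hD, -⟩ := HL.principal f hf
    refine D.support.finite_toSet.subset ?_
    intro v hv
    have h1 : v.ord f ≠ 0 := hv
    rw [Finset.mem_coe, Finsupp.mem_support_iff, hD v]
    exact h1


theorem WeakFF.degree_eq_sum (H : WeakFF K F) (D : Divisor K F) :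
    Divisor.degree D = ∑ v ∈ D.support, D v := by
  rw [Divisor.degree, Finsupp.liftAddHom_apply, Finsupp.sum]
  refine Finset.sum_congr rfl fun v _ => ?_
  simp [H.deg_eq_one v]

/-! ### Repartitions = families with finitely many poles -/

theorem pole_iff (v : Place K F) (f : F) : ¬ v.adicValuation f ≤ 1 ↔ v.ord f < 0 :=
  v.not_adicValuation_le_one_iff

theorem mem_repartitions_iff (H : WeakFF K F) {α : Place K F → F} :
    α ∈ repartitions K F ↔ {v : Place K F | v.ord (α v) < 0}.Finite := by
  constructor
  · intro hα
    have key : ∀ β ∈ repartitions K F, {v : Place K F | ¬ v.adicValuation (β v) ≤ 1}.Finite := by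
      intro β hβ
      induction hβ using Algebra.adjoin_induction with
      | mem x hx => exact hx
      | algebraMap f =>
        rcases eq_or_ne f 0 with rfl | hf
        · convert Set.finite_empty
          ext v
          simp
        · refine (H.finite_support_ord _ hf).subset ?_
          intro v hv
          have : v.ord f < 0 := (pole_iff v f).mp hv
          exact ne_of_lt this
      | add x y _ _ hx hy =>
        refine (hx.union hy).subset ?_
        intro v hv
        by_contra hcon
        simp only [Set.mem_union, Set.mem_ofPred_eq, not_or, not_not] at hcon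
        exact hv ((Valuation.map_add _ _ _).trans (max_le hcon.1 hcon.2))
      | mul x y _ _ hx hy =>
        refine (hx.union hy).subset ?_
        intro v hv
        by_contra hcon
        simp only [Set.mem_union, Set.mem_ofPred_eq, not_or, not_not] at hcon
        apply hv
        show v.adicValuation (x v * y v) ≤ 1
        rw [map_mul]
        exact mul_le_one' hcon.1 hcon.2
    have := key α hα
    convert this using 1
    ext v
    exact (pole_iff v (α v)).symm
  · exact mem_repartitions_of_finite_ord

/-! ### Local facts at a place of degree one -/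

section Local

open WithZero

variable (v : Place K F)

/-- At a place of degree one every element of the valuation ring is congruent to a constant. -/
theorem exists_const_sub_le (hdeg : v.deg = 1) {a : F} (ha : v.adicValuation a ≤ 1) :
    ∃ c : K, v.adicValuation (a - algebraMap K F c) ≤ exp (-1 : ℤ) := by
  have haO : a ∈ v.toValuationSubring := by
    rw [ffp_mem_iff_ord_nonneg]
    rcases v.adicValuation_le_one_iff.mp ha with rfl | h
    · simp
    · exact h
  have h1 : ∀ w : v.ResidueField, ∃ c : K, c • (1 : v.ResidueField) = w :=
    (finrank_eq_one_iff_of_nonzero' (1 : v.ResidueField) one_ne_zero).mp hdeg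
  obtain ⟨c, hc⟩ := h1 (IsLocalRing.residue v.toValuationSubring ⟨a, haO⟩)
  refine ⟨c, ?_⟩
  have h2 : algebraMap K v.ResidueField c =
      IsLocalRing.residue v.toValuationSubring (algebraMap K v.toValuationSubring c) := rfl
  rw [Algebra.smul_def, mul_one, h2, ← sub_eq_zero, ← map_sub,
    IsLocalRing.residue_eq_zero_iff] at hc
  -- `b := c - a` lies in the maximal ideal
  set b : v.toValuationSubring := algebraMap K v.toValuationSubring c - ⟨a, haO⟩ with hb
  have hbF : (b : F) = algebraMap K F c - a := by
    rw [hb]; push_cast; rw [v.coe_algebraMap]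
  have hneg : a - algebraMap K F c = -(b : F) := by rw [hbF]; ring
  rw [hneg, Valuation.map_neg, v.adicValuation_le_exp_iff]
  by_cases hb0 : b = 0
  · left; rw [hb0]; rfl
  · right
    have := (ffp_mem_maximalIdeal_iff v b hb0).mp hc
    omega

/-- The valuation of a power of a uniformizer. -/
theorem adicValuation_zpow_irreducible {π : v.toValuationSubring} (hπ : Irreducible π) (k : ℤ) :
    v.adicValuation ((π : F) ^ k) = exp (-k) := by
  rw [map_zpow₀, v.adicValuation_coe_irreducible hπ, ← WithZero.exp_zsmul]
  congr 1
  simp

end Local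

/-! ### The local step: `dim A(D + v) / A(D) = 1` -/

section Step

open WithZero

open Classical

/-- The repartition with a single nonzero component `t` at `v₀`. -/
noncomputable def singleRep (v₀ : Place K F) (t : F) : ↥(repartitions K F) :=
  ⟨Function.update (0 : Place K F → F) v₀ t, mem_repartitions_of_finite <| by
    refine (Set.finite_singleton v₀).subset ?_
    intro w hw
    by_contra hne
    apply hw
    have hne' : w ≠ v₀ := hne
    rw [Function.update_of_ne hne']
    simp⟩

theorem singleRep_apply_self (v₀ : Place K F) (t : F) :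
    (singleRep v₀ t : Place K F → F) v₀ = t := by
  simp [singleRep]

theorem singleRep_apply_of_ne (v₀ : Place K F) (t : F) {w : Place K F} (h : w ≠ v₀) :
    (singleRep v₀ t : Place K F → F) w = 0 := by
  simp [singleRep, Function.update_of_ne h]

theorem coe_sub_smul (α β : ↥(repartitions K F)) (c : K) (w : Place K F) :
    ((α - c • β : ↥(repartitions K F)) : Place K F → F) w =
      (α : Place K F → F) w - algebraMap K F c * (β : Place K F → F) w := by
  have : ((α - c • β : ↥(repartitions K F)) : Place K F → F) =
      (α : Place K F → F) - c • (β : Place K F → F) := rfl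
  rw [this, Pi.sub_apply, Pi.smul_apply, Algebra.smul_def]

theorem relrank_repartitionsOf_single (H : WeakFF K F) (D : Divisor K F) (v₀ : Place K F) :
    relrank (repartitionsOf D) (repartitionsOf (D + Finsupp.single v₀ (1 : ℤ))) = 1 := by
  classical
  obtain ⟨π, hπ⟩ := ffp_exists_irreducible v₀
  have hπF : (π : F) ≠ 0 := by
    simpa [ne_eq, ZeroMemClass.coe_eq_zero] using hπ.ne_zero
  set n : ℤ := D v₀ + 1 with hn
  set t : F := (π : F) ^ (-n) with ht
  have hvt : v₀.adicValuation t = exp n := by
    rw [ht, adicValuation_zpow_irreducible v₀ hπ, neg_neg]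
  set e : ↥(repartitions K F) := singleRep v₀ t with he
  have hDplus : ∀ w, (D + Finsupp.single v₀ (1 : ℤ)) w = if w = v₀ then D v₀ + 1 else D w := by
    intro w
    rw [Finsupp.add_apply, Finsupp.single_apply]
    split_ifs with h1 h2 h2
    · rw [h2]
    · exact absurd h1.symm h2
    · exact absurd h2.symm h1
    · rw [add_zero]
  -- (F1) `e ∈ A(D⁺)`
  have he1 : e ∈ repartitionsOf (D + Finsupp.single v₀ (1 : ℤ)) := by
    intro w
    by_cases hw : w = v₀
    · subst hw
      rw [he, singleRep_apply_self, hvt, hDplus, if_pos rfl]
    · rw [he, singleRep_apply_of_ne v₀ t hw]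
      simp
  -- (F2) `e ∉ A(D)`
  have he2 : e ∉ repartitionsOf D := by
    intro hmem
    have := hmem v₀
    rw [he, singleRep_apply_self, hvt, exp_le_exp] at this
    omega
  -- (F3) every element of `A(D⁺)` is congruent to a multiple of `e` modulo `A(D)`
  have he3 : ∀ α ∈ repartitionsOf (D + Finsupp.single v₀ (1 : ℤ)),
      ∃ c : K, α - c • e ∈ repartitionsOf D := by
    intro α hα
    have hα0 := hα v₀
    rw [hDplus, if_pos rfl] at hα0
    set a₀ : F := (α : Place K F → F) v₀ with ha₀
    have hva : v₀.adicValuation (a₀ * (π : F) ^ n) ≤ 1 := by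
      rw [map_mul, adicValuation_zpow_irreducible v₀ hπ]
      calc v₀.adicValuation a₀ * exp (-n) ≤ exp (D v₀ + 1) * exp (-n) :=
            mul_le_mul' hα0 le_rfl
        _ = 1 := by rw [← exp_add, hn, add_neg_cancel, exp_zero]
    obtain ⟨c, hc⟩ := exists_const_sub_le v₀ (H.deg_eq_one v₀) hva
    refine ⟨c, ?_⟩
    intro w
    rw [coe_sub_smul]
    by_cases hw : w = v₀
    · rw [hw, he, singleRep_apply_self]
      have hfac : a₀ - algebraMap K F c * t = (a₀ * (π : F) ^ n - algebraMap K F c) * t := by
        rw [ht, sub_mul, mul_assoc, ← zpow_add₀ hπF, add_neg_cancel, zpow_zero, mul_one]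
      rw [← ha₀, hfac, map_mul, hvt]
      calc v₀.adicValuation (a₀ * (π : F) ^ n - algebraMap K F c) * exp n
          ≤ exp (-1 : ℤ) * exp n := mul_le_mul' hc le_rfl
        _ = exp (D v₀) := by rw [← exp_add, hn]; congr 1; ring
    · rw [he, singleRep_apply_of_ne v₀ t hw, mul_zero, sub_zero]
      have := hα w
      rwa [hDplus, if_neg hw] at this
  -- conclusion
  have hle : repartitionsOf D ≤ repartitionsOf (D + Finsupp.single v₀ (1 : ℤ)) :=
    repartitionsOf_mono (by
      intro w
      rw [hDplus]
      split_ifs with h
      · rw [h]; omega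
      · exact le_rfl)
  have hsup : repartitionsOf (D + Finsupp.single v₀ (1 : ℤ)) = repartitionsOf D ⊔ K ∙ e := by
    apply le_antisymm
    · intro α hα
      obtain ⟨c, hc⟩ := he3 α hα
      have : α = (α - c • e) + c • e := by abel
      rw [this]
      exact Submodule.add_mem_sup hc (Submodule.smul_mem _ _ (Submodule.mem_span_singleton_self e))
    · refine sup_le hle ?_
      rw [Submodule.span_singleton_le_iff_mem]
      exact he1
  rw [hsup, relrank_self_sup]
  unfold relrank
  rw [Submodule.map_span, Set.image_singleton, Module.rank_eq_one_iff_finrank_eq_one]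
  apply finrank_span_singleton
  intro h0
  exact he2 ((Submodule.Quotient.mk_eq_zero _).mp h0)

end Step

/-! ### `dim A(D') / A(D) = deg D' - deg D` -/

section Global

theorem degree_sub_single (H : WeakFF K F) (D : Divisor K F) (v : Place K F) :
    Divisor.degree (D - Finsupp.single v (1 : ℤ)) = Divisor.degree D - 1 := by
  rw [map_sub, Divisor.degree_single, H.deg_eq_one v]
  simp

theorem degree_mono (H : WeakFF K F) {D D' : Divisor K F} (h : D ≤ D') :
    Divisor.degree D ≤ Divisor.degree D' := by
  have h1 : Divisor.degree D' - Divisor.degree D = Divisor.degree (D' - D) := (map_sub _ _ _).symm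
  have h2 : 0 ≤ Divisor.degree (D' - D) := by
    rw [H.degree_eq_sum]
    refine Finset.sum_nonneg fun v _ => ?_
    have := Finsupp.le_def.mp h v
    rw [Finsupp.sub_apply]
    omega
  omega

theorem exists_lt_of_le_of_ne {D D' : Divisor K F} (h : D ≤ D') (hne : D' ≠ D) :
    ∃ v : Place K F, D v < D' v := by
  by_contra hcon
  push Not at hcon
  exact hne (Finsupp.ext fun v => le_antisymm (hcon v) (Finsupp.le_def.mp h v))

theorem le_sub_single {D D' : Divisor K F} (h : D ≤ D') {v : Place K F} (hv : D v < D' v) :
    D ≤ D' - Finsupp.single v (1 : ℤ) := by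
  classical
  rw [Finsupp.le_def]
  intro w
  rw [Finsupp.sub_apply, Finsupp.single_apply]
  have := Finsupp.le_def.mp h w
  split_ifs with hw
  · subst hw; omega
  · omega

theorem relrank_repartitionsOf_aux (H : WeakFF K F) (D : Divisor K F) (n : ℕ) :
    ∀ D' : Divisor K F, D ≤ D' → Divisor.degree D' - Divisor.degree D = n →
      relrank (repartitionsOf D) (repartitionsOf D') = n := by
  induction n with
  | zero =>
    intro D' h hd
    by_cases hne : D' = D
    · rw [hne, relrank_eq_zero_of_le le_rfl]; simp
    · exfalso
      obtain ⟨v, hv⟩ := exists_lt_of_le_of_ne h hne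
      have h1 := degree_mono H (le_sub_single h hv)
      rw [degree_sub_single H] at h1
      simp only [Nat.cast_zero] at hd
      omega
  | succ n ih =>
    intro D' h hd
    have hne : D' ≠ D := by
      rintro rfl
      simp only [sub_self, Nat.cast_add, Nat.cast_one] at hd
      omega
    obtain ⟨v, hv⟩ := exists_lt_of_le_of_ne h hne
    set D'' : Divisor K F := D' - Finsupp.single v (1 : ℤ) with hD''
    have hle : D ≤ D'' := le_sub_single h hv
    have hdeg : Divisor.degree D'' - Divisor.degree D = n := by
      rw [hD'', degree_sub_single H]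
      push_cast at hd
      omega
    have h1 := ih D'' hle hdeg
    have h2 := relrank_repartitionsOf_single H D'' v
    have hD' : D'' + Finsupp.single v (1 : ℤ) = D' := by rw [hD'']; abel
    rw [hD'] at h2
    have hle' : D'' ≤ D' := by
      rw [← hD']
      intro w
      classical
      rw [Finsupp.add_apply, Finsupp.single_apply]
      split_ifs <;> omega
    rw [← relrank_add (repartitionsOf_mono hle) (repartitionsOf_mono hle'), h1, h2]
    push_cast
    rfl

/-- **(C2)** For `D ≤ D'`: `dim A(D') / A(D) = deg D' - deg D`. -/
theorem relrank_repartitionsOf (H : WeakFF K F) {D D' : Divisor K F} (h : D ≤ D') :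
    relrank (repartitionsOf D) (repartitionsOf D') =
      ((Divisor.degree D' - Divisor.degree D).toNat : Cardinal) := by
  apply relrank_repartitionsOf_aux H D _ D' h
  rw [Int.toNat_of_nonneg]
  have := degree_mono H h
  omega

end Global

/-! ### (C3): comparison with the Riemann–Roch spaces -/

section C3

/-- The diagonal embedding of `F` into the repartitions, as a `K`-linear map. -/
noncomputable def diag : F →ₗ[K] ↥(repartitions K F) :=
  (Algebra.linearMap F ↥(repartitions K F)).restrictScalars K

theorem diag_apply (f : F) (w : Place K F) : ((diag (K := K) f : ↥(repartitions K F)) :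
    Place K F → F) w = f := rfl

theorem diag_injective [Nonempty (Place K F)] : Function.Injective (diag (K := K) (F := F)) := by
  intro f g h
  obtain ⟨w⟩ := ‹Nonempty (Place K F)›
  have := congrArg (fun α : ↥(repartitions K F) => (α : Place K F → F) w) h
  simpa [diag_apply] using this

theorem map_diag_riemannRochSpace (D : Divisor K F) :
    (riemannRochSpace D).map (diag (K := K) (F := F)) =
      repartitionsOf D ⊓ principalRepartitions K F := by
  ext α
  simp only [Submodule.mem_map, Submodule.mem_inf, mem_principalRepartitions_iff]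
  constructor
  · rintro ⟨f, hf, rfl⟩
    exact ⟨fun w => hf w, f, rfl⟩
  · rintro ⟨hα, f, hf⟩
    refine ⟨f, fun w => ?_, Subtype.ext hf.symm⟩
    have := hα w
    rwa [hf] at this

/-- **(C3)** For `D ≤ D'`:
`dim L(D') / L(D) + dim (A(D') + F) / (A(D) + F) = deg D' - deg D`. -/
theorem relrank_L_add_relrank_sup (H : WeakFF K F) [Nonempty (Place K F)] {D D' : Divisor K F}
    (h : D ≤ D') :
    relrank (riemannRochSpace D) (riemannRochSpace D') +
      relrank (repartitionsOf D ⊔ principalRepartitions K F)
        (repartitionsOf D' ⊔ principalRepartitions K F) =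
      ((Divisor.degree D' - Divisor.degree D).toNat : Cardinal) := by
  rw [← relrank_repartitionsOf H h,
    relrank_eq_inf_add_sup (repartitionsOf_mono h) (principalRepartitions K F),
    ← map_diag_riemannRochSpace, ← map_diag_riemannRochSpace,
    relrank_map_of_injective _ diag_injective]

end C3

/-! ### Natural-number forms -/

section Nat

theorem exists_nat_of_add_eq {x y : Cardinal} {n : ℕ} (h : x + y = n) :
    ∃ a b : ℕ, x = a ∧ y = b ∧ a + b = n := by
  have hlt : x + y < Cardinal.aleph0 := by rw [h]; exact Cardinal.natCast_lt_aleph0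
  obtain ⟨hx, hy⟩ := Cardinal.add_lt_aleph0_iff.mp hlt
  obtain ⟨a, rfl⟩ := Cardinal.lt_aleph0.mp hx
  obtain ⟨b, rfl⟩ := Cardinal.lt_aleph0.mp hy
  refine ⟨a, b, rfl, rfl, ?_⟩
  exact_mod_cast h

/-- `A(D') / A(D)` is finite-dimensional of dimension `deg D' - deg D`. -/
theorem finrank_repartitionsOf (H : WeakFF K F) {D D' : Divisor K F} (h : D ≤ D') :
    Module.Finite K ↥((repartitionsOf D').map (repartitionsOf D).mkQ) ∧
      (Module.finrank K ↥((repartitionsOf D').map (repartitionsOf D).mkQ) : ℤ) =
        Divisor.degree D' - Divisor.degree D := by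
  obtain ⟨h1, h2⟩ := finrank_of_relrank_eq (relrank_repartitionsOf H h)
  refine ⟨h1, ?_⟩
  rw [h2, Int.toNat_of_nonneg]
  have := degree_mono H h
  omega

/-- **(C3)**, natural-number form: both `L(D') / L(D)` and `(A(D') + F) / (A(D) + F)` are
finite-dimensional and their dimensions add up to `deg D' - deg D`. -/
theorem finrank_L_add_finrank_sup (H : WeakFF K F) [Nonempty (Place K F)] {D D' : Divisor K F}
    (h : D ≤ D') :
    Module.Finite K ↥((riemannRochSpace D').map (riemannRochSpace D).mkQ) ∧
    Module.Finite K ↥((repartitionsOf D' ⊔ principalRepartitions K F).map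
      (repartitionsOf D ⊔ principalRepartitions K F).mkQ) ∧
    (Module.finrank K ↥((riemannRochSpace D').map (riemannRochSpace D).mkQ) : ℤ) +
      Module.finrank K ↥((repartitionsOf D' ⊔ principalRepartitions K F).map
        (repartitionsOf D ⊔ principalRepartitions K F).mkQ) =
      Divisor.degree D' - Divisor.degree D := by
  obtain ⟨a, b, ha, hb, hab⟩ := exists_nat_of_add_eq (relrank_L_add_relrank_sup H h)
  obtain ⟨ha1, ha2⟩ := finrank_of_relrank_eq ha
  obtain ⟨hb1, hb2⟩ := finrank_of_relrank_eq hb
  refine ⟨ha1, hb1, ?_⟩
  rw [ha2, hb2]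
  have h0 := degree_mono H h
  have : ((a + b : ℕ) : ℤ) = ((Divisor.degree D' - Divisor.degree D).toNat : ℤ) := by
    rw [hab]
  rw [Int.toNat_of_nonneg (by omega)] at this
  push_cast at this
  exact this

end Nat

end Fermat.Agent.M1.Link.AdelesWeak54
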