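/-
Program M1 (S44, row 38), chapter LINK, brick K OLDTR (P1), degree half — helper34.

`κ` a field of characteristic `ℓ`, `κ(M) = modularFunctionFieldFullC κ M = κ(j̃(q^d) : d ∣ M)` the
"function field of `X₀(M)` over `κ`" inside `κ((q))`.  For `N ∣ M`, `ℓ ∤ M`:

* `psi_mul_relfinrank_fullC` : `ψ(N) · [κ(M) : κ(N)] = ψ(M)` — the residue degree equals the
  generic degree (twin of `RED/LVL/LevelDegree17.psi_mul_relfinrank` in characteristic `ℓ`);
* `relfinrank_fullC_eq_relfinrank_fbar` : `[κ(M) : κ(N)] = [F̄_M : F̄_N]`;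
* the `Algebra` form (`algebraInclC`, `finrank_algebraInclC`, `finiteDimensional_algebraInclC`);
* `exists_basis_fullC` : a `κ(N)`-basis of `κ(M)` indexed by `Fin d`, `d = [F̄_M : F̄_N]`, in the shape
  of the hypothesis `hx` of `TraceInt74.exists_mul_trace` (linear independence in `κ((q))` for the
  subtype algebra structure of `κ(N)`).
-/
import Mathlib
import Fermat.Agent.RED.PUR.DegBaseChange25
import Fermat.Agent.RED.LVL.LevelDegree17

set_option autoImplicit false

noncomputable section

open HahnSeries ModularCurve IntermediateField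

namespace Fermat.Agent.M1.Link.ResDegree34

open Fermat.Agent.RED.PUR.DegBaseChange25

variable (ℓ : ℕ) [Fact ℓ.Prime] (κ : Type) [Field κ] [CharP κ ℓ]

/-- `κ(j̃) ≤ κ(M)`. -/
theorem simple_le_fullC (M : ℕ) [NeZero M] : κ⟮jqModC κ⟯ ≤ modularFunctionFieldFullC κ M :=
  adjoin_simple_le_iff.mpr (jqModC_mem_full κ M)

/-- **`ψ(N) · [κ(M) : κ(N)] = ψ(M)`** for `N ∣ M`, `ℓ ∤ M`. -/
theorem psi_mul_relfinrank_fullC {N M : ℕ} [NeZero N] [NeZero M] (h : N ∣ M) (hℓM : ¬ ℓ ∣ M) :
    dedekindPsi N * relfinrank (modularFunctionFieldFullC κ N) (modularFunctionFieldFullC κ M) =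
      dedekindPsi M := by
  have hℓN : ¬ ℓ ∣ N := fun hd => hℓM (hd.trans h)
  rw [← relfinrank_fullC_eq_psi_of_charP ℓ κ N hℓN, ← relfinrank_fullC_eq_psi_of_charP ℓ κ M hℓM]
  exact relfinrank_mul_relfinrank (simple_le_fullC κ N) (full_degeneracyC_le κ h)

theorem relfinrank_fullC_pos {N M : ℕ} [NeZero N] [NeZero M] (h : N ∣ M) (hℓM : ¬ ℓ ∣ M) :
    0 < relfinrank (modularFunctionFieldFullC κ N) (modularFunctionFieldFullC κ M) := by
  have h1 := psi_mul_relfinrank_fullC ℓ κ h hℓM
  have h2 : 0 < dedekindPsi M := Fermat.Agent.X0.GNPsi.gnp_dedekindPsi_pos (NeZero.ne M)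
  rcases Nat.eq_zero_or_pos
    (relfinrank (modularFunctionFieldFullC κ N) (modularFunctionFieldFullC κ M)) with h0 | h0
  · rw [h0, mul_zero] at h1; omega
  · exact h0

/-- **residue degree = generic degree.** -/
theorem relfinrank_fullC_eq_relfinrank_fbar {N M : ℕ} [NeZero N] [NeZero M] (h : N ∣ M)
    (hℓM : ¬ ℓ ∣ M) :
    relfinrank (modularFunctionFieldFullC κ N) (modularFunctionFieldFullC κ M) =
      relfinrank (Fermat.Agent.RED.Interface4.Fbar N) (Fermat.Agent.RED.Interface4.Fbar M) := by
  have h1 := psi_mul_relfinrank_fullC ℓ κ h hℓM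
  have h2 := Fermat.Agent.RED.LVL.LevelDegree17.psi_mul_relfinrank h
  have h3 : 0 < dedekindPsi N := Fermat.Agent.X0.GNPsi.gnp_dedekindPsi_pos (NeZero.ne N)
  exact Nat.eq_of_mul_eq_mul_left h3 (h1.trans h2.symm)

section AlgebraForm

variable {N M : ℕ} [NeZero N] [NeZero M]

theorem finrank_extendScalarsC (h : N ∣ M) :
    Module.finrank (modularFunctionFieldFullC κ N) (extendScalars (full_degeneracyC_le κ h)) =
      relfinrank (modularFunctionFieldFullC κ N) (modularFunctionFieldFullC κ M) :=
  (relfinrank_eq_finrank_of_le (full_degeneracyC_le κ h)).symm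

/-- The algebra structure `κ(N) → κ(M)` given by the inclusion. -/
abbrev algebraInclC (h : N ∣ M) :
    Algebra (modularFunctionFieldFullC κ N) (modularFunctionFieldFullC κ M) :=
  (inclusion (full_degeneracyC_le κ h)).toRingHom.toAlgebra

theorem finrank_algebraInclC (h : N ∣ M) :
    @Module.finrank (modularFunctionFieldFullC κ N) (modularFunctionFieldFullC κ M) _ _
      (algebraInclC κ h).toModule =
      relfinrank (modularFunctionFieldFullC κ N) (modularFunctionFieldFullC κ M) :=
  finrank_extendScalarsC κ h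

theorem finiteDimensional_extendScalarsC (h : N ∣ M) (hℓM : ¬ ℓ ∣ M) :
    FiniteDimensional (modularFunctionFieldFullC κ N)
      (extendScalars (full_degeneracyC_le κ h)) :=
  FiniteDimensional.of_finrank_pos (by
    rw [finrank_extendScalarsC κ h]; exact relfinrank_fullC_pos ℓ κ h hℓM)

/-- **A `κ(N)`-basis of `κ(M)` of the generic size**, as a family of Laurent series: `d` elements
of `κ(M)`, linearly independent over `κ(N)` in `κ((q))`, `d = [F̄_M : F̄_N]`. -/
theorem exists_basis_fullC (h : N ∣ M) (hℓM : ¬ ℓ ∣ M) {d : ℕ}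
    (hd : relfinrank (Fermat.Agent.RED.Interface4.Fbar N) (Fermat.Agent.RED.Interface4.Fbar M) = d) :
    ∃ x : Fin d → LaurentSeries κ, (∀ i, x i ∈ modularFunctionFieldFullC κ M) ∧
      LinearIndependent ↥(modularFunctionFieldFullC κ N) x := by
  have := finiteDimensional_extendScalarsC ℓ κ h hℓM
  have hfr : Module.finrank (modularFunctionFieldFullC κ N)
      (extendScalars (full_degeneracyC_le κ h)) = d := by
    rw [finrank_extendScalarsC κ h, relfinrank_fullC_eq_relfinrank_fbar ℓ κ h hℓM, hd]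
  let b := Module.finBasisOfFinrankEq (modularFunctionFieldFullC κ N)
    (extendScalars (full_degeneracyC_le κ h)) hfr
  refine ⟨fun i => ((b i : extendScalars (full_degeneracyC_le κ h)) : LaurentSeries κ),
    fun i => (b i).2, ?_⟩
  have hli := b.linearIndependent
  exact hli.map' (extendScalars (full_degeneracyC_le κ h)).val.toLinearMap
    (LinearMap.ker_eq_bot.mpr (extendScalars (full_degeneracyC_le κ h)).val.injective)

end AlgebraForm

end Fermat.Agent.M1.Link.ResDegree34
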