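/-
Program M1 (S44, row 38), chapter LINK, brick K OLDTR (P1), MONOMIAL BASIS — helper34.

`κ(M) = κ(N)[j̃(q^e) : e ∣ M]` as a RING (the extension is algebraic), so `κ(M)` has a `κ(N)`-basis
consisting of MONOMIALS in the `j̃(q^e)`, `e ∣ M` — which are reductions of the monomials in
`j(q^e) ∈ ℤ((q))`, hence liftable to `F̄_M ∩ A((q))`.

* `exists_linearIndependent_subset_of_span` (Mathlib-level): from a spanning set of a
  finite-dimensional space, a basis indexed by `Fin (finrank)` with members in the set;
* `span_closure_eq_fullC` : the `κ(N)`-span of the monomials is `κ(M)`;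
* `exists_monomial_basis` : `d = [F̄_M : F̄_N]` monomials, linearly independent over `κ(N)`.
-/
import Mathlib
import Fermat.Agent.M1.Link.ResDegree34

set_option autoImplicit false

noncomputable section

open HahnSeries ModularCurve IntermediateField

namespace Fermat.Agent.M1.Link.ResBasis34

open Fermat.Agent.M1.Link.ResDegree34

/-- From a spanning set of a finite-dimensional vector space one can extract a basis, indexed by
`Fin d`, `d` the dimension. -/
theorem exists_linearIndependent_subset_of_span {E V : Type*} [Field E] [AddCommGroup V]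
    [Module E V] [FiniteDimensional E V] (T : Set V) (hT : Submodule.span E T = ⊤) {d : ℕ}
    (hd : Module.finrank E V = d) :
    ∃ x : Fin d → V, (∀ i, x i ∈ T) ∧ LinearIndependent E x := by
  classical
  obtain ⟨b, hbT, hspan, hli⟩ := exists_linearIndependent E T
  rw [hT] at hspan
  let B : Module.Basis b E V := Module.Basis.mk hli (by
    rw [Subtype.range_coe_subtype, Set.ofPred_mem_eq, hspan])
  have : Fintype b := FiniteDimensional.fintypeBasisIndex B
  have hcard : Fintype.card b = d := by
    rw [← hd, Module.finrank_eq_card_basis B]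
  let e : Fin d ≃ b := (Fintype.equivFinOfCardEq hcard).symm
  refine ⟨fun i => ((e i : b) : V), fun i => hbT (e i).2, ?_⟩
  exact hli.comp e e.injective

variable (ℓ : ℕ) [Fact ℓ.Prime] (κ : Type) [Field κ] [CharP κ ℓ]

/-- **A monomial basis**: `d = [F̄_M : F̄_N]` products of the generators `j̃(q^e)`, `e ∣ M`, linearly
independent over `κ(N)` in `κ((q))`. -/
theorem exists_monomial_basis {N M : ℕ} [NeZero N] [NeZero M] (h : N ∣ M) (hℓM : ¬ ℓ ∣ M) {d : ℕ}
    (hd : relfinrank (Fermat.Agent.RED.Interface4.Fbar N) (Fermat.Agent.RED.Interface4.Fbar M) = d) :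
    ∃ x : Fin d → LaurentSeries κ,
      (∀ i, x i ∈ Submonoid.closure (divisorExpansionsC κ M)) ∧
      LinearIndependent ↥(modularFunctionFieldFullC κ N) x := by
  classical
  set E := modularFunctionFieldFullC κ N with hE
  set F := extendScalars (full_degeneracyC_le κ h) with hF
  have : FiniteDimensional E F := finiteDimensional_extendScalarsC ℓ κ h hℓM
  have hfr : Module.finrank E F = d := by
    rw [finrank_extendScalarsC κ h, relfinrank_fullC_eq_relfinrank_fbar ℓ κ h hℓM, hd]
  -- the generators lie in `F` and are algebraic over `E`
  have hSF : divisorExpansionsC κ M ⊆ (F : Set (LaurentSeries κ)) := by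
    intro s hs
    show s ∈ modularFunctionFieldFullC κ M
    exact IntermediateField.subset_adjoin κ _ hs
  have halg : ∀ s ∈ divisorExpansionsC κ M, IsAlgebraic E s := by
    intro s hs
    have h1 : IsAlgebraic E (⟨s, hSF hs⟩ : F) := Algebra.IsAlgebraic.isAlgebraic _
    exact (isAlgebraic_iff (S := F)).mp h1
  -- `F = E(S)` as intermediate fields over `E`, hence `= E[S]`
  have hadj : IntermediateField.adjoin E (divisorExpansionsC κ M) = F := by
    apply le_antisymm
    · rw [IntermediateField.adjoin_le_iff]; exact hSF
    · intro y hy
      have hy' : y ∈ modularFunctionFieldFullC κ M := hy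
      have hle : modularFunctionFieldFullC κ M ≤
          (IntermediateField.adjoin E (divisorExpansionsC κ M)).restrictScalars κ := by
        rw [modularFunctionFieldFullC, IntermediateField.adjoin_le_iff]
        intro s hs
        exact IntermediateField.subset_adjoin E _ hs
      exact hle hy'
  have hsub : F.toSubalgebra = Algebra.adjoin E (divisorExpansionsC κ M) := by
    rw [← hadj]
    exact IntermediateField.adjoin_toSubalgebra_of_isAlgebraic halg
  -- the monomials, as elements of `F`
  let T : Set F := {y | (y : LaurentSeries κ) ∈ Submonoid.closure (divisorExpansionsC κ M)}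
  have hmem : ∀ z : LaurentSeries κ, z ∈ Submodule.span E
      ((Submonoid.closure (divisorExpansionsC κ M) : Submonoid (LaurentSeries κ)) :
        Set (LaurentSeries κ)) ↔ z ∈ F := by
    intro z
    rw [← Algebra.adjoin_eq_span, Subalgebra.mem_toSubmodule, ← hsub]
    exact Iff.rfl
  have hT : Submodule.span E T = ⊤ := by
    rw [eq_top_iff]
    rintro ⟨y, hy⟩ -
    have hy' := (hmem y).mpr hy
    -- transport the span membership into `F`
    have key : ∀ z ∈ Submodule.span E
        ((Submonoid.closure (divisorExpansionsC κ M) : Submonoid (LaurentSeries κ)) :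
          Set (LaurentSeries κ)), ∀ hz : z ∈ F, (⟨z, hz⟩ : F) ∈ Submodule.span E T := by
      intro z hz
      induction hz using Submodule.span_induction with
      | mem z hz => intro hzF; exact Submodule.subset_span hz
      | zero => intro _; exact Submodule.zero_mem _
      | add z w hz hw ihz ihw =>
        intro hzw
        have hzF : z ∈ F := (hmem z).mp hz
        have hwF : w ∈ F := (hmem w).mp hw
        have : (⟨z + w, hzw⟩ : F) = ⟨z, hzF⟩ + ⟨w, hwF⟩ := rfl
        rw [this]
        exact Submodule.add_mem _ (ihz hzF) (ihw hwF)
      | smul a z hz ihz =>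
        intro haz
        have hzF : z ∈ F := (hmem z).mp hz
        have : (⟨a • z, haz⟩ : F) = a • (⟨z, hzF⟩ : F) := rfl
        rw [this]
        exact Submodule.smul_mem _ a (ihz hzF)
    exact key y hy' hy
  obtain ⟨x, hxT, hli⟩ := exists_linearIndependent_subset_of_span T hT hfr
  refine ⟨fun i => ((x i : F) : LaurentSeries κ), fun i => hxT i, ?_⟩
  exact hli.map' F.val.toLinearMap (LinearMap.ker_eq_bot.mpr F.val.injective)

end Fermat.Agent.M1.Link.ResBasis34
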