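/-
Program M1 (S44, row 38), chapter LINK, brick K OLDTR (P1), BASIS-LIFT — helper34.

`A` a valuation subring of `ℚ̄` whose residue field `k` has characteristic `ℓ`, `N ∣ M`, `ℓ ∤ M`,
`d = [F̄_M : F̄_N]` (equivalently `ψ(N) · d = ψ(M)`).  Then there are `d` elements of
`F̄_M ∩ A((q))` whose coefficientwise reductions are linearly independent over `κ(N) = k(j̃(q^e) : e ∣ N)`.
This is the hypothesis `x`, `hx` of `TraceInt74.exists_mul_trace` (with `κ' := κ(N)`).

Proof: `ResBasis34.exists_monomial_basis` gives a `κ(N)`-independent family of `d` MONOMIALS in the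
generators `j̃(q^e)`, `e ∣ M`, of `κ(M)`; each generator is the reduction of `j(q^e) ∈ ℤ((q)) ⊆ A((q))`,
and reduction is multiplicative, so every monomial lifts to a monomial of `F̄_M ∩ A((q))`.
-/
import Mathlib
import Fermat.Agent.M1.Link.ResBasis34
import Fermat.Agent.ES.RED.Setup8

set_option autoImplicit false

noncomputable section

open HahnSeries ModularCurve IntermediateField

namespace Fermat.Agent.M1.Link.BasisLift34

open Fermat.Agent.ES.RED.Setup8 Fermat.Agent.RED.Interface4

section Lift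

variable {L : Type*} [Field L] (A : ValuationSubring L)

/-- Every generator `j̃(q^e)`, `e ∣ M`, of `κ(M)` is the reduction of an `A`-series whose image in
`L((q))` is the generator `j(q^e)` of `L(M)`. -/
theorem exists_lift_generator (M : ℕ) (x : LaurentSeries (kA A))
    (hx : x ∈ divisorExpansionsC (kA A) M) :
    ∃ Y : LaurentSeries ↥A, coeffMap A.subtype Y ∈ divisorExpansionsC L M ∧
      coeffMap (resA A) Y = x := by
  obtain ⟨e, he, heM, rfl⟩ := hx
  refine ⟨qExpand ↥A e (jqModC ↥A), ⟨e, he, heM, ?_⟩, ?_⟩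
  · rw [coeffMap_qExpand, coeffMap_jqModC]
  · rw [coeffMap_qExpand, coeffMap_jqModC]

/-- Every monomial in the generators of `κ(M)` is the reduction of an `A`-series whose image in
`L((q))` is a monomial in the generators of `L(M)`. -/
theorem exists_lift_monomial (M : ℕ) (x : LaurentSeries (kA A))
    (hx : x ∈ Submonoid.closure (divisorExpansionsC (kA A) M)) :
    ∃ Y : LaurentSeries ↥A, coeffMap A.subtype Y ∈ Submonoid.closure (divisorExpansionsC L M) ∧
      coeffMap (resA A) Y = x := by
  induction hx using Submonoid.closure_induction with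
  | mem x hx =>
    obtain ⟨Y, hY, hYx⟩ := exists_lift_generator A M x hx
    exact ⟨Y, Submonoid.subset_closure hY, hYx⟩
  | one => exact ⟨1, by rw [map_one]; exact one_mem _, map_one _⟩
  | mul x y _ _ ihx ihy =>
    obtain ⟨Y, hY, hYx⟩ := ihx
    obtain ⟨Z, hZ, hZy⟩ := ihy
    exact ⟨Y * Z, by rw [map_mul]; exact mul_mem hY hZ, by rw [map_mul, hYx, hZy]⟩

/-- monomials in the generators lie in the field they generate. -/
theorem closure_le_fullC (M : ℕ) [NeZero M] (y : LaurentSeries L)
    (hy : y ∈ Submonoid.closure (divisorExpansionsC L M)) : y ∈ modularFunctionFieldFullC L M := by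
  have hle : Submonoid.closure (divisorExpansionsC L M) ≤
      (modularFunctionFieldFullC L M).toSubalgebra.toSubmonoid :=
    Submonoid.closure_le.mpr fun s hs => IntermediateField.subset_adjoin L _ hs
  exact hle hy

end Lift

variable (ℓ : ℕ) [Fact ℓ.Prime] (A : ValuationSubring Qbar) [CharP (kA A) ℓ]

/-- **BASIS-LIFT**, degree as `[F̄_M : F̄_N]`: `d` elements of `F̄_M ∩ A((q))` with `κ(N)`-independent
reductions. -/
theorem exists_basis_lift {N M : ℕ} [NeZero N] [NeZero M] (h : N ∣ M) (hℓM : ¬ ℓ ∣ M) {d : ℕ}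
    (hd : relfinrank (Fbar N) (Fbar M) = d) :
    ∃ x : Fin d → ↥(gaussA A (Fbar M)),
      LinearIndependent ↥(modularFunctionFieldFullC (kA A) N) (fun i => redA A (Fbar M) (x i)) := by
  obtain ⟨m, hm, hli⟩ := ResBasis34.exists_monomial_basis ℓ (kA A) h hℓM hd
  have hlift : ∀ i, ∃ Y : LaurentSeries ↥A,
      coeffMap A.subtype Y ∈ Submonoid.closure (divisorExpansionsC Qbar M) ∧
      coeffMap (resA A) Y = m i := fun i => exists_lift_monomial A M (m i) (hm i)
  choose Y hY hYm using hlift
  have hYF : ∀ i, coeffMap A.subtype (Y i) ∈ Fbar M := by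
    intro i
    have h1 := closure_le_fullC M _ (hY i)
    have h2 : Fbar M = modularFunctionFieldFullC Qbar M :=
      Fermat.Agent.RED.PUR.DegBaseChange25.laurentBaseChange_full_eq Qbar M
    rw [h2]
    exact h1
  refine ⟨fun i => ofSeries A (Fbar M) (Y i) (hYF i), ?_⟩
  have heq : (fun i => redA A (Fbar M) (ofSeries A (Fbar M) (Y i) (hYF i))) = m := by
    funext i
    rw [redA_ofSeries, hYm i]
  rw [heq]
  exact hli

/-- **BASIS-LIFT**, degree given by `ψ(N) · d = ψ(M)`. -/
theorem exists_basis_lift_psi {N M : ℕ} [NeZero N] [NeZero M] (h : N ∣ M) (hℓM : ¬ ℓ ∣ M) {d : ℕ}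
    (hd : dedekindPsi N * d = dedekindPsi M) :
    ∃ x : Fin d → ↥(gaussA A (Fbar M)),
      LinearIndependent ↥(modularFunctionFieldFullC (kA A) N) (fun i => redA A (Fbar M) (x i)) := by
  have h2 := Fermat.Agent.RED.LVL.LevelDegree17.psi_mul_relfinrank h
  have h3 : 0 < dedekindPsi N := Fermat.Agent.X0.GNPsi.gnp_dedekindPsi_pos (NeZero.ne N)
  exact exists_basis_lift ℓ A h hℓM (Nat.eq_of_mul_eq_mul_left h3 (h2.trans hd.symm))

/-- the members of the lifted basis can moreover be taken to be monomials in the `j(q^e)`, `e ∣ M`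
(full form, for consumers that need more than linear independence). -/
theorem exists_basis_lift_monomial {N M : ℕ} [NeZero N] [NeZero M] (h : N ∣ M) (hℓM : ¬ ℓ ∣ M)
    {d : ℕ} (hd : dedekindPsi N * d = dedekindPsi M) :
    ∃ Y : Fin d → LaurentSeries ↥A,
      (∀ i, coeffMap A.subtype (Y i) ∈ Submonoid.closure (divisorExpansionsC Qbar M)) ∧
      (∀ i, coeffMap A.subtype (Y i) ∈ Fbar M) ∧
      (∀ i, coeffMap (resA A) (Y i) ∈ modularFunctionFieldFullC (kA A) M) ∧
      LinearIndependent ↥(modularFunctionFieldFullC (kA A) N)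
        (fun i => coeffMap (resA A) (Y i)) := by
  have h2 := Fermat.Agent.RED.LVL.LevelDegree17.psi_mul_relfinrank h
  have h3 : 0 < dedekindPsi N := Fermat.Agent.X0.GNPsi.gnp_dedekindPsi_pos (NeZero.ne N)
  have hd' : relfinrank (Fbar N) (Fbar M) = d := Nat.eq_of_mul_eq_mul_left h3 (h2.trans hd.symm)
  obtain ⟨m, hm, hli⟩ := ResBasis34.exists_monomial_basis ℓ (kA A) h hℓM hd'
  have hlift : ∀ i, ∃ Y : LaurentSeries ↥A,
      coeffMap A.subtype Y ∈ Submonoid.closure (divisorExpansionsC Qbar M) ∧
      coeffMap (resA A) Y = m i := fun i => exists_lift_monomial A M (m i) (hm i)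
  choose Y hY hYm using hlift
  refine ⟨Y, hY, ?_, ?_, ?_⟩
  · intro i
    have h1 := closure_le_fullC M _ (hY i)
    have h2 : Fbar M = modularFunctionFieldFullC Qbar M :=
      Fermat.Agent.RED.PUR.DegBaseChange25.laurentBaseChange_full_eq Qbar M
    rw [h2]
    exact h1
  · intro i
    rw [hYm i]
    exact closure_le_fullC M _ (hm i)
  · have heq : (fun i => coeffMap (resA A) (Y i)) = m := funext hYm
    rw [heq]
    exact hli

end Fermat.Agent.M1.Link.BasisLift34
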