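/-
M1 (S44), chapter LINK, brick K OLDTR part (b), abstract form (helper74).
Mathlib + `ES/RED/Setup8` (`gaussA`, `redA`).

`L` a field with a valuation subring `A` (residue field `k`), `F' ≤ F''` subfields of `L((q))` with
`[F'' : F'] = d`.  `G = gaussA A F = F ∩ A((q))` is NOT a valuation ring of `F` (it only sees the
residue disc of `∞`), but if every element of `F'` is a fraction `c · a / b` of elements of `G'` of
nonzero reduction (`HasFrac`), the usual valuation-theoretic argument goes through in FRACTION form: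

* `exists_scale` : a finite family of `F'`, not all zero, can be scaled into `G'` with one member of
  nonzero reduction;
* `linearIndependent_of_red` : elements of `G''` with `κ'`-independent reductions are `F'`-independent;
* `exists_mul_trace` : if `x₁ … x_d ∈ G''` have `κ'`-independent reductions (`κ' ⊇ red G'` a field) and
  `y ∈ G''` has reduction in `κ'`, then `C · Tr_{F''/F'} y ∈ G'` and
  `red (C · Tr y) = d · red C · red y` for some `C ∈ G'` of nonzero reduction
  ("the trace lies in the Gauss valuation ring and reduces to `d · ȳ`").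
-/
import Mathlib
import Fermat.Agent.ES.RED.Setup8

set_option autoImplicit false
set_option linter.style.haveILetI false

noncomputable section

open HahnSeries ModularCurve

namespace Fermat.Agent.M1.Link.TraceInt74

open Fermat.Agent.ES.RED.Setup8

/-- a vanishing combination with coefficients in the image of `κ'` has zero coefficients. -/
theorem eq_zero_of_sum_mul_eq_zero {κ' R : Type*} [Field κ'] [CommRing R] [Algebra κ' R]
    {ι : Type*} [Fintype ι]
    {xb : ι → R} (hx : LinearIndependent κ' xb) (c : ι → R)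
    (hc : ∀ j, c j ∈ (algebraMap κ' R).range) (h : ∑ j, c j * xb j = 0) : ∀ j, c j = 0 := by
  choose r hr using hc
  have h1 : ∑ j, r j • xb j = 0 := by
    rw [← h]
    refine Finset.sum_congr rfl fun j _ => ?_
    rw [Algebra.smul_def, hr j]
  have h2 := Fintype.linearIndependent_iff.mp hx r h1
  intro j
  rw [← hr j, h2 j, map_zero]

theorem sum_const_fin {R : Type*} [Semiring R] (d : ℕ) (z : R) :
    ∑ _i : Fin d, z = (d : R) * z := by
  rw [Finset.sum_const, Finset.card_univ, Fintype.card_fin, nsmul_eq_mul]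

variable {L : Type*} [Field L] (A : ValuationSubring L)

/-- Every nonzero element of `F` is `c · a / b` with `c ∈ Lˣ` and `a, b ∈ F ∩ A((q))` of nonzero
reduction. -/
def HasFrac (F : IntermediateField L (LaurentSeries L)) : Prop :=
  ∀ f : ↥F, f ≠ 0 → ∃ (c : L) (ya yb : ↥(gaussA A F)), c ≠ 0 ∧ redA A F ya ≠ 0 ∧
    redA A F yb ≠ 0 ∧ f * (yb : ↥F) = algebraMap L ↥F c * (ya : ↥F)

section Scale

variable {A} {F : IntermediateField L (LaurentSeries L)}

/-- constants of `A` as Gauss-integral elements. -/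
def constG (F : IntermediateField L (LaurentSeries L)) (a : ↥A) : ↥(gaussA A F) :=
  ⟨algebraMap L ↥F (a : L), algebraMap_mem_gaussA A F a⟩

theorem redA_constG (a : ↥A) :
    redA A F (constG F a) = algebraMap (kA A) (LaurentSeries (kA A)) (resA A a) :=
  redA_algebraMap A F a

theorem redA_constG_one : redA A F (constG F 1) = 1 := by
  rw [redA_constG, map_one, map_one]

/-- **Scaling**: a finite family of `F`, not all zero, can be multiplied into `F ∩ A((q))` so that
one member has nonzero reduction. -/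
theorem exists_scale (hF : HasFrac A F) {ι : Type*} [Fintype ι] (a : ι → ↥F)
    (ha : ∃ j, a j ≠ 0) :
    ∃ (s : ↥F) (g : ι → ↥(gaussA A F)), (∀ i, ((g i : ↥(gaussA A F)) : ↥F) = s * a i) ∧
      ∃ j, redA A F (g j) ≠ 0 := by
  classical
  have hspec : ∀ i, ∃ (c : L) (ya yb : ↥(gaussA A F)), redA A F ya ≠ 0 ∧ redA A F yb ≠ 0 ∧
      a i * (yb : ↥F) = algebraMap L ↥F c * (ya : ↥F) ∧ (a i ≠ 0 → c ≠ 0) := by
    intro i
    by_cases hi : a i = 0
    · refine ⟨0, 1, 1, ?_, ?_, ?_, fun h => absurd hi h⟩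
      · rw [map_one]; exact one_ne_zero
      · rw [map_one]; exact one_ne_zero
      · rw [hi, map_zero, zero_mul]
    · obtain ⟨c, ya, yb, hc, hya, hyb, h⟩ := hF (a i) hi
      exact ⟨c, ya, yb, hya, hyb, h, fun _ => hc⟩
  choose c ya yb hya hyb hrel hc using hspec
  obtain ⟨j, hj⟩ := ha
  obtain ⟨m, -, hm⟩ := Finset.exists_max_image Finset.univ (fun i => A.valuation (c i))
    ⟨j, Finset.mem_univ j⟩
  have hcm : c m ≠ 0 := by
    intro h0
    have h1 := hm j (Finset.mem_univ j)
    rw [h0, map_zero] at h1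
    exact (hc j hj) ((Valuation.zero_iff _).mp (le_antisymm h1 zero_le))
  have hmemA : ∀ i, c i * (c m)⁻¹ ∈ A := by
    intro i
    rw [← A.valuation_le_one_iff, map_mul, map_inv₀]
    have h0 : 0 < A.valuation (c m) := zero_lt_iff.mpr ((Valuation.ne_zero_iff _).mpr hcm)
    rw [← div_eq_mul_inv, div_le_one₀ h0]
    exact hm i (Finset.mem_univ i)
  refine ⟨(∏ l, ((yb l : ↥(gaussA A F)) : ↥F)) * (algebraMap L ↥F (c m))⁻¹,
    fun i => (∏ l ∈ Finset.univ.erase i, yb l) * constG F ⟨c i * (c m)⁻¹, hmemA i⟩ * ya i,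
    ?_, m, ?_⟩
  · intro i
    have hcmF : algebraMap L ↥F (c m) ≠ 0 := by
      rw [Ne, map_eq_zero]; exact hcm
    have h1 : (∏ l, ((yb l : ↥(gaussA A F)) : ↥F)) =
        (∏ l ∈ Finset.univ.erase i, ((yb l : ↥(gaussA A F)) : ↥F)) * (yb i : ↥F) := by
      rw [Finset.prod_erase_mul _ _ (Finset.mem_univ i)]
    have h2 : algebraMap L ↥F (c i * (c m)⁻¹) =
        algebraMap L ↥F (c i) * (algebraMap L ↥F (c m))⁻¹ := by
      rw [map_mul, map_inv₀]
    show (((∏ l ∈ Finset.univ.erase i, yb l) * constG F ⟨c i * (c m)⁻¹, hmemA i⟩ * ya i :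
      ↥(gaussA A F)) : ↥F) = _
    push_cast
    show (∏ l ∈ Finset.univ.erase i, ((yb l : ↥(gaussA A F)) : ↥F)) *
      algebraMap L ↥F (c i * (c m)⁻¹) * (ya i : ↥F) = _
    rw [h1, h2]
    have h3 := hrel i
    calc (∏ l ∈ Finset.univ.erase i, ((yb l : ↥(gaussA A F)) : ↥F)) *
          (algebraMap L ↥F (c i) * (algebraMap L ↥F (c m))⁻¹) * (ya i : ↥F)
        = (∏ l ∈ Finset.univ.erase i, ((yb l : ↥(gaussA A F)) : ↥F)) *
          (algebraMap L ↥F (c i) * (ya i : ↥F)) * (algebraMap L ↥F (c m))⁻¹ := by ring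
      _ = (∏ l ∈ Finset.univ.erase i, ((yb l : ↥(gaussA A F)) : ↥F)) *
          (a i * (yb i : ↥F)) * (algebraMap L ↥F (c m))⁻¹ := by rw [h3]
      _ = _ := by ring
  · rw [map_mul, map_mul, map_prod]
    have hone : (⟨c m * (c m)⁻¹, hmemA m⟩ : ↥A) = 1 := by
      apply Subtype.ext
      show c m * (c m)⁻¹ = 1
      exact mul_inv_cancel₀ hcm
    rw [hone, redA_constG_one, mul_one]
    refine mul_ne_zero ?_ (hya m)
    exact Finset.prod_ne_zero_iff.mpr fun l _ => hyb l

end Scale


section Main

variable (F' F'' : IntermediateField L (LaurentSeries L)) [Algebra ↥F' ↥F'']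
  (hcompat : ∀ a : ↥F', ((algebraMap ↥F' ↥F'' a : ↥F'') : LaurentSeries L) = (a : LaurentSeries L))

include hcompat in
theorem algebraMap_mem_gaussA_of_mem (g : ↥(gaussA A F')) :
    algebraMap ↥F' ↥F'' (g : ↥F') ∈ gaussA A F'' := by
  obtain ⟨Y, hY⟩ := g.2
  exact ⟨Y, by rw [hcompat]; exact hY⟩

/-- the inclusion `F' ∩ A((q)) → F'' ∩ A((q))`. -/
def inclG (g : ↥(gaussA A F')) : ↥(gaussA A F'') :=
  ⟨algebraMap ↥F' ↥F'' (g : ↥F'), algebraMap_mem_gaussA_of_mem A F' F'' hcompat g⟩

theorem redA_inclG (g : ↥(gaussA A F')) :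
    redA A F'' (inclG A F' F'' hcompat g) = redA A F' g := by
  rw [redA_eq A F'' _ (Y := liftA A F' g)]
  · rfl
  · show _ = ((algebraMap ↥F' ↥F'' (g : ↥F') : ↥F'') : LaurentSeries L)
    rw [hcompat]
    exact coeffMap_liftA A F' g

variable {κ' : Type*} [Field κ'] [Algebra κ' (LaurentSeries (kA A))]

variable {A F' F''}

include hcompat

/-- Elements of `F'' ∩ A((q))` whose reductions are independent over a field containing the
reductions of `F' ∩ A((q))` are independent over `F'`. -/
theorem linearIndependent_of_red (hF : HasFrac A F')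
    (hκ' : ∀ g : ↥(gaussA A F'), redA A F' g ∈ (algebraMap κ' (LaurentSeries (kA A))).range)
    {ι : Type*} [Fintype ι] (x : ι → ↥(gaussA A F''))
    (hx : LinearIndependent κ' (fun i => redA A F'' (x i))) :
    LinearIndependent ↥F' (fun i => ((x i : ↥(gaussA A F'')) : ↥F'')) := by
  rw [Fintype.linearIndependent_iff]
  intro a hsum
  by_contra hne
  push Not at hne
  obtain ⟨s, g, hg, j, hj⟩ := exists_scale hF a hne
  have key : ∑ i, inclG A F' F'' hcompat (g i) * x i = 0 := by
    apply Subtype.ext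
    push_cast
    show ∑ i, algebraMap ↥F' ↥F'' ((g i : ↥(gaussA A F')) : ↥F') * ((x i : ↥(gaussA A F'')) : ↥F'')
      = 0
    have : ∀ i, algebraMap ↥F' ↥F'' ((g i : ↥(gaussA A F')) : ↥F') *
        ((x i : ↥(gaussA A F'')) : ↥F'') =
        algebraMap ↥F' ↥F'' s * (a i • ((x i : ↥(gaussA A F'')) : ↥F'')) := by
      intro i
      rw [hg i, map_mul, Algebra.smul_def, mul_assoc]
    rw [Finset.sum_congr rfl fun i _ => this i, ← Finset.mul_sum, hsum, mul_zero]
  have key2 := congrArg (redA A F'') key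
  rw [map_sum, map_zero] at key2
  simp only [map_mul, redA_inclG] at key2
  exact hj (eq_zero_of_sum_mul_eq_zero hx (fun i => redA A F' (g i)) (fun i => hκ' (g i)) key2 j)

/-- **Trace versus reduction, fraction form.**  `x₁ … x_d ∈ F'' ∩ A((q))`, `d = [F'' : F']`, with
reductions independent over the field `κ' ⊇ red (F' ∩ A((q)))`; `y ∈ F'' ∩ A((q))` with `ȳ ∈ κ'`.
Then `C · Tr y ∈ F' ∩ A((q))` reduces to `d · C̄ · ȳ` for some `C ∈ F' ∩ A((q))`, `C̄ ≠ 0`. -/
theorem exists_mul_trace [FiniteDimensional ↥F' ↥F''] (hF : HasFrac A F')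
    (hκ' : ∀ g : ↥(gaussA A F'), redA A F' g ∈ (algebraMap κ' (LaurentSeries (kA A))).range)
    {d : ℕ} (hd : Module.finrank ↥F' ↥F'' = d)
    (x : Fin d → ↥(gaussA A F'')) (hx : LinearIndependent κ' (fun i => redA A F'' (x i)))
    (y : ↥(gaussA A F''))
    (hy : redA A F'' y ∈ (algebraMap κ' (LaurentSeries (kA A))).range) :
    ∃ C T : ↥(gaussA A F'), redA A F' C ≠ 0 ∧
      ((T : ↥(gaussA A F')) : ↥F') = (C : ↥F') * Algebra.trace ↥F' ↥F'' ((y : ↥(gaussA A F'')) : ↥F'') ∧
      redA A F' T = (d : LaurentSeries (kA A)) * redA A F' C * redA A F'' y := by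
  classical
  have hli := linearIndependent_of_red hcompat hF hκ' x hx
  have hdpos : 0 < d := hd ▸ Module.finrank_pos
  haveI : Nonempty (Fin d) := ⟨⟨0, hdpos⟩⟩
  let b : Module.Basis (Fin d) ↥F' ↥F'' :=
    basisOfLinearIndependentOfCardEqFinrank hli (by rw [Fintype.card_fin, hd])
  have hb : ∀ i, b i = ((x i : ↥(gaussA A F'')) : ↥F'') := fun i => by
    simp only [b, coe_basisOfLinearIndependentOfCardEqFinrank]
  -- the matrix coefficients
  set a : Fin d → Fin d → ↥F' := fun i j =>
    b.repr (((y : ↥(gaussA A F'')) : ↥F'') * ((x i : ↥(gaussA A F'')) : ↥F'')) j with ha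
  have hrow : ∀ i, ((y : ↥(gaussA A F'')) : ↥F'') * ((x i : ↥(gaussA A F'')) : ↥F'') =
      ∑ j, a i j • ((x j : ↥(gaussA A F'')) : ↥F'') := by
    intro i
    have := (b.sum_repr (((y : ↥(gaussA A F'')) : ↥F'') *
      ((x i : ↥(gaussA A F'')) : ↥F''))).symm
    rw [this]
    refine Finset.sum_congr rfl fun j _ => ?_
    rw [hb j]
  -- scale each row
  have hrowscale : ∀ i, ∃ (c t : ↥(gaussA A F')), redA A F' c ≠ 0 ∧
      ((t : ↥(gaussA A F')) : ↥F') = (c : ↥F') * a i i ∧
      redA A F' t = redA A F' c * redA A F'' y := by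
    intro i
    obtain ⟨s, g, hg, o, ho⟩ := exists_scale hF
      (fun o : Option (Fin d) => o.elim (1 : ↥F') (fun j => a i j)) ⟨none, one_ne_zero⟩
    have hgn : ((g none : ↥(gaussA A F')) : ↥F') = s := by
      rw [hg none]; exact mul_one s
    have hgs : ∀ j, ((g (some j) : ↥(gaussA A F')) : ↥F') = s * a i j := fun j => hg (some j)
    have key : inclG A F' F'' hcompat (g none) * y * x i =
        ∑ j, inclG A F' F'' hcompat (g (some j)) * x j := by
      apply Subtype.ext
      push_cast
      show algebraMap ↥F' ↥F'' ((g none : ↥(gaussA A F')) : ↥F') *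
          ((y : ↥(gaussA A F'')) : ↥F'') * ((x i : ↥(gaussA A F'')) : ↥F'') =
        ∑ j, algebraMap ↥F' ↥F'' ((g (some j) : ↥(gaussA A F')) : ↥F') *
          ((x j : ↥(gaussA A F'')) : ↥F'')
      rw [mul_assoc, hrow i, hgn, Finset.mul_sum]
      refine Finset.sum_congr rfl fun j _ => ?_
      rw [hgs j, map_mul, Algebra.smul_def, mul_assoc]
    have key2 := congrArg (redA A F'') key
    simp only [map_mul, map_sum, redA_inclG] at key2
    -- coefficients
    have hzero := eq_zero_of_sum_mul_eq_zero hx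
      (fun j => redA A F' (g (some j)) -
        if j = i then redA A F' (g none) * redA A F'' y else 0)
      (fun j => by
        refine sub_mem (hκ' _) ?_
        split_ifs
        · exact mul_mem (hκ' _) hy
        · exact zero_mem _)
      (by
        simp only [sub_mul, Finset.sum_sub_distrib, ite_mul, zero_mul, Finset.sum_ite_eq',
          Finset.mem_univ, if_true]
        rw [← key2]
        ring)
    have hne : redA A F' (g none) ≠ 0 := by
      intro h0
      apply ho
      cases o with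
      | none => exact h0
      | some j =>
        have := hzero j
        rw [h0, zero_mul] at this
        simpa using this
    refine ⟨g none, g (some i), hne, ?_, ?_⟩
    · rw [hgs i, hgn]
    · have := hzero i
      rw [if_pos rfl, sub_eq_zero] at this
      exact this
  choose c t hc ht htred using hrowscale
  -- the trace
  have htrace : Algebra.trace ↥F' ↥F'' ((y : ↥(gaussA A F'')) : ↥F'') = ∑ i, a i i := by
    rw [Algebra.trace_eq_matrix_trace b, Matrix.trace]
    refine Finset.sum_congr rfl fun i _ => ?_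
    rw [Matrix.diag_apply, Algebra.leftMulMatrix_eq_repr_mul, hb i]
  refine ⟨∏ i, c i, ∑ i, (∏ l ∈ Finset.univ.erase i, c l) * t i, ?_, ?_, ?_⟩
  · rw [map_prod]
    exact Finset.prod_ne_zero_iff.mpr fun i _ => hc i
  · push_cast
    rw [htrace, Finset.mul_sum]
    refine Finset.sum_congr rfl fun i _ => ?_
    rw [ht i, ← mul_assoc, Finset.prod_erase_mul _ _ (Finset.mem_univ i)]
  · rw [map_sum]
    have hterm : ∀ i ∈ (Finset.univ : Finset (Fin d)),
        redA A F' ((∏ l ∈ Finset.univ.erase i, c l) * t i) =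
        redA A F' (∏ l, c l) * redA A F'' y := by
      intro i _
      rw [map_mul, htred i, ← mul_assoc, ← map_mul,
        Finset.prod_erase_mul _ _ (Finset.mem_univ i)]
    rw [Finset.sum_congr rfl hterm, mul_assoc]
    exact sum_const_fin d _

end Main

end Fermat.Agent.M1.Link.TraceInt74
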