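/-
M1 / LINK (helper45): **the `q`-adic place** of a field of Laurent series.

For an intermediate field `E` of `K((q)) / K` containing an element of `q`-order `-1`, the `q`-order
restricted to `E` is a normalised discrete valuation: `qPlace E h : Place K E` with

* `ord_qPlace      : (qPlace E h).ord f = (f : K((q))).order`  (`f ≠ 0`),
* `mem_qPlace_iff  : f ∈ O ↔ 0 ≤ order f`,
* `qPlace_residue  : f ∈ O → f = c ∨ 0 < ord (f - c)` with `c = f.coeff 0`  (the residue field is `K`),
* `eq_qPlace_of_ord`: uniqueness.

Instances: `inftyC k M` on `modularFunctionFieldFullC k M` (every field `k`, every level) and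
`inftyL L F₀` on `laurentBaseChange L F₀` when `F₀` contains a series of order `-1`
(e.g. `modularFunctionFieldFull N ∋ j`).
-/
import Mathlib
import Fermat.Prelude.Def_ModularCurve_X0ModL
import Fermat.Prelude.Def_ModularCurve_LaurentCoeff
import Fermat.Agent.X0.LaurentPlace
import Fermat.Agent.ES.HECKE.FundIdentity19

set_option autoImplicit false

noncomputable section

open AlgebraicCurve HahnSeries ModularCurve

namespace Fermat.Agent.M1.Link.QPlace45

open Fermat.Agent.X0 Fermat.Agent.X0.LaurentPlace

variable {K : Type*} [Field K] (E : IntermediateField K (LaurentSeries K))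

/-- The inclusion `E → K((q))` as a ring homomorphism. -/
def incl : ↥E →+* LaurentSeries K := (E.val : ↥E →+* LaurentSeries K)

@[simp] theorem incl_apply (f : ↥E) : incl E f = (f : LaurentSeries K) := rfl

theorem incl_const (c : K) : incl E (algebraMap K ↥E c) = HahnSeries.C c := by
  show algebraMap K (LaurentSeries K) c = HahnSeries.C c
  rw [algebraMap_laurentSeries_eq_single]
  rfl

/-- `E` contains a series with a simple pole at `q = 0`. -/
def HasSimplePole : Prop := ∃ f : ↥E, (f : LaurentSeries K).order = -1

variable {E}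

theorem HasSimplePole.nontrivial (h : HasSimplePole E) :
    ∃ f : ↥E, f ≠ 0 ∧ (incl E f).order ≠ 0 := by
  obtain ⟨f, hf⟩ := h
  refine ⟨f, ?_, ?_⟩
  · rintro rfl
    simp at hf
  · rw [incl_apply, hf]
    norm_num

/-- **The `q`-adic place of `E`.** -/
def qPlace (h : HasSimplePole E) : Place K ↥E :=
  embPlace (incl E) (incl_const E) h.nontrivial

/-- The `q`-adic place is normalised: `ord = order`. -/
theorem ord_qPlace (h : HasSimplePole E) {f : ↥E} (hf : f ≠ 0) :
    (qPlace h).ord f = (f : LaurentSeries K).order := by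
  obtain ⟨m, hm, hspec⟩ := embPlace_spec (incl E) (incl_const E) h.nontrivial
  obtain ⟨j, hj⟩ := h
  have hj0 : j ≠ 0 := by
    rintro rfl
    simp at hj
  have h1 := hspec j hj0
  rw [incl_apply, hj] at h1
  have hm1 : (m : ℤ) = 1 := by
    have hdvd : (m : ℤ) ∣ 1 := ⟨-(embPlace (incl E) (incl_const E) _).ord j, by linarith⟩
    have hpos : (0 : ℤ) < m := by exact_mod_cast hm
    exact Int.eq_one_of_dvd_one hpos.le hdvd
  have h2 := hspec f hf
  rw [hm1, one_mul, incl_apply] at h2
  exact h2.symm

theorem ord_qPlace' (h : HasSimplePole E) (f : ↥E) :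
    (qPlace h).ord f = (f : LaurentSeries K).order := by
  rcases eq_or_ne f 0 with rfl | hf
  · simp
  · exact ord_qPlace h hf

theorem mem_qPlace_iff (h : HasSimplePole E) (f : ↥E) :
    f ∈ (qPlace h).toValuationSubring ↔ 0 ≤ (f : LaurentSeries K).order := by
  rcases eq_or_ne f 0 with rfl | hf
  · simp
  · exact mem_embPlace_iff (incl E) (incl_const E) h.nontrivial hf

/-- A series of nonnegative order minus its constant term has positive order (or vanishes). -/
theorem order_sub_const_pos {x : LaurentSeries K} (hx : 0 ≤ x.order)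
    (hne : x - HahnSeries.C (x.coeff 0) ≠ 0) : 0 < (x - HahnSeries.C (x.coeff 0)).order := by
  by_contra hle
  rw [not_lt] at hle
  apply HahnSeries.coeff_order_eq_zero.not.mpr hne
  set n := (x - HahnSeries.C (x.coeff 0)).order with hn
  rw [HahnSeries.coeff_sub]
  rcases hle.lt_or_eq with hlt | h0
  · rw [HahnSeries.coeff_eq_zero_of_lt_order (lt_of_lt_of_le hlt hx), HahnSeries.C_apply,
      HahnSeries.coeff_single_of_ne hlt.ne, sub_zero]
  · rw [h0, HahnSeries.C_apply, HahnSeries.coeff_single_same, sub_self]

/-- **The residue field of the `q`-adic place is `K`**, with value `f ↦ f.coeff 0`. -/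
theorem qPlace_residue (h : HasSimplePole E) (f : ↥E) (hf : f ∈ (qPlace h).toValuationSubring) :
    f = algebraMap K ↥E ((f : LaurentSeries K).coeff 0) ∨
      0 < (qPlace h).ord (f - algebraMap K ↥E ((f : LaurentSeries K).coeff 0)) := by
  rw [mem_qPlace_iff] at hf
  by_cases h0 : f - algebraMap K ↥E ((f : LaurentSeries K).coeff 0) = 0
  · exact Or.inl (sub_eq_zero.mp h0)
  · right
    rw [ord_qPlace h h0]
    have hc : ((f - algebraMap K ↥E ((f : LaurentSeries K).coeff 0) : ↥E) : LaurentSeries K) =
        (f : LaurentSeries K) - HahnSeries.C ((f : LaurentSeries K).coeff 0) := by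
      rw [← incl_const E]
      rfl
    rw [hc]
    apply order_sub_const_pos hf
    rw [← hc]
    exact fun h1 => h0 (Subtype.ext h1)

theorem qPlace_residue' (h : HasSimplePole E) :
    ∀ f ∈ (qPlace h).toValuationSubring, ∃ c : K,
      f = algebraMap K ↥E c ∨ 0 < (qPlace h).ord (f - algebraMap K ↥E c) :=
  fun f hf => ⟨_, qPlace_residue h f hf⟩

/-- Uniqueness: a place whose order function is the `q`-order is the `q`-adic place. -/
theorem eq_qPlace_of_ord (h : HasSimplePole E) (v : Place K ↥E)
    (hv : ∀ f : ↥E, f ≠ 0 → v.ord f = (f : LaurentSeries K).order) : v = qPlace h :=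
  eq_embPlace_of_spec (incl E) (incl_const E) h.nontrivial v (m := 1) one_pos fun f hf => by
    rw [incl_apply, hv f hf]
    simp

/-- Uniqueness, weak form: a place at which every `f` with `0 ≤ order f` is regular. -/
theorem eq_qPlace_of_le (h : HasSimplePole E) (v : Place K ↥E)
    (hv : ∀ f : ↥E, 0 ≤ (f : LaurentSeries K).order → f ∈ v.toValuationSubring) :
    v = qPlace h := by
  apply Place.ext
  refine Fermat.Agent.ES.HECKE.FundIdentity19.valuationSubring_eq_of_le (qPlace h)
    v.toValuationSubring ?_ v.ne_top'
  intro f hf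
  exact hv f ((mem_qPlace_iff h f).mp hf)

/-! ### Instances -/

section Instances

theorem order_jqModC' (k : Type*) [Field k] : (jqModC k).order = -1 := by
  have hne : jqModC k ≠ 0 := jqModC_ne_zero_of_nontrivial k
  apply le_antisymm
  · exact HahnSeries.order_le_of_coeff_ne_zero (by rw [coeff_jqModC_neg_one]; exact one_ne_zero)
  · by_contra hlt
    rw [not_le] at hlt
    exact (HahnSeries.coeff_order_eq_zero.not.2 hne) (coeff_jqModC_of_lt k hlt)

variable (k : Type*) [Field k] (M : ℕ)

theorem hasSimplePole_fullC : HasSimplePole (modularFunctionFieldFullC k M) :=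
  ⟨⟨jqModC k, jqModC_mem_full k M⟩, order_jqModC' k⟩

/-- **The cusp `∞` of the special fibre**: the `q`-adic place of `modularFunctionFieldFullC k M`. -/
def inftyC : Place k ↥(modularFunctionFieldFullC k M) := qPlace (hasSimplePole_fullC k M)

theorem ord_inftyC (f : ↥(modularFunctionFieldFullC k M)) :
    (inftyC k M).ord f = (f : LaurentSeries k).order := ord_qPlace' _ f

theorem mem_inftyC_iff (f : ↥(modularFunctionFieldFullC k M)) :
    f ∈ (inftyC k M).toValuationSubring ↔ 0 ≤ (f : LaurentSeries k).order := mem_qPlace_iff _ f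

variable (L : Type*) [Field L] [Algebra ℚ L] (F₀ : IntermediateField ℚ (LaurentSeries ℚ))

theorem order_coeffEmb (x : LaurentSeries ℚ) : (coeffEmb L x).order = x.order := by
  have hinj : Function.Injective (algebraMap ℚ L) := (algebraMap ℚ L).injective
  rcases eq_or_ne x 0 with rfl | hx
  · simp
  · have hx' : coeffEmb L x ≠ 0 := by
      intro h
      apply hx
      ext n
      have := congrArg (fun y => y.coeff n) h
      simp only [coeffEmb_coeff, HahnSeries.coeff_zero] at this
      rw [HahnSeries.coeff_zero]
      exact hinj (by rw [this, map_zero])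
    apply le_antisymm
    · apply HahnSeries.order_le_of_coeff_ne_zero
      rw [coeffEmb_coeff]
      exact fun h => HahnSeries.coeff_order_eq_zero.not.mpr hx (hinj (by rw [h, map_zero]))
    · apply HahnSeries.order_le_of_coeff_ne_zero
      intro h
      apply HahnSeries.coeff_order_eq_zero.not.mpr hx'
      rw [coeffEmb_coeff, h, map_zero]

variable {F₀} in
theorem hasSimplePole_laurentBaseChange (h : ∃ x ∈ F₀, x.order = -1) :
    HasSimplePole (laurentBaseChange L F₀) := by
  obtain ⟨x, hx, hx1⟩ := h
  exact ⟨⟨coeffEmb L x, coeffEmb_mem_laurentBaseChange L hx⟩, by rw [order_coeffEmb, hx1]⟩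

variable (N : ℕ)

theorem hasSimplePole_full :
    HasSimplePole (laurentBaseChange L (modularFunctionFieldFull N)) :=
  hasSimplePole_laurentBaseChange L
    ⟨jqModC ℚ, by rw [← modularFunctionFieldFullC_rat]; exact jqModC_mem_full ℚ N,
      order_jqModC' ℚ⟩

/-- **The cusp `∞` in characteristic zero**: the `q`-adic place of
`laurentBaseChange L (modularFunctionFieldFull N)` (for `L = ℚbar` this is `X0.FF N`). -/
def inftyL : Place L ↥(laurentBaseChange L (modularFunctionFieldFull N)) :=
  qPlace (hasSimplePole_full L N)

theorem ord_inftyL (f : ↥(laurentBaseChange L (modularFunctionFieldFull N))) :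
    (inftyL L N).ord f = (f : LaurentSeries L).order := ord_qPlace' _ f

theorem mem_inftyL_iff (f : ↥(laurentBaseChange L (modularFunctionFieldFull N))) :
    f ∈ (inftyL L N).toValuationSubring ↔ 0 ≤ (f : LaurentSeries L).order := mem_qPlace_iff _ f

end Instances

end Fermat.Agent.M1.Link.QPlace45
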