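/-
M1 (row 38, S44), chapter LINK, brick K OLDTR, input (P1) BASIS-LIFT (helper99; ruling #2122 of
helper45): the inputs of `TraceInt74.exists_mul_trace` at `F' = Fbar M'`, `F'' = Fbar M`,
`κ' = κ(M') = modularFunctionFieldFullC k M'` (`k` the residue field of `A`, `A` over `p ∤ M`).

* `exists_monomials_linearIndependent` (Mathlib only): if `E = k(S)` is finite over `E' ≤ E` then
  `[E : E']` MONOMIALS in `S` are linearly independent over `E'`.
* `exists_basis_lift` : `d = ψ(M)/ψ(M')` elements of `Fbar M ∩ A((q))` whose reductions are linearly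
  independent over `κ(M')` (monomials in the `j(q^e)`, `e ∣ M`).
* `hasFrac_bar` : `TraceInt74.HasFrac A (Fbar N)` (`GaussFrac18.exists_gaussFrac` reshaped).
* `redA_mem_range`, `mem_range_of_mem` : the hypotheses `hκ'`, `hy` of `exists_mul_trace`
  (`RedMem16.redA_mem_fullC` reshaped).
-/
import Mathlib
import Fermat.Agent.ES.RED.Setup8
import Fermat.Agent.ES.RED.RedMem16
import Fermat.Agent.M1.Link.TraceInt74
import Fermat.Agent.M1.NRM.GaussFrac18
import Fermat.Agent.MAZ.Red.FundSep49
import Fermat.Agent.RED.PUR.DegBaseChange25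

set_option autoImplicit false
set_option linter.style.haveILetI false
set_option linter.unusedSectionVars false
set_option synthInstance.maxHeartbeats 400000
set_option maxHeartbeats 1000000

open HahnSeries ModularCurve IntermediateField

noncomputable section

namespace Fermat.Agent.M1.Link.BasisLift99

/-! ### Monomial bases -/

section Abstract

variable {k Ω : Type*} [Field k] [Field Ω] [Algebra k Ω]

/-- `E = k(S)` finite over `E' ≤ E`: there are `[E : E']` monomials in `S` which are linearly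
independent over `E'`. -/
theorem exists_monomials_linearIndependent (E' : IntermediateField k Ω) (S : Set Ω)
    (hE' : E' ≤ adjoin k S) (h0 : relfinrank E' (adjoin k S) ≠ 0) :
    ∃ x : Fin (relfinrank E' (adjoin k S)) → Ω,
      (∀ i, x i ∈ Submonoid.closure S) ∧ LinearIndependent ↥E' x := by
  classical
  set E := adjoin k S with hE
  -- `E` over `E'`
  have hfin0 : Module.finrank ↥E' ↥(extendScalars hE') ≠ 0 := by
    rwa [← relfinrank_eq_finrank_of_le hE']
  haveI hfd : FiniteDimensional ↥E' ↥(extendScalars hE') :=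
    Module.finite_of_finrank_pos (Nat.pos_of_ne_zero hfin0)
  -- `E'(S) = E`
  have hadj : adjoin ↥E' S = extendScalars hE' := by
    apply le_antisymm
    · rw [adjoin_le_iff]
      intro s hs
      exact (mem_extendScalars hE').mpr (subset_adjoin k S hs)
    · intro e he
      have he' : e ∈ E := (mem_extendScalars hE').mp he
      have hle : E ≤ (adjoin ↥E' S).restrictScalars k := by
        rw [hE, adjoin_le_iff]
        intro s hs
        exact subset_adjoin ↥E' S hs
      exact hle he'
  -- elements of `S` are algebraic over `E'`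
  have hS : ∀ s ∈ S, IsAlgebraic ↥E' s := by
    intro s hs
    have hsE : s ∈ extendScalars hE' := (mem_extendScalars hE').mpr (subset_adjoin k S hs)
    have h1 : IsAlgebraic ↥E' (⟨s, hsE⟩ : ↥(extendScalars hE')) :=
      Algebra.IsAlgebraic.isAlgebraic _
    exact h1.algebraMap (A := Ω)
  -- the span of the monomials
  have hsub : (adjoin ↥E' S).toSubalgebra = Algebra.adjoin ↥E' S :=
    adjoin_toSubalgebra_of_isAlgebraic hS
  have hspan : Submodule.span ↥E' ((Submonoid.closure S : Submonoid Ω) : Set Ω) =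
      Subalgebra.toSubmodule (extendScalars hE').toSubalgebra := by
    rw [← Algebra.adjoin_eq_span, ← hsub, hadj]
  have hrank : Module.finrank ↥E' ↥(Submodule.span ↥E' ((Submonoid.closure S : Submonoid Ω) : Set Ω))
      = relfinrank E' E := by
    rw [relfinrank_eq_finrank_of_le hE', hspan]
    rfl
  haveI : Module.Finite ↥E' ↥(Submodule.span ↥E' ((Submonoid.closure S : Submonoid Ω) : Set Ω)) := by
    rw [hspan]
    exact hfd
  obtain ⟨f, hf, -, hli⟩ := Submodule.exists_fun_fin_finrank_span_eq ↥E'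
    ((Submonoid.closure S : Submonoid Ω) : Set Ω)
  exact ⟨fun i => f (Fin.cast hrank.symm i), fun i => hf _,
    hli.comp _ (Fin.cast_injective _)⟩

end Abstract

/-! ### The special fibre -/

section Concrete

open Fermat.Agent.ES.RED.Setup8 Fermat.Agent.RED.Interface4

variable (A : ValuationSubring Qbar)

/-- the generators `j̃(q^e)`, `e ∣ M`, of `κ(M)` are reductions of elements of `Fbar M ∩ A((q))`. -/
theorem generator_mem_range_redA (M : ℕ) [NeZero M] (e : ℕ) [NeZero e] (he : e ∣ M) :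
    qExpand (kA A) e (jqModC (kA A)) ∈ (redA A (Fbar M)).range := by
  have hmem : coeffMap A.subtype (jqNModC ↥A e) ∈ Fbar M := by
    rw [coeffMap_jqNModC]
    have h1 : Fbar M = modularFunctionFieldFullC Qbar M :=
      Fermat.Agent.RED.PUR.DegBaseChange25.laurentBaseChange_full_eq (L := Qbar) M
    rw [h1]
    exact jqModCd_mem_full Qbar M he
  refine ⟨ofSeries A (Fbar M) (jqNModC ↥A e) hmem, ?_⟩
  rw [redA_ofSeries, coeffMap_jqNModC]
  rfl

variable {A}

/-- **(P1) BASIS-LIFT.** -/
theorem exists_basis_lift {p : ℕ} [Fact p.Prime] {M' M : ℕ} [NeZero M'] [NeZero M]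
    (hM'M : M' ∣ M) (hpM : ¬ p ∣ M) (hA : A.LiesOverPrime p) {d : ℕ}
    (hd : dedekindPsi M' * d = dedekindPsi M) :
    ∃ x : Fin d → ↥(gaussA A (Fbar M)),
      LinearIndependent ↥(modularFunctionFieldFullC (kA A) M')
        (fun i => redA A (Fbar M) (x i)) := by
  haveI : CharP (kA A) p :=
    Fermat.Agent.ES.KRON.KronInst10.charP_residueField A Fact.out hA
  have hle : modularFunctionFieldFullC (kA A) M' ≤ adjoin (kA A) (divisorExpansionsC (kA A) M) :=
    full_degeneracyC_le (kA A) hM'M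
  have hrel : relfinrank (modularFunctionFieldFullC (kA A) M')
      (adjoin (kA A) (divisorExpansionsC (kA A) M)) = d := by
    have h1 := Fermat.Agent.MAZ.Red.FundSep49.relfinrank_fullC_mul (kA A) p hM'M hpM
    have hψ : 0 < dedekindPsi M' :=
      Nat.pos_of_ne_zero (Fermat.Agent.MAZ.Red.FundSep49.psi_ne_zero M')
    apply Nat.eq_of_mul_eq_mul_left hψ
    rw [hd, ← h1, mul_comm]
    rfl
  have hd0 : d ≠ 0 := by
    rintro rfl
    rw [mul_zero] at hd
    exact Fermat.Agent.MAZ.Red.FundSep49.psi_ne_zero M hd.symm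
  obtain ⟨x, hx, hli⟩ := exists_monomials_linearIndependent (modularFunctionFieldFullC (kA A) M')
    (divisorExpansionsC (kA A) M) hle (by rw [hrel]; exact hd0)
  -- the monomials are reductions
  have hcl : Submonoid.closure (divisorExpansionsC (kA A) M) ≤
      (redA A (Fbar M)).range.toSubmonoid := by
    rw [Submonoid.closure_le]
    rintro _ ⟨e, hne, hdvd, rfl⟩
    haveI := hne
    exact generator_mem_range_redA A M e hdvd
  have hy : ∀ i, ∃ y : ↥(gaussA A (Fbar M)), redA A (Fbar M) y = x i := fun i => hcl (hx i)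
  choose y hy using hy
  refine ⟨fun i => y (Fin.cast hrel.symm i), ?_⟩
  have hfun : (fun i : Fin d => redA A (Fbar M) (y (Fin.cast hrel.symm i))) =
      x ∘ (Fin.cast hrel.symm) := by
    funext i
    exact hy _
  rw [hfun]
  exact hli.comp _ (Fin.cast_injective _)

/-- **`HasFrac`** for the function field of any level. -/
theorem hasFrac_bar (N : ℕ) [NeZero N] {q : ℕ} (hq : q.Prime) (hA : A.LiesOverPrime q) :
    Fermat.Agent.M1.Link.TraceInt74.HasFrac A (Fbar N) := by
  intro f hf0
  haveI : NeZero q := ⟨hq.ne_zero⟩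
  have hf0' : (f : LaurentSeries Qbar) ≠ 0 := fun h => hf0 (Subtype.ext h)
  obtain ⟨lam, y₁, y₂, hlam, h1, h2, hr1, hr2, heq⟩ :=
    Fermat.Agent.M1.NRM.GaussFrac18.exists_gaussFrac (A := A) N hq hA (f : LaurentSeries Qbar)
      f.2 hf0'
  refine ⟨lam, ofSeries A (Fbar N) y₁ h1, ofSeries A (Fbar N) y₂ h2, hlam, ?_, ?_, ?_⟩
  · rw [redA_ofSeries]
    exact hr1
  · rw [redA_ofSeries]
    exact hr2
  · apply Subtype.ext
    show (f : LaurentSeries Qbar) * coeffMap A.subtype y₂ =
      ((algebraMap Qbar ↥(Fbar N) lam : ↥(Fbar N)) : LaurentSeries Qbar) * coeffMap A.subtype y₁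
    rw [heq]
    have hC : ((algebraMap Qbar ↥(Fbar N) lam : ↥(Fbar N)) : LaurentSeries Qbar) =
        HahnSeries.C lam := by
      show algebraMap Qbar (LaurentSeries Qbar) lam = HahnSeries.C lam
      rw [algebraMap_laurentSeries_eq_single]
      rfl
    rw [hC]

/-- the hypothesis `hκ'` of `TraceInt74.exists_mul_trace`. -/
theorem redA_mem_range {q : ℕ} [Fact q.Prime] {M' : ℕ} [NeZero M'] (hqM : ¬ q ∣ M')
    (hA : A.LiesOverPrime q) (g : ↥(gaussA A (Fbar M'))) :
    redA A (Fbar M') g ∈
      (algebraMap ↥(modularFunctionFieldFullC (kA A) M') (LaurentSeries (kA A))).range :=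
  ⟨⟨_, Fermat.Agent.ES.RED.RedMem16.redA_mem_fullC A q hA hqM g⟩, rfl⟩

/-- the hypothesis `hy` of `TraceInt74.exists_mul_trace`. -/
theorem mem_range_of_mem {M' : ℕ} [NeZero M'] {z : LaurentSeries (kA A)}
    (hz : z ∈ modularFunctionFieldFullC (kA A) M') :
    z ∈ (algebraMap ↥(modularFunctionFieldFullC (kA A) M') (LaurentSeries (kA A))).range :=
  ⟨⟨z, hz⟩, rfl⟩

/-- **`TraceInt74.exists_mul_trace` at the levels `M' ∣ M`** (`p ∤ M`), all inputs discharged:
for `y ∈ Fbar M ∩ A((q))` with reduction in `κ(M')`, some `C ∈ Fbar M' ∩ A((q))` with `C̄ ≠ 0`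
has `C · Tr y ∈ Fbar M' ∩ A((q))` with reduction `d · C̄ · ȳ`. -/
theorem exists_mul_trace_level {p : ℕ} [Fact p.Prime] {M' M : ℕ} [NeZero M'] [NeZero M]
    (hM'M : M' ∣ M) (hpM : ¬ p ∣ M) (hA : A.LiesOverPrime p)
    [Algebra ↥(Fbar M') ↥(Fbar M)]
    (hcompat : ∀ a : ↥(Fbar M'),
      ((algebraMap ↥(Fbar M') ↥(Fbar M) a : ↥(Fbar M)) : LaurentSeries Qbar) =
        (a : LaurentSeries Qbar))
    [FiniteDimensional ↥(Fbar M') ↥(Fbar M)] {d : ℕ}
    (hd : Module.finrank ↥(Fbar M') ↥(Fbar M) = d) (hψ : dedekindPsi M' * d = dedekindPsi M)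
    (y : ↥(gaussA A (Fbar M)))
    (hy : redA A (Fbar M) y ∈ modularFunctionFieldFullC (kA A) M') :
    ∃ C T : ↥(gaussA A (Fbar M')), redA A (Fbar M') C ≠ 0 ∧
      ((T : ↥(gaussA A (Fbar M'))) : ↥(Fbar M')) =
        (C : ↥(Fbar M')) * Algebra.trace ↥(Fbar M') ↥(Fbar M) ((y : ↥(gaussA A (Fbar M))) : ↥(Fbar M)) ∧
      redA A (Fbar M') T = (d : LaurentSeries (kA A)) * redA A (Fbar M') C * redA A (Fbar M) y := by
  have hpM' : ¬ p ∣ M' := fun h => hpM (h.trans hM'M)
  obtain ⟨x, hx⟩ := exists_basis_lift (A := A) hM'M hpM hA hψ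
  exact Fermat.Agent.M1.Link.TraceInt74.exists_mul_trace hcompat
    (κ' := ↥(modularFunctionFieldFullC (kA A) M'))
    (hasFrac_bar M' (Fact.out : p.Prime) hA) (fun g => redA_mem_range hpM' hA g) hd x hx y
    (mem_range_of_mem hy)

end Concrete

end Fermat.Agent.M1.Link.BasisLift99
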