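/-
Program M1 (S44), chapter LINK (plan of helper45), brick LK9 — helper41.

`θ F = 0 ⇒ F` IS A `p`-TH POWER, for subfields of `k((q))` algebraic over `k(j)`.

Setting: `k` a perfect field of characteristic `p`, `j ∈ k((q))` with a simple pole (`j.order = -1`),
`Kj j = k(j) ⊆ k((q))`.

* `IsPSupp p f`                 : all coefficients of `f` of index prime to `p` vanish;
  `isPSupp_iff_theta_eq_zero`   : `IsPSupp p f ↔ Theta20.theta f = 0` (`θ = q d/dq`);
  `isPSupp_pow`                 : `p`-th powers are `p`-supported;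
* `eq_zero_of_sum_eq_zero`      : `1, j, …, j^(p-1)` are linearly independent over the `p`-supported
  series;
* `decomp p M j hj : Subfield L`: the subfield `{∑_{i<p} b_i^p j^i : b_i ∈ M} = M^p(j)` of a subfield
  `M ∋ j` of a field `L` of characteristic `p` (abstract, any `L`);
* `exists_isSeparable_pow`      : an algebraic element has a separable `p^n`-th power;
* `Kj_le_decomp`, `le_decomp_of_isSeparable` : `M = M^p(j)` for `M = k(j)` and for every separable
  extension `M ⊆ k((q))` of `k(j)`;
* `isSeparable_of_isAlgebraic`  : EVERY element of `k((q))` algebraic over `k(j)` is SEPARABLE over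
  `k(j)` (no modular polynomials needed);
* `exists_pow_eq`, `exists_pow_eq_of_theta_eq_zero` : **LK9**, general form: if `E ⊆ k((q))` is a
  field containing `k(j)` and algebraic over it, `F ∈ E` and `θ F = 0`, then `F = G^p` with `G ∈ E`.
-/
import Mathlib
import Fermat.Agent.IG.PR.Theta20

set_option autoImplicit false
set_option linter.unusedSectionVars false
set_option linter.style.haveILetI false

open HahnSeries
open Fermat.Agent.IG.PR.Theta20

namespace Fermat.Agent.M1.Link.PthPower41

noncomputable section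


section Basic

variable {k : Type*} [Field k] (p : ℕ) [hp : Fact p.Prime] [CharP k p]

/-- `k((q))` has characteristic `p`. -/
theorem charP_laurentSeries : CharP (LaurentSeries k) p :=
  charP_of_injective_algebraMap (algebraMap k (LaurentSeries k)).injective p

/-- A Laurent series all of whose coefficients of index prime to `p` vanish (`= ` an element of
`k((q^p))`; for perfect `k` these are exactly the `p`-th powers). -/
def IsPSupp (f : LaurentSeries k) : Prop := ∀ n : ℤ, ¬ (p : ℤ) ∣ n → f.coeff n = 0

variable {p}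

theorem isPSupp_zero : IsPSupp p (0 : LaurentSeries k) := fun _ _ => rfl

theorem IsPSupp.add {f g : LaurentSeries k} (hf : IsPSupp p f) (hg : IsPSupp p g) :
    IsPSupp p (f + g) := fun n hn => by
  rw [HahnSeries.coeff_add, hf n hn, hg n hn, add_zero]

theorem IsPSupp.neg {f : LaurentSeries k} (hf : IsPSupp p f) : IsPSupp p (-f) := fun n hn => by
  rw [HahnSeries.coeff_neg, hf n hn, neg_zero]

theorem IsPSupp.sub {f g : LaurentSeries k} (hf : IsPSupp p f) (hg : IsPSupp p g) :
    IsPSupp p (f - g) := by
  rw [sub_eq_add_neg]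
  exact hf.add hg.neg

theorem IsPSupp.dvd_order {f : LaurentSeries k} (hf : IsPSupp p f) (h0 : f ≠ 0) :
    (p : ℤ) ∣ f.order := by
  by_contra h
  have h1 : f.coeff f.order ≠ 0 := by
    rw [← HahnSeries.leadingCoeff_eq]
    exact HahnSeries.leadingCoeff_ne_zero.2 h0
  exact h1 (hf _ h)

/-- `θ f = 0` iff all coefficients of index prime to `p` vanish. -/
theorem isPSupp_iff_theta_eq_zero (f : LaurentSeries k) : IsPSupp p f ↔ theta f = 0 := by
  constructor
  · intro hf
    ext n
    rw [theta_coeff, HahnSeries.coeff_zero]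
    by_cases hn : (p : ℤ) ∣ n
    · rw [(CharP.intCast_eq_zero_iff k p n).2 hn, zero_mul]
    · rw [hf n hn, mul_zero]
  · intro hf n hn
    have h1 : (theta f).coeff n = 0 := by rw [hf, HahnSeries.coeff_zero]
    rw [theta_coeff] at h1
    rcases mul_eq_zero.1 h1 with h2 | h2
    · exact absurd ((CharP.intCast_eq_zero_iff k p n).1 h2) hn
    · exact h2

/-- `p`-th powers are supported on `pℤ`. -/
theorem isPSupp_pow (x : LaurentSeries k) : IsPSupp p (x ^ p) := by
  rw [isPSupp_iff_theta_eq_zero]
  haveI := charP_laurentSeries (k := k) p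
  obtain ⟨n, hn⟩ : ∃ n, p = n + 1 := ⟨p - 1, (Nat.succ_pred_eq_of_pos hp.out.pos).symm⟩
  have h1 := theta_pow x n
  rw [← hn] at h1
  rw [h1, CharP.cast_eq_zero, zero_mul, zero_mul]

/-- **Independence**: `1, j, …, j^(p-1)` are linearly independent over the series supported on `pℤ`
when `j` has a simple pole. -/
theorem eq_zero_of_sum_eq_zero {j : LaurentSeries k} (hj : j.order = -1)
    (c : ℕ → LaurentSeries k) (hc : ∀ i, IsPSupp p (c i))
    (h : ∑ i ∈ Finset.range p, c i * j ^ i = 0) : ∀ i ∈ Finset.range p, c i = 0 := by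
  classical
  by_contra hne
  rw [not_forall] at hne
  obtain ⟨i₁, hi₁⟩ := hne
  rw [Classical.not_imp] at hi₁
  have hj0 : j ≠ 0 := by
    intro h0
    rw [h0, HahnSeries.order_zero] at hj
    exact absurd hj (by norm_num)
  set I := (Finset.range p).filter (fun i => c i ≠ 0) with hI
  have hIne : I.Nonempty := ⟨i₁, Finset.mem_filter.2 hi₁⟩
  have hord : ∀ i ∈ I, (c i * j ^ i).order = (c i).order - i := by
    intro i hi
    have hci : c i ≠ 0 := (Finset.mem_filter.1 hi).2
    rw [HahnSeries.order_mul hci (pow_ne_zero _ hj0), HahnSeries.order_pow, hj]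
    simp
    ring
  obtain ⟨i₀, hi₀, hmin⟩ := Finset.exists_min_image I (fun i => (c i * j ^ i).order) hIne
  have hinj : ∀ i ∈ I, (c i * j ^ i).order = (c i₀ * j ^ i₀).order → i = i₀ := by
    intro i hi heq
    rw [hord i hi, hord i₀ hi₀] at heq
    obtain ⟨a, ha⟩ := (hc i).dvd_order (Finset.mem_filter.1 hi).2
    obtain ⟨b, hb⟩ := (hc i₀).dvd_order (Finset.mem_filter.1 hi₀).2
    have hip : i < p := Finset.mem_range.1 (Finset.mem_filter.1 hi).1
    have hi₀p : i₀ < p := Finset.mem_range.1 (Finset.mem_filter.1 hi₀).1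
    rw [ha, hb] at heq
    have h1 : (p : ℤ) ∣ (i : ℤ) - (i₀ : ℤ) := ⟨a - b, by linarith⟩
    have h2 : ((i : ℤ) - i₀).natAbs < p := by omega
    have h3 := Int.eq_zero_of_dvd_of_natAbs_lt_natAbs h1 (by simpa using h2)
    omega
  have hcoeff := congrArg (fun f : LaurentSeries k => f.coeff (c i₀ * j ^ i₀).order) h
  simp only [HahnSeries.coeff_zero] at hcoeff
  have hsum : (∑ i ∈ Finset.range p, c i * j ^ i).coeff (c i₀ * j ^ i₀).order
      = ∑ i ∈ Finset.range p, (c i * j ^ i).coeff (c i₀ * j ^ i₀).order := by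
    rw [← HahnSeries.coeff.addMonoidHom_apply, map_sum]
    rfl
  rw [hsum, Finset.sum_eq_single i₀] at hcoeff
  · have hne0 : c i₀ * j ^ i₀ ≠ 0 := mul_ne_zero (Finset.mem_filter.1 hi₀).2 (pow_ne_zero _ hj0)
    have h1 : (c i₀ * j ^ i₀).coeff (c i₀ * j ^ i₀).order ≠ 0 := by
      rw [← HahnSeries.leadingCoeff_eq]
      exact HahnSeries.leadingCoeff_ne_zero.2 hne0
    exact h1 hcoeff
  · intro i hi hii₀
    by_cases hci : c i = 0
    · rw [hci, zero_mul, HahnSeries.coeff_zero]
    · have hiI : i ∈ I := Finset.mem_filter.2 ⟨hi, hci⟩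
      have hlt : (c i₀ * j ^ i₀).order < (c i * j ^ i).order :=
        lt_of_le_of_ne (hmin i hiI) (fun heq => hii₀ (hinj i hiI heq.symm))
      exact HahnSeries.coeff_eq_zero_of_lt_order hlt
  · intro hni
    exact absurd (Finset.mem_filter.1 hi₀).1 hni



end Basic

section Decomp

variable {L : Type*} [Field L] (p : ℕ) [hp : Fact p.Prime] [CharP L p] (M : Subfield L) (j : L)

/-- The set of `∑_{i<p} b_i^p j^i` with `b_i ∈ M`. -/
def decompSet : Set L :=
  {x | ∃ b : ℕ → L, (∀ i, b i ∈ M) ∧ x = ∑ i ∈ Finset.range p, b i ^ p * j ^ i}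

variable {p M j}

theorem pow_mem_decompSet {a : L} (ha : a ∈ M) : a ^ p ∈ decompSet p M j := by
  refine ⟨fun i => if i = 0 then a else 0, fun i => ?_, ?_⟩
  · by_cases h : i = 0
    · simp [h, ha]
    · simp [h, M.zero_mem]
  · rw [Finset.sum_eq_single 0]
    · simp
    · intro i _ hi
      simp [hi, hp.out.ne_zero]
    · intro h
      exact absurd (Finset.mem_range.2 hp.out.pos) h

theorem zero_mem_decompSet : (0 : L) ∈ decompSet p M j := by
  have := pow_mem_decompSet (p := p) (j := j) M.zero_mem
  rwa [zero_pow hp.out.ne_zero] at this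

theorem add_mem_decompSet {x y : L} (hx : x ∈ decompSet p M j) (hy : y ∈ decompSet p M j) :
    x + y ∈ decompSet p M j := by
  obtain ⟨b, hb, rfl⟩ := hx
  obtain ⟨c, hc, rfl⟩ := hy
  refine ⟨fun i => b i + c i, fun i => M.add_mem (hb i) (hc i), ?_⟩
  rw [← Finset.sum_add_distrib]
  refine Finset.sum_congr rfl fun i _ => ?_
  rw [add_pow_char, add_mul]

theorem neg_mem_decompSet {x : L} (hx : x ∈ decompSet p M j) : -x ∈ decompSet p M j := by
  obtain ⟨b, hb, rfl⟩ := hx
  refine ⟨fun i => 0 - b i, fun i => M.sub_mem M.zero_mem (hb i), ?_⟩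
  rw [← Finset.sum_neg_distrib]
  refine Finset.sum_congr rfl fun i _ => ?_
  rw [sub_pow_char, zero_pow hp.out.ne_zero, zero_sub, neg_mul]

/-- The additive subgroup. -/
def decompAddSubgroup (p : ℕ) [Fact p.Prime] [CharP L p] (M : Subfield L) (j : L) :
    AddSubgroup L where
  carrier := decompSet p M j
  zero_mem' := zero_mem_decompSet
  add_mem' := add_mem_decompSet
  neg_mem' := neg_mem_decompSet

theorem mem_decompAddSubgroup {x : L} : x ∈ decompAddSubgroup p M j ↔ x ∈ decompSet p M j :=
  Iff.rfl

theorem pow_mul_mem_decompSet {a x : L} (ha : a ∈ M) (hx : x ∈ decompSet p M j) :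
    a ^ p * x ∈ decompSet p M j := by
  obtain ⟨b, hb, rfl⟩ := hx
  refine ⟨fun i => a * b i, fun i => M.mul_mem ha (hb i), ?_⟩
  rw [Finset.mul_sum]
  refine Finset.sum_congr rfl fun i _ => ?_
  rw [mul_pow, mul_assoc]

theorem mul_self_mem_decompSet (hj : j ∈ M) {x : L} (hx : x ∈ decompSet p M j) :
    j * x ∈ decompSet p M j := by
  obtain ⟨b, hb, rfl⟩ := hx
  obtain ⟨n, hn⟩ : ∃ n, p = n + 1 := ⟨p - 1, (Nat.succ_pred_eq_of_pos hp.out.pos).symm⟩
  refine ⟨fun i => if i = 0 then b n * j else b (i - 1), fun i => ?_, ?_⟩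
  · by_cases h : i = 0
    · simp only [h, if_true]
      exact M.mul_mem (hb n) hj
    · simp only [h, if_false]
      exact hb _
  · rw [Finset.mul_sum]
    conv_lhs => rw [hn, Finset.sum_range_succ]
    conv_rhs => rw [hn, Finset.sum_range_succ']
    congr 1
    · refine Finset.sum_congr rfl fun i _ => ?_
      simp only [Nat.succ_ne_zero, if_false, Nat.add_sub_cancel]
      rw [← hn]
      ring
    · simp only [if_true, pow_zero, mul_one]
      rw [← hn, mul_pow]
      nth_rewrite 3 [hn]
      ring

theorem pow_self_mul_mem_decompSet (hj : j ∈ M) {x : L} (hx : x ∈ decompSet p M j) (l : ℕ) :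
    j ^ l * x ∈ decompSet p M j := by
  induction l with
  | zero => simpa using hx
  | succ l ih =>
    rw [pow_succ', mul_assoc]
    exact mul_self_mem_decompSet hj ih

theorem mul_mem_decompSet (hj : j ∈ M) {x y : L} (hx : x ∈ decompSet p M j)
    (hy : y ∈ decompSet p M j) : x * y ∈ decompSet p M j := by
  obtain ⟨c, hc, rfl⟩ := hy
  rw [Finset.mul_sum]
  rw [← mem_decompAddSubgroup]
  refine sum_mem fun l _ => ?_
  rw [mem_decompAddSubgroup]
  have h1 : x * (c l ^ p * j ^ l) = c l ^ p * (j ^ l * x) := by ring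
  rw [h1]
  exact pow_mul_mem_decompSet (hc l) (pow_self_mul_mem_decompSet hj hx l)

theorem decompSet_subset (hj : j ∈ M) : decompSet p M j ⊆ (M : Set L) := by
  rintro x ⟨b, hb, rfl⟩
  exact M.sum_mem fun i _ => M.mul_mem (M.pow_mem (hb i) p) (M.pow_mem hj i)

/-- The subfield `M^p(j)` of `M`, in the explicit form `{∑_{i<p} b_i^p j^i}`. -/
def decomp (p : ℕ) [hp : Fact p.Prime] [CharP L p] (M : Subfield L) (j : L) (hj : j ∈ M) :
    Subfield L where
  carrier := decompSet p M j
  zero_mem' := zero_mem_decompSet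
  add_mem' := add_mem_decompSet
  neg_mem' := neg_mem_decompSet
  one_mem' := by
    have := pow_mem_decompSet (p := p) (j := j) M.one_mem
    rwa [one_pow] at this
  mul_mem' := mul_mem_decompSet hj
  inv_mem' := by
    intro x hx
    by_cases h0 : x = 0
    · rw [h0, inv_zero]
      exact zero_mem_decompSet
    · have hxM : x ∈ M := decompSet_subset hj hx
      have h1 : x⁻¹ = (x⁻¹) ^ p * x ^ (p - 1) := by
        obtain ⟨n, hn⟩ : ∃ n, p = n + 1 := ⟨p - 1, (Nat.succ_pred_eq_of_pos hp.out.pos).symm⟩
        rw [hn, Nat.add_sub_cancel, pow_succ, inv_pow, mul_comm (x ^ n)⁻¹, mul_assoc,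
          inv_mul_cancel₀ (pow_ne_zero n h0), mul_one]
      rw [h1]
      refine pow_mul_mem_decompSet (M.inv_mem hxM) ?_
      have : ∀ m : ℕ, x ^ m ∈ decompSet p M j := by
        intro m
        induction m with
        | zero =>
          have := pow_mem_decompSet (p := p) (j := j) M.one_mem
          rwa [one_pow, ← pow_zero x] at this
        | succ m ih =>
          rw [pow_succ]
          exact mul_mem_decompSet hj ih hx
      exact this _

theorem mem_decomp {hj : j ∈ M} {x : L} : x ∈ decomp p M j hj ↔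
    ∃ b : ℕ → L, (∀ i, b i ∈ M) ∧ x = ∑ i ∈ Finset.range p, b i ^ p * j ^ i := Iff.rfl

theorem decomp_le (hj : j ∈ M) : decomp p M j hj ≤ M := decompSet_subset hj

theorem pow_mem_decomp (hj : j ∈ M) {a : L} (ha : a ∈ M) : a ^ p ∈ decomp p M j hj :=
  pow_mem_decompSet ha

theorem self_mem_decomp (hj : j ∈ M) : j ∈ decomp p M j hj := by
  have h1 : (1 : L) ∈ decompSet p M j := (decomp p M j hj).one_mem
  have := mul_self_mem_decompSet hj h1
  rwa [mul_one] at this

theorem decomp_mono {M' : Subfield L} (h : M ≤ M') (hj : j ∈ M) :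
    decomp p M j hj ≤ decomp p M' j (h hj) := by
  rintro x ⟨b, hb, rfl⟩
  exact ⟨b, fun i => h (hb i), rfl⟩

end Decomp



/-- For an algebraic element `α` in characteristic `p`, some `α ^ p ^ n` is separable. -/
theorem exists_isSeparable_pow {F E : Type*} [Field F] [Field E] [Algebra F E] (p : ℕ)
    [ExpChar F p] {α : E} (hα : IsAlgebraic F α) : ∃ n : ℕ, IsSeparable F (α ^ p ^ n) := by
  obtain ⟨g, hg, n, hn⟩ := (minpoly.irreducible hα.isIntegral).hasSeparableContraction p
  refine ⟨n, ?_⟩
  have h1 : Polynomial.aeval (α ^ p ^ n) g = 0 := by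
    rw [← Polynomial.expand_aeval, hn, minpoly.aeval]
  exact hg.of_dvd (minpoly.dvd F _ h1)


section Main

variable {k : Type*} [Field k] (p : ℕ) [hp : Fact p.Prime] [hchar : CharP k p]

attribute [local instance] charP_laurentSeries

variable (j : LaurentSeries k)

/-- The rational function field `k(j) ⊆ k((q))`. -/
abbrev Kj : IntermediateField k (LaurentSeries k) := IntermediateField.adjoin k {j}

theorem self_mem_Kj : j ∈ (Kj j).toSubfield := IntermediateField.mem_adjoin_simple_self k j

variable {j}

/-- `k(j) = k(j)^p (j)` for perfect `k`, in explicit form. -/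
theorem Kj_le_decomp [PerfectField k] :
    (Kj j).toSubfield ≤ decomp p (Kj j).toSubfield j (self_mem_Kj j) := by
  haveI : PerfectRing k p := PerfectField.toPerfectRing p
  set T := decomp p (Kj j).toSubfield j (self_mem_Kj j) with hT
  have halg : ∀ c : k, algebraMap k (LaurentSeries k) c ∈ T := by
    intro c
    obtain ⟨c', hc'⟩ := surjective_frobenius k p c
    rw [frobenius_def] at hc'
    rw [← hc', map_pow]
    exact pow_mem_decomp (self_mem_Kj j) ((Kj j).algebraMap_mem c')
  have h1 : Kj j ≤ T.toIntermediateField halg := by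
    rw [IntermediateField.adjoin_simple_le_iff]
    exact self_mem_decomp (self_mem_Kj j)
  intro x hx
  exact h1 hx

theorem self_mem_of_intermediate (M : IntermediateField (Kj j) (LaurentSeries k)) :
    j ∈ M.toSubfield :=
  M.algebraMap_mem ⟨j, IntermediateField.mem_adjoin_simple_self k j⟩

/-- A separable extension `M` of `k(j)` inside `k((q))` satisfies `M = M^p (j)`. -/
theorem le_decomp_of_isSeparable [PerfectField k]
    (M : IntermediateField (Kj j) (LaurentSeries k)) (hM : ∀ x ∈ M, IsSeparable (Kj j) x) :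
    M.toSubfield ≤ decomp p M.toSubfield j (self_mem_of_intermediate M) := by
  set T := decomp p M.toSubfield j (self_mem_of_intermediate M) with hT
  have hKM : (Kj j).toSubfield ≤ M.toSubfield := by
    intro x hx
    exact M.algebraMap_mem ⟨x, hx⟩
  have halg : ∀ c : Kj j, algebraMap (Kj j) (LaurentSeries k) c ∈ T := by
    intro c
    exact decomp_mono hKM (self_mem_Kj j) (Kj_le_decomp p c.2)
  haveI : Algebra.IsSeparable (Kj j) (IntermediateField.adjoin (Kj j) (M : Set (LaurentSeries k))) :=
    (IntermediateField.isSeparable_adjoin_iff_isSeparable (Kj j) (LaurentSeries k)).2 hM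
  haveI : ExpChar (Kj j) p := by
    haveI : CharP (Kj j) p := charP_of_injective_algebraMap (algebraMap k (Kj j)).injective p
    exact ExpChar.prime hp.out
  have h1 := IntermediateField.adjoin_eq_adjoin_pow_expChar_of_isSeparable (Kj j)
    (LaurentSeries k) (M : Set (LaurentSeries k)) p
  rw [IntermediateField.adjoin_self] at h1
  have h2 : M ≤ T.toIntermediateField halg := by
    rw [h1, IntermediateField.adjoin_le_iff]
    rintro _ ⟨y, hy, rfl⟩
    exact pow_mem_decomp (self_mem_of_intermediate M) hy
  intro x hx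
  exact h2 hx

/-- **Key lemma**: a separable element of `k((q))` over `k(j)` which is supported on `pℤ` is a
`p`-th power in `k(j)(F)`. -/
theorem exists_pow_eq_of_isSeparable [PerfectField k] (hj : j.order = -1)
    {F : LaurentSeries k} (hF : IsSeparable (Kj j) F) (h0 : IsPSupp p F) :
    ∃ G ∈ IntermediateField.adjoin (Kj j) {F}, G ^ p = F := by
  set M : IntermediateField (Kj j) (LaurentSeries k) := IntermediateField.adjoin (Kj j) {F}
    with hMdef
  have hMle : M ≤ separableClosure (Kj j) (LaurentSeries k) := by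
    rw [IntermediateField.adjoin_simple_le_iff]
    exact mem_separableClosure_iff.2 hF
  have hM : ∀ x ∈ M, IsSeparable (Kj j) x := fun x hx => mem_separableClosure_iff.1 (hMle hx)
  have hFM : F ∈ M.toSubfield := IntermediateField.mem_adjoin_simple_self (Kj j) F
  obtain ⟨b, hb, hFb⟩ := le_decomp_of_isSeparable p M hM hFM
  refine ⟨b 0, hb 0, ?_⟩
  set c : ℕ → LaurentSeries k := fun i => b i ^ p - (if i = 0 then F else 0) with hc
  have hcS : ∀ i, IsPSupp p (c i) := by
    intro i
    refine (isPSupp_pow (b i)).sub ?_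
    by_cases hi : i = 0
    · simp only [hi, if_true]
      exact h0
    · simp only [hi, if_false]
      exact isPSupp_zero
  have hsum : ∑ i ∈ Finset.range p, c i * j ^ i = 0 := by
    simp only [hc, sub_mul, Finset.sum_sub_distrib]
    rw [← hFb, Finset.sum_eq_single 0]
    · simp
    · intro i _ hi
      simp [hi]
    · intro h
      exact absurd (Finset.mem_range.2 hp.out.pos) h
  have h1 := eq_zero_of_sum_eq_zero hj c hcS hsum 0 (Finset.mem_range.2 hp.out.pos)
  simp only [hc, if_true] at h1
  exact sub_eq_zero.1 h1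

/-- If `γ ^ p` is separable over `k(j)` then so is `γ`. -/
theorem isSeparable_of_pow [PerfectField k] (hj : j.order = -1) {γ : LaurentSeries k}
    (h : IsSeparable (Kj j) (γ ^ p)) : IsSeparable (Kj j) γ := by
  obtain ⟨G, hG, hGp⟩ := exists_pow_eq_of_isSeparable p hj h (isPSupp_pow γ)
  have hGγ : G = γ := by
    have := frobenius_inj (LaurentSeries k) p
    apply this
    rw [frobenius_def, frobenius_def, hGp]
  rw [hGγ] at hG
  have hMle : IntermediateField.adjoin (Kj j) {γ ^ p} ≤
      separableClosure (Kj j) (LaurentSeries k) := by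
    rw [IntermediateField.adjoin_simple_le_iff]
    exact mem_separableClosure_iff.2 h
  exact mem_separableClosure_iff.1 (hMle hG)

theorem isSeparable_of_pow_pow [PerfectField k] (hj : j.order = -1) (n : ℕ) :
    ∀ γ : LaurentSeries k, IsSeparable (Kj j) (γ ^ p ^ n) → IsSeparable (Kj j) γ := by
  induction n with
  | zero =>
    intro γ h
    simpa using h
  | succ n ih =>
    intro γ h
    rw [pow_succ', pow_mul] at h
    exact isSeparable_of_pow p hj (ih _ h)

include hp hchar in
/-- **Every element of `k((q))` algebraic over `k(j)` is separable over `k(j)`** (`k` perfect of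
characteristic `p`, `j` with a simple pole). -/
theorem isSeparable_of_isAlgebraic [PerfectField k] (hj : j.order = -1) {α : LaurentSeries k}
    (hα : IsAlgebraic (Kj j) α) : IsSeparable (Kj j) α := by
  haveI : ExpChar (Kj j) p := by
    haveI : CharP (Kj j) p := charP_of_injective_algebraMap (algebraMap k (Kj j)).injective p
    exact ExpChar.prime hp.out
  obtain ⟨n, hn⟩ := exists_isSeparable_pow p hα
  exact isSeparable_of_pow_pow p hj n α hn

/-- **LK9, general form.**  `k` perfect of characteristic `p`, `j ∈ k((q))` with a simple pole,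
`E ⊆ k((q))` a field containing `k(j)` and algebraic over it.  If `F ∈ E` has all its coefficients
of index prime to `p` equal to zero (i.e. `θ F = 0`), then `F` is a `p`-th power in `E`. -/
theorem exists_pow_eq [PerfectField k] (E : IntermediateField k (LaurentSeries k))
    (hjE : j ∈ E) (hj : j.order = -1) (halg : ∀ x ∈ E, IsAlgebraic (Kj j) x)
    {F : LaurentSeries k} (hF : F ∈ E) (h0 : IsPSupp p F) : ∃ G ∈ E, G ^ p = F := by
  obtain ⟨G, hG, hGp⟩ := exists_pow_eq_of_isSeparable p hj
    (isSeparable_of_isAlgebraic p hj (halg F hF)) h0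
  refine ⟨G, ?_, hGp⟩
  have hle : Kj j ≤ E := by
    rw [IntermediateField.adjoin_simple_le_iff]
    exact hjE
  have h1 : IntermediateField.adjoin (Kj j) {F} ≤ IntermediateField.extendScalars hle := by
    rw [IntermediateField.adjoin_simple_le_iff, IntermediateField.mem_extendScalars]
    exact hF
  exact (IntermediateField.mem_extendScalars hle).1 (h1 hG)

/-- The same with the hypothesis in the form `θ F = 0`, `θ = q d/dq` (`Theta20.theta`). -/
theorem exists_pow_eq_of_theta_eq_zero [PerfectField k]
    (E : IntermediateField k (LaurentSeries k)) (hjE : j ∈ E) (hj : j.order = -1)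
    (halg : ∀ x ∈ E, IsAlgebraic (Kj j) x) {F : LaurentSeries k} (hF : F ∈ E)
    (h0 : theta F = 0) : ∃ G ∈ E, G ^ p = F :=
  exists_pow_eq p E hjE hj halg hF ((isPSupp_iff_theta_eq_zero F).2 h0)

end Main

end

end Fermat.Agent.M1.Link.PthPower41
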