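/-
Program M1 (S44), chapter LINK (plan of helper45), brick LK9, instantiation — helper41.

`F̃_N = modularFunctionFieldFullC k N = k(j(q^d) : d ∣ N) ⊆ k((q))`, `k` a perfect field of
characteristic `p` (NO hypothesis `p ∤ N`).

* `order_jqModC`                        : `j̃ = 1/q + …` has order `-1`;
* `isAlgebraic_of_mem_fullC`            : every element of `F̃_N` is algebraic over `k(j̃)`
  (from the modular equations, `IG/VAL/XdIntegral15` + `F2Final15.p0_all`);
* `exists_pow_eq_of_mem_fullC`          : **LK9**: `F ∈ F̃_N` with all coefficients of index prime to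
  `p` equal to `0` is `G ^ p` with `G ∈ F̃_N`;
* `exists_pow_eq_of_theta_eq_zero_fullC`: the same with the hypothesis `Theta20.theta F = 0`.
-/
import Mathlib
import Fermat.Prelude.Def_ModularCurve_X0ModL
import Fermat.Agent.IG.VAL.F2Final15
import Fermat.Agent.IG.VAL.LCAdjoin15
import Fermat.Agent.M1.Link.PthPower41

set_option autoImplicit false
set_option linter.unusedSectionVars false
set_option linter.style.haveILetI false

open HahnSeries ModularCurve
open Fermat.Agent.IG.PR.Theta20 Fermat.Agent.M1.Link.PthPower41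

namespace Fermat.Agent.M1.Link.ThetaKer41

noncomputable section

/-- `j̃ = 1/q + …` has a simple pole. -/
theorem order_jqModC (K : Type*) [Field K] : (jqModC K).order = -1 := by
  have hne : jqModC K ≠ 0 := jqModC_ne_zero_of_nontrivial K
  apply le_antisymm
  · apply HahnSeries.order_le_of_coeff_ne_zero
    rw [coeff_jqModC_neg_one]
    exact one_ne_zero
  · by_contra hlt
    rw [not_le] at hlt
    have h1 : (jqModC K).coeff (jqModC K).order ≠ 0 := by
      rw [← HahnSeries.leadingCoeff_eq]
      exact HahnSeries.leadingCoeff_ne_zero.2 hne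
    exact h1 (coeff_jqModC_of_lt K hlt)

/-- Every element of `F̃_N = k(x̃_d : d ∣ N)` is algebraic over `k(j̃)`. -/
theorem isAlgebraic_of_mem_fullC (N : ℕ) [NeZero N] (k : Type) [Field k]
    {x : LaurentSeries k} (hx : x ∈ modularFunctionFieldFullC k N) :
    IsAlgebraic (Kj (jqModC k)) x := by
  let T : Subring (LaurentSeries k) :=
    (algebraicClosure (Kj (jqModC k)) (LaurentSeries k)).toSubfield.toSubring
  have h := Fermat.Agent.IG.VAL.LCAdjoin15.lcC_le_subring N
    (Fermat.Agent.IG.VAL.F2Final15.p0_all N) k T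
    (fun y hy => (algebraicClosure (Kj (jqModC k)) (LaurentSeries k)).algebraMap_mem ⟨y, hy⟩)
    (fun d hd hdN => by
      haveI := hd
      exact mem_algebraicClosure_iff.2
        (Fermat.Agent.IG.VAL.XdIntegral15.xdC_isIntegral_adjoinField N
          (Fermat.Agent.IG.VAL.F2Final15.p0_all N) k d hdN).isAlgebraic)
    x hx
  exact mem_algebraicClosure_iff.1 h

variable (p : ℕ) [hp : Fact p.Prime]

/-- **LK9** for `F̃_N = modularFunctionFieldFullC k N ⊆ k((q))`, `k` perfect of characteristic `p`:
a function all of whose `q`-expansion coefficients of index prime to `p` vanish is a `p`-th power in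
`F̃_N`.  (No hypothesis `p ∤ N`.) -/
theorem exists_pow_eq_of_mem_fullC (N : ℕ) [NeZero N] (k : Type) [Field k] [CharP k p]
    [PerfectField k] {F : LaurentSeries k} (hF : F ∈ modularFunctionFieldFullC k N)
    (h0 : ∀ n : ℤ, ¬ (p : ℤ) ∣ n → F.coeff n = 0) :
    ∃ G ∈ modularFunctionFieldFullC k N, G ^ p = F :=
  exists_pow_eq p (modularFunctionFieldFullC k N) (jqModC_mem_full k N) (order_jqModC k)
    (fun _ hx => isAlgebraic_of_mem_fullC N k hx) hF h0

/-- The same with the hypothesis `θ F = 0`, `θ = q d/dq = Theta20.theta`. -/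
theorem exists_pow_eq_of_theta_eq_zero_fullC (N : ℕ) [NeZero N] (k : Type) [Field k] [CharP k p]
    [PerfectField k] {F : LaurentSeries k} (hF : F ∈ modularFunctionFieldFullC k N)
    (h0 : theta F = 0) : ∃ G ∈ modularFunctionFieldFullC k N, G ^ p = F :=
  exists_pow_eq_of_mem_fullC p N k hF ((isPSupp_iff_theta_eq_zero F).2 h0)

end

end Fermat.Agent.M1.Link.ThetaKer41
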