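/-
M1 (row 38, S44), chapter LINK (helper60): the derivation `θ / θ(j)` preserves every intermediate
field `k(j) ⊆ E ⊆ k((q))` which is separable algebraic over `k(j)`.

Consequence (glue between KEY/SAT and OLDTR): for `u ∈ κ(M') = modularFunctionFieldFullC k M'`,
`u ≠ 0`, the series `θlog u / θ(j̄) = θ u / (u · θ j̄)` lies in `κ(M')`.

* `deriv_mem_of_separable` : abstract (any field `L`, any additive Leibniz map `D`).
* `theta_div_mem`          : `E ⊆ k((q))`, `j ∈ E`, `θ j ≠ 0`, `E` separable over `k(j)`
                             ⟹ `θ u / θ j ∈ E` for `u ∈ E`.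
* `theta_div_mem_fullC`    : `k` perfect of characteristic `p`: `θ u / θ (jqModC k) ∈ κ(N)` for
                             `u ∈ κ(N)`;  `dlog_div_mem_fullC` : the same for `θ u / u / θ j̄`.
-/
import Mathlib
import Fermat.Agent.IG.PR.Theta20
import Fermat.Agent.M1.Link.PthPower41
import Fermat.Agent.M1.Link.ThetaKer41

set_option autoImplicit false

open Polynomial

namespace Fermat.Agent.M1.Link.DlogField60

section Abstract

variable {k L : Type*} [Field k] [Field L] [Algebra k L]

/-- an additive Leibniz map kills `1`. -/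
theorem leibniz_one (D : L → L) (hmul : ∀ x y, D (x * y) = D x * y + x * D y) : D 1 = 0 := by
  have h := hmul 1 1
  rw [mul_one, mul_one, one_mul] at h
  have h2 : D 1 + D 1 = D 1 + 0 := by rw [add_zero]; exact h.symm
  exact add_left_cancel h2

theorem leibniz_pow (D : L → L) (hmul : ∀ x y, D (x * y) = D x * y + x * D y) (u : L) (n : ℕ) :
    D (u ^ n) = (n : L) * u ^ (n - 1) * D u := by
  induction n with
  | zero => simp [leibniz_one D hmul]
  | succ n ih =>
    rw [pow_succ, hmul, ih]
    rcases n with _ | n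
    · simp
    · simp only [Nat.add_sub_cancel, Nat.cast_add, Nat.cast_one]
      ring

/-- **abstract core**: an additive Leibniz map `D` of `L` mapping `K0` into `E` maps every element
of `E` separable over `K0` into `E`. -/
theorem deriv_mem_of_separable (D : L → L) (hadd : ∀ x y, D (x + y) = D x + D y)
    (hmul : ∀ x y, D (x * y) = D x * y + x * D y) (E K0 : IntermediateField k L) (hK0E : K0 ≤ E)
    (hDK0 : ∀ x ∈ K0, D x ∈ E) {u : L} (hu : u ∈ E) (hsep : IsSeparable K0 u) : D u ∈ E := by
  have hD0 : D 0 = 0 := by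
    have h := hadd 0 0
    rw [add_zero] at h
    have h2 : D 0 + D 0 = D 0 + 0 := by rw [add_zero]; exact h.symm
    exact add_left_cancel h2
  -- the key claim, by induction on polynomials over `K0`
  have key : ∀ P : K0[X], aeval u P ∈ E ∧ D (aeval u P) - aeval u (derivative P) * D u ∈ E := by
    intro P
    induction P using Polynomial.induction_on' with
    | add p q hp hq =>
      refine ⟨?_, ?_⟩
      · rw [map_add]; exact E.add_mem hp.1 hq.1
      · have h1 : D (aeval u (p + q)) - aeval u (derivative (p + q)) * D u =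
            (D (aeval u p) - aeval u (derivative p) * D u) +
            (D (aeval u q) - aeval u (derivative q) * D u) := by
          rw [map_add, hadd, derivative_add, map_add]
          ring
        rw [h1]
        exact E.add_mem hp.2 hq.2
    | monomial n c =>
      have hc : ((c : K0) : L) ∈ E := hK0E c.2
      have hun : ∀ m : ℕ, u ^ m ∈ E := fun m => pow_mem hu m
      refine ⟨?_, ?_⟩
      · rw [aeval_monomial]
        exact E.mul_mem hc (hun n)
      · rw [aeval_monomial, derivative_monomial, aeval_monomial, hmul, leibniz_pow D hmul]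
        have h1 : algebraMap K0 L (c * (n : K0)) = ((c : K0) : L) * (n : L) := by
          rw [map_mul, map_natCast]
          rfl
        have h2 : algebraMap K0 L c = ((c : K0) : L) := rfl
        rw [h1, h2]
        have h3 : D ((c : K0) : L) * u ^ n + ((c : K0) : L) * ((n : L) * u ^ (n - 1) * D u) -
            ((c : K0) : L) * (n : L) * u ^ (n - 1) * D u = D ((c : K0) : L) * u ^ n := by ring
        rw [h3]
        exact E.mul_mem (hDK0 _ c.2) (hun n)
  have hm0 : aeval u (minpoly K0 u) = 0 := minpoly.aeval K0 u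
  have hne : aeval u (derivative (minpoly K0 u)) ≠ 0 := hsep.aeval_derivative_ne_zero hm0
  obtain ⟨hmem', hmem⟩ := key (derivative (minpoly K0 u))
  have h2 := (key (minpoly K0 u)).2
  rw [hm0, hD0, zero_sub] at h2
  have h3 : D u = (aeval u (derivative (minpoly K0 u)))⁻¹ *
      (aeval u (derivative (minpoly K0 u)) * D u) := by
    rw [inv_mul_cancel_left₀ hne]
  rw [h3]
  exact E.mul_mem (E.inv_mem hmem') (by simpa using E.neg_mem h2)

/-- the elements of `E` whose image under `D` stays in `E`, as an intermediate field. -/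
def stableField (D : L → L) (hadd : ∀ x y, D (x + y) = D x + D y)
    (hmul : ∀ x y, D (x * y) = D x * y + x * D y) (hk : ∀ c : k, D (algebraMap k L c) = 0)
    (E : IntermediateField k L) : IntermediateField k L where
  carrier := {x | x ∈ E ∧ D x ∈ E}
  mul_mem' := by
    rintro x y ⟨hx, hDx⟩ ⟨hy, hDy⟩
    refine ⟨E.mul_mem hx hy, ?_⟩
    rw [hmul]
    exact E.add_mem (E.mul_mem hDx hy) (E.mul_mem hx hDy)
  one_mem' := by
    refine ⟨E.one_mem, ?_⟩
    rw [leibniz_one D hmul]
    exact E.zero_mem
  add_mem' := by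
    rintro x y ⟨hx, hDx⟩ ⟨hy, hDy⟩
    refine ⟨E.add_mem hx hy, ?_⟩
    rw [hadd]
    exact E.add_mem hDx hDy
  zero_mem' := by
    refine ⟨E.zero_mem, ?_⟩
    have h := hk 0
    rw [map_zero] at h
    rw [h]
    exact E.zero_mem
  algebraMap_mem' := by
    intro c
    refine ⟨E.algebraMap_mem c, ?_⟩
    rw [hk c]
    exact E.zero_mem
  inv_mem' := by
    rintro x ⟨hx, hDx⟩
    refine ⟨E.inv_mem hx, ?_⟩
    rcases eq_or_ne x 0 with rfl | hx0
    · rw [inv_zero]
      have h := hk 0
      rw [map_zero] at h
      rw [h]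
      exact E.zero_mem
    · -- `D (x⁻¹) = - D x * x⁻¹ * x⁻¹`
      have h1 : D (x * x⁻¹) = 0 := by
        rw [mul_inv_cancel₀ hx0]
        exact leibniz_one D hmul
      rw [hmul] at h1
      have h2 : D x⁻¹ = -(D x * x⁻¹ * x⁻¹) := by
        have h3 : x * D x⁻¹ = -(D x * x⁻¹) := eq_neg_of_add_eq_zero_right h1
        calc D x⁻¹ = x⁻¹ * (x * D x⁻¹) := by rw [inv_mul_cancel_left₀ hx0]
          _ = -(D x * x⁻¹ * x⁻¹) := by rw [h3]; ring
      rw [h2]
      exact E.neg_mem (E.mul_mem (E.mul_mem hDx (E.inv_mem hx)) (E.inv_mem hx))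

theorem mem_stableField {D : L → L} {hadd : ∀ x y, D (x + y) = D x + D y}
    {hmul : ∀ x y, D (x * y) = D x * y + x * D y} {hk : ∀ c : k, D (algebraMap k L c) = 0}
    {E : IntermediateField k L} {x : L} :
    x ∈ stableField D hadd hmul hk E ↔ x ∈ E ∧ D x ∈ E := Iff.rfl

/-- **abstract form**: `D` additive, Leibniz, `k`-linear-ish (`D = 0` on `k`), `D j ∈ E`, and `E`
separable over `k(j)`: then `D E ⊆ E`. -/
theorem deriv_mem_of_adjoin (D : L → L) (hadd : ∀ x y, D (x + y) = D x + D y)
    (hmul : ∀ x y, D (x * y) = D x * y + x * D y) (hk : ∀ c : k, D (algebraMap k L c) = 0)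
    (E : IntermediateField k L) (j : L) (hjE : j ∈ E) (hDj : D j ∈ E)
    (hsep : ∀ x ∈ E, IsSeparable (IntermediateField.adjoin k {j}) x) {u : L} (hu : u ∈ E) :
    D u ∈ E := by
  have hle : IntermediateField.adjoin k {j} ≤ stableField D hadd hmul hk E := by
    rw [IntermediateField.adjoin_simple_le_iff]
    exact ⟨hjE, hDj⟩
  have hleE : IntermediateField.adjoin k {j} ≤ E := fun x hx => (hle hx).1
  exact deriv_mem_of_separable D hadd hmul E (IntermediateField.adjoin k {j}) hleE
    (fun x hx => (hle hx).2) hu (hsep u hu)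

end Abstract

section Laurent

open Fermat.Agent.IG.PR.Theta20 Fermat.Agent.M1.Link.PthPower41 Fermat.Agent.M1.Link.ThetaKer41
open ModularCurve

variable {k : Type*} [Field k]

theorem algebraMap_eq_C (c : k) : algebraMap k (LaurentSeries k) c = HahnSeries.C c := by
  have h1 : algebraMap k (PowerSeries k) c = PowerSeries.C c := by simp
  rw [HahnSeries.algebraMap_apply', h1, HahnSeries.ofPowerSeries_C]

/-- **`θ / θ(j)` preserves `E`.** -/
theorem theta_div_mem (j : LaurentSeries k) (hθj : theta j ≠ 0)
    (E : IntermediateField k (LaurentSeries k)) (hjE : j ∈ E)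
    (hsep : ∀ x ∈ E, IsSeparable (Kj j) x) {u : LaurentSeries k} (hu : u ∈ E) :
    theta u / theta j ∈ E := by
  refine deriv_mem_of_adjoin (k := k) (fun x => theta x / theta j) ?_ ?_ ?_ E j hjE ?_ hsep hu
  · intro x y
    show theta (x + y) / theta j = theta x / theta j + theta y / theta j
    rw [map_add, add_div]
  · intro x y
    show theta (x * y) / theta j = theta x / theta j * y + x * (theta y / theta j)
    rw [theta_mul]
    field_simp
  · intro c
    show theta (algebraMap k (LaurentSeries k) c) / theta j = 0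
    rw [algebraMap_eq_C, theta_C, zero_div]
  · show theta j / theta j ∈ E
    rw [div_self hθj]
    exact E.one_mem

variable (p : ℕ) [hp : Fact p.Prime]

theorem theta_jqModC_ne_zero (K : Type*) [Field K] : theta (jqModC K) ≠ 0 := by
  intro h
  have h1 := congrArg (fun f => HahnSeries.coeff f (-1 : ℤ)) h
  simp only [theta_coeff, HahnSeries.coeff_zero] at h1
  have h2 : (jqModC K).coeff (-1) = 1 := ModularCurve.coeff_jqModC_neg_one K
  rw [h2] at h1
  simp at h1

include hp in
/-- `θ u / θ j̄ ∈ κ(N)` for `u ∈ κ(N) = modularFunctionFieldFullC k N`, `k` perfect of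
characteristic `p`. -/
theorem theta_div_mem_fullC (N : ℕ) [NeZero N] (k : Type) [Field k] [CharP k p] [PerfectField k]
    {u : LaurentSeries k} (hu : u ∈ modularFunctionFieldFullC k N) :
    theta u / theta (jqModC k) ∈ modularFunctionFieldFullC k N :=
  theta_div_mem (jqModC k) (theta_jqModC_ne_zero k) (modularFunctionFieldFullC k N)
    (jqModC_mem_full k N)
    (fun _ hx => isSeparable_of_isAlgebraic p (order_jqModC k) (isAlgebraic_of_mem_fullC N k hx)) hu

include hp in
/-- `θlog u / θ j̄ = θ u / u / θ j̄ ∈ κ(N)` for `u ∈ κ(N)`. -/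
theorem dlog_div_mem_fullC (N : ℕ) [NeZero N] (k : Type) [Field k] [CharP k p] [PerfectField k]
    {u : LaurentSeries k} (hu : u ∈ modularFunctionFieldFullC k N) :
    theta u / u / theta (jqModC k) ∈ modularFunctionFieldFullC k N := by
  have h1 : theta u / u / theta (jqModC k) = theta u / theta (jqModC k) * u⁻¹ := by
    rw [div_div, div_eq_mul_inv, div_eq_mul_inv, mul_inv]
    ring
  rw [h1]
  exact (modularFunctionFieldFullC k N).mul_mem (theta_div_mem_fullC p N k hu)
    ((modularFunctionFieldFullC k N).inv_mem hu)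

end Laurent

end Fermat.Agent.M1.Link.DlogField60
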