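/-
M1 (row 38, S44), chapter LINK, brick LK1 (helper44): the FORMAL weight-2 Hecke operators on
coefficient sequences, and the transfer of a polynomial relation `s(T) = 0` in the Hecke algebra
of cusp forms to the reduction of the `q`-expansion of a cusp form with integral coefficients.

* `Tf ℓ b n = b (n ℓ) + [ℓ ∣ n] ℓ · b (n / ℓ)` on sequences `b : ℕ → R`;
* `Tf_comp_ringHom` : `Tf` commutes with coefficientwise ring homomorphisms;
* `qCoeff_heckeTLin_eq_Tf` : `qCoeff (T_ℓ f) = Tf ℓ (qCoeff f)` (from `S49.qCoeff_heckeTLin`);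
* `eval_smul_eq_zero` : if `s(T) = 0` in `heckeAlgebra N 2 S'`, `f` is a cusp form whose
  `q`-coefficients are `ι (c n)` with `c : ℕ → A`, `ι : A →+* ℂ` injective, and the reduction
  `red ∘ c` (`red : A →+* k`) is a formal eigen-sequence (`Tf ℓ_i (red ∘ c) = a_i • (red ∘ c)`), then
  `s(a) • (red ∘ c) = 0`.
-/
import Mathlib
import Fermat.Agent.S49.QExp

set_option autoImplicit false

open CuspForm CongruenceSubgroup ModularFormClass UpperHalfPlane

namespace Fermat.Agent.M1.Link.FormalHecke44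

/-! ### The formal operators -/

section Formal

variable {R R' : Type*} [CommRing R] [CommRing R']

/-- The formal Hecke operator of weight `2` at `ℓ` on coefficient sequences. -/
def Tf (ℓ : ℕ) (b : ℕ → R) : ℕ → R :=
  fun n => b (n * ℓ) + if ℓ ∣ n then (ℓ : R) * b (n / ℓ) else 0

theorem Tf_apply (ℓ : ℕ) (b : ℕ → R) (n : ℕ) :
    Tf ℓ b n = b (n * ℓ) + if ℓ ∣ n then (ℓ : R) * b (n / ℓ) else 0 := rfl

theorem Tf_zero (ℓ : ℕ) : Tf ℓ (0 : ℕ → R) = 0 := by
  funext n
  simp [Tf_apply]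

theorem Tf_add (ℓ : ℕ) (b b' : ℕ → R) : Tf ℓ (b + b') = Tf ℓ b + Tf ℓ b' := by
  funext n
  simp only [Tf_apply, Pi.add_apply]
  split_ifs <;> ring

theorem Tf_smul (ℓ : ℕ) (c : R) (b : ℕ → R) : Tf ℓ (c • b) = c • Tf ℓ b := by
  funext n
  simp only [Tf_apply, Pi.smul_apply, smul_eq_mul]
  split_ifs <;> ring

theorem Tf_zsmul (ℓ : ℕ) (c : ℤ) (b : ℕ → R) : Tf ℓ (c • b) = c • Tf ℓ b := by
  have h : (c • b : ℕ → R) = (c : R) • b := by
    funext n
    simp
  have h' : (c • Tf ℓ b : ℕ → R) = (c : R) • Tf ℓ b := by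
    funext n
    simp
  rw [h, h', Tf_smul]

/-- `Tf` commutes with coefficientwise ring homomorphisms. -/
theorem Tf_comp_ringHom (φ : R →+* R') (ℓ : ℕ) (b : ℕ → R) :
    Tf ℓ (φ ∘ b) = φ ∘ Tf ℓ b := by
  funext n
  simp only [Tf_apply, Function.comp_apply, map_add]
  split_ifs
  · rw [map_mul, map_natCast]
  · rw [map_zero]

/-- A scalar multiple of an eigen-sequence is an eigen-sequence. -/
theorem Tf_zsmul_of_eigen {ℓ : ℕ} {b : ℕ → R} {a : ℤ} (h : Tf ℓ b = a • b) (c : ℤ) :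
    Tf ℓ (c • b) = a • (c • b) := by
  rw [Tf_zsmul, h, smul_comm]

end Formal

/-! ### Cusp forms -/

section Cusp

variable {N : ℕ} [NeZero N]

open Fermat.Agent.S49

omit [NeZero N] in
/-- `qCoeff (T_ℓ f) = Tf ℓ (qCoeff f)`. -/
theorem qCoeff_heckeTLin_eq_Tf {ℓ : ℕ} (hℓ : ℓ.Prime) (hℓN : ¬ ℓ ∣ N)
    (f : CuspForm (Gamma0 N) 2) :
    (fun n => qCoeff ⇑(CuspForm.heckeTLin 2 hℓ hℓN f) n) = Tf ℓ (fun n => qCoeff ⇑f n) := by
  funext n
  rw [qCoeff_heckeTLin hℓ hℓN f n, Tf_apply]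

variable {S' : Set ℕ} {σ : Type*}

/-- **LK1.** A polynomial relation `s(T) = 0` in the Hecke algebra of weight-2 cusp forms of level
`N` forces `s(a) • b = 0` for every formal eigen-sequence `b` (eigenvalues `a`) which is the
reduction of the `q`-expansion of a cusp form with coefficients in `A`. -/
theorem eval_smul_eq_zero
    (ℓ : σ → ℕ) (hℓ : ∀ i, (ℓ i).Prime) (hℓN : ∀ i, ¬ ℓ i ∣ N)
    (T : σ → ↥(heckeAlgebra N 2 S'))
    (hT : ∀ i, ((T i : ↥(heckeAlgebra N 2 S')) :
      Module.End ℂ (CuspForm (Gamma0 N) 2)) = CuspForm.heckeTLin 2 (hℓ i) (hℓN i))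
    {A k : Type*} [CommRing A] [CommRing k] (ι : A →+* ℂ) (hι : Function.Injective ι)
    (red : A →+* k) (a : σ → ℤ)
    (s : MvPolynomial σ ℤ) (hs : MvPolynomial.aeval T s = 0)
    (f : CuspForm (Gamma0 N) 2) (c : ℕ → A) (hc : ∀ n, qCoeff ⇑f n = ι (c n))
    (heig : ∀ i, Tf (ℓ i) (red ∘ c) = a i • (red ∘ c)) :
    MvPolynomial.eval a s • (red ∘ c) = 0 := by
  -- the general statement, by induction on `s`
  have key : ∀ s : MvPolynomial σ ℤ, ∀ (f : CuspForm (Gamma0 N) 2) (c : ℕ → A),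
      (∀ n, qCoeff ⇑f n = ι (c n)) → (∀ i, Tf (ℓ i) (red ∘ c) = a i • (red ∘ c)) →
      ∃ c' : ℕ → A,
        (∀ n, qCoeff ⇑(((MvPolynomial.aeval T s : ↥(heckeAlgebra N 2 S')) :
          Module.End ℂ (CuspForm (Gamma0 N) 2)) f) n = ι (c' n)) ∧
        red ∘ c' = MvPolynomial.eval a s • (red ∘ c) := by
    intro s
    induction s using MvPolynomial.induction_on with
    | C z =>
      intro f c hc _
      refine ⟨z • c, fun n => ?_, ?_⟩
      · rw [MvPolynomial.aeval_C]
        have h1 : ((algebraMap ℤ ↥(heckeAlgebra N 2 S') z : ↥(heckeAlgebra N 2 S')) :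
            Module.End ℂ (CuspForm (Gamma0 N) 2)) = algebraMap ℤ _ z := rfl
        rw [h1, Module.algebraMap_end_apply, qCoeff_zsmul, hc n, Pi.smul_apply, zsmul_eq_mul,
          map_mul, map_intCast]
      · rw [MvPolynomial.eval_C]
        funext n
        simp only [Function.comp_apply, Pi.smul_apply, map_zsmul]
    | add p q hp hq =>
      intro f c hc he
      obtain ⟨cp, hcp, hrp⟩ := hp f c hc he
      obtain ⟨cq, hcq, hrq⟩ := hq f c hc he
      refine ⟨cp + cq, fun n => ?_, ?_⟩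
      · rw [map_add]
        have h1 : (((MvPolynomial.aeval T p + MvPolynomial.aeval T q :
            ↥(heckeAlgebra N 2 S')) : Module.End ℂ (CuspForm (Gamma0 N) 2))) =
            ((MvPolynomial.aeval T p : ↥(heckeAlgebra N 2 S')) :
              Module.End ℂ (CuspForm (Gamma0 N) 2)) +
            ((MvPolynomial.aeval T q : ↥(heckeAlgebra N 2 S')) :
              Module.End ℂ (CuspForm (Gamma0 N) 2)) := rfl
        rw [h1, LinearMap.add_apply, qCoeff_add, hcp n, hcq n, Pi.add_apply, map_add]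
      · rw [map_add, add_smul, ← hrp, ← hrq]
        funext n
        simp only [Function.comp_apply, Pi.add_apply, map_add]
    | mul_X p i hp =>
      intro f c hc he
      -- apply the induction hypothesis to `T_i f`, whose coefficients are `Tf (ℓ i) c`
      have hc1 : ∀ n, qCoeff ⇑(CuspForm.heckeTLin 2 (hℓ i) (hℓN i) f) n =
          ι (Tf (ℓ i) c n) := by
        intro n
        rw [qCoeff_heckeTLin (hℓ i) (hℓN i) f n, Tf_apply, hc, map_add]
        split_ifs
        · rw [map_mul, map_natCast, hc]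
        · rw [map_zero]
      have hred1 : red ∘ Tf (ℓ i) c = a i • (red ∘ c) := by
        rw [← Tf_comp_ringHom, he i]
      have he1 : ∀ j, Tf (ℓ j) (red ∘ Tf (ℓ i) c) = a j • (red ∘ Tf (ℓ i) c) := by
        intro j
        rw [hred1]
        exact Tf_zsmul_of_eigen (he j) (a i)
      obtain ⟨c', hc', hr'⟩ := hp (CuspForm.heckeTLin 2 (hℓ i) (hℓN i) f) (Tf (ℓ i) c) hc1 he1
      refine ⟨c', fun n => ?_, ?_⟩
      · rw [map_mul, MvPolynomial.aeval_X]
        have h1 : (((MvPolynomial.aeval T p * T i : ↥(heckeAlgebra N 2 S')) :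
            Module.End ℂ (CuspForm (Gamma0 N) 2))) =
            ((MvPolynomial.aeval T p : ↥(heckeAlgebra N 2 S')) :
              Module.End ℂ (CuspForm (Gamma0 N) 2)) *
            ((T i : ↥(heckeAlgebra N 2 S')) : Module.End ℂ (CuspForm (Gamma0 N) 2)) := rfl
        rw [h1, Module.End.mul_apply, hT i]
        exact hc' n
      · rw [hr', hred1, map_mul, MvPolynomial.eval_X, smul_smul]
  obtain ⟨c', hc', hr'⟩ := key s f c hc heig
  rw [← hr']
  funext n
  have h0 : ι (c' n) = 0 := by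
    rw [← hc' n, hs]
    have : ((0 : ↥(heckeAlgebra N 2 S')) : Module.End ℂ (CuspForm (Gamma0 N) 2)) = 0 := rfl
    rw [this, LinearMap.zero_apply, qCoeff_zero_form]
  have h1 : c' n = 0 := hι (by rw [h0, map_zero])
  simp [Function.comp_apply, h1]

end Cusp

end Fermat.Agent.M1.Link.FormalHecke44
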