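/-
M1 / LINK, brick LK5a (helper54): **the residue theorem in every characteristic.**

For a function field `F / K` satisfying `LSpace.LHyp K F` (all places of degree one with residue field
`K`, principal divisors are finitely supported of degree `0`) and Riemann's inequality, Tate's abstract
residues `res_v (f dg) := AbsResidue.res O_v f g` satisfy `∑ᵥ res_v (f dg) = 0`.  No hypothesis on the
characteristic, no `IsAlgClosed`, no `FF1Data`: this is `RR/ResidueGlob` with the weak counting lemmas
of `AdelesWeak54` / `H1FiniteWeak54`.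

* `global_fp`, `global_zero`      : (GLOB0) for the adeles;
* `residueData HL hR`             : helper9's `ResidueThm.ResidueData K F`;
* `finsum_res_eq_zero`            : the residue theorem for `f dg`;
* `res_eq_zero_of_mem`, `finite_support_res`, bilinearity helpers.
-/
import Mathlib
import Fermat.Agent.RR.ResidueGlob
import Fermat.Agent.M1.Link.H1FiniteWeak54

set_option autoImplicit false

namespace Fermat.Agent.M1.Link.ResWeak54

open AlgebraicCurve Fermat.Agent.RR Fermat.Agent.RR.Commens Fermat.Agent.RR.AbsResidue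
  Fermat.Agent.RR.ResidueThm Fermat.Agent.RR.ResidueGlob Fermat.Agent.X0.FF
  Fermat.Agent.M1.Link.AdelesWeak54

variable {K F : Type*} [Field K] [Field F] [Algebra K F]

/-- Riemann's inequality, as a hypothesis. -/
def RiemannIneq (K F : Type*) [Field K] [Field F] [Algebra K F] : Prop :=
  ∃ γ : ℤ, ∀ D : Divisor K F,
    Divisor.degree D + 1 - γ ≤ (Module.finrank K (riemannRochSpace D) : ℤ)

/-- Multiplication by `f` maps `A(0)` into a subspace commensurable with `A(0)`. -/
theorem inE_mulR (HL : LSpace.LHyp K F) (f : F) :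
    InE (repartitionsOf (0 : Divisor K F)) (rt_mulR f) := by
  by_cases hf : f = 0
  · rw [hf, rg_mulR_zero]; exact inE_zero
  · have hle := rg_map_mulR_le (Riemann.poleDiv HL hf) hf (fun v => by
      rw [Riemann.poleDiv_apply]
      have := le_max_right 0 (-(v.ord f))
      omega)
    have hfin := (finrank_repartitionsOf (WeakFF.of_lHyp HL) (Riemann.poleDiv_nonneg HL hf)).1
    exact (rg_prec_of_finite_map_mkQ hfin).mono_left hle

/-- The global commutator `[P f, g]` on the adeles is finite potent. -/
theorem global_fp (HL : LSpace.LHyp K F) (f g : F) (P : Module.End K ↥(repartitions K F))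
    (hP : IsProj (repartitionsOf (0 : Divisor K F)) P) :
    IsFinitePotent (rt_globalComm P f g) := by
  have h0 : InE0 (repartitionsOf (0 : Divisor K F))
      (P * rt_mulR f * rt_mulR g - rt_mulR g * (P * rt_mulR f)) :=
    commutator_proj_inE0 (rg_mulR_comm f g) (inE_mulR HL f) (inE_mulR HL g) hP
  have h1 : rt_globalComm P f g =
      P * rt_mulR f * rt_mulR g - rt_mulR g * (P * rt_mulR f) := by
    rw [rt_globalComm, mul_assoc (rt_mulR g)]
  rw [h1, isFinitePotent_iff]
  refine ⟨2, ?_⟩
  rw [pow_two]
  exact h0.finite_range_mul h0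

/-- **(GLOB0) for the adeles**: the trace of the global commutator vanishes. -/
theorem global_zero (HL : LSpace.LHyp K F) (hR : RiemannIneq K F) (f g : F)
    (P : Module.End K ↥(repartitions K F))
    (hP : IsProj (repartitionsOf (0 : Divisor K F)) P) :
    fpTrace (rt_globalComm P f g) = 0 := by
  have h1 : rt_globalComm P f g =
      P * rt_mulR f * rt_mulR g - rt_mulR g * (P * rt_mulR f) := by
    rw [rt_globalComm, mul_assoc (rt_mulR g)]
  rw [h1, ← res_eq_of_isProj (rg_mulR_comm f g) (inE_mulR HL f) (inE_mulR HL g) hP]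
  exact rg_res_eq_zero_of_compl (rg_mulR_comm f g) (inE_mulR HL f) (inE_mulR HL g)
    (rg_map_mulR_principal_le f) (rg_map_mulR_principal_le g) (rg_finite_inf HL)
    (H1FiniteWeak54.finite_H1 (WeakFF.of_lHyp HL) HL hR 0)

theorem finite_poles (HL : LSpace.LHyp K F) (f : F) : {v : Place K F | v.ord f < 0}.Finite := by
  rcases eq_or_ne f 0 with rfl | hf
  · simp
  · exact ((WeakFF.of_lHyp HL).finite_support_ord f hf).subset fun v hv => by
      show v.ord f ≠ 0
      have : v.ord f < 0 := hv
      omega

/-- helper9's `ResidueThm.ResidueData`, in every characteristic: the local residue is Tate's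
`res O_v f g`. -/
noncomputable def residueData (HL : LSpace.LHyp K F) (hR : RiemannIneq K F) :
    ResidueThm.ResidueData K F where
  res v f g := res (LocalPrep.ringSub v) (LocalRes.mulOp (K := K) f) (LocalRes.mulOp g)
  res_eq v f g _ hπ := ResidueLocalInst.res_eq_fpTrace_localComm v (HL.residue v) f g hπ
  global_fp := global_fp HL
  global_zero := global_zero HL hR
  finite_poles := finite_poles HL

/-- **The residue theorem for `f dg`**, in every characteristic. -/
theorem finsum_res_eq_zero (HL : LSpace.LHyp K F) (hR : RiemannIneq K F) (f g : F) :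
    ∑ᶠ v : Place K F, (residueData HL hR).res v f g = 0 :=
  (residueData HL hR).finsum_res_eq_zero f g


/-! ### Differential form -/

section Differential

open KaehlerDifferential Fermat.Agent.RR.LocalRes Fermat.Agent.RR.LocalResMain

/-- The residue at `v` as a `K`-linear form on Kähler differentials (Tate's residue). -/
noncomputable def residue (HL : LSpace.LHyp K F) (v : Place K F) : Ω[F⁄K] →ₗ[K] K :=
  resΩ v (HL.residue v)

theorem residue_smul_D (HL : LSpace.LHyp K F) (hR : RiemannIneq K F) (v : Place K F) (f g : F) :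
    residue HL v (f • D K F g) = (residueData HL hR).res v f g :=
  resΩ_smul_D v _ f g

/-- Finiteness of the support of `v ↦ res_v ω`. -/
theorem finite_support_residue (HL : LSpace.LHyp K F) (hR : RiemannIneq K F) (ω : Ω[F⁄K]) :
    (Function.support fun v : Place K F => residue HL v ω).Finite :=
  (residueData HL hR).finite_support_resΩ (residue HL) (residue_smul_D HL hR) ω

/-- **The residue theorem** `∑ᵥ res_v ω = 0`, in every characteristic. -/
theorem finsum_residue_eq_zero (HL : LSpace.LHyp K F) (hR : RiemannIneq K F) (ω : Ω[F⁄K]) :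
    ∑ᶠ v : Place K F, residue HL v ω = 0 :=
  (residueData HL hR).finsum_resΩ_eq_zero (residue HL) (residue_smul_D HL hR) ω

/-- `res_v (a dg) = 0` for `a, g ∈ O_v`. -/
theorem residue_smul_D_eq_zero (HL : LSpace.LHyp K F) (v : Place K F) {a g : F}
    (ha : a ∈ v.toValuationSubring) (hg : g ∈ v.toValuationSubring) :
    residue HL v (a • D K F g) = 0 :=
  resΩ_smul_D_eq_zero v _ ha hg

/-- `res_v (t⁻¹ dt) = 1` for a uniformizer `t`. -/
theorem residue_inv_smul_D_uniformizer (HL : LSpace.LHyp K F) (v : Place K F) {t : F}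
    (ht : v.ord t = 1) : residue HL v (t⁻¹ • D K F t) = 1 :=
  resΩ_inv_smul_D_uniformizer v _ ht

/-- The logarithmic differential `df / f`. -/
noncomputable def dlog (K : Type*) {F : Type*} [Field K] [Field F] [Algebra K F] (f : F) : Ω[F⁄K] :=
  f⁻¹ • D K F f

theorem dlog_mul {f g : F} (hf : f ≠ 0) (hg : g ≠ 0) : dlog K (f * g) = dlog K f + dlog K g := by
  unfold dlog
  rw [Derivation.leibniz, smul_add, smul_smul, smul_smul, mul_inv, add_comm]
  congr 1
  · congr 1
    field_simp
  · congr 1
    field_simp

theorem dlog_one : dlog K (1 : F) = 0 := by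
  unfold dlog
  rw [Derivation.map_one_eq_zero, smul_zero]

theorem dlog_inv {f : F} (hf : f ≠ 0) : dlog K f⁻¹ = -dlog K f := by
  have h := dlog_mul (K := K) hf (inv_ne_zero hf)
  rw [mul_inv_cancel₀ hf, dlog_one] at h
  exact (neg_eq_of_add_eq_zero_right h.symm).symm

theorem dlog_pow {f : F} (hf : f ≠ 0) (n : ℕ) : dlog K (f ^ n) = (n : ℤ) • dlog K f := by
  induction n with
  | zero => simp [dlog_one]
  | succ n ih =>
    rw [pow_succ, dlog_mul (pow_ne_zero n hf) hf, ih]
    push_cast
    rw [add_smul, one_smul]

theorem dlog_zpow {f : F} (hf : f ≠ 0) (n : ℤ) : dlog K (f ^ n) = n • dlog K f := by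
  cases n with
  | ofNat n => simpa using dlog_pow (K := K) hf n
  | negSucc n =>
    rw [zpow_negSucc, dlog_inv (pow_ne_zero _ hf), dlog_pow hf, Int.negSucc_eq, neg_smul]
    push_cast
    rfl

/-- **Logarithmic residues**: for `g ∈ O_v` with value `c` at `v`,
`res_v (g df / f) = ord_v (f) · c`.  No hypothesis on the characteristic. -/
theorem residue_smul_dlog (HL : LSpace.LHyp K F) (v : Place K F) {f g : F} (hf : f ≠ 0) (c : K)
    (hc : g = algebraMap K F c ∨ 0 < v.ord (g - algebraMap K F c)) :
    residue HL v (g • dlog K f) = (v.ord f : K) * c := by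
  set t : F := ((ffu v : v.toValuationSubring) : F) with ht
  have ht1 : v.ord t = 1 := ffu_ord v
  have ht0 : t ≠ 0 := ffu_ne_zero v
  have htmem : t ∈ v.toValuationSubring := (ffu v).2
  set n : ℤ := v.ord f with hn
  set u : F := f * t ^ (-n) with hu
  have hu0 : u ≠ 0 := mul_ne_zero hf (zpow_ne_zero _ ht0)
  have hordu : v.ord u = 0 := by
    rw [hu, v.ord_mul hf (zpow_ne_zero _ ht0), v.ord_zpow, ht1]
    ring
  have hfu : f = u * t ^ n := by
    rw [hu, mul_assoc, ← zpow_add₀ ht0, neg_add_cancel, zpow_zero, mul_one]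
  have hdl : dlog K f = dlog K u + n • dlog K t := by
    rw [hfu, dlog_mul hu0 (zpow_ne_zero _ ht0), dlog_zpow ht0]
  -- `g ∈ O_v`
  have hgmem : g ∈ v.toValuationSubring := by
    rcases hc with hc | hc
    · rw [hc]
      exact (algebraMap K v.toValuationSubring c).2
    · have h1 : g - algebraMap K F c ∈ v.toValuationSubring := ffp_mem_of_ord_nonneg v hc.le
      have h2 : algebraMap K F c ∈ v.toValuationSubring := (algebraMap K v.toValuationSubring c).2
      have := v.toValuationSubring.add_mem _ _ h1 h2
      simpa using this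
  have humem : u ∈ v.toValuationSubring := ffp_mem_of_ord_nonneg v hordu.ge
  have huinv : u⁻¹ ∈ v.toValuationSubring :=
    ffp_mem_of_ord_nonneg v (by rw [v.ord_inv, hordu, neg_zero])
  -- first term
  have h1 : residue HL v (g • dlog K u) = 0 := by
    unfold dlog
    rw [smul_smul]
    exact residue_smul_D_eq_zero HL v (v.toValuationSubring.mul_mem _ _ hgmem huinv) humem
  -- second term
  set h : F := g - algebraMap K F c with hh
  have hhmem : h * t⁻¹ ∈ v.toValuationSubring := by
    rcases hc with hc | hc
    · rw [hh, hc, sub_self, zero_mul]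
      exact zero_mem _
    · have hne : h ≠ 0 := by
        intro h0
        rw [h0, v.ord_zero] at hc
        exact lt_irrefl _ hc
      apply ffp_mem_of_ord_nonneg
      rw [v.ord_mul hne (inv_ne_zero ht0), v.ord_inv, ht1]
      omega
  have h2 : residue HL v (g • dlog K t) = c := by
    have hg : g = algebraMap K F c + h := by rw [hh]; ring
    unfold dlog
    have e1 : (g * t⁻¹) • D K F t = c • (t⁻¹ • D K F t) + (h * t⁻¹) • D K F t := by
      rw [hg, add_mul, add_smul, ← smul_smul, algebraMap_smul]
    rw [smul_smul, e1, map_add, map_smul, residue_inv_smul_D_uniformizer HL v ht1,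
      residue_smul_D_eq_zero HL v hhmem htmem, add_zero, smul_eq_mul, mul_one]
  rw [hdl, smul_add, map_add, h1, zero_add, smul_comm, map_zsmul, h2, zsmul_eq_mul]

/-- In characteristic `p`, `res_v (g df / f) = 0` as soon as `p ∣ ord_v f` and `g` is regular at
`v`. -/
theorem residue_smul_dlog_eq_zero (HL : LSpace.LHyp K F) (v : Place K F) (p : ℕ) [CharP K p]
    {f g : F} (hf : f ≠ 0) (hg : g ∈ v.toValuationSubring) (hp : (p : ℤ) ∣ v.ord f) :
    residue HL v (g • dlog K f) = 0 := by
  obtain ⟨c, hc⟩ := HL.residue v g hg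
  rw [residue_smul_dlog HL v hf c hc]
  obtain ⟨m, hm⟩ := hp
  rw [hm]
  push_cast
  rw [CharP.cast_eq_zero K p, zero_mul, zero_mul]

end Differential

end Fermat.Agent.M1.Link.ResWeak54
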