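/-
M1 / LINK, abstract core of brick I (KEY) (helper54).

`F / k` a function field in characteristic `p` satisfying `LSpace.LHyp` and Riemann's inequality,
`ι : F →ₐ[k] k((q))` an embedding, `vinf` the place at which Tate's residue is the coefficient of
`q⁻¹` (brick D RESQ, entering as the hypothesis `hresq`).  If `u ∈ Fˣ` has `p ∣ ord_Q u` at every place
`Q ≠ vinf`, and `g ∈ F` is regular off `vinf`, then

  `∑_{n ≥ 0} (ι g).coeff (-n) * (θlog (ι u)).coeff n = 0`,   `θlog U = q U' / U`.

Proof: the residue theorem (`ResWeak54.finsum_residue_eq_zero`) for `g • dlog u`; the terms at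
`Q ≠ vinf` vanish (`ResWeak54.residue_smul_dlog_eq_zero`), the term at `vinf` is
`(ι g · θlog (ι u)).coeff 0`, and `θlog (ι u)` has no negative coefficients.
-/
import Mathlib
import Fermat.Agent.M1.Link.ResWeak54

set_option autoImplicit false

namespace Fermat.Agent.M1.Link.KeyAbs54

open AlgebraicCurve KaehlerDifferential Fermat.Agent.RR Fermat.Agent.M1.Link.ResWeak54

section Formal

variable {k : Type*} [Field k]

/-- `θlog U = q U' / U`, the logarithmic derivative for `θ = q d/dq`. -/
noncomputable def thetaLog (U : LaurentSeries k) : LaurentSeries k :=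
  HahnSeries.single 1 1 * LaurentSeries.derivative k U * U⁻¹

theorem derivative_coeff (U : LaurentSeries k) (n : ℤ) :
    (LaurentSeries.derivative k U).coeff n = (n + 1) • U.coeff (n + 1) := by
  rw [LaurentSeries.derivative_apply, LaurentSeries.hasseDeriv_coeff]
  simp

/-- `order U - 1 ≤ order U'`. -/
theorem order_sub_one_le_order_derivative {U : LaurentSeries k}
    (hU' : LaurentSeries.derivative k U ≠ 0) :
    U.order - 1 ≤ (LaurentSeries.derivative k U).order := by
  have h : (LaurentSeries.derivative k U).coeff (LaurentSeries.derivative k U).order ≠ 0 :=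
    fun h0 => hU' (HahnSeries.coeff_order_eq_zero.1 h0)
  rw [derivative_coeff] at h
  have h2 : U.coeff ((LaurentSeries.derivative k U).order + 1) ≠ 0 := by
    intro h0
    rw [h0, smul_zero] at h
    exact h rfl
  have := HahnSeries.order_le_of_coeff_ne_zero h2
  omega

/-- `θlog U` is a power series: its coefficients of negative index vanish. -/
theorem thetaLog_coeff_of_neg (U : LaurentSeries k) {n : ℤ} (hn : n < 0) :
    (thetaLog U).coeff n = 0 := by
  by_cases hU : U = 0
  · rw [thetaLog, hU, inv_zero, mul_zero, HahnSeries.coeff_zero]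
  by_cases hU' : LaurentSeries.derivative k U = 0
  · rw [thetaLog, hU', mul_zero, zero_mul, HahnSeries.coeff_zero]
  have hq : (HahnSeries.single (1 : ℤ) (1 : k)) ≠ 0 := HahnSeries.single_ne_zero one_ne_zero
  have hUi : U⁻¹ ≠ 0 := inv_ne_zero hU
  have ho1 : (U * U⁻¹).order = U.order + (U⁻¹).order := HahnSeries.order_mul hU hUi
  rw [mul_inv_cancel₀ hU, HahnSeries.order_one] at ho1
  have ho2 : (thetaLog U).order =
      (1 : ℤ) + (LaurentSeries.derivative k U).order + (U⁻¹).order := by
    rw [thetaLog, HahnSeries.order_mul (mul_ne_zero hq hU') hUi, HahnSeries.order_mul hq hU',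
      HahnSeries.order_single one_ne_zero]
  have ho3 := order_sub_one_le_order_derivative hU'
  apply HahnSeries.coeff_eq_zero_of_lt_order
  omega

/-- The constant coefficient of `G · L` for a power series `L`, as a sum over `ℕ`. -/
theorem coeff_zero_mul_of_nonneg (G L : LaurentSeries k) (hL : ∀ n : ℤ, n < 0 → L.coeff n = 0)
    (S : Finset ℕ) (hS : ∀ n : ℕ, G.coeff (-(n : ℤ)) ≠ 0 → n ∈ S) :
    (G * L).coeff 0 = ∑ n ∈ S, G.coeff (-(n : ℤ)) * L.coeff (n : ℤ) := by
  classical
  rw [HahnSeries.coeff_mul]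
  symm
  -- restrict `S` to the indices with nonzero term, then biject with the antidiagonal
  rw [← Finset.sum_filter_ne_zero]
  refine Finset.sum_bij (fun n _ => ((-(n : ℤ), (n : ℤ)) : ℤ × ℤ)) ?_ ?_ ?_ ?_
  · intro n hn
    rw [Finset.mem_filter] at hn
    rw [Finset.mem_antidiagonal]
    refine ⟨?_, ?_, by simp⟩
    · exact fun h0 => hn.2 (by rw [h0, zero_mul])
    · exact fun h0 => hn.2 (by rw [h0, mul_zero])
  · intro a _ b _ hab
    have h2 : ((a : ℕ) : ℤ) = (b : ℤ) := congrArg Prod.snd hab
    exact_mod_cast h2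
  · rintro ⟨i, j⟩ hij
    rw [Finset.mem_antidiagonal] at hij
    obtain ⟨hi, hj, hsum⟩ := hij
    simp only at hi hj hsum
    have hj0 : 0 ≤ j := by
      by_contra hneg
      exact hj (hL j (not_le.1 hneg))
    have hi' : i = -j := by omega
    refine ⟨j.toNat, ?_, ?_⟩
    · rw [Finset.mem_filter]
      have hcast : ((j.toNat : ℕ) : ℤ) = j := Int.toNat_of_nonneg hj0
      refine ⟨hS _ ?_, ?_⟩
      · rw [hcast, ← hi']
        exact hi
      · rw [hcast, ← hi']
        exact mul_ne_zero hi hj
    · have hcast : ((j.toNat : ℕ) : ℤ) = j := Int.toNat_of_nonneg hj0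
      rw [hcast, hi']
  · intro n _
    rfl

end Formal

section Key

variable {k F : Type*} [Field k] [Field F] [Algebra k F]

/-- **Abstract KEY.** -/
theorem key_abs (p : ℕ) [CharP k p] (HL : LSpace.LHyp k F) (hR : RiemannIneq k F)
    (vinf : Place k F) (ι : F →ₐ[k] LaurentSeries k)
    (hresq : ∀ f g : F, residue HL vinf (g • D k F f) =
      (ι g * LaurentSeries.derivative k (ι f)).coeff (-1))
    (u : F) (hu : u ≠ 0) (hp : ∀ Q : Place k F, Q ≠ vinf → (p : ℤ) ∣ Q.ord u)
    (g : F) (hg : ∀ Q : Place k F, Q ≠ vinf → g ∈ Q.toValuationSubring)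
    (S : Finset ℕ) (hS : ∀ n : ℕ, (ι g).coeff (-(n : ℤ)) ≠ 0 → n ∈ S) :
    ∑ n ∈ S, (ι g).coeff (-(n : ℤ)) * (thetaLog (ι u)).coeff (n : ℤ) = 0 := by
  -- the residue theorem
  have hsum := finsum_residue_eq_zero HL hR (g • dlog k u)
  rw [finsum_eq_single _ vinf (fun Q hQ =>
    residue_smul_dlog_eq_zero HL Q p hu (hg Q hQ) (hp Q hQ))] at hsum
  -- the term at `vinf`
  have h1 : g • dlog k u = (g * u⁻¹) • D k F u := by
    unfold dlog
    rw [smul_smul]
  rw [h1, hresq, map_mul, map_inv₀] at hsum
  -- rewrite as the constant coefficient of `ι g * θlog (ι u)`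
  have h2 : ι g * thetaLog (ι u) =
      HahnSeries.single 1 1 * (ι g * (ι u)⁻¹ * LaurentSeries.derivative k (ι u)) := by
    unfold thetaLog
    ring
  have h3 : (ι g * thetaLog (ι u)).coeff 0 = 0 := by
    have := HahnSeries.coeff_single_mul_add (r := (1 : k))
      (x := ι g * (ι u)⁻¹ * LaurentSeries.derivative k (ι u)) (a := (-1 : ℤ)) (b := (1 : ℤ))
    rw [one_mul, hsum] at this
    rw [h2]
    simpa using this
  rw [← coeff_zero_mul_of_nonneg (ι g) (thetaLog (ι u))
    (fun n hn => thetaLog_coeff_of_neg (ι u) hn) S hS]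
  exact h3

end Key

end Fermat.Agent.M1.Link.KeyAbs54
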