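/-
M1 (S44), chapter LINK, brick LK7-d (helper88): **the `θ`-logarithmic derivative of the Hecke norm**,
pure `q`-series algebra.  Mathlib + Prelude (`qExpand`, `coeffMap`) + `IG/PR/Theta20` (`theta = q d/dq`)
+ `ES/KRON/KronCong24` (`twistU`) + `ES/KRON/KronNorm10` (`normProd`).

`k` a field, `l ≥ 1` invertible in `k`, `ζ ∈ k` a primitive `l`-th root of unity, `f ≠ 0` in `k((q))`.
`normProd l ζ f = ∏_{b<l} f(ζ^b q) · f(q^{l²})` is the `q ↦ q^l`-expansion of the function `N_l f` with
`div (N_l f) = T_l (div f)` (`ConjAlpha24.qExpand_normAlong_alpha`).  With `dlog x = θ x / x`: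

  `dlog_eq_Tform_of_normProd : qExpand k l G = normProd l ζ f → dlog G = Tform l (dlog f)`,

`Tform l (∑ a_n q^n) = ∑ (a_{nl} + l a_{n/l}) q^n` the formal weight-2 Hecke operator
(`Tform_coeff`).
-/
import Mathlib
import Fermat.Prelude.Def_ModularCurve_X0ModL
import Fermat.Agent.IG.PR.Theta20
import Fermat.Agent.ES.KRON.KronCong24
import Fermat.Agent.ES.KRON.KronNorm10

set_option autoImplicit false

noncomputable section

open HahnSeries ModularCurve

namespace Fermat.Agent.M1.Link.ThetaLog88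

open Fermat.Agent.IG.PR.Theta20 Fermat.Agent.ES.KRON.KronCong24 Fermat.Agent.ES.KRON.KronNorm10

/-! ### The operators `U_l`, `T_l` on Laurent series -/

section Ring

variable {R : Type*} [CommRing R]

theorem bddBelow_support_comp (l : ℕ) [NeZero l] (f : LaurentSeries R) :
    BddBelow (Function.support fun n : ℤ => f.coeff ((l : ℤ) * n)) := by
  have hm : (0 : ℤ) < l := by exact_mod_cast Nat.pos_of_ne_zero (NeZero.ne l)
  refine ⟨min 0 f.order, fun n hn => ?_⟩
  by_contra hlt
  rw [not_le] at hlt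
  apply hn
  show f.coeff ((l : ℤ) * n) = 0
  apply coeff_eq_zero_of_lt_order
  have h0 : n < 0 := lt_of_lt_of_le hlt (min_le_left _ _)
  have h1 : n < f.order := lt_of_lt_of_le hlt (min_le_right _ _)
  have hm1 : (1 : ℤ) ≤ l := hm
  nlinarith

/-- `U_l (∑ a_n q^n) = ∑ a_{ln} q^n`. -/
def Uform (l : ℕ) [NeZero l] : LaurentSeries R →+ LaurentSeries R where
  toFun f := ofSuppBddBelow (fun n : ℤ => f.coeff ((l : ℤ) * n)) (bddBelow_support_comp l f)
  map_zero' := by
    ext n
    rw [coeff_ofSuppBddBelow]; simp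
  map_add' f g := by
    ext n
    rw [HahnSeries.coeff_add, coeff_ofSuppBddBelow, coeff_ofSuppBddBelow, coeff_ofSuppBddBelow,
      HahnSeries.coeff_add]

@[simp] theorem Uform_coeff (l : ℕ) [NeZero l] (f : LaurentSeries R) (n : ℤ) :
    (Uform l f).coeff n = f.coeff ((l : ℤ) * n) :=
  congrFun (coeff_ofSuppBddBelow (f := fun n : ℤ => f.coeff ((l : ℤ) * n))
    (hf := bddBelow_support_comp l f)) n

theorem natCast_mul_coeff (l : ℕ) (x : LaurentSeries R) (n : ℤ) :
    ((l : LaurentSeries R) * x).coeff n = (l : R) * x.coeff n := by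
  have hN : (l : LaurentSeries R) = HahnSeries.C (l : R) := by simp
  rw [hN, HahnSeries.C_mul_eq_smul, HahnSeries.coeff_smul, smul_eq_mul]

/-- The formal Hecke operator of weight `2`: `T_l = U_l + l V_l`. -/
def Tform (l : ℕ) [NeZero l] (f : LaurentSeries R) : LaurentSeries R :=
  Uform l f + (l : LaurentSeries R) * qExpand R l f

theorem Tform_coeff_mul (l : ℕ) [NeZero l] (f : LaurentSeries R) (m : ℤ) :
    (Tform l f).coeff ((l : ℤ) * m) = f.coeff ((l : ℤ) * ((l : ℤ) * m)) + (l : R) * f.coeff m := by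
  rw [Tform, HahnSeries.coeff_add, Uform_coeff, natCast_mul_coeff, qExpand_coeff_mul]

theorem Tform_coeff_of_not_dvd (l : ℕ) [NeZero l] (f : LaurentSeries R) {n : ℤ}
    (hn : ¬ (l : ℤ) ∣ n) : (Tform l f).coeff n = f.coeff ((l : ℤ) * n) := by
  rw [Tform, HahnSeries.coeff_add, Uform_coeff, natCast_mul_coeff,
    qExpand_coeff_of_not_dvd l f hn, mul_zero, add_zero]

/-- `(T_l f)_n = a_{nl} + [l ∣ n] l a_{n/l}`. -/
theorem Tform_coeff (l : ℕ) [NeZero l] (f : LaurentSeries R) (n : ℤ) :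
    (Tform l f).coeff n =
      f.coeff ((l : ℤ) * n) + if (l : ℤ) ∣ n then (l : R) * f.coeff (n / l) else 0 := by
  have hl0 : (l : ℤ) ≠ 0 := by exact_mod_cast NeZero.ne l
  by_cases hn : (l : ℤ) ∣ n
  · obtain ⟨m, rfl⟩ := hn
    rw [Tform_coeff_mul, if_pos (dvd_mul_right _ _), Int.mul_ediv_cancel_left _ hl0]
  · rw [Tform_coeff_of_not_dvd l f hn, if_neg hn, add_zero]

theorem coeffMap_Uform {S : Type*} [CommRing S] (φ : R →+* S) (l : ℕ) [NeZero l]
    (f : LaurentSeries R) : coeffMap φ (Uform l f) = Uform l (coeffMap φ f) := by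
  ext n
  simp

theorem coeffMap_Tform {S : Type*} [CommRing S] (φ : R →+* S) (l : ℕ) [NeZero l]
    (f : LaurentSeries R) : coeffMap φ (Tform l f) = Tform l (coeffMap φ f) := by
  rw [Tform, Tform, map_add, map_mul, map_natCast, coeffMap_Uform, coeffMap_qExpand]

/-- `θ` commutes with the twist `q ↦ u q`. -/
theorem theta_twistU (u : Rˣ) (f : LaurentSeries R) : theta (twistU u f) = twistU u (theta f) := by
  ext n
  rw [theta_coeff, twistU_coeff, twistU_coeff, theta_coeff]
  ring

/-- `∑_{b<l} φ(ζ^b q) = l · (U_l φ)(q^l)` when the `l`-th roots of unity `ζ^b` sum to zero in every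
non-trivial power. -/
theorem sum_twistU (l : ℕ) [NeZero l] (ζ : Rˣ) (hζ : ζ ^ l = 1)
    (hsum : ∀ n : ℤ, ¬ (l : ℤ) ∣ n → ∑ b ∈ Finset.range l, (((ζ ^ b) ^ n : Rˣ) : R) = 0)
    (φ : LaurentSeries R) :
    ∑ b ∈ Finset.range l, twistU (ζ ^ b) φ = (l : LaurentSeries R) * qExpand R l (Uform l φ) := by
  ext n
  rw [HahnSeries.coeff_sum, natCast_mul_coeff]
  simp only [twistU_coeff]
  rw [← Finset.sum_mul]
  by_cases hn : (l : ℤ) ∣ n
  · obtain ⟨m, rfl⟩ := hn
    rw [qExpand_coeff_mul, Uform_coeff]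
    have : ∀ b ∈ Finset.range l, (((ζ ^ b) ^ ((l : ℤ) * m) : Rˣ) : R) = 1 := by
      intro b _
      rw [← zpow_natCast ζ b, ← zpow_mul, mul_comm (b : ℤ), mul_assoc, zpow_mul, zpow_natCast, hζ,
        one_zpow, Units.val_one]
    rw [Finset.sum_congr rfl this]
    simp
  · rw [hsum n hn, zero_mul, qExpand_coeff_of_not_dvd l _ hn, mul_zero]

end Ring

/-! ### The logarithmic derivative over a field -/

section Field

variable {k : Type*} [Field k]

/-- `dlog x = θ x / x`. -/
def dlog (x : LaurentSeries k) : LaurentSeries k := theta x / x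

theorem dlog_mul {x y : LaurentSeries k} (hx : x ≠ 0) (hy : y ≠ 0) :
    dlog (x * y) = dlog x + dlog y := by
  unfold dlog
  rw [theta_mul]
  field_simp

theorem dlog_one : dlog (1 : LaurentSeries k) = 0 := by
  unfold dlog
  rw [theta_one, zero_div]

theorem dlog_prod {ι : Type*} (s : Finset ι) (x : ι → LaurentSeries k)
    (hx : ∀ i ∈ s, x i ≠ 0) : dlog (∏ i ∈ s, x i) = ∑ i ∈ s, dlog (x i) := by
  classical
  induction s using Finset.induction_on with
  | empty => simp [dlog_one]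
  | insert a s ha ih =>
    rw [Finset.prod_insert ha, Finset.sum_insert ha,
      dlog_mul (hx a (Finset.mem_insert_self a s))
        (Finset.prod_ne_zero_iff.mpr fun i hi => hx i (Finset.mem_insert_of_mem hi)),
      ih fun i hi => hx i (Finset.mem_insert_of_mem hi)]

theorem dlog_twistU (u : kˣ) (x : LaurentSeries k) : dlog (twistU u x) = twistU u (dlog x) := by
  unfold dlog
  rw [theta_twistU, map_div₀]

theorem dlog_qExpand (m : ℕ) [NeZero m] (x : LaurentSeries k) :
    dlog (qExpand k m x) = (m : LaurentSeries k) * qExpand k m (dlog x) := by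
  unfold dlog
  rw [theta_qExpand, map_div₀, mul_div_assoc]

theorem twistU_ne_zero (u : kˣ) {x : LaurentSeries k} (hx : x ≠ 0) : twistU u x ≠ 0 :=
  (map_ne_zero (twistU u)).mpr hx

theorem qExpand_ne_zero (m : ℕ) [NeZero m] {x : LaurentSeries k} (hx : x ≠ 0) :
    qExpand k m x ≠ 0 :=
  (map_ne_zero (qExpand k m)).mpr hx

/-- roots of unity sum to zero in non-trivial powers. -/
theorem sum_zpow_eq_zero {l : ℕ} [NeZero l] {ζ : kˣ} (hζ : IsPrimitiveRoot ζ l) {n : ℤ}
    (hn : ¬ (l : ℤ) ∣ n) : ∑ b ∈ Finset.range l, (((ζ ^ b) ^ n : kˣ) : k) = 0 := by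
  set u : kˣ := ζ ^ n with hu
  have hu1 : u ≠ 1 := by
    intro h1
    exact hn ((hζ.zpow_eq_one_iff_dvd n).mp h1)
  have hul : u ^ l = 1 := by
    rw [hu, ← zpow_natCast, ← zpow_mul, mul_comm, zpow_mul, zpow_natCast, hζ.pow_eq_one, one_zpow]
  have hterm : ∀ b ∈ Finset.range l, (((ζ ^ b) ^ n : kˣ) : k) = (u : k) ^ b := by
    intro b _
    rw [hu, ← Units.val_pow_eq_pow_val, ← zpow_natCast ζ b, ← zpow_mul, mul_comm, zpow_mul,
      zpow_natCast]
  rw [Finset.sum_congr rfl hterm]
  have hgeom := geom_sum_mul (u : k) l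
  have hul' : (u : k) ^ l = 1 := by rw [← Units.val_pow_eq_pow_val, hul, Units.val_one]
  rw [hul', sub_self] at hgeom
  have hne : (u : k) - 1 ≠ 0 := by
    intro h0
    apply hu1
    apply Units.ext
    rw [Units.val_one]
    exact sub_eq_zero.mp h0
  exact (mul_eq_zero.mp hgeom).resolve_right hne

/-- **The `θ`-logarithmic derivative of the Hecke norm**: if `G(q^l) = ∏_b f(ζ^b q) · f(q^{l²})`
then `θ G / G = T_l (θ f / f)`. -/
theorem dlog_eq_Tform_of_normProd {l : ℕ} [NeZero l] (hl : (l : k) ≠ 0) {ζ : kˣ}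
    (hζ : IsPrimitiveRoot ζ l) {f G : LaurentSeries k} (hf : f ≠ 0)
    (hG : qExpand k l G = normProd l ζ f) : dlog G = Tform l (dlog f) := by
  have hlL : (l : LaurentSeries k) ≠ 0 := by
    have hN : (l : LaurentSeries k) = HahnSeries.C (l : k) := by simp
    rw [hN]
    intro h0
    exact hl (HahnSeries.C_injective (by rw [h0, map_zero]))
  -- `dlog` of both sides
  have h1 : dlog (qExpand k l G) = (l : LaurentSeries k) * qExpand k l (dlog G) := dlog_qExpand l G
  have h2 : dlog (normProd l ζ f) =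
      ∑ b ∈ Finset.range l, twistU (ζ ^ b) (dlog f) +
        ((l ^ 2 : ℕ) : LaurentSeries k) * qExpand k (l ^ 2) (dlog f) := by
    unfold normProd
    rw [dlog_mul (Finset.prod_ne_zero_iff.mpr fun b _ => twistU_ne_zero _ hf)
      (qExpand_ne_zero _ hf), dlog_prod _ _ (fun b _ => twistU_ne_zero _ hf), dlog_qExpand]
    congr 1
    exact Finset.sum_congr rfl fun b _ => dlog_twistU _ _
  have h3 : ∑ b ∈ Finset.range l, twistU (ζ ^ b) (dlog f) =
      (l : LaurentSeries k) * qExpand k l (Uform l (dlog f)) :=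
    sum_twistU l ζ hζ.pow_eq_one (fun n hn => sum_zpow_eq_zero hζ hn) _
  have h4 : qExpand k (l ^ 2) (dlog f) = qExpand k l (qExpand k l (dlog f)) := by
    rw [qExpand_qExpand]
    exact qExpand_congr (sq l) _
  have key : (l : LaurentSeries k) * qExpand k l (dlog G) =
      (l : LaurentSeries k) * qExpand k l (Tform l (dlog f)) := by
    rw [← h1, hG, h2, h3, h4, Tform, map_add, map_mul, map_natCast]
    push_cast
    ring
  exact qExpand_injective l (mul_left_cancel₀ hlL key)

end Field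

end Fermat.Agent.M1.Link.ThetaLog88
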