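/-
M1 / LINK (helper54): bridge between `KeyAbs54` (Mathlib's `LaurentSeries.derivative`) and the `θ`-calculus
of the library (`IG/PR/Theta20.theta = q d/dq`, helper88's `ThetaLog88.dlog x = θ x / x`).

* `single_mul_derivative` : `q · U' = θ U`;
* `thetaLog_eq_dlog`      : `KeyAbs54.thetaLog U = ThetaLog88.dlog U`;
* `coeff_neg_one_eq`      : `(G · F').coeff (-1) = (G · θ F).coeff 0`  (the two forms of brick D RESQ);
* `dlog_coeff_of_neg`     : `dlog U` is a power series;
* `dlog_coeff_zero`       : `(dlog U).coeff 0 = ord U` (in `k`);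
* `key_dlog`              : `KeyAbs54.key_abs` with conclusion and RESQ-hypothesis in `θ`-form.
-/
import Mathlib
import Fermat.Agent.M1.Link.KeyAbs54
import Fermat.Agent.M1.Link.ThetaLog88

set_option autoImplicit false

namespace Fermat.Agent.M1.Link.KeyBridge54

open AlgebraicCurve KaehlerDifferential Fermat.Agent.RR
  Fermat.Agent.M1.Link.KeyAbs54 Fermat.Agent.IG.PR.Theta20 Fermat.Agent.M1.Link.ThetaLog88
open Fermat.Agent.M1.Link.ResWeak54 (residue RiemannIneq)

variable {k : Type*} [Field k]

/-- `q · U' = θ U`. -/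
theorem single_mul_derivative (U : LaurentSeries k) :
    HahnSeries.single 1 1 * LaurentSeries.derivative k U = theta U := by
  ext n
  have h := HahnSeries.coeff_single_mul_add (r := (1 : k)) (x := LaurentSeries.derivative k U)
    (a := n - 1) (b := (1 : ℤ))
  rw [sub_add_cancel, one_mul, derivative_coeff, sub_add_cancel] at h
  rw [h, theta_coeff, zsmul_eq_mul]

theorem thetaLog_eq_dlog (U : LaurentSeries k) : thetaLog U = dlog U := by
  rw [thetaLog, single_mul_derivative, dlog, div_eq_mul_inv]

/-- The two forms of the Laurent residue: `coeff_{-1} (G F') = coeff_0 (G θF)`. -/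
theorem coeff_neg_one_eq (G U : LaurentSeries k) :
    (G * LaurentSeries.derivative k U).coeff (-1) = (G * theta U).coeff 0 := by
  rw [← single_mul_derivative]
  have h := HahnSeries.coeff_single_mul_add (r := (1 : k))
    (x := G * LaurentSeries.derivative k U) (a := (-1 : ℤ)) (b := (1 : ℤ))
  rw [one_mul] at h
  rw [← h]
  congr 1
  ring

theorem dlog_coeff_of_neg (U : LaurentSeries k) {n : ℤ} (hn : n < 0) : (dlog U).coeff n = 0 := by
  rw [← thetaLog_eq_dlog]
  exact thetaLog_coeff_of_neg U hn

/-! ### The constant term of `θ U / U` -/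

theorem order_inv' {U : LaurentSeries k} (hU : U ≠ 0) : (U⁻¹).order = -U.order := by
  have ho1 : (U * U⁻¹).order = U.order + (U⁻¹).order := HahnSeries.order_mul hU (inv_ne_zero hU)
  rw [mul_inv_cancel₀ hU, HahnSeries.order_one] at ho1
  omega

theorem dlog_single (m : ℤ) : dlog (HahnSeries.single m (1 : k)) = HahnSeries.C (m : k) := by
  have h1 : (HahnSeries.single m (1 : k)) ≠ 0 := HahnSeries.single_ne_zero one_ne_zero
  rw [dlog, theta_single, mul_one, div_eq_iff h1, HahnSeries.C_mul_eq_smul]
  ext n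
  rw [HahnSeries.coeff_smul, HahnSeries.coeff_single, HahnSeries.coeff_single]
  split_ifs <;> simp

/-- For `V` of order `0`, `θ V / V` has vanishing constant term. -/
theorem dlog_coeff_zero_of_order_zero {V : LaurentSeries k} (hV : V ≠ 0) (hV0 : V.order = 0) :
    (dlog V).coeff 0 = 0 := by
  by_cases ht : theta V = 0
  · rw [dlog, ht, zero_div, HahnSeries.coeff_zero]
  have hVi : V⁻¹ ≠ 0 := inv_ne_zero hV
  have h1 : (1 : ℤ) ≤ (theta V).order := by
    have hc : (theta V).coeff (theta V).order ≠ 0 :=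
      fun h0 => ht (HahnSeries.coeff_order_eq_zero.1 h0)
    rw [theta_coeff] at hc
    have hne : ((theta V).order : k) ≠ 0 := fun h0 => hc (by rw [h0, zero_mul])
    have hne' : (theta V).order ≠ 0 := fun h0 => hne (by rw [h0, Int.cast_zero])
    have hVc : V.coeff (theta V).order ≠ 0 := fun h0 => hc (by rw [h0, mul_zero])
    have := HahnSeries.order_le_of_coeff_ne_zero hVc
    omega
  apply HahnSeries.coeff_eq_zero_of_lt_order
  rw [dlog, div_eq_mul_inv, HahnSeries.order_mul ht hVi, order_inv' hV, hV0]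
  omega

/-- The constant term of `θ U / U` is the order of `U`. -/
theorem dlog_coeff_zero {U : LaurentSeries k} (hU : U ≠ 0) : (dlog U).coeff 0 = (U.order : k) := by
  set m : ℤ := U.order with hm
  have hs : (HahnSeries.single m (1 : k)) ≠ 0 := HahnSeries.single_ne_zero one_ne_zero
  have hs' : (HahnSeries.single (-m) (1 : k)) ≠ 0 := HahnSeries.single_ne_zero one_ne_zero
  set V : LaurentSeries k := HahnSeries.single (-m) 1 * U with hV
  have hV0 : V ≠ 0 := mul_ne_zero hs' hU
  have hVord : V.order = 0 := by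
    rw [hV, HahnSeries.order_mul hs' hU, HahnSeries.order_single one_ne_zero]
    omega
  have hUV : U = HahnSeries.single m 1 * V := by
    rw [hV, ← mul_assoc, HahnSeries.single_mul_single, add_neg_cancel, mul_one]
    rw [show (HahnSeries.single (0 : ℤ) (1 : k)) = 1 from rfl, one_mul]
  have h1 : dlog U = dlog (HahnSeries.single m (1 : k)) + dlog V := by
    conv_lhs => rw [hUV]
    exact dlog_mul hs hV0
  rw [h1, HahnSeries.coeff_add, dlog_single, dlog_coeff_zero_of_order_zero hV0 hVord, add_zero,
    HahnSeries.C_apply, HahnSeries.coeff_single_same]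

section Key

variable {F : Type*} [Field F] [Algebra k F]

/-- **Abstract KEY, `θ`-form.** -/
theorem key_dlog (p : ℕ) [CharP k p] (HL : LSpace.LHyp k F) (hR : RiemannIneq k F)
    (vinf : Place k F) (ι : F →ₐ[k] LaurentSeries k)
    (hresq : ∀ f g : F, residue HL vinf (g • D k F f) = (ι g * theta (ι f)).coeff 0)
    (u : F) (hu : u ≠ 0) (hp : ∀ Q : Place k F, Q ≠ vinf → (p : ℤ) ∣ Q.ord u)
    (g : F) (hg : ∀ Q : Place k F, Q ≠ vinf → g ∈ Q.toValuationSubring)
    (S : Finset ℕ) (hS : ∀ n : ℕ, (ι g).coeff (-(n : ℤ)) ≠ 0 → n ∈ S) :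
    ∑ n ∈ S, (ι g).coeff (-(n : ℤ)) * (dlog (ι u)).coeff (n : ℤ) = 0 := by
  have h := key_abs p HL hR vinf ι
    (fun f g => by rw [hresq, coeff_neg_one_eq]) u hu hp g hg S hS
  simpa only [thetaLog_eq_dlog] using h

end Key

end Fermat.Agent.M1.Link.KeyBridge54
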