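/-
M1 / LINK (helper42): Tate's abstract residue on `V = K((T))`, `A = K[[T]]`, computed in full:

  `res_{K[[T]]} (G dH) = coeff_{-1} (G * H')`   for all Laurent series `G, H` over a field `K`
  (any characteristic).

Here `G, H` act on `K((T))` by multiplication (`mulL`).  No change of variable and no
product rule for the formal derivative is needed beyond the monomial case
`(T^a X)' = a T^(a-1) X + T^a X'`.
-/
import Mathlib
import Fermat.Agent.RR.AbsResidue

set_option autoImplicit false
set_option linter.unusedSectionVars false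

open Fermat.Agent.RR Fermat.Agent.RR.Commens Fermat.Agent.RR.AbsResidue
open HahnSeries

namespace Fermat.Agent.M1.Link.ResLaurent42

variable {K : Type*} [Field K]

/-! ### Monomials and shifts -/

/-- The monomial `T^a`. -/
noncomputable def T (a : ℤ) : LaurentSeries K := single a (1 : K)

theorem T_mul_T (a b : ℤ) : (T a : LaurentSeries K) * T b = T (a + b) := by
  simp [T, single_mul_single]

theorem T_zero : (T 0 : LaurentSeries K) = 1 := rfl

theorem T_neg_mul_T (a : ℤ) : (T (-a) : LaurentSeries K) * T a = 1 := by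
  rw [T_mul_T, neg_add_cancel, T_zero]

theorem T_mul_T_neg (a : ℤ) : (T a : LaurentSeries K) * T (-a) = 1 := by
  rw [T_mul_T, add_neg_cancel, T_zero]

theorem coeff_T_mul (a n : ℤ) (X : LaurentSeries K) : (T a * X).coeff n = X.coeff (n - a) := by
  simp [T, coeff_single_mul]

theorem coeff_mul_T (a n : ℤ) (X : LaurentSeries K) : (X * T a).coeff n = X.coeff (n - a) := by
  rw [mul_comm, coeff_T_mul]

theorem coeff_T (a n : ℤ) : (T a : LaurentSeries K).coeff n = if n = a then 1 else 0 := by
  simp [T, coeff_single]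

theorem T_pow (a : ℤ) (n : ℕ) : (T a : LaurentSeries K) ^ n = T (n * a) := by
  simp [T, single_pow]

/-! ### The lattice `K[[T]]` -/

/-- `K[[T]]` as a `K`-subspace of `K((T))`. -/
def powSub : Submodule K (LaurentSeries K) where
  carrier := {X | ∀ n : ℤ, n < 0 → X.coeff n = 0}
  add_mem' := by
    intro a b ha hb n hn
    simp [ha n hn, hb n hn]
  zero_mem' := by
    intro n _
    simp
  smul_mem' := by
    intro c a ha n hn
    simp [ha n hn]

theorem mem_powSub {X : LaurentSeries K} : X ∈ powSub ↔ ∀ n : ℤ, n < 0 → X.coeff n = 0 := Iff.rfl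

theorem mem_powSub_iff_order {X : LaurentSeries K} : X ∈ powSub ↔ 0 ≤ X.order := by
  constructor
  · intro h
    by_contra hlt
    rw [not_le] at hlt
    have h0 := h _ hlt
    rw [coeff_order_eq_zero] at h0
    rw [h0, order_zero] at hlt
    exact lt_irrefl _ hlt
  · intro h n hn
    exact coeff_eq_zero_of_lt_order (lt_of_lt_of_le hn h)

theorem mul_mem_powSub {X Y : LaurentSeries K} (hX : X ∈ powSub) (hY : Y ∈ powSub) :
    X * Y ∈ powSub := by
  by_cases hx : X = 0
  · rw [hx, zero_mul]; exact powSub.zero_mem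
  by_cases hy : Y = 0
  · rw [hy, mul_zero]; exact powSub.zero_mem
  rw [mem_powSub_iff_order] at *
  rw [order_mul hx hy]
  exact add_nonneg hX hY

theorem T_nat_mem_powSub (n : ℕ) : (T (n : ℤ) : LaurentSeries K) ∈ powSub := by
  intro m hm
  rw [coeff_T, if_neg]
  omega

theorem T_one_mem_powSub : (T 1 : LaurentSeries K) ∈ powSub := by
  have := T_nat_mem_powSub (K := K) 1
  simpa using this

theorem one_mem_powSub : (1 : LaurentSeries K) ∈ powSub := by
  have := T_nat_mem_powSub (K := K) 0
  simpa [T_zero] using this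

theorem smul_T_zero_mem_powSub (c : K) : (c • T 0 : LaurentSeries K) ∈ powSub :=
  powSub.smul_mem c (T_nat_mem_powSub 0)

/-- Every Laurent series becomes a power series after multiplication by a power of `T`. -/
theorem exists_shift (G : LaurentSeries K) : ∃ n : ℕ, T (n : ℤ) * G ∈ powSub := by
  refine ⟨(-G.order).toNat, fun m hm => ?_⟩
  rw [coeff_T_mul]
  apply coeff_eq_zero_of_lt_order
  have := Int.self_le_toNat (-G.order)
  omega

/-- `T^(n+1) G ∈ K[[T]]` implies `T^n (G - c T^(-(n+1))) ∈ K[[T]]` for `c = coeff_{-(n+1)} G`. -/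
theorem shift_sub_mem {G : LaurentSeries K} {n : ℕ} (h : T ((n : ℤ) + 1) * G ∈ powSub) :
    T (n : ℤ) * (G - G.coeff (-((n : ℤ) + 1)) • T (-((n : ℤ) + 1))) ∈ powSub := by
  intro m hm
  rw [coeff_T_mul, coeff_sub, coeff_smul, coeff_T]
  by_cases h1 : m = -1
  · subst h1
    rw [if_pos (by ring)]
    have : (-1 - (n : ℤ)) = -((n : ℤ) + 1) := by ring
    rw [this]
    simp
  · rw [if_neg (by omega)]
    have := h (m + 1) (by omega)
    rw [coeff_T_mul] at this
    have e : m + 1 - ((n : ℤ) + 1) = m - n := by ring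
    rw [e] at this
    rw [this]
    simp

/-! ### Multiplication operators lie in Tate's algebra `E(K[[T]])` -/

/-- Multiplication by `G` as a `K`-linear endomorphism of `K((T))` (for the Hahn series module
structure). -/
noncomputable def mulL (G : LaurentSeries K) : Module.End K (LaurentSeries K) where
  toFun X := G * X
  map_add' := mul_add G
  map_smul' c X := by
    simp only [RingHom.id_apply]
    rw [← C_mul_eq_smul, ← C_mul_eq_smul, mul_left_comm]

@[simp] theorem mulL_apply (G X : LaurentSeries K) : mulL G X = G * X := rfl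

theorem mulL_mul (G H : LaurentSeries K) : mulL (G * H) = mulL G * mulL H := by
  ext X : 1
  simp [mul_assoc]

theorem mulL_comm (G H : LaurentSeries K) : mulL G * mulL H = mulL H * mulL G := by
  rw [← mulL_mul, ← mulL_mul, mul_comm]

theorem mulL_add (G H : LaurentSeries K) : mulL (G + H) = mulL G + mulL H := by
  ext X : 1
  simp [add_mul]

theorem mulL_smul (c : K) (G : LaurentSeries K) : mulL (c • G) = c • mulL G := by
  ext X : 1
  simp only [mulL_apply, LinearMap.smul_apply]
  rw [← C_mul_eq_smul, ← C_mul_eq_smul, mul_assoc]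

theorem mulL_one : mulL (1 : LaurentSeries K) = 1 := by
  ext X : 1
  simp

theorem mulL_pow (G : LaurentSeries K) (n : ℕ) : mulL (G ^ n) = mulL G ^ n := by
  induction n with
  | zero => rw [pow_zero, pow_zero, mulL_one]
  | succ n ih => rw [pow_succ, pow_succ, mulL_mul, ih]

theorem map_mulL_le_of_mem {P : LaurentSeries K} (hP : P ∈ powSub) :
    (powSub (K := K)).map (mulL P) ≤ powSub := by
  rintro _ ⟨X, hX, rfl⟩
  exact mul_mem_powSub hP hX

theorem inE_mulL_of_mem {P : LaurentSeries K} (hP : P ∈ powSub) :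
    InE (powSub (K := K)) (mulL P) := prec_of_le (map_mulL_le_of_mem hP)

theorem inE_mulL_T_neg_one : InE (powSub (K := K)) (mulL (T (-1))) := by
  refine ⟨Submodule.span K {T (-1)}, inferInstance, ?_⟩
  rintro _ ⟨X, hX, rfl⟩
  have : mulL (T (-1)) X = T (-1) * (X - X.coeff 0 • T 0) + X.coeff 0 • T (-1) := by
    have e : T (-1) * (X.coeff 0 • T 0) = X.coeff 0 • (T (-1) : LaurentSeries K) := by
      have := (mulL (T (-1) : LaurentSeries K)).map_smul (X.coeff 0) (T 0)
      rw [mulL_apply, mulL_apply, T_mul_T, add_zero] at this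
      exact this
    rw [mulL_apply, mul_sub, e, sub_add_cancel]
  rw [this]
  refine Submodule.add_mem_sup ?_ (Submodule.smul_mem _ _ (Submodule.mem_span_singleton_self _))
  intro m hm
  rw [coeff_T_mul, coeff_sub, coeff_smul, coeff_T]
  by_cases h1 : m = -1
  · subst h1; simp
  · rw [if_neg (by omega), hX (m - -1) (by omega)]; simp

theorem inE_mulL_laurent (G : LaurentSeries K) :
    InE (powSub (K := K)) (mulL G) := by
  obtain ⟨n, hn⟩ := exists_shift G
  have : G = T (-1) ^ n * (T n * G) := by
    rw [T_pow, ← mul_assoc, T_mul_T, mul_neg_one, neg_add_cancel, T_zero, one_mul]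
  rw [this, mulL_mul, mulL_pow]
  exact (inE_mulL_T_neg_one.pow n).mul (inE_mulL_of_mem hn)

/-! ### The residue pairing on `K((T))` -/

/-- `(G, H) ↦ res_{K[[T]]} (G dH)`, Tate's abstract residue on `K((T))`. -/
noncomputable def resL : LaurentSeries K →ₗ[K] LaurentSeries K →ₗ[K] K :=
  LinearMap.mk₂ K (fun G H => res (powSub (K := K)) (mulL G) (mulL H))
    (fun f f' g => by
      rw [mulL_add]
      exact res_add_left (mulL_comm f g) (mulL_comm f' g) (inE_mulL_laurent f)
        (inE_mulL_laurent f') (inE_mulL_laurent g))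
    (fun c f g => by rw [mulL_smul, res_smul_left, smul_eq_mul])
    (fun f g g' => by
      rw [mulL_add]
      exact res_add_right (mulL_comm f g) (mulL_comm f g') (inE_mulL_laurent f)
        (inE_mulL_laurent g) (inE_mulL_laurent g'))
    (fun c f g => by rw [mulL_smul, res_smul_right, smul_eq_mul])

theorem resL_apply (G H : LaurentSeries K) :
    resL G H = res (powSub (K := K)) (mulL G) (mulL H) := rfl

theorem resL_leibniz (G H₁ H₂ : LaurentSeries K) :
    resL G (H₁ * H₂) = resL (G * H₁) H₂ + resL (G * H₂) H₁ := by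
  simp only [resL_apply, mulL_mul]
  exact res_leibniz (mulL_comm _ _) (mulL_comm _ _) (mulL_comm _ _) (inE_mulL_laurent _)
    (inE_mulL_laurent _) (inE_mulL_laurent _)

/-- **(R2)** on `K((T))`. -/
theorem resL_eq_zero_of_mem {G H : LaurentSeries K} (hG : G ∈ powSub) (hH : H ∈ powSub) :
    resL G H = 0 :=
  res_eq_zero_of_stable (mulL_comm G H) (map_mulL_le_of_mem hG) (map_mulL_le_of_mem hH)

theorem resL_one_right (G : LaurentSeries K) : resL G 1 = 0 := by
  rw [resL_apply, mulL_one, res_one_right]

/-- The constant-coefficient map on `K[[T]]`. -/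
noncomputable def c0 : (powSub (K := K)) →ₗ[K] K where
  toFun X := (X : LaurentSeries K).coeff 0
  map_add' := by intro X Y; simp
  map_smul' := by intro c X; simp

theorem c0_surjective : Function.Surjective (c0 (K := K)) := by
  intro c
  refine ⟨⟨c • T 0, smul_T_zero_mem_powSub c⟩, ?_⟩
  show (c • T 0 : LaurentSeries K).coeff 0 = c
  rw [coeff_smul, coeff_T]; simp

theorem comap_map_T_one :
    Submodule.comap (powSub (K := K)).subtype ((powSub (K := K)).map (mulL (T 1))) =
      LinearMap.ker c0 := by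
  ext ⟨X, hX⟩
  simp only [Submodule.mem_comap, Submodule.subtype_apply, Submodule.mem_map, LinearMap.mem_ker]
  constructor
  · rintro ⟨Y, hY, rfl⟩
    show (T 1 * Y).coeff 0 = 0
    rw [coeff_T_mul]; exact hY _ (by norm_num)
  · intro h0
    refine ⟨T (-1) * X, ?_, ?_⟩
    · intro m hm
      rw [coeff_T_mul]
      by_cases h1 : m = -1
      · subst h1; exact h0
      · exact hX _ (by omega)
    · rw [mulL_apply, ← mul_assoc, T_mul_T_neg, one_mul]

theorem resL_T_neg_one_T_one : resL (T (-1) : LaurentSeries K) (T 1) = 1 := by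
  have h1 : mulL (T 1 : LaurentSeries K) * mulL (T (-1)) = 1 := by
    rw [← mulL_mul, T_mul_T_neg, mulL_one]
  have h2 : mulL (T (-1) : LaurentSeries K) * mulL (T 1) = 1 := by
    rw [← mulL_mul, T_neg_mul_T, mulL_one]
  rw [resL_apply, res_inv_self h1 h2 inE_mulL_T_neg_one
    (map_mulL_le_of_mem (T_nat_mem_powSub 1)), comap_map_T_one]
  have e := (c0 (K := K)).quotKerEquivOfSurjective c0_surjective
  rw [e.finrank_eq, Module.finrank_self]
  simp

/-! ### Step B: `res (G dT) = coeff_{-1} G` -/

theorem mul_smul_L (G : LaurentSeries K) (c : K) (Y : LaurentSeries K) :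
    G * (c • Y) = c • (G * Y) := by
  rw [← C_mul_eq_smul, ← C_mul_eq_smul, mul_left_comm]

theorem smul_mul_L (c : K) (G Y : LaurentSeries K) : (c • G) * Y = c • (G * Y) := by
  rw [← C_mul_eq_smul, ← C_mul_eq_smul, mul_assoc]

theorem resL_T_neg_T_one (m : ℕ) :
    resL (T (-((m : ℤ) + 1)) : LaurentSeries K) (T 1) = if m = 0 then 1 else 0 := by
  rcases m with _ | m
  · simpa using resL_T_neg_one_T_one (K := K)
  · have h1 : mulL (T 1 : LaurentSeries K) * mulL (T (-1)) = 1 := by
      rw [← mulL_mul, T_mul_T_neg, mulL_one]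
    have h2 : mulL (T (-1) : LaurentSeries K) * mulL (T 1) = 1 := by
      rw [← mulL_mul, T_neg_mul_T, mulL_one]
    have := res_inv_pow_self (A := powSub (K := K)) h1 h2 (inE_mulL_laurent _)
      (inE_mulL_laurent _) m
    rw [← mulL_pow, T_pow] at this
    rw [resL_apply, if_neg (Nat.succ_ne_zero m)]
    have e : (-(((m + 1 : ℕ) : ℤ) + 1)) = ((m + 2 : ℕ) : ℤ) * -1 := by push_cast; ring
    rw [e]
    exact this

theorem resL_T_one_aux (n : ℕ) :
    ∀ G : LaurentSeries K, T (n : ℤ) * G ∈ powSub → resL G (T 1) = G.coeff (-1) := by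
  induction n with
  | zero =>
    intro G hG
    rw [Nat.cast_zero, T_zero, one_mul] at hG
    rw [resL_eq_zero_of_mem hG T_one_mem_powSub, hG (-1) (by norm_num)]
  | succ n ih =>
    intro G hG
    rw [Nat.cast_succ] at hG
    have h' := shift_sub_mem hG
    have := ih _ h'
    rw [map_sub, map_smul, LinearMap.sub_apply, LinearMap.smul_apply, resL_T_neg_T_one,
      coeff_sub, coeff_smul, coeff_T] at this
    by_cases hn : n = 0
    · subst hn
      simp only [if_true, Nat.cast_zero, zero_add] at this
      simp at this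
      exact sub_eq_zero.mp this
    · rw [if_neg hn, if_neg (by omega)] at this
      simpa using this

/-- **Step B.** `res_{K[[T]]} (G dT) = coeff_{-1} G`. -/
theorem resL_T_one (G : LaurentSeries K) : resL G (T 1) = G.coeff (-1) := by
  obtain ⟨n, hn⟩ := exists_shift G
  exact resL_T_one_aux n G hn

/-! ### The formal derivative -/

theorem coeff_deriv (X : LaurentSeries K) (n : ℤ) :
    (LaurentSeries.derivative K X).coeff n = ((n + 1 : ℤ) : K) * X.coeff (n + 1) := by
  rw [LaurentSeries.derivative_apply, LaurentSeries.hasseDeriv_coeff, Ring.choose_one_right,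
    zsmul_eq_mul]
  simp

theorem deriv_T_mul (a : ℤ) (X : LaurentSeries K) :
    LaurentSeries.derivative K (T a * X) =
      (a : K) • (T (a - 1) * X) + T a * LaurentSeries.derivative K X := by
  ext n
  rw [coeff_deriv, coeff_add, coeff_smul, coeff_T_mul, coeff_T_mul, coeff_T_mul, coeff_deriv]
  have e1 : n + 1 - a = n - (a - 1) := by ring
  have e2 : n - a + 1 = n - (a - 1) := by ring
  rw [e1, e2, smul_eq_mul]
  push_cast
  ring

theorem deriv_smul_T_zero (c : K) : LaurentSeries.derivative K (c • T 0 : LaurentSeries K) = 0 := by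
  ext n
  rw [coeff_deriv, coeff_smul, coeff_T, coeff_zero]
  by_cases h : n + 1 = 0
  · rw [h]; simp
  · rw [if_neg h]; simp

theorem deriv_mem_powSub {P : LaurentSeries K} (hP : P ∈ powSub) :
    LaurentSeries.derivative K P ∈ powSub := by
  intro n hn
  rw [coeff_deriv]
  by_cases h : n + 1 = 0
  · rw [h]; simp
  · rw [hP (n + 1) (by omega), mul_zero]

/-- Peel off the constant term of a power series. -/
theorem exists_peel {P : LaurentSeries K} (hP : P ∈ powSub) :
    ∃ P₁ ∈ powSub (K := K), P = P.coeff 0 • T 0 + T 1 * P₁ := by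
  refine ⟨T (-1) * (P - P.coeff 0 • T 0), ?_, ?_⟩
  · intro m hm
    rw [coeff_T_mul, coeff_sub, coeff_smul, coeff_T]
    by_cases h1 : m = -1
    · subst h1; simp
    · rw [if_neg (by omega), hP (m - -1) (by omega)]; simp
  · rw [← mul_assoc, T_mul_T_neg, one_mul, add_sub_cancel]

/-! ### Step C: power series on the right -/

theorem resL_powSub_aux (n : ℕ) :
    ∀ G P : LaurentSeries K, T (n : ℤ) * G ∈ powSub → P ∈ powSub →
      resL G P = (G * LaurentSeries.derivative K P).coeff (-1) := by
  induction n with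
  | zero =>
    intro G P hG hP
    rw [Nat.cast_zero, T_zero, one_mul] at hG
    rw [resL_eq_zero_of_mem hG hP, mul_mem_powSub hG (deriv_mem_powSub hP) (-1) (by norm_num)]
  | succ n ih =>
    intro G P hG hP
    obtain ⟨P₁, hP₁, hPeq⟩ := exists_peel hP
    have hG' : T (n : ℤ) * (G * T 1) ∈ powSub := by
      have : T (n : ℤ) * (G * T 1) = T ((n : ℤ) + 1) * G := by
        rw [← T_mul_T, mul_assoc, mul_comm G]
      rw [this]
      rwa [Nat.cast_succ] at hG
    have hIH := ih (G * T 1) P₁ hG' hP₁
    have hd : LaurentSeries.derivative K P = P₁ + T 1 * LaurentSeries.derivative K P₁ := by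
      conv_lhs => rw [hPeq]
      rw [map_add, deriv_smul_T_zero, zero_add, deriv_T_mul, sub_self, T_zero, one_mul]
      simp
    have hr : resL G P = resL (G * T 1) P₁ + resL (G * P₁) (T 1) := by
      conv_lhs => rw [hPeq]
      rw [map_add, map_smul, T_zero, resL_one_right, smul_zero, zero_add, resL_leibniz]
    rw [hr, hIH, resL_T_one, hd, mul_add, coeff_add, add_comm, mul_assoc]

/-- **Step C.** -/
theorem resL_powSub (G : LaurentSeries K) {P : LaurentSeries K} (hP : P ∈ powSub) :
    resL G P = (G * LaurentSeries.derivative K P).coeff (-1) := by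
  obtain ⟨n, hn⟩ := exists_shift G
  exact resL_powSub_aux n G P hn hP

/-! ### Step D: monomials on the right -/

theorem resL_T_nat (a : ℕ) :
    ∀ X : LaurentSeries K, resL X (T (a : ℤ)) = (a : K) * X.coeff (-(a : ℤ)) := by
  induction a with
  | zero =>
    intro X
    rw [Nat.cast_zero, T_zero, resL_one_right]; simp
  | succ a ih =>
    intro X
    have : (T ((a + 1 : ℕ) : ℤ) : LaurentSeries K) = T (a : ℤ) * T 1 := by
      rw [T_mul_T]; norm_cast
    rw [this, resL_leibniz, resL_T_one, ih, coeff_mul_T, coeff_mul_T]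
    have e1 : (-1 : ℤ) - a = -((a + 1 : ℕ) : ℤ) := by push_cast; ring
    have e2 : -(a : ℤ) - 1 = -((a + 1 : ℕ) : ℤ) := by push_cast; ring
    rw [e1, e2]
    push_cast
    ring

theorem resL_T_neg_nat (a : ℕ) (Y : LaurentSeries K) :
    resL Y (T (-(a : ℤ))) = -(a : K) * Y.coeff (a : ℤ) := by
  have h0 := resL_one_right (Y * T (-(a : ℤ)))
  rw [← T_mul_T_neg (a : ℤ), resL_leibniz, resL_T_nat, mul_assoc, T_neg_mul_T, mul_one,
    coeff_mul_T, coeff_mul_T] at h0
  have e : -(a : ℤ) - -(a : ℤ) - -(a : ℤ) = a := by ring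
  rw [e] at h0
  linear_combination h0

theorem resL_T_int (b : ℤ) (X : LaurentSeries K) :
    resL X (T b) = (b : K) * X.coeff (-b) := by
  rcases Int.eq_nat_or_neg b with ⟨a, rfl | rfl⟩
  · simpa using resL_T_nat a X
  · simpa using resL_T_neg_nat a X

/-! ### The full formula -/

/-- **Tate's residue on `K((T))` is the coefficient of `T⁻¹` of `G · H'`.** -/
theorem resL_eq_coeff (G H : LaurentSeries K) :
    resL G H = (G * LaurentSeries.derivative K H).coeff (-1) := by
  obtain ⟨n, hn⟩ := exists_shift H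
  obtain ⟨P, hPmem, hH⟩ : ∃ P ∈ powSub (K := K), H = T (-(n : ℤ)) * P :=
    ⟨T (n : ℤ) * H, hn, by rw [← mul_assoc, T_neg_mul_T, one_mul]⟩
  have hd : LaurentSeries.derivative K H =
      ((-(n : ℤ) : ℤ) : K) • (T (-(n : ℤ) - 1) * P) +
        T (-(n : ℤ)) * LaurentSeries.derivative K P := by
    rw [hH, deriv_T_mul]
  have h1 : (G * (T (-(n : ℤ) - 1) * P)).coeff (-1) = (G * P).coeff (- -(n : ℤ)) := by
    rw [mul_left_comm, coeff_T_mul]
    congr 1
    ring
  rw [hd, mul_add, coeff_add, mul_smul_L, coeff_smul, h1, hH, resL_leibniz, resL_powSub _ hPmem,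
    resL_T_int, smul_eq_mul, mul_assoc, add_comm]

/-- The same with the logarithmic derivation `θ = T d/dT`:
`res (G dH) = coeff_0 (G * θ H)`. -/
theorem resL_eq_coeff_theta (G H : LaurentSeries K) :
    resL G H = (G * (T 1 * LaurentSeries.derivative K H)).coeff 0 := by
  rw [resL_eq_coeff, mul_left_comm, coeff_T_mul]
  norm_num

end Fermat.Agent.M1.Link.ResLaurent42
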