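/-
M1 / LINK (helper42): the local residue (Tate's residue of `RR/LocalRes`) at a place `v` of a
function field `F / K`, computed from ANY "q-expansion embedding"
`ι : F →ₐ[K] K((q))` with `ord_v = order ∘ ι`:

  `res_v (g df) = coeff_{-1} (ι g · (ι f)') = coeff_0 (ι g · θ (ι f))`,   `θ = q d/dq`.

Characteristic-free (`K` any field); this is LK2(a) (char 0) and LK5c(ii) (char p) of the LINK plan.
-/
import Mathlib
import Fermat.Agent.RR.LocalRes
import Fermat.Agent.RR.LocalResMain
import Fermat.Agent.M1.Link.ResCompat42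
import Fermat.Agent.M1.Link.ResLaurent42

set_option autoImplicit false
set_option linter.unusedSectionVars false

open AlgebraicCurve KaehlerDifferential Fermat.Agent.RR Fermat.Agent.RR.Commens
  Fermat.Agent.RR.AbsResidue Fermat.Agent.RR.LocalPrep Fermat.Agent.RR.LocalRes
  Fermat.Agent.M1.Link.ResCompat42 Fermat.Agent.M1.Link.ResLaurent42
open HahnSeries

namespace Fermat.Agent.M1.Link.ResQ42

variable {K F : Type*} [Field K] [Field F] [Algebra K F]

/-- A ring embedding into `K((q))` which is the identity on constants, as a linear map for the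
Hahn-series module structure. -/
noncomputable def toLin (ι : F →+* LaurentSeries K) (hC : ∀ c : K, ι (algebraMap K F c) = C c) :
    F →ₗ[K] LaurentSeries K where
  toFun := ι
  map_add' := map_add ι
  map_smul' c x := by
    simp only [RingHom.id_apply]
    rw [Algebra.smul_def, map_mul, hC, C_mul_eq_smul]

section

variable (v : Place K F) (ι : F →+* LaurentSeries K) (hC : ∀ c : K, ι (algebraMap K F c) = C c)
  (hord : ∀ f : F, f ≠ 0 → v.ord f = (ι f).order)

@[simp] theorem toLin_apply (x : F) : toLin ι hC x = ι x := rfl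

theorem toLin_injective : Function.Injective (toLin ι hC) := ι.injective

include hord

theorem mem_ringSub_iff_mem_powSub (x : F) :
    x ∈ ringSub v ↔ toLin ι hC x ∈ powSub (K := K) := by
  rw [mem_ringSub_iff_ord, mem_powSub_iff_order, toLin_apply]
  by_cases hx : x = 0
  · subst hx
    simp
  · rw [hord x hx]
    exact ⟨fun h => h.resolve_left hx, Or.inr⟩

/-- There is an element whose expansion has a simple pole. -/
theorem exists_order_neg_one : ∃ j : F, j ≠ 0 ∧ (ι j).order = -1 := by
  obtain ⟨π, hπ⟩ := IsDiscreteValuationRing.exists_irreducible v.toValuationSubring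
  have h1 : v.ord (π : F) = 1 := v.ord_coe_irreducible hπ
  have hπ0 : (π : F) ≠ 0 := by
    intro h
    rw [h, Place.ord_zero] at h1
    exact zero_ne_one h1
  refine ⟨(π : F)⁻¹, inv_ne_zero hπ0, ?_⟩
  rw [← hord _ (inv_ne_zero hπ0), Place.ord_inv, h1]

omit hord in
theorem order_pow_of_ne_zero {J : LaurentSeries K} (hJ : J ≠ 0) (n : ℕ) :
    (J ^ n).order = n * J.order := by
  induction n with
  | zero => simp
  | succ n ih =>
    rw [pow_succ, order_mul (pow_ne_zero n hJ) hJ, ih]
    push_cast
    ring

include hC in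
/-- Density: `ι F + K[[q]] = K((q))`. -/
theorem exists_sub_mem_powSub_aux (n : ℕ) :
    ∀ X : LaurentSeries K, T (n : ℤ) * X ∈ powSub → ∃ f : F, X - ι f ∈ powSub (K := K) := by
  induction n with
  | zero =>
    intro X hX
    rw [Nat.cast_zero, T_zero, one_mul] at hX
    exact ⟨0, by simpa using hX⟩
  | succ n ih =>
    intro X hX
    rw [Nat.cast_succ] at hX
    obtain ⟨j, hj0, hj⟩ := exists_order_neg_one v ι hord
    have hJ0 : ι j ≠ 0 := by
      intro h
      rw [h, order_zero] at hj
      norm_num at hj
    set W : LaurentSeries K := ι j ^ (n + 1) with hW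
    have hW0 : W ≠ 0 := pow_ne_zero _ hJ0
    have hWord : W.order = -((n : ℤ) + 1) := by
      rw [hW, order_pow_of_ne_zero hJ0, hj]
      push_cast
      ring
    set w : K := W.coeff (-((n : ℤ) + 1)) with hw
    have hw0 : w ≠ 0 := by
      rw [hw, ← hWord]
      exact coeff_order_eq_zero.not.mpr hW0
    set c : K := X.coeff (-((n : ℤ) + 1)) with hc
    have hX' : T (n : ℤ) * (X - (c / w) • W) ∈ powSub := by
      intro m hm
      rw [coeff_T_mul, coeff_sub, coeff_smul]
      by_cases h1 : m = -1
      · subst h1
        have e : (-1 : ℤ) - n = -((n : ℤ) + 1) := by ring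
        rw [e, ← hc, ← hw, smul_eq_mul, div_mul_cancel₀ _ hw0, sub_self]
      · have hx := hX (m + 1) (by omega)
        rw [coeff_T_mul] at hx
        have e : m + 1 - ((n : ℤ) + 1) = m - n := by ring
        rw [e] at hx
        rw [hx, coeff_eq_zero_of_lt_order (by rw [hWord]; omega), smul_zero, sub_zero]
    obtain ⟨f', hf'⟩ := ih _ hX'
    refine ⟨f' + (c / w) • j ^ (n + 1), ?_⟩
    have : ι (f' + (c / w) • j ^ (n + 1)) = ι f' + (c / w) • W := by
      rw [map_add, ← toLin_apply ι hC ((c / w) • j ^ (n + 1)), map_smul, toLin_apply, map_pow]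
    rw [this]
    have e : X - (ι f' + (c / w) • W) = X - (c / w) • W - ι f' := by abel
    rw [e]
    exact hf'

theorem range_sup_powSub : LinearMap.range (toLin ι hC) ⊔ powSub (K := K) = ⊤ := by
  rw [eq_top_iff]
  intro X _
  obtain ⟨n, hn⟩ := exists_shift X
  obtain ⟨f, hf⟩ := exists_sub_mem_powSub_aux v ι hC hord n X hn
  have : X = toLin ι hC f + (X - ι f) := by rw [toLin_apply]; abel
  rw [this]
  exact Submodule.add_mem_sup (LinearMap.mem_range_self _ f) hf

variable (hres : ∀ f ∈ v.toValuationSubring,
    ∃ c : K, f = algebraMap K F c ∨ 0 < v.ord (f - algebraMap K F c))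

include hres hC

/-- Tate's residue at `v` equals Tate's residue on `K((q))`. -/
theorem res_ringSub_eq_resL (f g : F) :
    res (ringSub v) (mulOp (K := K) g) (mulOp f) = resL (ι g) (ι f) := by
  rw [resL_apply]
  exact res_eq_res_of_dense (toLin ι hC) (toLin_injective ι hC)
    (mem_ringSub_iff_mem_powSub v ι hC hord) (range_sup_powSub v ι hC hord)
    (fun x => by simp) (fun x => by simp)
    (mulOp_comm g f) (mulL_comm (ι g) (ι f))
    (inE_mulOp v hres g) (inE_mulOp v hres f) (inE_mulL_laurent _) (inE_mulL_laurent _)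

/-- **Local residue = coefficient of `q⁻¹` of the expansion** (ring-hom form: `ι` is any ring
embedding `F → K((q))` which is `C` on constants and computes `ord_v`). -/
theorem resΩ_eq_coeff_ringHom (f g : F) :
    resΩ v hres (g • D K F f) = (ι g * LaurentSeries.derivative K (ι f)).coeff (-1) := by
  rw [resΩ_smul_D, res_ringSub_eq_resL v ι hC hord hres, resL_eq_coeff]

/-- The same with `θ = q d/dq` (written `single 1 1 * derivative`). -/
theorem resΩ_eq_coeff_theta_ringHom (f g : F) :
    resΩ v hres (g • D K F f) =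
      (ι g * (single (1 : ℤ) (1 : K) * LaurentSeries.derivative K (ι f))).coeff 0 := by
  rw [resΩ_smul_D, res_ringSub_eq_resL v ι hC hord hres, resL_eq_coeff_theta]
  rfl

end

section AlgHom

variable (v : Place K F)
  (hres : ∀ f ∈ v.toValuationSubring,
    ∃ c : K, f = algebraMap K F c ∨ 0 < v.ord (f - algebraMap K F c))
  (ι : F →ₐ[K] LaurentSeries K)
  (hord : ∀ f : F, f ≠ 0 → v.ord f = (ι f).order)

include hord

/-- **Local residue = coefficient of `q⁻¹` of the expansion**:
`res_v (g df) = coeff_{-1} (ι g · (ι f)')` for a `K`-algebra embedding `ι : F → K((q))` with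
`ord_v = order ∘ ι`. -/
theorem resΩ_eq_coeff (f g : F) :
    resΩ v hres (g • D K F f) = (ι g * LaurentSeries.derivative K (ι f)).coeff (-1) :=
  resΩ_eq_coeff_ringHom v ι.toRingHom
    (fun c => by
      show ι (algebraMap K F c) = C c
      rw [AlgHom.commutes, LaurentSeries.algebraMap_apply]) hord hres f g

/-- `res_v (g df) = coeff_0 (ι g · θ(ι f))`, `θ = q d/dq`. -/
theorem resΩ_eq_coeff_theta (f g : F) :
    resΩ v hres (g • D K F f) =
      (ι g * (single (1 : ℤ) (1 : K) * LaurentSeries.derivative K (ι f))).coeff 0 :=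
  resΩ_eq_coeff_theta_ringHom v ι.toRingHom
    (fun c => by
      show ι (algebraMap K F c) = C c
      rw [AlgHom.commutes, LaurentSeries.algebraMap_apply]) hord hres f g

end AlgHom

section CharZero

variable [IsAlgClosed K] [CharZero K] {x : F} (hx : Fermat.Agent.X0.FF.IsGen K x)
  (v : Place K F) (ι : F →ₐ[K] LaurentSeries K)
  (hord : ∀ f : F, f ≠ 0 → v.ord f = (ι f).order)

include hord

/-- LK2(a): the global-library residue `LocalResMain.residue` in terms of expansions. -/
theorem residue_eq_coeff (f g : F) :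
    LocalResMain.residue hx v (g • D K F f) =
      (ι g * LaurentSeries.derivative K (ι f)).coeff (-1) :=
  resΩ_eq_coeff v (LocalResMain.hres_of_isGen hx v) ι hord f g

theorem residue_eq_coeff_theta (f g : F) :
    LocalResMain.residue hx v (g • D K F f) =
      (ι g * (single (1 : ℤ) (1 : K) * LaurentSeries.derivative K (ι f))).coeff 0 :=
  resΩ_eq_coeff_theta v (LocalResMain.hres_of_isGen hx v) ι hord f g

end CharZero

end Fermat.Agent.M1.Link.ResQ42
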