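/-
M1 (row 38, S44), chapter LINK (helper99): **KEY at the special fibre field** `κ(M)`, `4 ∣ M` or `9 ∣ M`,
`p ∤ M`: instantiation of helper54's abstract `KeyAbs54.key_abs` / `KeyBridge54.key_dlog` at
`F := κ(M) = modularFunctionFieldFullC k M`, `vinf := QPlace45.inftyC k M`, `ι :=` the inclusion into
`k((q))`, with `HL`, `hR` from `SpecialLHypBase99` (brick G SPEC) and the residue formula at `∞bar`
from helper42's `ResQ42.resΩ_eq_coeff` (brick D RESQ).
-/
import Mathlib
import Fermat.Agent.M1.Link.SpecialLHypBase99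
import Fermat.Agent.M1.Link.KeyBridge54
import Fermat.Agent.M1.Link.ResQ42
import Fermat.Agent.M1.Link.QPlace45

set_option autoImplicit false
set_option linter.unusedSectionVars false

open AlgebraicCurve HahnSeries ModularCurve IntermediateField KaehlerDifferential

namespace Fermat.Agent.M1.Link.KeySpec99

open Fermat.Agent.X0 Fermat.Agent.RED.Interface4 Fermat.Agent.RR
  Fermat.Agent.M1.Link.SpecialLHypBase99 Fermat.Agent.M1.Link.QPlace45
  Fermat.Agent.M1.Link.ResWeak54 Fermat.Agent.M1.Link.KeyAbs54 Fermat.Agent.M1.Link.ThetaLog88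

variable {M : ℕ} [NeZero M] (hM : 4 ∣ M ∨ 9 ∣ M)
  (p : ℕ) [Fact p.Prime] (hpM : ¬ p ∣ M) (A : ValuationSubring Qbar) (hA : A.LiesOverPrime p)

/-- The inclusion `κ(M) → k((q))` as a `k`-algebra homomorphism. -/
noncomputable def inclC (k : Type*) [Field k] (M : ℕ) :
    ↥(modularFunctionFieldFullC k M) →ₐ[k] LaurentSeries k :=
  (modularFunctionFieldFullC k M).val

@[simp] theorem inclC_apply (k : Type*) [Field k] (M : ℕ) (f : ↥(modularFunctionFieldFullC k M)) :
    inclC k M f = (f : LaurentSeries k) := rfl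

/-- **D RESQ at `∞bar`**: the Tate residue at the `q`-adic place of `κ(M)` is the coefficient of
`q⁻¹`, for any `LHyp`. -/
theorem residue_inftyC {k : Type*} [Field k] (M : ℕ)
    (HL : LSpace.LHyp k ↥(modularFunctionFieldFullC k M))
    (f g : ↥(modularFunctionFieldFullC k M)) :
    residue HL (inftyC k M) (g • D k ↥(modularFunctionFieldFullC k M) f) =
      ((g : LaurentSeries k) * LaurentSeries.derivative k (f : LaurentSeries k)).coeff (-1) :=
  Fermat.Agent.M1.Link.ResQ42.resΩ_eq_coeff (inftyC k M) (HL.residue (inftyC k M)) (inclC k M)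
    (fun f _ => ord_inftyC k M f) f g

include hM hpM hA in
/-- **KEY at `κ(M)`** (`4 ∣ M` or `9 ∣ M`, `p ∤ M`, `k` the residue field of `A` over `p`): if
`p ∣ ord_Q u` at all places `Q ≠ ∞bar` and `g` is regular off `∞bar`, then the principal part of
`g` is orthogonal to `θlog u = θ u / u`. -/
theorem key_fullC
    (u : ↥(modularFunctionFieldFullC (IsLocalRing.ResidueField ↥A) M)) (hu : u ≠ 0)
    (hp : ∀ Q : Place (IsLocalRing.ResidueField ↥A)
        ↥(modularFunctionFieldFullC (IsLocalRing.ResidueField ↥A) M),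
      Q ≠ inftyC (IsLocalRing.ResidueField ↥A) M → (p : ℤ) ∣ Q.ord u)
    (g : ↥(modularFunctionFieldFullC (IsLocalRing.ResidueField ↥A) M))
    (hg : ∀ Q : Place (IsLocalRing.ResidueField ↥A)
        ↥(modularFunctionFieldFullC (IsLocalRing.ResidueField ↥A) M),
      Q ≠ inftyC (IsLocalRing.ResidueField ↥A) M → g ∈ Q.toValuationSubring)
    (S : Finset ℕ)
    (hS : ∀ n : ℕ, (g : LaurentSeries (IsLocalRing.ResidueField ↥A)).coeff (-(n : ℤ)) ≠ 0 → n ∈ S) :
    ∑ n ∈ S, (g : LaurentSeries (IsLocalRing.ResidueField ↥A)).coeff (-(n : ℤ)) *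
      (dlog (u : LaurentSeries (IsLocalRing.ResidueField ↥A))).coeff (n : ℤ) = 0 := by
  have : CharP (IsLocalRing.ResidueField ↥A) p :=
    Fermat.Agent.ES.KRON.KronInst10.charP_residueField A Fact.out hA
  have HL := lHyp_fullC_of_four_or_nine hM p hpM A hA
  have hR : RiemannIneq (IsLocalRing.ResidueField ↥A)
      ↥(modularFunctionFieldFullC (IsLocalRing.ResidueField ↥A) M) :=
    riemann_inequality_fullC_of_four_or_nine hM p hpM A hA
  have h := key_abs p HL hR (inftyC (IsLocalRing.ResidueField ↥A) M)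
    (inclC (IsLocalRing.ResidueField ↥A) M)
    (fun f g => residue_inftyC M HL f g) u hu hp g hg S hS
  simpa only [Fermat.Agent.M1.Link.KeyBridge54.thetaLog_eq_dlog, inclC_apply] using h

end Fermat.Agent.M1.Link.KeySpec99
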