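/-
Program M1 (S44), chapter LINK, brick LK1 (helper39).

FROM CUSP FORMS TO REGULAR DIFFERENTIALS.  Let `h ∈ F = ℚbar(X₀(N))` with `h • dj` regular at
every place.  By the dictionary `S20.Low.exists_cuspForm_of_regular_full`, `h * θ_j ∈ ℚbar((q))`
is the `q`-expansion of a cusp form of weight two on `Γ₀(N)`.  Hence

* `coeff_mul_thetaJ_eq_zero_of_nonpos` : `(h * θ_j).coeff k = 0` for `k ≤ 0`;
* `sum_coeff_eq_zero_of_kills` (**LK1**): every finitely supported integral relation
  `∑ c_n a_n(f) = 0` valid for all `f ∈ S₂(Γ₀(N))` also holds for the coefficients of `h * θ_j`.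
-/
import Mathlib
import Fermat.Agent.S20.Low
import Fermat.Prelude.Thm_CongruenceSubgroup_one_mem_strictPeriods_Gamma0

set_option autoImplicit false

open AlgebraicCurve CongruenceSubgroup

namespace Fermat.Agent.M1.Link.CuspKill39

open Fermat.Agent.X0 Fermat.Agent.S20.LowDJ

variable (N : ℕ) [NeZero N]

/-- The `q`-expansion of a regular differential `h • dj` lies in `q ℚbar[[q]]`. -/
theorem coeff_mul_thetaJ_eq_zero_of_nonpos (h : FF N)
    (hreg : ∀ v : Place Kbar (FF N),
      0 ≤ v.ordDifferential (h • KaehlerDifferential.D Kbar (FF N) (jF N)))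
    {k : ℤ} (hk : k ≤ 0) : ((h : LaurentSeries Kbar) * thetaJ).coeff k = 0 := by
  obtain ⟨f, hf, hneg⟩ := Fermat.Agent.S20.Low.exists_cuspForm_of_regular_full N h hreg
  rcases lt_or_eq_of_le hk with hlt | rfl
  · exact hneg k hlt
  · have h0 : ModularFormClass.qCoeff f 0 = 0 :=
      CuspFormClass.qExpansion_coeff_zero f one_pos (one_mem_strictPeriods_Gamma0 N)
    have h1 := hf 0
    rw [h0] at h1
    have h2 : iotaK (((h : LaurentSeries Kbar) * thetaJ).coeff ((0 : ℕ) : ℤ)) = iotaK 0 := by
      rw [← h1, map_zero]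
    have h3 := iotaK_injective h2
    simpa using h3

/-- **LK1.**  An integral linear relation between the `q`-coefficients of all cusp forms of weight
two on `Γ₀(N)` holds for the `q`-expansion of every regular differential. -/
theorem sum_coeff_eq_zero_of_kills (c : ℕ →₀ ℤ)
    (hc : ∀ f : CuspForm (Gamma0 N) 2,
      ∑ n ∈ c.support, (c n : ℂ) * ModularFormClass.qCoeff f n = 0)
    (h : FF N)
    (hreg : ∀ v : Place Kbar (FF N),
      0 ≤ v.ordDifferential (h • KaehlerDifferential.D Kbar (FF N) (jF N))) :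
    ∑ n ∈ c.support, (c n : Kbar) * ((h : LaurentSeries Kbar) * thetaJ).coeff (n : ℤ) = 0 := by
  obtain ⟨f, hf, -⟩ := Fermat.Agent.S20.Low.exists_cuspForm_of_regular_full N h hreg
  apply iotaK_injective
  rw [map_sum, map_zero, ← hc f]
  refine Finset.sum_congr rfl fun n _ => ?_
  rw [map_mul, map_intCast, hf n]

end Fermat.Agent.M1.Link.CuspKill39
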