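/-
Program M1 (S44), chapter LINK, brick LK2(b), part 1 (helper39).  Mathlib only.

PRINCIPAL PARTS ARE POLYNOMIALS IN `j` ("Faber polynomials").  Let `J` be a Laurent series over a
field `K` with a simple pole and leading coefficient `1` (for instance the `q`-expansion of `j`).
For every finitely supported `c : ℕ →₀ K` there is a polynomial `P` with

  `(P(J)).coeff (-n) = c n`  for all `n ≥ 1`,

i.e. `P(J) ≡ ∑ c_n q^{-n}` modulo power series.

* `negPart_eq_zero_of_order_nonneg`, `coeff_pow_neg` : bookkeeping;
* `exists_polynomial_principalPart` : the statement above;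
* `exists_polynomial_sub_order_nonneg` : the same, in the form `0 ≤ (P(J) - T).order` for every
  Laurent series `T`.
-/
import Mathlib

set_option autoImplicit false

namespace Fermat.Agent.M1.Link.Faber39

open Polynomial

variable {K : Type*} [Field K]

/-- The structure map of Laurent series is `HahnSeries.C`. -/
theorem algebraMap_eq_C (a : K) : algebraMap K (LaurentSeries K) a = HahnSeries.C a := by
  rw [HahnSeries.algebraMap_apply']
  exact HahnSeries.ofPowerSeries_C a

/-- The leading term of `J ^ m` when `J` has a simple pole with leading coefficient `1`. -/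
theorem coeff_pow_neg {J : LaurentSeries K} (hord : J.order = -1) (hlead : J.coeff (-1) = 1)
    (m : ℕ) : (J ^ m).order = -(m : ℤ) ∧ (J ^ m).coeff (-(m : ℤ)) = 1 := by
  have hJ0 : J ≠ 0 := by
    rintro rfl
    simp at hlead
  have h1 : (J ^ m).order = -(m : ℤ) := by
    rw [HahnSeries.order_pow, hord]
    simp
  refine ⟨h1, ?_⟩
  have h2 : ∀ k : ℕ, (J ^ k).leadingCoeff = 1 := by
    intro k
    induction k with
    | zero => simp
    | succ k ih =>
      rw [pow_succ, HahnSeries.leadingCoeff_mul, ih, one_mul, HahnSeries.leadingCoeff_eq, hord,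
        hlead]
  have h2 := h2 m
  rw [HahnSeries.leadingCoeff_eq, h1] at h2
  exact h2

/-- Induction step: a Laurent series whose coefficients vanish below `-m` is, modulo power series,
a polynomial of degree `≤ m` in `J`. -/
theorem exists_polynomial_of_bound {J : LaurentSeries K} (hord : J.order = -1)
    (hlead : J.coeff (-1) = 1) :
    ∀ (m : ℕ) (T : LaurentSeries K), (∀ k : ℤ, k < -(m : ℤ) → T.coeff k = 0) →
      ∃ P : K[X], ∀ k : ℤ, k < 0 → (aeval J P).coeff k = T.coeff k := by
  intro m
  induction m with
  | zero =>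
    intro T hT
    refine ⟨0, fun k hk => ?_⟩
    rw [map_zero, HahnSeries.coeff_zero, hT k (by simpa using hk)]
  | succ m ih =>
    intro T hT
    obtain ⟨h1, h2⟩ := coeff_pow_neg hord hlead (m + 1)
    set a : K := T.coeff (-((m + 1 : ℕ) : ℤ)) with ha
    set T' : LaurentSeries K := T - HahnSeries.C a * J ^ (m + 1) with hT'
    have hcoeff : ∀ k : ℤ, T'.coeff k = T.coeff k - a * (J ^ (m + 1)).coeff k := by
      intro k
      rw [hT', HahnSeries.coeff_sub, HahnSeries.C_mul_eq_smul, HahnSeries.coeff_smul,
        smul_eq_mul]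
    have hT'0 : ∀ k : ℤ, k < -(m : ℤ) → T'.coeff k = 0 := by
      intro k hk
      rw [hcoeff]
      rcases lt_or_eq_of_le (show k ≤ -((m + 1 : ℕ) : ℤ) by push_cast; omega) with hlt | heq
      · rw [hT k hlt, HahnSeries.coeff_eq_zero_of_lt_order (by rw [h1]; exact hlt), mul_zero,
          sub_zero]
      · rw [heq, h2, mul_one, ← ha, sub_self]
    obtain ⟨P', hP'⟩ := ih T' hT'0
    refine ⟨P' + C a * X ^ (m + 1), fun k hk => ?_⟩
    rw [map_add, HahnSeries.coeff_add, hP' k hk, hcoeff, map_mul, aeval_C, map_pow, aeval_X,
      algebraMap_eq_C, HahnSeries.C_mul_eq_smul, HahnSeries.coeff_smul, smul_eq_mul]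
    ring

/-- **Principal parts are polynomials in `J`**: for every Laurent series `T` there is a polynomial
`P` such that `P(J)` and `T` have the same coefficients in negative degrees. -/
theorem exists_polynomial_coeff_eq {J : LaurentSeries K} (hord : J.order = -1)
    (hlead : J.coeff (-1) = 1) (T : LaurentSeries K) :
    ∃ P : K[X], ∀ k : ℤ, k < 0 → (aeval J P).coeff k = T.coeff k := by
  by_cases hT : T = 0
  · exact ⟨0, fun k _ => by rw [hT, map_zero]⟩
  · refine exists_polynomial_of_bound hord hlead (-T.order).toNat T fun k hk => ?_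
    apply HahnSeries.coeff_eq_zero_of_lt_order
    have := Int.self_le_toNat (-T.order)
    omega

/-- The same in finitely-supported form: `(P(J)).coeff (-n) = c n` for `n ≥ 1`. -/
theorem exists_polynomial_principalPart {J : LaurentSeries K} (hord : J.order = -1)
    (hlead : J.coeff (-1) = 1) (c : ℕ →₀ K) :
    ∃ P : K[X], ∀ n : ℕ, 0 < n → (aeval J P).coeff (-(n : ℤ)) = c n := by
  classical
  set T : LaurentSeries K := ∑ n ∈ c.support, HahnSeries.single (-(n : ℤ)) (c n) with hT
  obtain ⟨P, hP⟩ := exists_polynomial_coeff_eq hord hlead T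
  refine ⟨P, fun n hn => ?_⟩
  rw [hP _ (by omega), hT, HahnSeries.coeff_sum]
  by_cases hmem : n ∈ c.support
  · rw [Finset.sum_eq_single n]
    · simp
    · intro b _ hb
      rw [HahnSeries.coeff_single_of_ne]
      intro h
      apply hb
      omega
    · intro h
      exact absurd hmem h
  · rw [Finsupp.notMem_support_iff.mp hmem]
    refine Finset.sum_eq_zero fun b hb => ?_
    rw [HahnSeries.coeff_single_of_ne]
    intro h
    have : b = n := by omega
    rw [this] at hb
    exact hmem hb

/-- A Laurent series with no coefficients in negative degrees has nonnegative order. -/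
theorem order_nonneg_of_coeff_neg {T : LaurentSeries K} (h : ∀ k : ℤ, k < 0 → T.coeff k = 0) :
    0 ≤ T.order := by
  by_cases hT : T = 0
  · rw [hT, HahnSeries.order_zero]
  · by_contra hneg
    exact HahnSeries.coeff_order_eq_zero.not.mpr hT (h _ (not_le.mp hneg))

/-- The coefficients in negative degrees of a Laurent series of nonnegative order vanish. -/
theorem coeff_neg_of_order_nonneg {T : LaurentSeries K} (h : 0 ≤ T.order) {k : ℤ} (hk : k < 0) :
    T.coeff k = 0 :=
  HahnSeries.coeff_eq_zero_of_lt_order (lt_of_lt_of_le hk h)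

/-- Order form: `P(J) - T` is a power series. -/
theorem exists_polynomial_sub_order_nonneg {J : LaurentSeries K} (hord : J.order = -1)
    (hlead : J.coeff (-1) = 1) (T : LaurentSeries K) :
    ∃ P : K[X], 0 ≤ (aeval J P - T).order := by
  obtain ⟨P, hP⟩ := exists_polynomial_coeff_eq hord hlead T
  refine ⟨P, order_nonneg_of_coeff_neg fun k hk => ?_⟩
  rw [HahnSeries.coeff_sub, hP k hk, sub_self]

/-! ### The polar part attached to finitely many coefficients -/

/-- The principal part `∑ c_n q^{-n}` attached to a finitely supported family of coefficients. -/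
noncomputable def polarPart (c : ℕ →₀ K) : LaurentSeries K :=
  ∑ n ∈ c.support, HahnSeries.single (-(n : ℤ)) (c n)

theorem polarPart_coeff_neg (c : ℕ →₀ K) (n : ℕ) : (polarPart c).coeff (-(n : ℤ)) = c n := by
  classical
  rw [polarPart, HahnSeries.coeff_sum]
  by_cases hmem : n ∈ c.support
  · rw [Finset.sum_eq_single n]
    · simp
    · intro b _ hb
      rw [HahnSeries.coeff_single_of_ne]
      intro h
      apply hb
      omega
    · intro h
      exact absurd hmem h
  · rw [Finsupp.notMem_support_iff.mp hmem]
    refine Finset.sum_eq_zero fun b hb => ?_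
    rw [HahnSeries.coeff_single_of_ne]
    intro h
    have : b = n := by omega
    rw [this] at hb
    exact hmem hb

/-- The constant coefficient of `(∑ c_n q^{-n}) * S`. -/
theorem polarPart_mul_coeff_zero (c : ℕ →₀ K) (S : LaurentSeries K) :
    (polarPart c * S).coeff 0 = ∑ n ∈ c.support, c n * S.coeff (n : ℤ) := by
  rw [polarPart, Finset.sum_mul, HahnSeries.coeff_sum]
  refine Finset.sum_congr rfl fun n _ => ?_
  have h := HahnSeries.coeff_single_mul_add (r := c n) (x := S) (a := (n : ℤ)) (b := -(n : ℤ))
  rwa [add_neg_cancel] at h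

/-- A power series times a power series without constant term has no constant term. -/
theorem mul_coeff_zero_eq_zero {B S : LaurentSeries K} (hB : ∀ k : ℤ, k < 0 → B.coeff k = 0)
    (hS : ∀ k : ℤ, k ≤ 0 → S.coeff k = 0) : (B * S).coeff 0 = 0 := by
  by_cases hB0 : B = 0
  · rw [hB0, zero_mul, HahnSeries.coeff_zero]
  by_cases hS0 : S = 0
  · rw [hS0, mul_zero, HahnSeries.coeff_zero]
  have h1 : 0 ≤ B.order := order_nonneg_of_coeff_neg hB
  have h2 : 0 < S.order := by
    by_contra hneg
    exact HahnSeries.coeff_order_eq_zero.not.mpr hS0 (hS _ (not_lt.mp hneg))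
  apply HahnSeries.coeff_eq_zero_of_lt_order
  rw [HahnSeries.order_mul hB0 hS0]
  omega

/-- **Principal parts are polynomials in `J`**, polar-part form. -/
theorem exists_polynomial_polarPart {J : LaurentSeries K} (hord : J.order = -1)
    (hlead : J.coeff (-1) = 1) (c : ℕ →₀ K) :
    ∃ P : K[X], ∀ k : ℤ, k < 0 → (aeval J P - polarPart c).coeff k = 0 := by
  obtain ⟨P, hP⟩ := exists_polynomial_coeff_eq hord hlead (polarPart c)
  exact ⟨P, fun k hk => by rw [HahnSeries.coeff_sub, hP k hk, sub_self]⟩

end Fermat.Agent.M1.Link.Faber39
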