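/-
Program M1 (S44), chapter LINK, brick LK2 (helper39).

THE `q`-ADIC PLACE `∞` OF `F = ℚbar(X₀(N)) ⊆ ℚbar((q))`.

* `embPlace_ord_eq` (generic): for an embedding `τ : F → K((q))` which is the identity on
  constants and an element `x` with `(τ x).order = -1`, the place cut out by `τ`
  (`X0/LaurentPlace.embPlace`) has `ord f = (τ f).order`.
* `infPlace N : Place ℚbar (FF N)`, `infPlace_ord`, `mem_infPlace_iff`, `infPlace_ord_jF`.
-/
import Mathlib
import Fermat.Agent.X0.LaurentPlace
import Fermat.Agent.X0.RootsK
import Fermat.Agent.M1.Link.Faber39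

set_option autoImplicit false

open AlgebraicCurve

namespace Fermat.Agent.M1.Link.InfPlace39

open Fermat.Agent.X0

section Generic

variable {K F : Type*} [Field K] [Field F] [Algebra K F]

/-- The place cut out by a Laurent series embedding with an element of order `-1` has the order
function of the embedding. -/
theorem embPlace_ord_eq (τ : F →+* LaurentSeries K)
    (hτ : ∀ c : K, τ (algebraMap K F c) = HahnSeries.C c)
    (hnt : ∃ f, f ≠ 0 ∧ (τ f).order ≠ 0) {x : F} (hx : (τ x).order = -1)
    {f : F} (hf : f ≠ 0) : (LaurentPlace.embPlace τ hτ hnt).ord f = (τ f).order := by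
  obtain ⟨m, hm, hspec⟩ := LaurentPlace.embPlace_spec τ hτ hnt
  have hx0 : x ≠ 0 := by
    rintro rfl
    rw [map_zero, HahnSeries.order_zero] at hx
    omega
  have h1 := hspec x hx0
  rw [hx] at h1
  have hdvd : (m : ℤ) ∣ 1 := ⟨-(LaurentPlace.embPlace τ hτ hnt).ord x, by linarith⟩
  have hm1 : (m : ℤ) = 1 := by
    have h2 : (0 : ℤ) ≤ m := Int.natCast_nonneg m
    exact Int.eq_one_of_dvd_one h2 hdvd
  rw [hspec f hf, hm1, one_mul]

end Generic

variable (N : ℕ) [NeZero N]

/-- The inclusion `F ⊆ ℚbar((q))`. -/
noncomputable def tauInf : FF N →+* LaurentSeries Kbar :=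
  (IntermediateField.val (ModularCurve.modularFunctionFieldBar N)).toRingHom

@[simp] theorem tauInf_apply (f : FF N) : tauInf N f = (f : LaurentSeries Kbar) := rfl

theorem tauInf_const (c : Kbar) : tauInf N (algebraMap Kbar (FF N) c) = HahnSeries.C c := by
  rw [tauInf_apply]
  show algebraMap Kbar (LaurentSeries Kbar) c = _
  exact Faber39.algebraMap_eq_C c

theorem order_jqK : jqK.order = -1 := by
  apply le_antisymm
  · exact HahnSeries.order_le_of_coeff_ne_zero (by rw [coeff_jqK_neg_one]; exact one_ne_zero)
  · rw [HahnSeries.le_order_iff_forall jqK_ne_zero]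
    intro k hk
    have := coeff_jqK_pow_of_lt (n := 1) (m := k) (by simpa using hk)
    rwa [pow_one] at this

theorem order_jF : ((jF N : FF N) : LaurentSeries Kbar).order = -1 := by
  rw [coe_jF]; exact order_jqK

theorem tauInf_nontrivial : ∃ f : FF N, f ≠ 0 ∧ (tauInf N f).order ≠ 0 := by
  refine ⟨jF N, ?_, ?_⟩
  · intro h
    have := order_jF N
    rw [h] at this
    simp at this
  · rw [tauInf_apply, order_jF]
    omega

/-- The `q`-adic place `∞` of `F`. -/
noncomputable def infPlace : Place Kbar (FF N) :=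
  LaurentPlace.embPlace (tauInf N) (tauInf_const N) (tauInf_nontrivial N)

/-- The order at `∞` is the `q`-adic order. -/
theorem infPlace_ord {f : FF N} (hf : f ≠ 0) :
    (infPlace N).ord f = (f : LaurentSeries Kbar).order :=
  embPlace_ord_eq (tauInf N) (tauInf_const N) (tauInf_nontrivial N) (x := jF N)
    (by rw [tauInf_apply, order_jF]) hf

theorem mem_infPlace_iff {f : FF N} (hf : f ≠ 0) :
    f ∈ (infPlace N).toValuationSubring ↔ 0 ≤ (f : LaurentSeries Kbar).order :=
  LaurentPlace.mem_embPlace_iff (tauInf N) (tauInf_const N) (tauInf_nontrivial N) hf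

/-- Elements regular at `∞` have no coefficients in negative degrees. -/
theorem coeff_eq_zero_of_mem_infPlace {f : FF N} (hf : f ∈ (infPlace N).toValuationSubring)
    {k : ℤ} (hk : k < 0) : (f : LaurentSeries Kbar).coeff k = 0 := by
  by_cases hf0 : f = 0
  · rw [hf0]; simp
  · exact HahnSeries.coeff_eq_zero_of_lt_order
      (lt_of_lt_of_le hk ((mem_infPlace_iff N hf0).mp hf))

theorem infPlace_ord_jF : (infPlace N).ord (jF N) = -1 := by
  have h0 : jF N ≠ 0 := by
    intro h
    have := order_jF N
    rw [h] at this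
    simp at this
  rw [infPlace_ord N h0, order_jF]

end Fermat.Agent.M1.Link.InfPlace39
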