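/-
Program M1 (S44), chapter LINK, brick LK2(b), part 2 (helper39).

PRINCIPAL PARTS AND REGULAR DIFFERENTIALS (abstract form, on `RR/Duality`).  Let `F / K` be a
function field with all the inputs of Riemann-Roch (`Final.RRData K F`), `ω₀ ≠ 0` a differential
with divisor `W`.

* `mem_sup_of_forall_Theta_eq_zero` : a repartition `α` which pairs to zero with every regular
  differential `h • ω₀` (`h ∈ L(W)`) lies in `A(0) + F`  (Serre duality: `Psi` is onto the dual of
  `H¹(0)`, and a vector killed by every functional is zero).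
* `exists_function_of_forall_res_eq_zero` : **Mittag-Leffler at one place**: if `a ∈ F` satisfies
  `res_{v₀} (a h ω₀) = 0` for all `h ∈ L(W)`, there is `g ∈ F`, regular at every place `v ≠ v₀`,
  such that `a - g` is regular at `v₀` (`g` has the same principal part as `a` at `v₀`).
-/
import Mathlib
import Fermat.Agent.RR.Final

set_option autoImplicit false
set_option linter.unusedSectionVars false

open AlgebraicCurve KaehlerDifferential

namespace Fermat.Agent.M1.Link.PrincipalPart39

open Fermat.Agent.RR.LSpace Fermat.Agent.RR.Duality Fermat.Agent.RR.Final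

variable {K F : Type*} [Field K] [Field F] [Algebra K F]

variable (X : RRData K F) {ω₀ : Ω[F⁄K]} (hω₀ : ω₀ ≠ 0) {W : Divisor K F}
  (hW : ∀ v, W v = v.ordDifferential ω₀)

include hW in
/-- A repartition orthogonal to all regular differentials lies in `A(0) + F`. -/
theorem mem_sup_of_forall_Theta_eq_zero (α : Fermat.Agent.RR.Duality.Rep K F)
    (hα : ∀ h ∈ riemannRochSpace W, Theta X.HL X.HD X.R X.hrep hω₀ h α = 0) :
    α ∈ repartitionsOf (0 : Divisor K F) ⊔ principalRepartitions K F := by
  rw [← Submodule.Quotient.mk_eq_zero]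
  rw [← Module.forall_dual_apply_eq_zero_iff K]
  intro μ
  obtain ⟨h, rfl⟩ := Psi_surjective X.HL X.HD X.R X.hrep X.hS hω₀ hW 0 μ
  rw [Psi_apply_mk]
  refine hα h ?_
  have key : ∀ x : F, x ∈ riemannRochSpace (W - 0) → x ∈ riemannRochSpace W := by
    intro x hx
    rwa [sub_zero] at hx
  exact key _ h.2

include hω₀ hW in
/-- **Mittag-Leffler at one place.** -/
theorem exists_function_of_forall_res_eq_zero (v₀ : Place K F) (a : F)
    (ha : ∀ h ∈ riemannRochSpace W, X.R.res v₀ ((a * h) • ω₀) = 0) :
    ∃ g : F, (∀ v : Place K F, v ≠ v₀ → g ∈ v.toValuationSubring) ∧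
      a - g ∈ v₀.toValuationSubring := by
  have hmem := mem_sup_of_forall_Theta_eq_zero X hω₀ hW (single v₀ a) (fun h hh => by
    rw [Theta_single]
    exact ha h hh)
  obtain ⟨β, hβ, γ, hγ, hsum⟩ := Submodule.mem_sup.mp hmem
  obtain ⟨g, hg⟩ := mem_principalRepartitions_iff.mp hγ
  have hβ' := mem_repartitionsOf_iff.mp hβ
  have hval : ∀ v : Place K F, (single v₀ a : Place K F → F) v =
      (β : Place K F → F) v + g := by
    intro v
    have := congrArg (fun δ : Fermat.Agent.RR.Duality.Rep K F => (δ : Place K F → F) v) hsum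
    rw [← this]
    have hγv : (γ : Place K F → F) v = g := by rw [hg]
    show ((β : Place K F → F) + (γ : Place K F → F)) v = _
    rw [Pi.add_apply, hγv]
  have hreg : ∀ v : Place K F, (β : Place K F → F) v ∈ v.toValuationSubring := by
    intro v
    rcases hβ' v with h0 | h0
    · rw [h0]; exact zero_mem _
    · apply Fermat.Agent.X0.FF.ffp_mem_of_ord_nonneg
      simpa using h0
  refine ⟨g, fun v hv => ?_, ?_⟩
  · have h1 := hval v
    rw [single_apply_ne v₀ a hv] at h1
    have : g = -(β : Place K F → F) v := by linear_combination -h1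
    rw [this]
    exact neg_mem (hreg v)
  · have h1 := hval v₀
    rw [single_apply_same] at h1
    have : a - g = (β : Place K F → F) v₀ := by linear_combination h1
    rw [this]
    exact hreg v₀

end Fermat.Agent.M1.Link.PrincipalPart39
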