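/-
Program M1 (S44), chapter LINK, brick LK2(b) (helper39): FUNCTIONS ON `X₀(N)` WITH PRESCRIBED
PRINCIPAL PART AT `∞` (characteristic zero).

Let `c : ℕ →₀ ℤ` be an integral relation between the `q`-coefficients of all cusp forms of weight
two on `Γ₀(N)`: `∑ c_n a_n(f) = 0` for every `f ∈ S₂(Γ₀(N))`.  Then there is a function
`g ∈ F = ℚbar(X₀(N)) ⊆ ℚbar((q))`, regular at every place different from the `q`-adic place `∞`,
with

  `g ≡ ∑_{n ≥ 1} c_n q^{-n}  mod  q ℚbar[[q]]`.

Proof.  Let `a = P(j)` be a polynomial in `j` with this principal part (`Faber39`).  For every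
regular differential `h • dj`, `res_∞ (a h dj) = (a h θ_j).coeff 0 = ∑ c_n (h θ_j).coeff n = 0` by
LK1 (`CuspKill39`), the only input on residues being LK2(a):

  `hresInf : ∀ g, res_∞ (g • dj) = (g * θ_j).coeff 0`.

Serre duality (`PrincipalPart39.exists_function_of_forall_res_eq_zero`) gives `g`.
-/
import Mathlib
import Fermat.Agent.M1.Link.Faber39
import Fermat.Agent.M1.Link.InfPlace39
import Fermat.Agent.M1.Link.PrincipalPart39
import Fermat.Agent.M1.Link.CuspKill39
import Fermat.Agent.RR.InstPrep
import Fermat.Agent.RR.GlobAdele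
import Fermat.Agent.X0.HasCanDivInst

set_option autoImplicit false
set_option linter.unusedSectionVars false
set_option linter.style.haveILetI false

open AlgebraicCurve CongruenceSubgroup KaehlerDifferential Polynomial

namespace Fermat.Agent.M1.Link.PrincipalPartX0_39

open Fermat.Agent.X0 Fermat.Agent.S20.LowDJ Fermat.Agent.RR Fermat.Agent.M1.Link.InfPlace39

variable (N : ℕ) [NeZero N]

/-- LK2(a), as a hypothesis: the residue at the `q`-adic place of `g • dj` is the constant
coefficient of `g * θ_j`. -/
def ResInfFormula : Prop :=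
  ∀ g : FF N, LocalResMain.residue (HasCanDivInst.isGen N) (infPlace N)
      (g • D Kbar (FF N) (jF N)) = ((g : LaurentSeries Kbar) * thetaJ).coeff 0

/-- The coercion `F → ℚbar((q))` commutes with polynomial evaluation. -/
theorem coe_aeval (P : Kbar[X]) (x : FF N) :
    ((aeval x P : FF N) : LaurentSeries Kbar) = aeval (x : LaurentSeries Kbar) P :=
  (Polynomial.aeval_algHom_apply
    (IntermediateField.val (ModularCurve.modularFunctionFieldBar N)) x P).symm ▸ rfl

/-- **LK2(b), coefficient form over `ℚbar`.** -/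
theorem exists_principalPart_of_coeff (hres : ResInfFormula N) (c : ℕ →₀ Kbar)
    (hc : ∀ h : FF N,
      (∀ v : Place Kbar (FF N), 0 ≤ v.ordDifferential (h • D Kbar (FF N) (jF N))) →
      ∑ n ∈ c.support, c n * ((h : LaurentSeries Kbar) * thetaJ).coeff (n : ℤ) = 0) :
    ∃ g : FF N, (∀ v : Place Kbar (FF N), v ≠ infPlace N → g ∈ v.toValuationSubring) ∧
      (∀ n : ℕ, 0 < n → (g : LaurentSeries Kbar).coeff (-(n : ℤ)) = c n) ∧
      (g : LaurentSeries Kbar).coeff 0 = 0 := by
  have hx : FF.IsGen Kbar (jF N) := HasCanDivInst.isGen N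
  haveI : HasCanonicalDivisor (K := Kbar) (F := FF N) := HasCanDivInst.hasCanonicalDivisor N
  set R : Duality.ResidueData Kbar (FF N) := GlobAdele.dualityResidueData hx with hR
  set X : Final.RRData Kbar (FF N) := InstPrep.rrData hx R with hX
  have hω₀ : D Kbar (FF N) (jF N) ≠ 0 := FF.D_ne_zero hx
  -- the polynomial in `j` with the prescribed principal part
  obtain ⟨P, hP⟩ := Faber39.exists_polynomial_polarPart order_jqK coeff_jqK_neg_one c
  set a : FF N := aeval (jF N) P with ha
  have hacoe : (a : LaurentSeries Kbar) = aeval jqK P := by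
    rw [ha, coe_aeval, coe_jF]
  -- orthogonality to the regular differentials
  have horth : ∀ h ∈ riemannRochSpace (canonicalDivisorOf hω₀),
      X.R.res (infPlace N) ((a * h) • D Kbar (FF N) (jF N)) = 0 := by
    intro h hh
    by_cases hh0 : h = 0
    · rw [hh0, mul_zero, zero_smul, map_zero]
    have hreg := (InstPrep.mem_L_dx_iff hx hh0).mp hh
    show LocalResMain.residue hx (infPlace N) ((a * h) • D Kbar (FF N) (jF N)) = 0
    rw [hres (a * h)]
    set S : LaurentSeries Kbar := (h : LaurentSeries Kbar) * thetaJ with hS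
    have hS0 : ∀ k : ℤ, k ≤ 0 → S.coeff k = 0 := fun k hk =>
      CuspKill39.coeff_mul_thetaJ_eq_zero_of_nonpos N h hreg hk
    have hsplit : ((a * h : FF N) : LaurentSeries Kbar) * thetaJ =
        Faber39.polarPart c * S + (aeval jqK P - Faber39.polarPart c) * S := by
      rw [hS, ← hacoe]
      push_cast
      ring
    rw [hsplit, HahnSeries.coeff_add, Faber39.polarPart_mul_coeff_zero,
      Faber39.mul_coeff_zero_eq_zero hP hS0, add_zero]
    exact hc h hreg
  obtain ⟨g, hg1, hg2⟩ := PrincipalPart39.exists_function_of_forall_res_eq_zero X hω₀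
    (fun v => canonicalDivisorOf_apply hω₀ v) (infPlace N) a horth
  -- normalise the constant coefficient
  set g' : FF N := g - algebraMap Kbar (FF N) ((g : LaurentSeries Kbar).coeff 0) with hg'
  have hg'coe : (g' : LaurentSeries Kbar) =
      (g : LaurentSeries Kbar) - HahnSeries.C ((g : LaurentSeries Kbar).coeff 0) := by
    rw [hg']
    push_cast
    congr 1
    exact tauInf_const N _
  refine ⟨g', fun v hv => ?_, fun n hn => ?_, ?_⟩
  · exact sub_mem (hg1 v hv) (v.algebraMap_mem' _)
  · have h1 := coeff_eq_zero_of_mem_infPlace N hg2 (k := -(n : ℤ)) (by omega)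
    have h2 := hP (-(n : ℤ)) (by omega)
    rw [HahnSeries.coeff_sub, Faber39.polarPart_coeff_neg] at h2
    have h3 : ((a - g : FF N) : LaurentSeries Kbar).coeff (-(n : ℤ)) =
        (aeval jqK P).coeff (-(n : ℤ)) - (g : LaurentSeries Kbar).coeff (-(n : ℤ)) := by
      rw [← hacoe]
      push_cast
      rw [HahnSeries.coeff_sub]
    rw [h3] at h1
    rw [hg'coe, HahnSeries.coeff_sub, HahnSeries.C_apply,
      HahnSeries.coeff_single_of_ne (by omega), sub_zero]
    linear_combination h2 - h1
  · rw [hg'coe, HahnSeries.coeff_sub, HahnSeries.C_apply, HahnSeries.coeff_single_same, sub_self]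

/-- **LK2(b).**  An integral relation `c` between the `q`-coefficients of all cusp forms of weight
two on `Γ₀(N)` is the principal part at `∞` of a function on `X₀(N)` regular outside `∞`. -/
theorem exists_principalPart (hres : ResInfFormula N) (c : ℕ →₀ ℤ)
    (hc : ∀ f : CuspForm (Gamma0 N) 2,
      ∑ n ∈ c.support, (c n : ℂ) * ModularFormClass.qCoeff f n = 0) :
    ∃ g : FF N, (∀ v : Place Kbar (FF N), v ≠ infPlace N → g ∈ v.toValuationSubring) ∧
      (∀ n : ℕ, 0 < n → (g : LaurentSeries Kbar).coeff (-(n : ℤ)) = (c n : Kbar)) ∧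
      (g : LaurentSeries Kbar).coeff 0 = 0 := by
  classical
  set c' : ℕ →₀ Kbar := c.mapRange (fun z : ℤ => (z : Kbar)) (by simp) with hc'
  have hsupp : c'.support = c.support := by
    ext n
    simp only [hc', Finsupp.mem_support_iff, Finsupp.mapRange_apply, ne_eq, Int.cast_eq_zero]
  obtain ⟨g, h1, h2, h3⟩ := exists_principalPart_of_coeff N hres c' (fun h hreg => by
    have := CuspKill39.sum_coeff_eq_zero_of_kills N c hc h hreg
    rw [hsupp]
    simpa [hc'] using this)
  exact ⟨g, h1, fun n hn => by simpa [hc'] using h2 n hn, h3⟩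

end Fermat.Agent.M1.Link.PrincipalPartX0_39
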