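/-
Program M1 (S44), chapter LINK, bricks C PP + D RESQ, final instantiation (helper39):

* `theta_jqK` : `q d/dq (j) = θ_j` (`S20.LowDJ.thetaJ`) in `ℚbar((q))`;
* `resInfFormula N : ResInfFormula N` : LK2(a) at the cusp `∞` of `X₀(N)` (from helper42's
  `ResQ42.residue_eq_coeff_theta`);
* `infPlace_eq_inftyL` : the place `InfPlace39.infPlace N` is helper45's `QPlace45.inftyL ℚbar N`;
* `exists_principalPart` : **C PP, unconditional, in the vocabulary of `QPlace45` / `Intg45`**: an
  integral relation `c` between the `q`-coefficients of all cusp forms of weight two on `Γ₀(N)` is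
  the principal part at `∞` of a function `g ∈ ℚbar(X₀(N))`, regular at every place `≠ ∞`, whose
  coefficients in degrees `≤ 0` are integers (so they lie in every valuation subring of `ℚbar`).
-/
import Mathlib
import Fermat.Agent.M1.Link.PrincipalPartX0_39
import Fermat.Agent.M1.Link.QPlace45
import Fermat.Agent.M1.Link.ResQ42
import Fermat.Agent.M1.Link.KeyAbs54
import Fermat.Agent.X0.JqExpansion
import Fermat.Agent.X0.JdExp

set_option autoImplicit false
set_option linter.unusedSectionVars false

open AlgebraicCurve CongruenceSubgroup KaehlerDifferential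

namespace Fermat.Agent.M1.Link.PPInfty39

open Fermat.Agent.X0 Fermat.Agent.S20.LowDJ Fermat.Agent.RR
open Fermat.Agent.M1.Link.InfPlace39 Fermat.Agent.M1.Link.PrincipalPartX0_39

/-- `θ = q d/dq` multiplies the coefficient of `q^n` by `n`. -/
theorem coeff_single_mul_derivative {k : Type*} [Field k] (U : LaurentSeries k) (n : ℤ) :
    (HahnSeries.single (1 : ℤ) (1 : k) * LaurentSeries.derivative k U).coeff n =
      (n : k) * U.coeff n := by
  rw [HahnSeries.coeff_single_mul, one_mul, KeyAbs54.derivative_coeff, sub_add_cancel,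
    zsmul_eq_mul]

/-- `q d/dq (j) = θ_j`. -/
theorem theta_jqK :
    HahnSeries.single (1 : ℤ) (1 : Kbar) * LaurentSeries.derivative Kbar jqK = thetaJ := by
  ext n
  rw [coeff_single_mul_derivative, jqK_eq_laurentOf, thetaJ, laurentOf_coeff, laurentOf_coeff]
  split_ifs with h
  · obtain ⟨m, hm⟩ := Int.eq_ofNat_of_zero_le h
    rw [hm, Int.toNat_natCast, thetaNumK, PowerSeries.coeff_mk]
    have : (n : Kbar) = (m : Kbar) - 1 := by
      have h1 : n = (m : ℤ) - 1 := by
        have : n + ((1 : ℕ) : ℤ) = (m : ℤ) := hm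
        push_cast at this
        omega
      rw [h1]
      push_cast
      ring
    rw [this]
  · rw [mul_zero]

variable (N : ℕ) [NeZero N]

/-- The inclusion `F ⊆ ℚbar((q))` as an algebra map. -/
noncomputable abbrev valAlg : FF N →ₐ[Kbar] LaurentSeries Kbar :=
  IntermediateField.val (ModularCurve.modularFunctionFieldBar N)

/-- **LK2(a)** at the cusp `∞` of `X₀(N)`. -/
theorem resInfFormula : ResInfFormula N := by
  intro g
  have h := ResQ42.residue_eq_coeff_theta (HasCanDivInst.isGen N) (infPlace N) (valAlg N)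
    (fun f hf => infPlace_ord N hf) (jF N) g
  rw [h]
  show ((g : LaurentSeries Kbar) * (HahnSeries.single (1 : ℤ) (1 : Kbar) *
    LaurentSeries.derivative Kbar ((jF N : FF N) : LaurentSeries Kbar))).coeff 0 = _
  rw [coe_jF, theta_jqK]

/-- The two names of the cusp `∞`. -/
theorem infPlace_eq_inftyL : infPlace N = QPlace45.inftyL Kbar N :=
  QPlace45.eq_qPlace_of_ord (QPlace45.hasSimplePole_full Kbar N) (infPlace N)
    (fun f hf => infPlace_ord N hf)

/-- **C PP, unconditional.** -/
theorem exists_principalPart (c : ℕ →₀ ℤ)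
    (hc : ∀ f : CuspForm (Gamma0 N) 2,
      ∑ n ∈ c.support, (c n : ℂ) * ModularFormClass.qCoeff f n = 0) :
    ∃ g : FF N,
      (∀ v : Place Kbar (FF N), v ≠ QPlace45.inftyL Kbar N → g ∈ v.toValuationSubring) ∧
      (∀ n : ℕ, 0 < n → (g : LaurentSeries Kbar).coeff (-(n : ℤ)) = (c n : Kbar)) ∧
      (g : LaurentSeries Kbar).coeff 0 = 0 ∧
      ∀ (A : ValuationSubring Kbar) (n : ℤ), n ≤ 0 → (g : LaurentSeries Kbar).coeff n ∈ A := by
  obtain ⟨g, h1, h2, h3⟩ := PrincipalPartX0_39.exists_principalPart N (resInfFormula N) c hc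
  refine ⟨g, fun v hv => h1 v (by rwa [infPlace_eq_inftyL]), h2, h3, fun A n hn => ?_⟩
  rcases lt_or_eq_of_le hn with hlt | rfl
  · obtain ⟨m, hm⟩ := Int.eq_ofNat_of_zero_le (show 0 ≤ -n by omega)
    have hm0 : 0 < m := by omega
    have : n = -(m : ℤ) := by omega
    rw [this, h2 m hm0]
    exact intCast_mem A (c m)
  · rw [h3]
    exact zero_mem A

end Fermat.Agent.M1.Link.PPInfty39
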