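/-
M1 (row 38, S44), chapter LINK, brick (SAT), concrete form for `S₂(Γ₀(N))` (helper60).

`cuspRel N`  : the finitely supported integral relations `c : ℕ →₀ ℤ` satisfied by the
               `q`-expansions of ALL cusp forms of `S₂(Γ₀(N))`.
`qLattice N` : the subgroup of `ℕ → ℤ` of `q`-expansions of cusp forms with integral coefficients.

Main theorem `exists_integral_forms_of_mem_relSubgroup`: given the integral structure (S23) and
finite dimensionality (S21), a sequence `φ : ℕ → k` (`k` a field with `p = 0`) lying in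
`Abstract45.relSubgroup (cuspRel N)` is a `k`-linear combination of the reductions mod `p` of
finitely many cusp forms with integral `q`-expansion (whose reductions are moreover linearly
independent over `𝔽_p`).

Inputs are hypotheses so that the import closure stays small: feed
`Fermat.Agent.S23.result N` and `Fermat.Agent.S21.Assembly.finite_cusp N`.
-/
import Mathlib
import Fermat.Prelude.Def_CuspForm_IntegralStructure
import Fermat.Agent.S49.QExp
import Fermat.Agent.M1.Link.Saturate60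
import Fermat.Agent.M1.Link.Abstract45

set_option autoImplicit false
set_option linter.style.haveILetI false

namespace Fermat.Agent.M1.Link.SaturateCusp60

open CuspForm CongruenceSubgroup ModularFormClass
open Fermat.Agent.S49 Fermat.Agent.M1.Link.Saturate60 Fermat.Agent.M1.Link

variable {N : ℕ}

/-- the integral relations satisfied by the `q`-expansions of all cusp forms of level `N`. -/
def cuspRel (N : ℕ) : Set (ℕ →₀ ℤ) :=
  {c | ∀ f : CuspForm (Gamma0 N) 2, Abstract45.pair c (fun n => qCoeff ⇑f n) = 0}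

theorem mem_cuspRel {c : ℕ →₀ ℤ} :
    c ∈ cuspRel N ↔ ∀ f : CuspForm (Gamma0 N) 2, Abstract45.pair c (fun n => qCoeff ⇑f n) = 0 :=
  Iff.rfl

theorem pair_eq_pairR {k : Type*} [CommRing k] (c : ℕ →₀ ℤ) (a : ℕ → k) :
    Abstract45.pair c a = pairR c a := rfl

/-- the `q`-expansions of the cusp forms with integral coefficients. -/
def qLattice (N : ℕ) : AddSubgroup (ℕ → ℤ) where
  carrier := {y | ∃ f : CuspForm (Gamma0 N) 2, ∀ n, qCoeff ⇑f n = (y n : ℂ)}
  zero_mem' := ⟨0, fun n => by rw [qCoeff_zero_form]; simp⟩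
  add_mem' := by
    rintro y y' ⟨f, hf⟩ ⟨f', hf'⟩
    exact ⟨f + f', fun n => by rw [qCoeff_add, hf, hf']; simp⟩
  neg_mem' := by
    rintro y ⟨f, hf⟩
    exact ⟨-f, fun n => by rw [qCoeff_neg, hf]; simp⟩

theorem mem_qLattice {y : ℕ → ℤ} :
    y ∈ qLattice N ↔ ∃ f : CuspForm (Gamma0 N) 2, ∀ n, qCoeff ⇑f n = (y n : ℂ) := Iff.rfl

/-- `qLattice N` is saturated. -/
theorem qLattice_sat {d : ℤ} (hd : d ≠ 0) (x : ℕ → ℤ) (h : d • x ∈ qLattice N) :
    x ∈ qLattice N := by
  obtain ⟨f, hf⟩ := h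
  have hd' : (d : ℂ) ≠ 0 := by exact_mod_cast hd
  refine ⟨(d : ℂ)⁻¹ • f, fun n => ?_⟩
  rw [qCoeff_smul, hf]
  simp only [Pi.smul_apply, smul_eq_mul, Int.cast_mul]
  rw [inv_mul_cancel_left₀ hd']

/-- the `ℂ`-linear functional "pair with the relation `c`" on cusp forms. -/
noncomputable def pairForm (N : ℕ) (c : ℕ →₀ ℤ) : CuspForm (Gamma0 N) 2 →ₗ[ℂ] ℂ :=
  c.sum fun n cn => (cn : ℂ) • ((LinearMap.proj n : (ℕ → ℂ) →ₗ[ℂ] ℂ).comp (qCoeffLin N))

theorem pairForm_apply (c : ℕ →₀ ℤ) (f : CuspForm (Gamma0 N) 2) :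
    pairForm N c f = pairR c (fun n => qCoeff ⇑f n) := by
  simp only [pairForm, pairR, Finsupp.sum, LinearMap.sum_apply, LinearMap.smul_apply,
    LinearMap.comp_apply, LinearMap.proj_apply, qCoeffLin_apply, smul_eq_mul]

theorem pairForm_of_int (c : ℕ →₀ ℤ) (f : CuspForm (Gamma0 N) 2) (y : ℕ → ℤ)
    (hy : ∀ n, qCoeff ⇑f n = (y n : ℂ)) : pairForm N c f = ((pairR c y : ℤ) : ℂ) := by
  rw [pairForm_apply, ← pairR_intCast]
  congr 1
  funext n
  exact hy n

/-- the set of cusp forms with integral `q`-expansion spans (S23). -/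
theorem span_integral_eq_top (hS23 : CuspForm.HasIntegralStructure N 2) :
    Submodule.span ℂ {f : CuspForm (Gamma0 N) 2 | ∀ n : ℕ, ∃ m : ℤ, qCoeff ⇑f n = (m : ℂ)} = ⊤ := by
  unfold CuspForm.HasIntegralStructure CuspForm.intLattice at hS23
  rwa [Submodule.span_span_of_tower] at hS23

/-- reductions of integral forms satisfy the relations. -/
theorem intCast_mem_relSubgroup {k : Type*} [CommRing k] {y : ℕ → ℤ} (hy : y ∈ qLattice N) :
    (fun n => ((y n : ℤ) : k)) ∈ Abstract45.relSubgroup (k := k) (cuspRel N) := by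
  intro c hc
  obtain ⟨f, hf⟩ := hy
  have h1 : pairForm N c f = 0 := by rw [pairForm_apply]; exact hc f
  rw [pairForm_of_int c f y hf] at h1
  have h2 : pairR c y = 0 := by exact_mod_cast h1
  rw [pair_eq_pairR, pairR_intCast, h2, Int.cast_zero]

/-- **(SAT) for `S₂(Γ₀(N))`.** -/
theorem exists_integral_forms_of_mem_relSubgroup [FiniteDimensional ℂ (CuspForm (Gamma0 N) 2)]
    (hS23 : CuspForm.HasIntegralStructure N 2) (p : ℕ) [Fact p.Prime]
    {k : Type*} [Field k] (hpk : (p : k) = 0) (φ : ℕ → k)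
    (hφ : φ ∈ Abstract45.relSubgroup (k := k) (cuspRel N)) :
    ∃ (g : ℕ) (f : Fin g → CuspForm (Gamma0 N) 2) (a : Fin g → ℕ → ℤ) (lam : Fin g → k),
      (∀ i n, qCoeff ⇑(f i) n = (a i n : ℂ)) ∧
      LinearIndependent (ZMod p) (fun i (n : ℕ) => (a i n : ZMod p)) ∧
      ∀ n, φ n = ∑ i, lam i * (a i n : k) := by
  classical
  set S : Set (CuspForm (Gamma0 N) 2) := {f | ∀ n : ℕ, ∃ m : ℤ, qCoeff ⇑f n = (m : ℂ)} with hS
  have hStop : Submodule.span ℂ S = ⊤ := span_integral_eq_top hS23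
  obtain ⟨B, hBsub, hBspan, hBind⟩ := exists_linearIndependent ℂ S
  rw [hStop] at hBspan
  have hBfin : B.Finite := hBind.setFinite
  letI : Fintype B := hBfin.fintype
  -- integral expansions of the basis
  have hex : ∀ i : B, ∃ y : ℕ → ℤ, ∀ n, qCoeff ⇑(i : CuspForm (Gamma0 N) 2) n = (y n : ℂ) := by
    intro i
    choose y hy using hBsub i.2
    exact ⟨y, hy⟩
  choose b hb using hex
  have hbL : ∀ i, b i ∈ qLattice N := fun i => ⟨i, hb i⟩
  have hbind : LinearIndependent ℂ (fun (i : B) (n : ℕ) => ((b i n : ℤ) : ℂ)) := by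
    have h1 := hBind.map' (qCoeffLin N) (LinearMap.ker_eq_bot.mpr (qCoeffLin_injective N))
    have h2 : (fun (i : B) (n : ℕ) => ((b i n : ℤ) : ℂ)) = ⇑(qCoeffLin N) ∘ Subtype.val := by
      funext i n
      simp only [Function.comp_apply, qCoeffLin_apply, hb i n]
    rw [h2]
    exact h1
  -- a relation killing the basis kills every cusp form
  have hkill : ∀ c : ℕ →₀ ℤ, (∀ i, pairR c (b i) = 0) → pairForm N c = 0 := by
    intro c hc
    have h1 : Submodule.span ℂ B ≤ LinearMap.ker (pairForm N c) := by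
      apply Submodule.span_le.mpr
      intro f hf
      rw [SetLike.mem_coe, LinearMap.mem_ker, pairForm_of_int c f (b ⟨f, hf⟩) (hb ⟨f, hf⟩),
        hc ⟨f, hf⟩, Int.cast_zero]
    rw [hBspan] at h1
    exact LinearMap.ext fun f => h1 (Submodule.mem_top)
  have hspan : ∀ c : ℕ →₀ ℤ, (∀ i, pairR c (b i) = 0) → ∀ y ∈ qLattice N, pairR c y = 0 := by
    intro c hc y hy
    obtain ⟨f, hf⟩ := hy
    have h1 : pairForm N c f = 0 := by rw [hkill c hc]; rfl
    rw [pairForm_of_int c f y hf] at h1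
    exact_mod_cast h1
  have hφ' : ∀ c : ℕ →₀ ℤ, (∀ y ∈ qLattice N, pairR c y = 0) → pairR c φ = 0 := by
    intro c hc
    refine hφ c ?_
    -- `c ∈ cuspRel N`
    have h1 : Submodule.span ℂ S ≤ LinearMap.ker (pairForm N c) := by
      apply Submodule.span_le.mpr
      intro f hf
      choose y hy using hf
      rw [SetLike.mem_coe, LinearMap.mem_ker, pairForm_of_int c f y hy, hc y ⟨f, hy⟩,
        Int.cast_zero]
    rw [hStop] at h1
    intro f
    have h2 : pairForm N c f = 0 := h1 Submodule.mem_top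
    rwa [pairForm_apply] at h2
  have hp0 : (p : ℤ) ≠ 0 := by exact_mod_cast (Fact.out : p.Prime).ne_zero
  obtain ⟨b', lam, hb'L, hind, hlam⟩ := sat_main (K := ℂ) (qLattice N)
    (fun x hx => qLattice_sat hp0 x hx) b hbL hbind hspan hpk φ hφ'
  -- reindex by `Fin g`
  let eqv : B ≃ Fin (Fintype.card B) := Fintype.equivFin B
  choose F hF using hb'L
  refine ⟨Fintype.card B, fun j => F (eqv.symm j), fun j => b' (eqv.symm j),
    fun j => lam (eqv.symm j), fun j n => hF (eqv.symm j) n, ?_, fun n => ?_⟩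
  · exact hind.comp eqv.symm eqv.symm.injective
  · rw [hlam n]
    exact (Equiv.sum_comp eqv.symm (fun i => lam i * ((b' i n : ℤ) : k))).symm

end Fermat.Agent.M1.Link.SaturateCusp60
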