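/-
M1 (row 38, S44), chapter LINK (helper99): **brick I KEY in the shape consumed by `Core44.link_core`**:

  `dlog_mem_relSubgroup : (fun n => (dlog u).coeff n) ∈ Abstract45.relSubgroup (cuspRel M)`

for `u ∈ κ(M)ˣ` with `p ∣ ord_Q u` at all places `Q` of `κ(M)` (`4 ∣ M` or `9 ∣ M`, `p ∤ M`), from
* C PP  (`PPInfty39.exists_principalPart`, helper39): an integral relation `c` is the principal part of
  a function `g` on `X₀(M)` regular off `∞` with integral coefficients in degrees `≤ 0`;
* H INTG (hypothesis `hintg`, the literal conclusion of helper45's `Intg45.intg`): such a `g` lies in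
  `A((q))` and its reduction `gbar ∈ κ(M)` is regular off `∞bar`;
* I KEY at `κ(M)` (`KeySpec99.key_fullC`): `Σ gbar_{-n} (dlog u)_n = 0`.
-/
import Mathlib
import Fermat.Agent.M1.Link.KeySpec99
import Fermat.Agent.M1.Link.PPInfty39
import Fermat.Agent.M1.Link.SaturateCusp60

set_option autoImplicit false
set_option linter.unusedSectionVars false

open AlgebraicCurve HahnSeries ModularCurve IntermediateField CongruenceSubgroup

namespace Fermat.Agent.M1.Link.KeyRel99

open Fermat.Agent.X0 Fermat.Agent.RED.Interface4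
  Fermat.Agent.M1.Link.QPlace45 Fermat.Agent.M1.Link.ThetaLog88 Fermat.Agent.M1.Link.KeySpec99

/-- The literal conclusion of H INTG (`Intg45.intg`) at level `M` for the valuation ring `A`:
a function on `X₀(M)` regular off `∞` whose coefficients in degrees `≤ 0` lie in `A` has all its
coefficients in `A`, and its reduction is a function of `κ(M)` regular off `∞bar`. -/
def IntgAt (M : ℕ) [NeZero M] (A : ValuationSubring Qbar) : Prop :=
  ∀ g : FF M,
    (∀ P : Place Qbar (FF M), P ≠ inftyL Qbar M → g ∈ P.toValuationSubring) →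
    (∀ n : ℤ, n ≤ 0 → (g : LaurentSeries Qbar).coeff n ∈ A) →
    ∃ Y : LaurentSeries ↥A, coeffMap A.subtype Y = (g : LaurentSeries Qbar) ∧
      ∃ h : coeffMap (IsLocalRing.residue ↥A) Y ∈
          modularFunctionFieldFullC (IsLocalRing.ResidueField ↥A) M,
        ∀ Q : Place (IsLocalRing.ResidueField ↥A)
            ↥(modularFunctionFieldFullC (IsLocalRing.ResidueField ↥A) M),
          Q ≠ inftyC (IsLocalRing.ResidueField ↥A) M →
          (⟨_, h⟩ : ↥(modularFunctionFieldFullC (IsLocalRing.ResidueField ↥A) M)) ∈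
            Q.toValuationSubring

variable {M : ℕ} [NeZero M] (hM : 4 ∣ M ∨ 9 ∣ M)
  (p : ℕ) [Fact p.Prime] (hpM : ¬ p ∣ M) (A : ValuationSubring Qbar) (hA : A.LiesOverPrime p)

include hM hpM hA in
/-- **I KEY, relation form.** -/
theorem dlog_mem_relSubgroup (hintg : IntgAt M A)
    (u : ↥(modularFunctionFieldFullC (IsLocalRing.ResidueField ↥A) M)) (hu : u ≠ 0)
    (hi : ∀ Q : Place (IsLocalRing.ResidueField ↥A)
        ↥(modularFunctionFieldFullC (IsLocalRing.ResidueField ↥A) M), (p : ℤ) ∣ Q.ord u) :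
    (fun n : ℕ => (dlog (u : LaurentSeries (IsLocalRing.ResidueField ↥A))).coeff (n : ℤ)) ∈
      Abstract45.relSubgroup (k := IsLocalRing.ResidueField ↥A) (SaturateCusp60.cuspRel M) := by
  classical
  have hchar : CharP (IsLocalRing.ResidueField ↥A) p :=
    Fermat.Agent.ES.KRON.KronInst10.charP_residueField A Fact.out hA
  intro c hc
  -- C PP
  obtain ⟨g, hgreg, hgc, hg0, hgA⟩ := PPInfty39.exists_principalPart (N := M) c (fun f => by
    have := hc f
    simpa only [Abstract45.pair, Finsupp.sum] using this)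
  -- H INTG
  obtain ⟨Y, hY, hmem, hreg⟩ := hintg g hgreg (hgA A)
  set gbar : ↥(modularFunctionFieldFullC (IsLocalRing.ResidueField ↥A) M) := ⟨_, hmem⟩ with hgbar
  have hcoeffY : ∀ n : ℤ, ((Y.coeff n : ↥A) : Qbar) = (g : LaurentSeries Qbar).coeff n := by
    intro n
    rw [← hY, coeffMap_coeff]
    rfl
  have hgbar_coeff : ∀ n : ℤ, (gbar : LaurentSeries (IsLocalRing.ResidueField ↥A)).coeff n =
      IsLocalRing.residue ↥A (Y.coeff n) := fun n => coeffMap_coeff _ _ _
  have hpos : ∀ n : ℕ, 0 < n →
      (gbar : LaurentSeries (IsLocalRing.ResidueField ↥A)).coeff (-(n : ℤ)) =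
        ((c n : ℤ) : IsLocalRing.ResidueField ↥A) := by
    intro n hn
    rw [hgbar_coeff]
    have h1 : Y.coeff (-(n : ℤ)) = ((c n : ℤ) : ↥A) := by
      apply Subtype.ext
      rw [hcoeffY, hgc n hn]
      simp
    rw [h1, map_intCast]
  have hzero : (gbar : LaurentSeries (IsLocalRing.ResidueField ↥A)).coeff 0 = 0 := by
    rw [hgbar_coeff]
    have h1 : Y.coeff 0 = 0 := by
      apply Subtype.ext
      rw [hcoeffY, hg0]
      rfl
    rw [h1, map_zero]
  -- KEY
  have hkey := key_fullC hM p hpM A hA u hu (fun Q _ => hi Q) gbar hreg c.support (by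
    intro n hn
    rcases Nat.eq_zero_or_pos n with rfl | hpos'
    · exact absurd (by simpa using hzero) hn
    · rw [hpos n hpos'] at hn
      rw [Finsupp.mem_support_iff]
      intro h0
      apply hn
      rw [h0, Int.cast_zero])
  -- compare the two sums
  show Abstract45.pair c _ = 0
  rw [Abstract45.pair, Finsupp.sum, ← hkey]
  refine Finset.sum_congr rfl fun n _ => ?_
  rcases Nat.eq_zero_or_pos n with rfl | hpos'
  · -- the constant term: `(dlog u).coeff 0 = ord_∞ u = 0` in `k`
    have hu' : (u : LaurentSeries (IsLocalRing.ResidueField ↥A)) ≠ 0 := by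
      intro h
      exact hu (Subtype.ext h)
    have hord : ((p : ℤ) ∣ (u : LaurentSeries (IsLocalRing.ResidueField ↥A)).order) := by
      have := hi (inftyC (IsLocalRing.ResidueField ↥A) M)
      rwa [ord_inftyC] at this
    have h0 : (dlog (u : LaurentSeries (IsLocalRing.ResidueField ↥A))).coeff ((0 : ℕ) : ℤ) = 0 := by
      rw [Nat.cast_zero, Fermat.Agent.M1.Link.KeyBridge54.dlog_coeff_zero hu']
      obtain ⟨m, hm⟩ := hord
      rw [hm, Int.cast_mul, Int.cast_natCast, CharP.cast_eq_zero, zero_mul]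
    rw [h0, mul_zero, mul_zero]
  · rw [hpos n hpos']

end Fermat.Agent.M1.Link.KeyRel99
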