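/-
M1 (row 38, S44), chapter LINK (helper60): the converse direction of the dictionary
"regular differential `h dj` ↦ cusp form with `q`-expansion `ι(h θj)`":

a cusp form of `S₂(Γ₀(N))` whose `q`-coefficients are algebraic (`= ι (a n)`, `a n ∈ ℚbar`) is the
image of some `h` of the space `E` of regular differentials, with `(h θ).coeff n = a n`.

Abstract form in the style of `S23/RationalBasis.exists_rational_spanning`: `E` a
finite-dimensional `ℚbar`-subspace of `ℚbar((q))`, `hLOW` the dictionary, `hdim` the dimension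
count.  (In the application `E = RegSpace.regE N W`, `W = div dj`, `θ = thetaJ`.)
-/
import Mathlib
import Fermat.Agent.X0.Defs
import Fermat.Agent.S20.IndepBaseChange
import Fermat.Agent.S20.DictRank
import Fermat.Agent.S49.QExp

set_option autoImplicit false
set_option linter.style.haveILetI false

namespace Fermat.Agent.M1.Link.PhiSurj60

open Module CongruenceSubgroup Fermat.Agent.X0 Fermat.Agent.S20.DictRank

variable {N : ℕ}

/-- **(PHI-SURJ)** -/
theorem exists_of_algebraic_coeff [FiniteDimensional ℂ (CuspForm (Gamma0 N) 2)]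
    (θ : LaurentSeries Kbar) (hθ0 : θ ≠ 0)
    (E : Submodule Kbar (LaurentSeries Kbar)) [FiniteDimensional Kbar E]
    (hneg : ∀ h ∈ E, ∀ k : ℤ, k < 0 → (h * θ).coeff k = 0)
    (hLOW : ∀ h ∈ E, ∃ f : CuspForm (Gamma0 N) 2, ∀ n : ℕ,
      ModularFormClass.qCoeff f n = iotaK ((h * θ).coeff (n : ℤ)))
    (hdim : finrank ℂ (CuspForm (Gamma0 N) 2) ≤ finrank Kbar E)
    (f : CuspForm (Gamma0 N) 2) (a : ℕ → Kbar)
    (hfa : ∀ n : ℕ, ModularFormClass.qCoeff f n = iotaK (a n)) :
    ∃ h ∈ E, ∀ n : ℕ, (h * θ).coeff (n : ℤ) = a n := by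
  classical
  set c : E →ₗ[Kbar] (ℕ → Kbar) := (coeffNat θ).domRestrict E with hc
  have hcinj : Function.Injective c := coeffNat_domRestrict_injective hθ0 E hneg
  by_contra hcon
  -- `a` is not in the range of `c`
  have ha : a ∉ LinearMap.range c := by
    rintro ⟨h, hh⟩
    exact hcon ⟨(h : LaurentSeries Kbar), h.2, fun n => congrFun hh n⟩
  let b := Module.finBasis Kbar E
  have hv : LinearIndependent Kbar (fun i => c (b i)) :=
    b.linearIndependent.map' c (LinearMap.ker_eq_bot.mpr hcinj)
  have hspan : Submodule.span Kbar (Set.range fun i => c (b i)) = LinearMap.range c := by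
    have h1 : (Set.range fun i => c (b i)) = c '' Set.range b := by
      rw [← Set.range_comp]
      rfl
    rw [h1, Submodule.span_image, b.span_eq, Submodule.map_top]
  have hopt : LinearIndependent Kbar
      (fun o : Option (Fin (finrank Kbar E)) => Option.casesOn' o a fun i => c (b i)) :=
    linearIndependent_option'.mpr ⟨hv, by rw [hspan]; exact ha⟩
  have hL : LinearIndependent ℂ (fun (o : Option (Fin (finrank Kbar E))) (n : ℕ) =>
      iotaK ((Option.casesOn' o a fun i => c (b i)) n)) :=
    Fermat.Agent.S20.IndepBaseChange.linearIndependent_map iotaK hopt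
  -- the corresponding forms
  have hforms : ∀ i, ∃ fi : CuspForm (Gamma0 N) 2, ∀ n : ℕ,
      ModularFormClass.qCoeff fi n = iotaK (c (b i) n) := by
    intro i
    obtain ⟨fi, hfi⟩ := hLOW (b i : LaurentSeries Kbar) (b i).2
    exact ⟨fi, fun n => hfi n⟩
  choose F hF using hforms
  let G : Option (Fin (finrank Kbar E)) → CuspForm (Gamma0 N) 2 := fun o => Option.casesOn' o f F
  have hG : (Fermat.Agent.S49.qCoeffLin N) ∘ G = fun (o : Option (Fin (finrank Kbar E))) (n : ℕ) =>
      iotaK ((Option.casesOn' o a fun i => c (b i)) n) := by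
    funext o n
    cases o with
    | none => exact hfa n
    | some i => exact hF i n
  have hGli : LinearIndependent ℂ G :=
    LinearIndependent.of_comp (Fermat.Agent.S49.qCoeffLin N) (hG ▸ hL)
  have hcard := hGli.fintype_card_le_finrank
  rw [Fintype.card_option, Fintype.card_fin] at hcard
  omega

end Fermat.Agent.M1.Link.PhiSurj60
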