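/-
M1 (row 38, S44), chapter LINK, brick J (SAT), final form (helper60).

`k = ResidueField A`, `A ≤ ℚbar` a valuation subring with `p = 0` in `k`.  A sequence `φ : ℕ → k`
satisfying all the integral relations of `S₂(Γ₀(M))` is the reduction of `h * θ(j)` for some
`h ∈ FF M` with `h • dj` regular everywhere and `h ∈ A((q))`:

  `∃ h : FF M, ∃ Y : LaurentSeries ↥A, (h • dj regular) ∧ coeffMap A.subtype Y = h ∧`
  `   ∀ n : ℕ, (coeffMap (residue A) Y * thetaJR k).coeff n = φ n`  (and no negative coefficients).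

Also: `regular_of_algebraic_coeff` = (PHI-SURJ) instantiated: a cusp form with algebraic
`q`-coefficients is `ι (h * thetaJ)` for a regular `h • dj`.
-/
import Mathlib
import Fermat.Agent.S23
import Fermat.Agent.M1.Link.SaturateCusp60
import Fermat.Agent.M1.Link.PhiSurj60
import Fermat.Agent.IG.PR.Theta20
import Fermat.Prelude.Def_ModularCurve_JqCoeff

set_option autoImplicit false
set_option synthInstance.maxHeartbeats 400000
set_option linter.style.haveILetI false

namespace Fermat.Agent.M1.Link.SatFinal60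

open Module CuspForm CongruenceSubgroup ModularCurve AlgebraicCurve KaehlerDifferential
open Fermat.Agent.X0 Fermat.Agent.RR Fermat.Agent.X0.FF Fermat.Agent.S20.LowDJ
open Fermat.Agent.M1.Link

/-! ### `θ(j)` over an arbitrary ring -/

/-- `q · θ(j)` as an integral power series. -/
noncomputable def thetaNumZ : PowerSeries ℤ :=
  PowerSeries.mk fun n => ((n : ℤ) - 1) * PowerSeries.coeff n ModularCurve.jNum

/-- `θ(j) = q dj/dq` over the ring `R`. -/
noncomputable def thetaJR (R : Type*) [CommRing R] : LaurentSeries R :=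
  laurentOf 1 (thetaNumZ.map (Int.castRingHom R))

theorem ofPowerSeries_coeff_of_neg {T : Type*} [CommRing T] (Q : PowerSeries T) {k : ℤ}
    (hk : k < 0) : (HahnSeries.ofPowerSeries ℤ T Q).coeff k = 0 := by
  rw [HahnSeries.ofPowerSeries_apply, HahnSeries.embDomain_of_notMem_range]
  rintro ⟨n, hn⟩
  rw [← hn] at hk
  exact absurd (Int.natCast_nonneg n) (not_le.mpr hk)

theorem coeffMap_ofPowerSeries {R S : Type*} [CommRing R] [CommRing S] (φ : R →+* S)
    (P : PowerSeries R) : coeffMap φ (HahnSeries.ofPowerSeries ℤ R P) =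
      HahnSeries.ofPowerSeries ℤ S (P.map φ) := by
  ext k
  rw [coeffMap_coeff]
  by_cases hk : 0 ≤ k
  · obtain ⟨n, rfl⟩ := Int.eq_ofNat_of_zero_le hk
    rw [HahnSeries.ofPowerSeries_apply_coeff, HahnSeries.ofPowerSeries_apply_coeff,
      PowerSeries.coeff_map]
  · rw [ofPowerSeries_coeff_of_neg _ (not_le.mp hk), ofPowerSeries_coeff_of_neg _ (not_le.mp hk),
      map_zero]

theorem coeffMap_laurentOf' {R S : Type*} [CommRing R] [CommRing S] (φ : R →+* S) (m : ℕ)
    (P : PowerSeries R) : coeffMap φ (laurentOf m P) = laurentOf m (P.map φ) := by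
  unfold laurentOf
  rw [map_mul, coeffMap_ofPowerSeries]
  congr 1
  ext k
  rw [coeffMap_coeff]
  by_cases hk : k = -(m : ℤ)
  · subst hk
    rw [HahnSeries.coeff_single_same, HahnSeries.coeff_single_same, map_one]
  · rw [HahnSeries.coeff_single_of_ne hk, HahnSeries.coeff_single_of_ne hk, map_zero]

theorem coeffMap_thetaJR {R S : Type*} [CommRing R] [CommRing S] (φ : R →+* S) :
    coeffMap φ (thetaJR R) = thetaJR S := by
  unfold thetaJR
  rw [coeffMap_laurentOf']
  congr 1
  ext n
  rw [PowerSeries.coeff_map, PowerSeries.coeff_map, PowerSeries.coeff_map, eq_intCast, eq_intCast,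
    map_intCast]

theorem thetaJR_Kbar : thetaJR Kbar = thetaJ := by
  unfold thetaJR thetaJ
  congr 1
  ext n
  simp only [thetaNumZ, thetaNumK, jNumK, ModularCurve.jNumQ, PowerSeries.coeff_map,
    PowerSeries.coeff_mk, eq_intCast, Int.cast_mul, Int.cast_sub, Int.cast_natCast, Int.cast_one,
    map_intCast]

theorem isUnit_thetaJR (R : Type*) [CommRing R] : IsUnit (thetaJR R) := by
  unfold thetaJR laurentOf
  refine IsUnit.mul ?_ ?_
  · refine IsUnit.of_mul_eq_one (HahnSeries.single (1 : ℤ) (1 : R)) ?_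
    rw [HahnSeries.single_mul_single]
    simp
  · refine IsUnit.map (HahnSeries.ofPowerSeries ℤ R) ?_
    rw [PowerSeries.isUnit_iff_constantCoeff]
    have h1 : PowerSeries.constantCoeff (thetaNumZ.map (Int.castRingHom R)) = -1 := by
      rw [← PowerSeries.coeff_zero_eq_constantCoeff_apply, PowerSeries.coeff_map]
      simp only [thetaNumZ, PowerSeries.coeff_mk, Nat.cast_zero, zero_sub]
      have h2 : PowerSeries.coeff 0 ModularCurve.jNum = 1 := by
        have h3 := ModularCurve.constantCoeff_jNumQ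
        rw [← PowerSeries.coeff_zero_eq_constantCoeff_apply, ModularCurve.jNumQ,
          PowerSeries.coeff_map, eq_intCast] at h3
        exact_mod_cast h3
      rw [h2]
      simp
    rw [h1]
    exact isUnit_one.neg

/-- `thetaJR R` is `θ = q d/dq` (helper20's `Theta20.theta`) of the Prelude's `jqModC R`. -/
theorem thetaJR_eq_theta (R : Type*) [CommRing R] :
    thetaJR R = Fermat.Agent.IG.PR.Theta20.theta (ModularCurve.jqModC R) := by
  ext k
  rw [Fermat.Agent.IG.PR.Theta20.theta_coeff]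
  unfold thetaJR laurentOf ModularCurve.jqModC
  have hshift : ∀ (P : PowerSeries R), (HahnSeries.single (-((1 : ℕ) : ℤ)) (1 : R) *
      HahnSeries.ofPowerSeries ℤ R P).coeff k = (HahnSeries.ofPowerSeries ℤ R P).coeff (k + 1) := by
    intro P
    have h1 : k = (k + 1) + (-((1 : ℕ) : ℤ)) := by push_cast; ring
    conv_lhs => rw [h1]
    rw [HahnSeries.coeff_single_mul_add, one_mul]
  have hshift' : ∀ (P : PowerSeries R), (HahnSeries.single (-1 : ℤ) (1 : R) *
      HahnSeries.ofPowerSeries ℤ R P).coeff k = (HahnSeries.ofPowerSeries ℤ R P).coeff (k + 1) := by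
    intro P
    have := hshift P
    simpa using this
  rw [hshift, hshift']
  by_cases hk : 0 ≤ k + 1
  · obtain ⟨n, hn⟩ := Int.eq_ofNat_of_zero_le hk
    rw [hn, HahnSeries.ofPowerSeries_apply_coeff, HahnSeries.ofPowerSeries_apply_coeff,
      PowerSeries.coeff_map, PowerSeries.coeff_map, thetaNumZ, PowerSeries.coeff_mk]
    have hk' : (k : R) = (n : R) - 1 := by
      have : k = (n : ℤ) - 1 := by omega
      rw [this]
      push_cast
      ring
    rw [hk']
    simp only [eq_intCast, Int.cast_mul, Int.cast_sub, Int.cast_natCast, Int.cast_one]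
  · rw [ofPowerSeries_coeff_of_neg _ (not_le.mp hk), ofPowerSeries_coeff_of_neg _ (not_le.mp hk),
      mul_zero]

/-! ### the dictionary data at level `N` (as in `Fermat.Agent.S23.result`) -/

section Dict

variable (N : ℕ) [NeZero N]

theorem isGen_jF : FF.IsGen Kbar (jF N) := HasCanDivInst.isGen N

/-- the canonical divisor `div (dj)`. -/
noncomputable def Wdj : Divisor Kbar (FF N) :=
  haveI : HasCanonicalDivisor (K := Kbar) (F := FF N) := HasCanDivInst.hasCanonicalDivisor N
  canonicalDivisorOf (FF.D_ne_zero (isGen_jF N))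

theorem Wdj_apply (v : Place Kbar (FF N)) :
    Wdj N v = v.ordDifferential (D Kbar (FF N) (jF N)) := by
  haveI : HasCanonicalDivisor (K := Kbar) (F := FF N) := HasCanDivInst.hasCanonicalDivisor N
  exact canonicalDivisorOf_apply (FF.D_ne_zero (isGen_jF N)) v

theorem finiteDimensional_L_Wdj : FiniteDimensional Kbar (riemannRochSpace (Wdj N)) := by
  haveI : HasCanonicalDivisor (K := Kbar) (F := FF N) := HasCanDivInst.hasCanonicalDivisor N
  exact InstPrep.finiteDimensional_L_isGen (isGen_jF N) _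

theorem finrank_cusp_le :
    finrank ℂ (CuspForm (Gamma0 N) 2) ≤ finrank Kbar (riemannRochSpace (Wdj N)) := by
  have hx := isGen_jF N
  haveI : HasCanonicalDivisor (K := Kbar) (F := FF N) := HasCanDivInst.hasCanonicalDivisor N
  haveI : FiniteDimensional ℂ (CuspForm (CongruenceSubgroup.Gamma0 N) 2) :=
    Fermat.Agent.S21.Assembly.finite_cusp N
  haveI := finiteDimensional_L_Wdj N
  have hgenus := InstPrep.finrank_L_dx_eq_genus hx (GlobAdele.dualityResidueData hx)
  have hS24 := Fermat.Agent.S24.result N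
  have hup := Fermat.Agent.S21.Assembly.finrank_le_genusFormula N
  unfold Wdj
  rw [hgenus]
  have : (Module.finrank ℂ (CuspForm (CongruenceSubgroup.Gamma0 N) 2) : ℚ)
      ≤ (genus Kbar (FF N) : ℚ) := by
    rw [hS24]; exact hup
  exact_mod_cast this

/-- **(PHI-SURJ) at level `N`.** -/
theorem regular_of_algebraic_coeff (f : CuspForm (Gamma0 N) 2) (a : ℕ → Kbar)
    (hfa : ∀ n : ℕ, ModularFormClass.qCoeff f n = iotaK (a n)) :
    ∃ h : FF N, (∀ v : Place Kbar (FF N), 0 ≤ v.ordDifferential (h • D Kbar (FF N) (jF N))) ∧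
      (∀ n : ℕ, ((h : LaurentSeries Kbar) * thetaJ).coeff (n : ℤ) = a n) ∧
      ∀ k : ℤ, k < 0 → ((h : LaurentSeries Kbar) * thetaJ).coeff k = 0 := by
  have hx := isGen_jF N
  haveI : FiniteDimensional ℂ (CuspForm (CongruenceSubgroup.Gamma0 N) 2) :=
    Fermat.Agent.S21.Assembly.finite_cusp N
  haveI := finiteDimensional_L_Wdj N
  haveI := Fermat.Agent.S23.RegSpace.finiteDimensional_regE N (Wdj N)
  have hreg : ∀ s ∈ Fermat.Agent.S23.RegSpace.regE N (Wdj N), ∃ h : FF N,
      (∀ v : Place Kbar (FF N), 0 ≤ v.ordDifferential (h • D Kbar (FF N) (jF N))) ∧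
      (h : LaurentSeries Kbar) = s := by
    intro s hs
    obtain ⟨h, hh, rfl⟩ := (Fermat.Agent.S23.RegSpace.mem_regE_iff N (Wdj N) _).mp hs
    exact ⟨h, (Fermat.Agent.S23.GaloisReg.mem_riemannRochSpace_iff_regular hx (Wdj N)
      (Wdj_apply N) h).mp hh, rfl⟩
  have hneg : ∀ s ∈ Fermat.Agent.S23.RegSpace.regE N (Wdj N), ∀ k : ℤ, k < 0 →
      (s * thetaJ).coeff k = 0 := by
    intro s hs k hk
    obtain ⟨h, hh, rfl⟩ := hreg s hs
    exact (Fermat.Agent.S20.Low.exists_cuspForm_of_regular_full N h hh).choose_spec.2 k hk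
  have hLOW : ∀ s ∈ Fermat.Agent.S23.RegSpace.regE N (Wdj N),
      ∃ f : CuspForm (Gamma0 N) 2, ∀ n : ℕ,
        ModularFormClass.qCoeff f n = iotaK ((s * thetaJ).coeff (n : ℤ)) := by
    intro s hs
    obtain ⟨h, hh, rfl⟩ := hreg s hs
    obtain ⟨f', hf', -⟩ := Fermat.Agent.S20.Low.exists_cuspForm_of_regular_full N h hh
    exact ⟨f', hf'⟩
  have hdim : finrank ℂ (CuspForm (Gamma0 N) 2) ≤
      finrank Kbar (Fermat.Agent.S23.RegSpace.regE N (Wdj N)) := by
    rw [Fermat.Agent.S23.RegSpace.finrank_regE]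
    exact finrank_cusp_le N
  obtain ⟨s, hs, hsa⟩ := PhiSurj60.exists_of_algebraic_coeff thetaJ thetaJ_ne_zero
    (Fermat.Agent.S23.RegSpace.regE N (Wdj N)) hneg hLOW hdim f a hfa
  obtain ⟨h, hh, rfl⟩ := hreg s hs
  exact ⟨h, hh, hsa, hneg _ hs⟩

end Dict

/-! ### (SAT), final form -/

section Final

variable (M : ℕ) [NeZero M] (A : ValuationSubring Kbar)

/-- a finite `A`-combination of regular `h`'s is regular. -/
theorem regular_sum {σ : Type*} (s : Finset σ) (c : σ → Kbar) (h : σ → FF M)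
    (hreg : ∀ i ∈ s, ∀ v : Place Kbar (FF M), 0 ≤ v.ordDifferential (h i • D Kbar (FF M) (jF M))) :
    ∀ v : Place Kbar (FF M),
      0 ≤ v.ordDifferential ((∑ i ∈ s, c i • h i) • D Kbar (FF M) (jF M)) := by
  have hx := isGen_jF M
  have key := fun (x : FF M) => Fermat.Agent.S23.GaloisReg.mem_riemannRochSpace_iff_regular hx
    (Wdj M) (Wdj_apply M) x
  rw [← key]
  refine Submodule.sum_mem _ fun i hi => Submodule.smul_mem _ _ ?_
  rw [key]
  exact hreg i hi

/-- **(SAT), final form = row J of the LINK table.** -/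
theorem exists_regular_of_mem_relSubgroup (p : ℕ) [Fact p.Prime]
    (hpk : (p : IsLocalRing.ResidueField ↥A) = 0) (φ : ℕ → IsLocalRing.ResidueField ↥A)
    (hφ : φ ∈ Abstract45.relSubgroup (k := IsLocalRing.ResidueField ↥A)
      (SaturateCusp60.cuspRel M)) :
    ∃ (h : FF M) (Y : LaurentSeries ↥A),
      (∀ v : Place Kbar (FF M), 0 ≤ v.ordDifferential (h • D Kbar (FF M) (jF M))) ∧
      coeffMap A.subtype Y = (h : LaurentSeries Kbar) ∧
      (∀ n : ℕ, (coeffMap (IsLocalRing.residue ↥A) Y *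
        thetaJR (IsLocalRing.ResidueField ↥A)).coeff (n : ℤ) = φ n) ∧
      (∀ k : ℤ, k < 0 → (coeffMap (IsLocalRing.residue ↥A) Y *
        thetaJR (IsLocalRing.ResidueField ↥A)).coeff k = 0) := by
  classical
  haveI : FiniteDimensional ℂ (CuspForm (CongruenceSubgroup.Gamma0 M) 2) :=
    Fermat.Agent.S21.Assembly.finite_cusp M
  obtain ⟨g, f, a, lam, hfa, -, hlam⟩ :=
    SaturateCusp60.exists_integral_forms_of_mem_relSubgroup (Fermat.Agent.S23.result M) p hpk φ hφ
  -- regular differentials for the integral forms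
  have hex : ∀ i, ∃ h : FF M,
      (∀ v : Place Kbar (FF M), 0 ≤ v.ordDifferential (h • D Kbar (FF M) (jF M))) ∧
      (∀ n : ℕ, ((h : LaurentSeries Kbar) * thetaJ).coeff (n : ℤ) = ((a i n : ℤ) : Kbar)) ∧
      ∀ k : ℤ, k < 0 → ((h : LaurentSeries Kbar) * thetaJ).coeff k = 0 := by
    intro i
    refine regular_of_algebraic_coeff M (f i) (fun n => ((a i n : ℤ) : Kbar)) fun n => ?_
    rw [hfa i n, map_intCast]
  choose H hHreg hHco hHneg using hex
  -- lift the coefficients
  have hlift : ∀ i, ∃ l : ↥A, IsLocalRing.residue ↥A l = lam i :=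
    fun i => IsLocalRing.residue_surjective (lam i)
  choose l hl using hlift
  set h : FF M := ∑ i, ((l i : ↥A) : Kbar) • H i with hh
  -- the integral series `h * θ`
  set G : PowerSeries ↥A := PowerSeries.mk fun n => ∑ i, l i * ((a i n : ℤ) : ↥A) with hG
  have hhθ : (h : LaurentSeries Kbar) * thetaJ =
      coeffMap A.subtype (HahnSeries.ofPowerSeries ℤ ↥A G) := by
    have hcoe : (h : LaurentSeries Kbar) =
        ∑ i, HahnSeries.C ((l i : ↥A) : Kbar) * ((H i : FF M) : LaurentSeries Kbar) := by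
      rw [hh]
      have h1 : ∀ (s : Finset (Fin g)), ((∑ i ∈ s, ((l i : ↥A) : Kbar) • H i : FF M) :
          LaurentSeries Kbar) = ∑ i ∈ s, HahnSeries.C ((l i : ↥A) : Kbar) *
            ((H i : FF M) : LaurentSeries Kbar) := by
        intro s
        induction s using Finset.induction_on with
        | empty => simp
        | insert j s hj ih =>
          rw [Finset.sum_insert hj, Finset.sum_insert hj, ← ih]
          rw [← Fermat.Agent.S23.RegSpace.coe_smul_FF]
          rfl
      exact h1 Finset.univ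
    ext k
    rw [hcoe, Finset.sum_mul, coeffMap_coeff]
    have hterm : ∀ i, (HahnSeries.C ((l i : ↥A) : Kbar) * ((H i : FF M) : LaurentSeries Kbar)
        * thetaJ).coeff k = ((l i : ↥A) : Kbar) * (((H i : FF M) : LaurentSeries Kbar)
        * thetaJ).coeff k := by
      intro i
      rw [mul_assoc, HahnSeries.C_mul_eq_smul, HahnSeries.coeff_smul, smul_eq_mul]
    have hsum : (∑ i, HahnSeries.C ((l i : ↥A) : Kbar) * ((H i : FF M) : LaurentSeries Kbar)
        * thetaJ).coeff k = ∑ i, ((l i : ↥A) : Kbar) * (((H i : FF M) : LaurentSeries Kbar)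
        * thetaJ).coeff k := by
      rw [HahnSeries.coeff_sum]
      exact Finset.sum_congr rfl fun i _ => hterm i
    rw [hsum]
    by_cases hk : 0 ≤ k
    · obtain ⟨n, rfl⟩ := Int.eq_ofNat_of_zero_le hk
      rw [HahnSeries.ofPowerSeries_apply_coeff, hG, PowerSeries.coeff_mk]
      simp only [hHco, map_sum, map_mul, ValuationSubring.subtype_apply, map_intCast]
    · have hk' : k < 0 := not_le.mp hk
      simp only [hHneg _ k hk', mul_zero, Finset.sum_const_zero]
      rw [ofPowerSeries_coeff_of_neg _ hk', map_zero]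
  obtain ⟨u, hu⟩ := isUnit_thetaJR ↥A
  set Y : LaurentSeries ↥A := HahnSeries.ofPowerSeries ℤ ↥A G * ((u⁻¹ : (LaurentSeries ↥A)ˣ) :
    LaurentSeries ↥A) with hY
  have hYθ : Y * thetaJR ↥A = HahnSeries.ofPowerSeries ℤ ↥A G := by
    rw [hY, ← hu, mul_assoc, Units.inv_mul, mul_one]
  refine ⟨h, Y, ?_, ?_, ?_, ?_⟩
  · exact regular_sum M Finset.univ (fun i => ((l i : ↥A) : Kbar)) H (fun i _ => hHreg i)
  · have h1 : coeffMap A.subtype Y * thetaJ = (h : LaurentSeries Kbar) * thetaJ := by
      rw [← thetaJR_Kbar, ← coeffMap_thetaJR A.subtype, ← map_mul, hYθ, coeffMap_thetaJR,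
        thetaJR_Kbar, hhθ]
    exact mul_right_cancel₀ thetaJ_ne_zero h1
  · intro n
    rw [← coeffMap_thetaJR (IsLocalRing.residue ↥A), ← map_mul, hYθ, coeffMap_coeff,
      HahnSeries.ofPowerSeries_apply_coeff, hG, PowerSeries.coeff_mk, hlam n]
    simp only [map_sum, map_mul, hl, map_intCast]
  · intro k hk
    rw [← coeffMap_thetaJR (IsLocalRing.residue ↥A), ← map_mul, hYθ, coeffMap_coeff]
    rw [ofPowerSeries_coeff_of_neg _ hk, map_zero]

/-- the same statement with `θ(j̄)` written as `Theta20.theta (jqModC k)`. -/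
theorem exists_regular_of_mem_relSubgroup' (p : ℕ) [Fact p.Prime]
    (hpk : (p : IsLocalRing.ResidueField ↥A) = 0) (φ : ℕ → IsLocalRing.ResidueField ↥A)
    (hφ : φ ∈ Abstract45.relSubgroup (k := IsLocalRing.ResidueField ↥A)
      (SaturateCusp60.cuspRel M)) :
    ∃ (h : FF M) (Y : LaurentSeries ↥A),
      (∀ v : Place Kbar (FF M), 0 ≤ v.ordDifferential (h • D Kbar (FF M) (jF M))) ∧
      coeffMap A.subtype Y = (h : LaurentSeries Kbar) ∧
      (∀ n : ℕ, (coeffMap (IsLocalRing.residue ↥A) Y * Fermat.Agent.IG.PR.Theta20.theta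
        (ModularCurve.jqModC (IsLocalRing.ResidueField ↥A))).coeff (n : ℤ) = φ n) ∧
      (∀ k : ℤ, k < 0 → (coeffMap (IsLocalRing.residue ↥A) Y * Fermat.Agent.IG.PR.Theta20.theta
        (ModularCurve.jqModC (IsLocalRing.ResidueField ↥A))).coeff k = 0) := by
  rw [← thetaJR_eq_theta]
  exact exists_regular_of_mem_relSubgroup M A p hpk φ hφ

end Final

end Fermat.Agent.M1.Link.SatFinal60
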