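/-
M1 (row 38, S44), chapter LINK (helper44): **LINK-CORE**, the assembly.

`p` prime, `A ≤ ℚbar` a valuation subring over `p`, `k := ResidueField A`,
`κ(N) := modularFunctionFieldFullC k N ⊆ k((q))`.  Levels `M' ∣ M`, `4 ∣ M` (or `9 ∣ M`), `p ∤ M`,
`p ∤ d = ψ(M)/ψ(M')`.

If `u ∈ κ(M')ˣ` satisfies
 (hi)  `p ∣ ord_Q u` at every place `Q` of `κ(M)`,
 (hii) `Tform ℓ (dlog u) = a_ℓ • dlog u` for the primes `ℓ = ℓ i`,
and (hno) some polynomial `s` in the `T_ℓ` vanishes in the Hecke algebra of `S₂(Γ₀(M'))` while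
`p ∤ s(a)`, then `u` is a `p`-th power in `κ(M')`.

Chain: I KEY (`KeyRel99.dlog_mem_relSubgroup`, helper99/45/54/39/42) ⟹ J SAT
(`SatFinal60.exists_regular_of_mem_relSubgroup'`, helper60) ⟹ `θ`-stability (`DlogField60`, helper60)
⟹ K OLDTR (helper74) ⟹ A FORMAL (`FormalHecke44.eval_smul_eq_zero`) ⟹ `dlog u = 0` ⟹ L PTH
(`ThetaKer41.exists_pow_eq_of_theta_eq_zero_fullC`, helper41).

`link_core_of` takes the two bricks not yet on main when this file was written (H INTG as
`KeyRel99.IntgAt M A`, K OLDTR as `OldTrAt A M' M`) as explicit hypotheses.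
-/
import Mathlib
import Fermat.Agent.M1.Link.FormalHecke44
import Fermat.Agent.M1.Link.DlogField60
import Fermat.Agent.M1.Link.ThetaKer41
import Fermat.Agent.M1.Link.SatFinal60
import Fermat.Agent.M1.Link.KeyRel99

set_option autoImplicit false
set_option synthInstance.maxHeartbeats 400000
set_option linter.style.haveILetI false
set_option linter.unusedSectionVars false

namespace Fermat.Agent.M1.Link.Core44

open Module CuspForm CongruenceSubgroup ModularCurve AlgebraicCurve KaehlerDifferential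
  ModularFormClass HahnSeries
open Fermat.Agent.X0 Fermat.Agent.X0.FF Fermat.Agent.IG.PR.Theta20
open Fermat.Agent.M1.Link Fermat.Agent.M1.Link.ThetaLog88 Fermat.Agent.M1.Link.FormalHecke44

/-! ### small coefficient lemmas -/

section Coeff

variable {R : Type*} [CommRing R]

theorem coeff_zsmul' (z : ℤ) (x : LaurentSeries R) (n : ℤ) :
    (z • x).coeff n = (z : R) * x.coeff n := by
  have hz : (z : LaurentSeries R) = HahnSeries.C (z : R) := by simp
  rw [zsmul_eq_mul, hz, HahnSeries.C_mul_eq_smul, HahnSeries.coeff_smul, smul_eq_mul]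

theorem coeff_nsmul' (d : ℕ) (x : LaurentSeries R) (n : ℤ) :
    (d • x).coeff n = (d : R) * x.coeff n := by
  have hz : (d : LaurentSeries R) = HahnSeries.C (d : R) := by simp
  rw [nsmul_eq_mul, hz, HahnSeries.C_mul_eq_smul, HahnSeries.coeff_smul, smul_eq_mul]

/-- the coefficientwise form of a `Tform`-eigen-relation, on the sequence of coefficients of
non-negative index scaled by a constant. -/
theorem Tf_eq_of_Tform {l : ℕ} [NeZero l] {φ : LaurentSeries R} {a : ℤ}
    (h : Tform l φ = a • φ) (e : R) :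
    Tf l (fun n : ℕ => e * φ.coeff (n : ℤ)) = a • (fun n : ℕ => e * φ.coeff (n : ℤ)) := by
  funext n
  have h1 : (Tform l φ).coeff (n : ℤ) = (a • φ).coeff (n : ℤ) :=
    congrArg (fun z => z.coeff (n : ℤ)) h
  rw [Tform_coeff, coeff_zsmul'] at h1
  rw [Tf_apply, Pi.smul_apply, zsmul_eq_mul]
  have e1 : ((n * l : ℕ) : ℤ) = (l : ℤ) * (n : ℤ) := by push_cast; ring
  rw [e1]
  by_cases hd : l ∣ n
  · have hd' : (l : ℤ) ∣ (n : ℤ) := Int.natCast_dvd_natCast.mpr hd
    rw [if_pos hd] 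
    rw [if_pos hd'] at h1
    have e2 : ((n / l : ℕ) : ℤ) = (n : ℤ) / (l : ℤ) := Int.natCast_div n l
    rw [e2]
    linear_combination e * h1
  · have hd' : ¬ (l : ℤ) ∣ (n : ℤ) := fun h' => hd (Int.natCast_dvd_natCast.mp h')
    rw [if_neg hd]
    rw [if_neg hd'] at h1
    linear_combination e * h1

end Coeff

/-! ### `θ`-stability of `κ(N)` -/

/-- `dlog u / θ j̃ ∈ κ(N)` for `u ∈ κ(N)` (`k` perfect of characteristic `p`). -/
theorem dlog_div_theta_mem (p : ℕ) [Fact p.Prime] (N : ℕ) [NeZero N] (k : Type) [Field k]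
    [CharP k p] [PerfectField k] {u : LaurentSeries k}
    (hu : u ∈ modularFunctionFieldFullC k N) :
    dlog u / theta (jqModC k) ∈ modularFunctionFieldFullC k N :=
  DlogField60.dlog_div_mem_fullC p N k hu

/-! ### The statement of K OLDTR -/

section Main

variable (A : ValuationSubring Kbar)

/-- **K OLDTR** (helper74, report #1181), as a proposition: a regular `h • dj` at level `M` with
`h ∈ A((q))` whose reduction lies in `κ(M')` produces a cusp form of level `M'` with `A`-integral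
`q`-expansion reducing to `d • (h̄ θ j̃)`, `d = ψ(M)/ψ(M')`. -/
def OldTrAt (M' M : ℕ) [NeZero M'] [NeZero M] : Prop :=
  ∀ (h : FF M), (∀ v : Place Kbar (FF M), 0 ≤ v.ordDifferential (h • D Kbar (FF M) (jF M))) →
    ∀ (Y : LaurentSeries ↥A), coeffMap A.subtype Y = (h : LaurentSeries Kbar) →
    coeffMap (IsLocalRing.residue ↥A) Y ∈
      modularFunctionFieldFullC (IsLocalRing.ResidueField ↥A) M' →
    ∃ (d : ℕ) (f' : CuspForm (Gamma0 M') 2) (Z : LaurentSeries ↥A),
      dedekindPsi M' * d = dedekindPsi M ∧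
      (∀ n : ℕ, qCoeff ⇑f' n = iotaK ((Z.coeff (n : ℤ) : ↥A) : Kbar)) ∧
      (∀ n : ℤ, n < 0 → Z.coeff n = 0) ∧
      coeffMap (IsLocalRing.residue ↥A) Z =
        d • (coeffMap (IsLocalRing.residue ↥A) Y *
          theta (jqModC (IsLocalRing.ResidueField ↥A)))

/-- **LINK-CORE**, with H INTG and K OLDTR as explicit hypotheses. -/
theorem link_core_of {p : ℕ} [hp : Fact p.Prime] {M' M : ℕ} [NeZero M'] [NeZero M]
    (hM'M : M' ∣ M) (h4M : 4 ∣ M ∨ 9 ∣ M) (hpM : ¬ p ∣ M)
    (hd : ∀ d : ℕ, dedekindPsi M' * d = dedekindPsi M → ¬ p ∣ d)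
    (hA : A.LiesOverPrime p)
    (hintg : KeyRel99.IntgAt M A) (holdtr : OldTrAt A M' M)
    {S' : Set ℕ} {σ : Type*} (ℓ : σ → ℕ) (hℓ : ∀ i, (ℓ i).Prime) (hℓM : ∀ i, ¬ ℓ i ∣ M')
    (T : σ → ↥(heckeAlgebra M' 2 S'))
    (hT : ∀ i, ((T i : ↥(heckeAlgebra M' 2 S')) :
      Module.End ℂ (CuspForm (Gamma0 M') 2)) = CuspForm.heckeTLin 2 (hℓ i) (hℓM i))
    (a : σ → ℤ) (s : MvPolynomial σ ℤ) (hs : MvPolynomial.aeval T s = 0)
    (hsa : ¬ (p : ℤ) ∣ MvPolynomial.eval a s)
    (u : LaurentSeries (IsLocalRing.ResidueField ↥A))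
    (hu : u ∈ modularFunctionFieldFullC (IsLocalRing.ResidueField ↥A) M') (hu0 : u ≠ 0)
    (hi : ∀ Q : Place (IsLocalRing.ResidueField ↥A)
        ↥(modularFunctionFieldFullC (IsLocalRing.ResidueField ↥A) M),
      (p : ℤ) ∣ Q.ord (⟨u, full_degeneracyC_le (IsLocalRing.ResidueField ↥A) hM'M hu⟩ :
        ↥(modularFunctionFieldFullC (IsLocalRing.ResidueField ↥A) M)))
    (hii : ∀ i, haveI : NeZero (ℓ i) := ⟨(hℓ i).ne_zero⟩
      Tform (ℓ i) (dlog u) = a i • dlog u) :
    ∃ w ∈ modularFunctionFieldFullC (IsLocalRing.ResidueField ↥A) M', w ^ p = u := by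
  classical
  haveI : CharP (IsLocalRing.ResidueField ↥A) p :=
    Fermat.Agent.ES.KRON.KronInst10.charP_residueField A hp.out hA
  haveI : IsAlgClosed (IsLocalRing.ResidueField ↥A) :=
    Fermat.Agent.ES.KRON.KronInst10.isAlgClosed_residueField A
  have hpk : (p : IsLocalRing.ResidueField ↥A) = 0 :=
    CharP.cast_eq_zero (IsLocalRing.ResidueField ↥A) p
  -- (1) I KEY
  have huM0 : (⟨u, full_degeneracyC_le (IsLocalRing.ResidueField ↥A) hM'M hu⟩ :
      ↥(modularFunctionFieldFullC (IsLocalRing.ResidueField ↥A) M)) ≠ 0 :=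
    fun h => hu0 (congrArg Subtype.val h)
  have hkey := KeyRel99.dlog_mem_relSubgroup h4M p hpM A hA hintg _ huM0 hi
  -- (2) J SAT
  obtain ⟨h, Y, hreg, hY, hYn, hYneg⟩ :=
    SatFinal60.exists_regular_of_mem_relSubgroup' M A p hpk _ hkey
  have hprod : coeffMap (IsLocalRing.residue ↥A) Y *
      theta (jqModC (IsLocalRing.ResidueField ↥A)) = dlog u := by
    ext n
    rcases lt_or_ge n 0 with hn | hn
    · rw [hYneg n hn, KeyBridge54.dlog_coeff_of_neg u hn]
    · obtain ⟨m, rfl⟩ := Int.eq_ofNat_of_zero_le hn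
      exact hYn m
  -- (3) `θ`-stability: the reduction of `h` lies in `κ(M')`
  have hθj : theta (jqModC (IsLocalRing.ResidueField ↥A)) ≠ 0 :=
    DlogField60.theta_jqModC_ne_zero (IsLocalRing.ResidueField ↥A)
  have hbar : coeffMap (IsLocalRing.residue ↥A) Y ∈
      modularFunctionFieldFullC (IsLocalRing.ResidueField ↥A) M' := by
    have h1 : coeffMap (IsLocalRing.residue ↥A) Y =
        dlog u / theta (jqModC (IsLocalRing.ResidueField ↥A)) := by
      rw [← hprod, mul_div_assoc, div_self hθj, mul_one]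
    rw [h1]
    exact dlog_div_theta_mem p M' (IsLocalRing.ResidueField ↥A) hu
  -- (4) K OLDTR
  obtain ⟨d, f', Z, hdψ, hZq, -, hZred⟩ := holdtr h hreg Y hY hbar
  have hdp : ¬ p ∣ d := hd d hdψ
  -- (5) A FORMAL
  have hredc : (IsLocalRing.residue ↥A) ∘ (fun n : ℕ => Z.coeff (n : ℤ)) =
      fun n : ℕ => (d : IsLocalRing.ResidueField ↥A) * (dlog u).coeff (n : ℤ) := by
    funext n
    have h1 : (coeffMap (IsLocalRing.residue ↥A) Z).coeff (n : ℤ) =
        (d • (coeffMap (IsLocalRing.residue ↥A) Y *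
          theta (jqModC (IsLocalRing.ResidueField ↥A)))).coeff (n : ℤ) :=
      congrArg (fun z => z.coeff (n : ℤ)) hZred
    rw [coeffMap_coeff, hprod, coeff_nsmul'] at h1
    exact h1
  have heig : ∀ i, Tf (ℓ i) ((IsLocalRing.residue ↥A) ∘ (fun n : ℕ => Z.coeff (n : ℤ))) =
      a i • ((IsLocalRing.residue ↥A) ∘ (fun n : ℕ => Z.coeff (n : ℤ))) := by
    intro i
    haveI : NeZero (ℓ i) := ⟨(hℓ i).ne_zero⟩
    rw [hredc]
    exact Tf_eq_of_Tform (hii i) _
  have hzero := eval_smul_eq_zero ℓ hℓ hℓM T hT (iotaK.comp A.subtype)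
    (iotaK_injective.comp Subtype.val_injective) (IsLocalRing.residue ↥A) a s hs f'
    (fun n : ℕ => Z.coeff (n : ℤ)) (fun n => hZq n) heig
  -- (6) `dlog u = 0`
  have hsak : ((MvPolynomial.eval a s : ℤ) : IsLocalRing.ResidueField ↥A) ≠ 0 :=
    Saturate60.intCast_ne_zero_of_not_dvd (p := p) hpk hsa
  have hdk : (d : IsLocalRing.ResidueField ↥A) ≠ 0 := by
    have h1 : ¬ (p : ℤ) ∣ (d : ℤ) := fun h' => hdp (Int.natCast_dvd_natCast.mp h')
    have h2 := Saturate60.intCast_ne_zero_of_not_dvd (p := p) hpk h1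
    simpa using h2
  have hdlog : dlog u = 0 := by
    ext n
    rw [HahnSeries.coeff_zero]
    rcases lt_or_ge n 0 with hn | hn
    · exact KeyBridge54.dlog_coeff_of_neg u hn
    · obtain ⟨m, rfl⟩ := Int.eq_ofNat_of_zero_le hn
      have h1 := congrFun hzero m
      rw [hredc, Pi.smul_apply, Pi.zero_apply, zsmul_eq_mul] at h1
      rcases mul_eq_zero.mp h1 with h2 | h2
      · exact absurd h2 hsak
      · rcases mul_eq_zero.mp h2 with h3 | h3
        · exact absurd h3 hdk
        · exact h3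
  have htheta : theta u = 0 := by
    have h1 : theta u = dlog u * u := by
      rw [dlog, div_mul_cancel₀ _ hu0]
    rw [h1, hdlog, zero_mul]
  -- (7) L PTH
  exact ThetaKer41.exists_pow_eq_of_theta_eq_zero_fullC p M' (IsLocalRing.ResidueField ↥A) hu htheta

end Main

end Fermat.Agent.M1.Link.Core44
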