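/-
M1 (row 38, S44), chapter LINK, brick H0 INFTY (helper8; target = report #1251 of helper45):
**the reduction map of a coefficientwise two-chart model sends the cusp `∞` to the cusp `∞bar`.**

* `r_infty` : `T.r (inftyL L M) = inftyC (kA A) M` for a `TwoCharts` whose chart `1` is coefficientwise
  (`GaloisInst21.CoeffChart`) and whose coordinate `s₁` vanishes at `∞` (e.g. `s₁ = t⁻¹`, `t` the
  Hauptmodul).  Proof: (R1u) of `Contract8` applied to `Q = ∞bar`: for `b ∈ B₁` the reduction `red b`
  is the coefficientwise reduction of the `A`-integral expansion `Y` of `b`, `b` is regular at `∞`, so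
  `Y ∈ A[[q]]`, `red b ∈ k[[q]]`, and both values are `res (Y.coeff 0)`.
* the packaging against `ES/TOP/ModelAtFinal8.modelAt` is in `InftyModel8.exists_model_infty`.
-/
import Mathlib
import Fermat.Agent.ES.RED.GaloisInst21
import Fermat.Agent.M1.Link.QPlace45

set_option autoImplicit false
set_option linter.unusedSectionVars false
set_option synthInstance.maxHeartbeats 400000

noncomputable section

open AlgebraicCurve ModularCurve HahnSeries

namespace Fermat.Agent.M1.Link.Infty8

open Fermat.Agent.X0.FF Fermat.Agent.ES.RED.PlaceValue13 Fermat.Agent.ES.RED.Contract8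
open Fermat.Agent.ES.RED.TwoCharts8 Fermat.Agent.ES.RED.GaloisInst21
open Fermat.Agent.M1.Link.QPlace45

/-! ### Series facts -/

section Series

variable {R : Type*} [CommRing R]

/-- a Laurent series whose negative coefficients vanish has nonnegative order. -/
theorem order_nonneg_of_coeff {Γ : Type*} [Zero Γ] (x : HahnSeries ℤ Γ)
    (h : ∀ n : ℤ, n < 0 → x.coeff n = 0) : 0 ≤ x.order := by
  by_contra hlt
  rw [not_le] at hlt
  have hne : x ≠ 0 := by
    rintro rfl
    simp at hlt
  exact HahnSeries.coeff_order_eq_zero.not.mpr hne (h _ hlt)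

end Series

section Main

variable {L : Type*} [Field L] [Algebra ℚ L] [IsAlgClosed L] {A : ValuationSubring L}
  {M : ℕ} [NeZero M]
  {x : ↥(laurentBaseChange L (modularFunctionFieldFull M))} {hx : IsGen L x}
  (T : TwoCharts A hx ↥(modularFunctionFieldFullC (kA A) M))
  [IsAlgClosed (kA A)] {xt : ↥(modularFunctionFieldFullC (kA A) M)} (hxt : IsGen (kA A) xt)

/-- the value at `∞` is the constant coefficient. -/
theorem valueHom_inftyL (f : ↥(laurentBaseChange L (modularFunctionFieldFull M)))
    (hf : f ∈ (inftyL L M).toValuationSubring) :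
    valueHom hx (inftyL L M) ⟨f, hf⟩ = (f : LaurentSeries L).coeff 0 := by
  rw [valueHom_eq_iff]
  exact qPlace_residue (hasSimplePole_full L M) f hf

/-- the value at `∞bar` is the constant coefficient. -/
theorem valueHom_inftyC (f : ↥(modularFunctionFieldFullC (kA A) M))
    (hf : f ∈ (inftyC (kA A) M).toValuationSubring) :
    valueHom hxt (inftyC (kA A) M) ⟨f, hf⟩ = (f : LaurentSeries (kA A)).coeff 0 := by
  rw [valueHom_eq_iff]
  exact qPlace_residue (hasSimplePole_fullC (kA A) M) f hf

/-- `∞` lies in a chart whose coordinate vanishes there. -/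
theorem inChart_inftyL (S : ChartSpec A hx ↥(modularFunctionFieldFullC (kA A) M))
    (hs : 0 < (inftyL L M).ord S.s) : S.InChart (inftyL L M) := by
  have hmem : S.s ∈ (inftyL L M).toValuationSubring := by
    rw [mem_inftyL_iff, ← ord_inftyL]
    exact hs.le
  refine ⟨hmem, ?_⟩
  have h0 : valueHom hx (inftyL L M) ⟨S.s, hmem⟩ = 0 := by
    rw [valueHom_eq_zero_iff_ord]
    exact Or.inr hs
  rw [h0]
  exact A.zero_mem

include hxt in
/-- **H0 INFTY**: `r(∞) = ∞bar`. -/
theorem r_infty (hS1 : CoeffChart (F₀ := modularFunctionFieldFull M) T.S1)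
    (hs1 : 0 < (inftyL L M).ord T.S1.s) :
    T.r (inftyL L M) = inftyC (kA A) M := by
  have hP : T.S1.InChart (inftyL L M) := inChart_inftyL T.S1 hs1
  -- the integral expansion of `b ∈ B₁` is a power series
  have hY : ∀ (b : ↥T.S1.B) (Y : LaurentSeries ↥A),
      coeffMap A.subtype Y =
        ((b : ↥(laurentBaseChange L (modularFunctionFieldFull M))) : LaurentSeries L) →
      ∀ n : ℤ, n < 0 → Y.coeff n = 0 := by
    intro b Y hb n hn
    have hbP : (b : ↥(laurentBaseChange L (modularFunctionFieldFull M))) ∈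
        (inftyL L M).toValuationSubring := T.S1.mem_place (inftyL L M) hP b b.2
    rw [mem_inftyL_iff, ← hb] at hbP
    have h0 : (coeffMap A.subtype Y).coeff n = 0 :=
      HahnSeries.coeff_eq_zero_of_lt_order (lt_of_lt_of_le hn hbP)
    rw [coeffMap_coeff] at h0
    exact Subtype.ext h0
  have hQ : ∀ b : ↥T.S1.B, T.S1.red b ∈ (inftyC (kA A) M).toValuationSubring := by
    intro b
    obtain ⟨Y, hb⟩ := hS1.exists_series b
    rw [mem_inftyC_iff, hS1.red_eq b Y hb]
    apply order_nonneg_of_coeff
    intro n hn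
    rw [coeffMap_coeff, hY b Y hb n hn, map_zero]
  rw [T.r_eq1 hxt (inftyL L M) hP]
  symm
  refine eq_rAt hxt T.places1 T.tr1 (inftyL L M) hP (inftyC (kA A) M) hQ ?_
  intro b
  obtain ⟨Y, hb⟩ := hS1.exists_series b
  rw [valueHom_inftyC hxt, hS1.red_eq b Y hb, coeffMap_coeff, ChartSpec.chi_apply]
  congr 1
  apply Subtype.ext
  rw [ChartSpec.coe_ev, valueHom_inftyL, ← hb, coeffMap_coeff]
  rfl

end Main

end Fermat.Agent.M1.Link.Infty8
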