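/-
M1 / LINK, brick H1 INTG (helper45): **integrality of a function regular off `∞`.**

`L` algebraically closed of characteristic zero, `A ≤ L` a valuation subring with residue field `k`,
`F = L · F₀(M)` (`laurentBaseChange L (modularFunctionFieldFull M)`), `↥(modularFunctionFieldFullC (kA A) M) = modularFunctionFieldFullC k M`.
Let `S` be a coefficientwise chart (`GaloisInst21.CoeffChart`) whose coordinate `s` has a pole at the
cusp `∞ = inftyL L M`, `r` a place reduction (`IsPlaceReductionAlong`) with `r ∞ = ∞bar = inftyC k M`,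
and assume `LSpace.LHyp k ↥(modularFunctionFieldFullC (kA A) M)`.

  `intg` : if `g ∈ F` is regular at every place `≠ ∞` and its coefficients of index `≤ 0` lie in `A`,
  then ALL coefficients of `g` lie in `A`, the coefficientwise reduction `gbar` lies in `↥(modularFunctionFieldFullC (kA A) M)`, and `gbar`
  is regular at every place `≠ ∞bar`.

(Regularity off `∞` puts `g` in `L · S.B`; saturation writes `g = λ b'` with `red b' ≠ 0`; if `λ ∉ A`
then `red b' ∈ q k[[q]]` would be a nonzero function without poles vanishing at `∞bar`.)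
-/
import Mathlib
import Fermat.Agent.ES.RED.GaloisInst21
import Fermat.Agent.ES.RED.ChartFacts9
import Fermat.Agent.JAC.FF.CechRings9
import Fermat.Agent.RR.LSpace
import Fermat.Agent.X0.FFGenus
import Fermat.Agent.M1.Link.QPlace45

set_option autoImplicit false
set_option linter.unusedSectionVars false
set_option synthInstance.maxHeartbeats 400000
set_option maxHeartbeats 1000000

noncomputable section

open AlgebraicCurve ModularCurve HahnSeries IntermediateField

namespace Fermat.Agent.M1.Link.Intg45

open Fermat.Agent.ES.RED.Contract8 Fermat.Agent.ES.RED.GaloisInst21 Fermat.Agent.X0.FF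
  Fermat.Agent.M1.Link.QPlace45 Fermat.Agent.RED.PUR.ChartGeneric22 Fermat.Agent.RR

/-! ### Generalities -/

/-- A push-forward divisor is nonnegative at `Q` if the divisor is nonnegative on the fibre of `Q`. -/
theorem mapDomain_apply_nonneg {α β : Type*} (r : α → β) (D : α →₀ ℤ) (Q : β)
    (h : ∀ P, r P = Q → 0 ≤ D P) : 0 ≤ Finsupp.mapDomain r D Q := by
  classical
  rw [Finsupp.mapDomain, Finsupp.sum_apply]
  apply Finset.sum_nonneg
  intro P _
  show 0 ≤ (Finsupp.single (r P) (D P)) Q
  rw [Finsupp.single_apply]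
  split_ifs with h1
  · exact h P h1
  · exact le_rfl

theorem coeffMap_C {R S : Type*} [CommRing R] [CommRing S] (f : R →+* S) (a : R) :
    coeffMap f (HahnSeries.C a) = HahnSeries.C (f a) := by
  rw [HahnSeries.C_apply, coeffMap_single, HahnSeries.C_apply]

theorem coe_algebraMap_eq_C {K : Type*} [Field K] (E : IntermediateField K (LaurentSeries K))
    (c : K) : ((algebraMap K ↥E c : ↥E) : LaurentSeries K) = HahnSeries.C c :=
  incl_const E c

theorem C_mul_coeff {R : Type*} [CommRing R] (a : R) (x : LaurentSeries R) (n : ℤ) :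
    (HahnSeries.C a * x).coeff n = a * x.coeff n := by
  rw [HahnSeries.C_mul_eq_smul, HahnSeries.coeff_smul, smul_eq_mul]

/-- A nonzero series whose coefficients of index `≤ 0` vanish has positive order. -/
theorem order_pos_of_coeff_eq_zero {R : Type*} [Zero R] {x : HahnSeries ℤ R} (hx : x ≠ 0)
    (h : ∀ n : ℤ, n ≤ 0 → x.coeff n = 0) : 0 < x.order := by
  by_contra hle
  rw [not_lt] at hle
  exact HahnSeries.coeff_order_eq_zero.not.mpr hx (h _ hle)

variable {L : Type*} [Field L] [Algebra ℚ L] [IsAlgClosed L] [CharZero L] {A : ValuationSubring L}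
  {M : ℕ} [NeZero M]
  {x : ↥(laurentBaseChange L (modularFunctionFieldFull M))} {hx : IsGen L x}


section Core

variable (S : ChartSpec A hx ↥(modularFunctionFieldFullC (kA A) M)) (hS : CoeffChart (F₀ := modularFunctionFieldFull M) S)
  (r : Place L ↥(laurentBaseChange L (modularFunctionFieldFull M)) → Place (kA A) ↥(modularFunctionFieldFullC (kA A) M)) (hr : IsPlaceReductionAlong A (resA A) M r)
  (hinf : r (inftyL L M) = inftyC (kA A) M)

include hS hr hinf in
/-- **Regularity is inherited by the reduction**: for `b` in the chart ring with `red b ≠ 0`,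
regular off `∞`, the reduction `red b` is regular off `∞bar`. -/
theorem red_regular [HasPrincipalDivisors L ↥(laurentBaseChange L (modularFunctionFieldFull M))] (b : ↥S.B) (hb : S.red b ≠ 0)
    (hreg : ∀ P : Place L ↥(laurentBaseChange L (modularFunctionFieldFull M)), P ≠ inftyL L M → (b : ↥(laurentBaseChange L (modularFunctionFieldFull M))) ∈ P.toValuationSubring)
    (Q : Place (kA A) ↥(modularFunctionFieldFullC (kA A) M)) (hQ : Q ≠ inftyC (kA A) M) : S.red b ∈ Q.toValuationSubring := by
  obtain ⟨Y, hY⟩ := hS.exists_series b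
  have hred := hS.red_eq b Y hY
  have hb0 : (b : ↥(laurentBaseChange L (modularFunctionFieldFull M))) ≠ 0 := by
    intro h0
    apply hb
    have : b = 0 := Subtype.ext h0
    rw [this, map_zero]
  obtain ⟨D, hD, -⟩ := HasPrincipalDivisors.exists_divisor (K := L) (b : ↥(laurentBaseChange L (modularFunctionFieldFull M))) hb0
  have hy : coeffMap A.subtype Y ∈ laurentBaseChange L (modularFunctionFieldFull M) := by
    rw [hY]; exact (b : ↥(laurentBaseChange L (modularFunctionFieldFull M))).2
  have hyk : coeffMap (resA A) Y ∈ modularFunctionFieldFullC (kA A) M := by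
    rw [← hred]; exact (S.red b).2
  have hne : coeffMap (resA A) Y ≠ 0 := by
    rw [← hred]
    exact fun h0 => hb (Subtype.ext h0)
  have e1 : (⟨coeffMap A.subtype Y, hy⟩ : ↥(laurentBaseChange L (modularFunctionFieldFull M))) = (b : ↥(laurentBaseChange L (modularFunctionFieldFull M))) := Subtype.ext hY
  have e2 : (⟨coeffMap (resA A) Y, hyk⟩ : ↥(modularFunctionFieldFullC (kA A) M)) = S.red b := Subtype.ext hred.symm
  have key := hr.2 Y hy hyk hne D (fun P => by rw [hD P, e1]) Q
  rw [e2] at key
  rw [ffp_mem_iff_ord_nonneg, ← key]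
  apply mapDomain_apply_nonneg
  intro P hP
  rw [hD P, ← ffp_mem_iff_ord_nonneg]
  apply hreg P
  rintro rfl
  exact hQ (hP ▸ hinf)

end Core

/-- **H1 INTG.** -/
theorem intg (S : ChartSpec A hx ↥(modularFunctionFieldFullC (kA A) M)) (hS : CoeffChart (F₀ := modularFunctionFieldFull M) S)
    (hgen : IsGen L S.s) (hpole : (inftyL L M).ord S.s < 0)
    (r : Place L ↥(laurentBaseChange L (modularFunctionFieldFull M)) → Place (kA A) ↥(modularFunctionFieldFullC (kA A) M)) (hr : IsPlaceReductionAlong A (resA A) M r)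
    (hinf : r (inftyL L M) = inftyC (kA A) M)
    (HL : LSpace.LHyp (kA A) ↥(modularFunctionFieldFullC (kA A) M))
    (g : ↥(laurentBaseChange L (modularFunctionFieldFull M))) (hreg : ∀ P : Place L ↥(laurentBaseChange L (modularFunctionFieldFull M)), P ≠ inftyL L M → g ∈ P.toValuationSubring)
    (hpp : ∀ n : ℤ, n ≤ 0 → (g : LaurentSeries L).coeff n ∈ A) :
    ∃ Y : LaurentSeries ↥A, coeffMap A.subtype Y = (g : LaurentSeries L) ∧
      ∃ h : coeffMap (resA A) Y ∈ modularFunctionFieldFullC (kA A) M,
        ∀ Q : Place (kA A) ↥(modularFunctionFieldFullC (kA A) M), Q ≠ inftyC (kA A) M →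
          (⟨coeffMap (resA A) Y, h⟩ : ↥(modularFunctionFieldFullC (kA A) M)) ∈ Q.toValuationSubring := by
  have : HasPrincipalDivisors L ↥(laurentBaseChange L (modularFunctionFieldFull M)) := Fermat.Agent.X0.FFGenus.hasPrincipalDivisors hgen
  rcases eq_or_ne g 0 with rfl | hg0
  · refine ⟨0, by simp, by rw [map_zero]; exact zero_mem _, fun Q _ => ?_⟩
    have : (⟨coeffMap (resA A) (0 : LaurentSeries ↥A), by rw [map_zero]; exact zero_mem _⟩ : ↥(modularFunctionFieldFullC (kA A) M))
        = 0 := Subtype.ext (map_zero _)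
    rw [this]
    exact zero_mem _
  -- Step 1: `g` is integral over `L[s]`
  have hfin : g ∈ Fermat.Agent.JAC.FF.CechRings9.ringFin L S.s := by
    intro v hv
    apply hreg v
    rintro rfl
    have := (ffp_mem_iff_ord_nonneg _).1 hv
    omega
  have hint : g ∈ intRing L S.s :=
    (Fermat.Agent.JAC.FF.CechRings9.mem_ringFin_iff_isIntegral hgen).mp hfin
  -- Step 2: clear denominators and saturate
  obtain ⟨c, hc, hcg⟩ := Fermat.Agent.ES.RED.ChartFacts9.exists_const_mul_mem_chart A S.s hint
  have hcL : (c : L) ≠ 0 := fun h0 => hc (Subtype.ext h0)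
  have hcB : algebraMap L ↥(laurentBaseChange L (modularFunctionFieldFull M)) (c : L) * g ∈ S.B := (hS.mem_iff _).mpr hcg
  set b : ↥S.B := ⟨algebraMap L ↥(laurentBaseChange L (modularFunctionFieldFull M)) (c : L) * g, hcB⟩ with hb
  have hb0 : b ≠ 0 := by
    intro h0
    have h1 : algebraMap L ↥(laurentBaseChange L (modularFunctionFieldFull M)) (c : L) * g = 0 := congrArg Subtype.val h0
    rcases mul_eq_zero.mp h1 with h2 | h2
    · exact hcL ((map_eq_zero (algebraMap L ↥(laurentBaseChange L (modularFunctionFieldFull M)))).mp h2)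
    · exact hg0 h2
  obtain ⟨c', b', hbb', hredb'⟩ := S.sat b hb0
  have hc'L : (c' : L) ≠ 0 := by
    intro h0
    apply hb0
    apply Subtype.ext
    rw [hbb', h0, map_zero, zero_mul]
    rfl
  -- `g = λ b'`
  set lam : L := (c' : L) / (c : L) with hlam
  have hlam0 : lam ≠ 0 := div_ne_zero hc'L hcL
  have hgb : g = algebraMap L ↥(laurentBaseChange L (modularFunctionFieldFull M)) lam * (b' : ↥(laurentBaseChange L (modularFunctionFieldFull M))) := by
    have h1 : algebraMap L ↥(laurentBaseChange L (modularFunctionFieldFull M)) (c : L) * g = algebraMap L ↥(laurentBaseChange L (modularFunctionFieldFull M)) (c' : L) * (b' : ↥(laurentBaseChange L (modularFunctionFieldFull M))) := hbb'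
    have hcF : algebraMap L ↥(laurentBaseChange L (modularFunctionFieldFull M)) (c : L) ≠ 0 := (map_ne_zero (algebraMap L ↥(laurentBaseChange L (modularFunctionFieldFull M)))).mpr hcL
    rw [hlam, map_div₀, div_mul_eq_mul_div, ← h1, mul_div_cancel_left₀ _ hcF]
  have hbg : (b' : ↥(laurentBaseChange L (modularFunctionFieldFull M))) = algebraMap L ↥(laurentBaseChange L (modularFunctionFieldFull M)) lam⁻¹ * g := by
    rw [hgb, ← mul_assoc, ← map_mul, inv_mul_cancel₀ hlam0, map_one, one_mul]
  -- `b'` is regular off `∞`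
  have hregb' : ∀ P : Place L ↥(laurentBaseChange L (modularFunctionFieldFull M)), P ≠ inftyL L M → (b' : ↥(laurentBaseChange L (modularFunctionFieldFull M))) ∈ P.toValuationSubring := by
    intro P hP
    rw [hbg]
    exact mul_mem (P.algebraMap_mem' _) (hreg P hP)
  have hredreg := red_regular S hS r hr hinf b' hredb' hregb'
  obtain ⟨Y', hY'⟩ := hS.exists_series b'
  have hred' := hS.red_eq b' Y' hY'
  rcases A.mem_or_inv_mem lam with hlamA | hlamA
  · -- `λ ∈ A`
    refine ⟨HahnSeries.C (⟨lam, hlamA⟩ : ↥A) * Y', ?_, ?_⟩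
    · rw [map_mul, coeffMap_C, hY', hgb]
      show _ = ((algebraMap L ↥(laurentBaseChange L (modularFunctionFieldFull M)) lam : ↥(laurentBaseChange L (modularFunctionFieldFull M))) : LaurentSeries L) * _
      rw [coe_algebraMap_eq_C]
      rfl
    · have hval : coeffMap (resA A) (HahnSeries.C (⟨lam, hlamA⟩ : ↥A) * Y') =
          ((algebraMap (kA A) ↥(modularFunctionFieldFullC (kA A) M) (resA A ⟨lam, hlamA⟩) * S.red b' : ↥(modularFunctionFieldFullC (kA A) M)) : LaurentSeries (kA A)) := by
        rw [map_mul, coeffMap_C, ← hred']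
        show _ = ((algebraMap (kA A) ↥(modularFunctionFieldFullC (kA A) M) (resA A ⟨lam, hlamA⟩) : ↥(modularFunctionFieldFullC (kA A) M)) : LaurentSeries (kA A)) * _
        rw [coe_algebraMap_eq_C]
      refine ⟨by rw [hval]; exact (algebraMap (kA A) ↥(modularFunctionFieldFullC (kA A) M) (resA A ⟨lam, hlamA⟩) * S.red b').2,
        fun Q hQ => ?_⟩
      have e : (⟨coeffMap (resA A) (HahnSeries.C (⟨lam, hlamA⟩ : ↥A) * Y'), by
          rw [hval]; exact (algebraMap (kA A) ↥(modularFunctionFieldFullC (kA A) M) (resA A ⟨lam, hlamA⟩) * S.red b').2⟩ : ↥(modularFunctionFieldFullC (kA A) M)) =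
          algebraMap (kA A) ↥(modularFunctionFieldFullC (kA A) M) (resA A ⟨lam, hlamA⟩) * S.red b' := Subtype.ext hval
      rw [e]
      exact mul_mem (Q.algebraMap_mem' _) (hredreg Q hQ)
  · -- `λ ∉ A` is impossible
    by_cases hlamA' : lam ∈ A
    · -- same as the first case
      refine ⟨HahnSeries.C (⟨lam, hlamA'⟩ : ↥A) * Y', ?_, ?_⟩
      · rw [map_mul, coeffMap_C, hY', hgb]
        show _ = ((algebraMap L ↥(laurentBaseChange L (modularFunctionFieldFull M)) lam : ↥(laurentBaseChange L (modularFunctionFieldFull M))) : LaurentSeries L) * _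
        rw [coe_algebraMap_eq_C]
        rfl
      · have hval : coeffMap (resA A) (HahnSeries.C (⟨lam, hlamA'⟩ : ↥A) * Y') =
            ((algebraMap (kA A) ↥(modularFunctionFieldFullC (kA A) M) (resA A ⟨lam, hlamA'⟩) * S.red b' : ↥(modularFunctionFieldFullC (kA A) M)) :
              LaurentSeries (kA A)) := by
          rw [map_mul, coeffMap_C, ← hred']
          show _ = ((algebraMap (kA A) ↥(modularFunctionFieldFullC (kA A) M) (resA A ⟨lam, hlamA'⟩) : ↥(modularFunctionFieldFullC (kA A) M)) : LaurentSeries (kA A)) * _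
          rw [coe_algebraMap_eq_C]
        refine ⟨by rw [hval]; exact (algebraMap (kA A) ↥(modularFunctionFieldFullC (kA A) M) (resA A ⟨lam, hlamA'⟩) * S.red b').2,
          fun Q hQ => ?_⟩
        have e : (⟨coeffMap (resA A) (HahnSeries.C (⟨lam, hlamA'⟩ : ↥A) * Y'), by
            rw [hval]; exact (algebraMap (kA A) ↥(modularFunctionFieldFullC (kA A) M) (resA A ⟨lam, hlamA'⟩) * S.red b').2⟩ : ↥(modularFunctionFieldFullC (kA A) M)) =
            algebraMap (kA A) ↥(modularFunctionFieldFullC (kA A) M) (resA A ⟨lam, hlamA'⟩) * S.red b' := Subtype.ext hval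
        rw [e]
        exact mul_mem (Q.algebraMap_mem' _) (hredreg Q hQ)
    exfalso
    -- `μ := λ⁻¹ ∈ 𝔪_A`
    set mu : ↥A := ⟨lam⁻¹, hlamA⟩ with hmu
    have hmures : resA A mu = 0 := by
      rw [IsLocalRing.residue_eq_zero_iff, IsLocalRing.mem_maximalIdeal, mem_nonunits_iff]
      intro hu
      apply hlamA'
      obtain ⟨w, hw⟩ := hu.exists_right_inv
      have hw' : lam⁻¹ * (w : L) = 1 := by
        have := congrArg Subtype.val hw
        simpa using this
      have : lam = (w : L) := by
        rw [← mul_one lam, ← hw', ← mul_assoc, mul_inv_cancel₀ hlam0, one_mul]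
      rw [this]
      exact w.2
    -- coefficients of index `≤ 0` of `red b'` vanish
    have hcoef : ∀ n : ℤ, n ≤ 0 → ((S.red b' : ↥(modularFunctionFieldFullC (kA A) M)) : LaurentSeries (kA A)).coeff n = 0 := by
      intro n hn
      rw [hred', coeffMap_coeff]
      have h2 : (coeffMap A.subtype Y').coeff n =
          ((b' : ↥(laurentBaseChange L (modularFunctionFieldFull M))) : LaurentSeries L).coeff n := by
        rw [hY']
      rw [coeffMap_coeff] at h2
      have h1 : ((Y'.coeff n : ↥A) : L) = lam⁻¹ * (g : LaurentSeries L).coeff n := by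
        refine h2.trans ?_
        rw [hbg]
        show (((algebraMap L ↥(laurentBaseChange L (modularFunctionFieldFull M)) lam⁻¹ :
          ↥(laurentBaseChange L (modularFunctionFieldFull M))) : LaurentSeries L) *
            (g : LaurentSeries L)).coeff n = _
        rw [coe_algebraMap_eq_C, C_mul_coeff]
      have h3 : Y'.coeff n = mu * ⟨(g : LaurentSeries L).coeff n, hpp n hn⟩ :=
        Subtype.ext (by rw [h1]; rfl)
      rw [h3, map_mul, hmures, zero_mul]
    have hβ0 : ((S.red b' : ↥(modularFunctionFieldFullC (kA A) M)) : LaurentSeries (kA A)) ≠ 0 := fun h0 => hredb' (Subtype.ext h0)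
    have hordpos := order_pos_of_coeff_eq_zero hβ0 hcoef
    -- `red b'` has no poles
    have hnopole : ∀ v : Place (kA A) ↥(modularFunctionFieldFullC (kA A) M), 0 ≤ v.ord (S.red b') := by
      intro v
      rw [← ffp_mem_iff_ord_nonneg]
      by_cases hv : v = inftyC (kA A) M
      · rw [hv, mem_inftyC_iff]
        exact hordpos.le
      · exact hredreg v hv
    obtain ⟨c₀, hc₀⟩ := LSpace.eq_algebraMap_of_forall_ord_nonneg HL hnopole
    have h0 : ((S.red b' : ↥(modularFunctionFieldFullC (kA A) M)) : LaurentSeries (kA A)).coeff 0 = c₀ := by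
      rw [hc₀, coe_algebraMap_eq_C, HahnSeries.C_apply, HahnSeries.coeff_single_same]
    rw [hcoef 0 le_rfl] at h0
    apply hredb'
    rw [hc₀, ← h0, map_zero]

end Fermat.Agent.M1.Link.Intg45
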