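/-
M1 (row 38, S44), chapter LINK, brick LK5b part 1 (helper99): a function field `F / K` with a
SEPARATING generator `x` (`K` algebraically closed of ANY characteristic) is a two-chart curve in
the sense of `JAC/Fibre/Core38`:

  `twoChart_of_sep : TwoChart (regSet K x) (regSet K x⁻¹)`,

where `regSet K x` is the set of places at which `x` is regular.  Consequences (all
characteristic-free): `lHyp_of_sep : LSpace.LHyp K F`, Riemann's inequality
`riemann_inequality_of_sep`, `hasPrincipalDivisors_of_sep`, finiteness of `L(D)`.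

Route: the charts are `B₀ = ` integral closure of `K[x]`, `B₁ = ` integral closure of `K[x⁻¹]`
(Dedekind by `SumOrdSep15`), `B₀₁ = B₀[1/x]`; `H⁰(O) = B₀ ∩ B₁ = K` (valuative argument) and
`H¹(O(m (x)_∞)) = 0` for `m ≫ 0` (explicit Čech computation `B₀₁ = B₀ + x ^ m B₁`).
-/
import Mathlib
import Fermat.Agent.JAC.Fibre.DegInf67
import Fermat.Agent.ES.RED.SumOrdSep15
import Fermat.Agent.ES.RED.SpecialFibre13
import Fermat.Agent.RR.Riemann
import Fermat.Agent.M1.Car.Centre99

set_option autoImplicit false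
set_option linter.style.haveILetI false
set_option linter.unusedSectionVars false

open AlgebraicCurve IntermediateField Polynomial
open scoped IntermediateField.algebraAdjoinAdjoin

namespace Fermat.Agent.M1.Link.TwoChartSep99

open Fermat.Agent.X0.FF Fermat.Agent.JAC.Fibre.Core38 Fermat.Agent.JAC.Fibre.Chart38
  Fermat.Agent.JAC.Fibre.Setting38 Fermat.Agent.JAC.Fibre.Lat38
  Fermat.Agent.ES.RED.SumOrdSep15 Fermat.Agent.ES.RED.SpecialFibre13

variable {K F : Type*} [Field K] [Field F] [Algebra K F]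

/-! ### The three rings -/

/-- The integral closure of `K[x]` in `F`, as a `K`-subalgebra of `F`. -/
def ringB (K : Type*) {F : Type*} [Field K] [Field F] [Algebra K F] (x : F) : Subalgebra K F :=
  (intRing K x).restrictScalars K

theorem mem_ringB {x f : F} : f ∈ ringB K x ↔ IsIntegral (polyRing K x) f := Iff.rfl

theorem self_mem_ringB (x : F) : x ∈ ringB K x :=
  isIntegral_algebraMap (x := genA K x)

/-- `B₀[1/x]`, as a `K`-subalgebra of `F`. -/
def ringBB (K : Type*) {F : Type*} [Field K] [Field F] [Algebra K F] (x : F) :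
    Subalgebra K F where
  carrier := {f | ∃ n : ℕ, x ^ n * f ∈ ringB K x}
  mul_mem' := by
    rintro f g ⟨n, hn⟩ ⟨m, hm⟩
    refine ⟨n + m, ?_⟩
    have : x ^ (n + m) * (f * g) = (x ^ n * f) * (x ^ m * g) := by ring
    rw [this]
    exact mul_mem hn hm
  add_mem' := by
    rintro f g ⟨n, hn⟩ ⟨m, hm⟩
    refine ⟨n + m, ?_⟩
    have : x ^ (n + m) * (f + g) = x ^ m * (x ^ n * f) + x ^ n * (x ^ m * g) := by ring
    rw [this]
    exact add_mem (mul_mem (pow_mem (self_mem_ringB x) m) hn)
      (mul_mem (pow_mem (self_mem_ringB x) n) hm)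
  algebraMap_mem' := fun c => ⟨0, by simp⟩

theorem mem_ringBB {x f : F} : f ∈ ringBB K x ↔ ∃ n : ℕ, x ^ n * f ∈ ringB K x := Iff.rfl

theorem ringB_le_ringBB (x : F) : ringB K x ≤ ringBB K x := fun f hf => ⟨0, by simpa using hf⟩

theorem inv_mem_ringBB {x : F} (hx0 : x ≠ 0) : x⁻¹ ∈ ringBB K x :=
  ⟨1, by rw [pow_one, mul_inv_cancel₀ hx0]; exact one_mem _⟩

/-- The places at which `x` is regular. -/
def regSet (K : Type*) {F : Type*} [Field K] [Field F] [Algebra K F] (x : F) :
    Set (Place K F) := {v | x ∈ v.toValuationSubring}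

theorem mem_regSet {x : F} {v : Place K F} : v ∈ regSet K x ↔ x ∈ v.toValuationSubring := Iff.rfl

/-- A place at which `x` is regular contains the integral closure of `K[x]`. -/
theorem ringB_le_place {x : F} (v : Place K F) (hv : x ∈ v.toValuationSubring) {f : F}
    (hf : f ∈ ringB K x) : f ∈ v.toValuationSubring :=
  intRing_le_of_mem v hv ⟨f, hf⟩

/-! ### Dedekind properties -/

section Dedekind

variable {x : F}

theorem isDedekindDomain_ringB (hx : IsGen K x) [Algebra.IsSeparable K⟮x⟯ F] :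
    IsDedekindDomain ↥(ringB K x) :=
  isDedekindDomain_intRing_sep hx

theorem isFractionRing_ringB (hx : IsGen K x) : IsFractionRing ↥(ringB K x) F :=
  isFractionRing_intRing hx

/-- `x` as an element of `B₀`. -/
def xB (K : Type*) {F : Type*} [Field K] [Field F] [Algebra K F] (x : F) : ↥(ringB K x) :=
  ⟨x, self_mem_ringB x⟩

/-- The inclusion `B₀ → B₀[1/x]` as an algebra structure (a LOCAL instance of this file only, so
that it never enters anybody else's instance search). -/
@[reducible] noncomputable def algebraBBB (x : F) : Algebra ↥(ringB K x) ↥(ringBB K x) :=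
  (Subalgebra.inclusion (ringB_le_ringBB x)).toRingHom.toAlgebra

attribute [local instance] algebraBBB

theorem coe_algebraMap_BBB (x : F) (a : ↥(ringB K x)) :
    ((algebraMap ↥(ringB K x) ↥(ringBB K x) a : ↥(ringBB K x)) : F) = (a : F) := rfl

theorem isScalarTower_BBB (x : F) : IsScalarTower ↥(ringB K x) ↥(ringBB K x) F :=
  IsScalarTower.of_algebraMap_eq fun _ => rfl

attribute [local instance] isScalarTower_BBB

/-- If `A ⊆ C` are subalgebras of a field, `t ∈ A` is invertible in `C` and every element of `C`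
is carried into `A` by a power of `t`, then `C = A[1/t]`  (copy of
`JAC/FF/ChartAlg9.isLocalization_away_of_subalgebra`, to keep the import closure small). -/
theorem isLocalization_away_of_subalgebra99 {A C : Subalgebra K F} [Algebra ↥A ↥C]
    (hcoe : ∀ a : A, ((algebraMap ↥A ↥C a : ↥C) : F) = (a : F)) (t : A) (ht0 : (t : F) ≠ 0)
    (ht : (t : F)⁻¹ ∈ C) (hpow : ∀ c : C, ∃ n : ℕ, (t : F) ^ n * (c : F) ∈ A) :
    IsLocalization.Away t ↥C := by
  have hinj : Function.Injective (algebraMap ↥A ↥C) := by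
    intro a b hab
    apply Subtype.ext
    rw [← hcoe a, ← hcoe b, hab]
  have hunit : IsUnit (algebraMap ↥A ↥C t) := by
    refine IsUnit.of_mul_eq_one ⟨(t : F)⁻¹, ht⟩ ?_
    apply Subtype.ext
    rw [MulMemClass.coe_mul, hcoe, OneMemClass.coe_one]
    exact mul_inv_cancel₀ ht0
  rw [IsLocalization.Away, isLocalization_iff]
  refine ⟨?_, ?_, ?_⟩
  · rintro ⟨y, n, rfl⟩
    rw [map_pow]
    exact hunit.pow n
  · intro z
    obtain ⟨n, hn⟩ := hpow z
    refine ⟨(⟨(t : F) ^ n * (z : F), hn⟩, ⟨t ^ n, n, rfl⟩), ?_⟩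
    apply Subtype.ext
    rw [MulMemClass.coe_mul, hcoe, hcoe]
    simp only [SubmonoidClass.coe_pow]
    ring
  · intro a b hab
    exact ⟨1, by rw [hinj hab]⟩

theorem isLocalization_ringBB (hx0 : x ≠ 0) : IsLocalization.Away (xB K x) ↥(ringBB K x) :=
  isLocalization_away_of_subalgebra99 (coe_algebraMap_BBB x) (xB K x) hx0 (inv_mem_ringBB hx0)
    (fun c => c.2)

theorem isDedekindDomain_ringBB (hx : IsGen K x) [Algebra.IsSeparable K⟮x⟯ F] :
    IsDedekindDomain ↥(ringBB K x) := by
  have := isDedekindDomain_ringB hx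
  have := isLocalization_ringBB (K := K) hx.ne_zero
  refine IsLocalization.isDedekindDomain ↥(ringB K x) (M := Submonoid.powers (xB K x)) ?_
    ↥(ringBB K x)
  apply Submonoid.powers_le.mpr
  rw [mem_nonZeroDivisors_iff_ne_zero]
  intro h
  exact hx.ne_zero (congrArg Subtype.val h)

theorem isFractionRing_ringBB (hx : IsGen K x) : IsFractionRing ↥(ringBB K x) F := by
  have := isFractionRing_ringB hx
  apply IsFractionRing.of_field
  intro z
  obtain ⟨a, b, _, hab⟩ := IsFractionRing.div_surjective (A := ↥(ringB K x)) z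
  exact ⟨algebraMap _ _ a, algebraMap _ _ b, hab.symm⟩

end Dedekind

/-! ### The chart sets -/

section Charts

variable [IsAlgClosed K] {x : F}

theorem chartSet_ringB (hx : IsGen K x) [Algebra.IsSeparable K⟮x⟯ F] :
    haveI := isDedekindDomain_ringB hx
    haveI := isFractionRing_ringB hx
    chartSet (K := K) (F := F) ↥(ringB K x) = regSet K x := by
  ext v
  constructor
  · intro hv
    exact hv (xB K x)
  · intro hv b
    exact ringB_le_place v hv b.2

theorem chartSet_ringBB (hx : IsGen K x) [Algebra.IsSeparable K⟮x⟯ F] :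
    haveI := isDedekindDomain_ringBB hx
    haveI := isFractionRing_ringBB hx
    chartSet (K := K) (F := F) ↥(ringBB K x) = regSet K x ∩ regSet K x⁻¹ := by
  ext v
  constructor
  · intro hv
    exact ⟨hv ⟨x, ringB_le_ringBB x (self_mem_ringB x)⟩, hv ⟨x⁻¹, inv_mem_ringBB hx.ne_zero⟩⟩
  · rintro ⟨hv0, hv1⟩ ⟨f, n, hn⟩
    show f ∈ v.toValuationSubring
    have h1 : x ^ n * f ∈ v.toValuationSubring := ringB_le_place v hv0 hn
    have h2 : f = (x⁻¹) ^ n * (x ^ n * f) := by
      have hx0 := hx.ne_zero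
      rw [← mul_assoc, ← mul_pow, inv_mul_cancel₀ hx0, one_pow, one_mul]
    rw [h2]
    exact mul_mem (pow_mem hv1 n) h1

/-- **The pre-chart structure**: the two charts `x ≠ ∞`, `x ≠ 0` of a function field with a
separating generator. -/
theorem twoChartPre_of_sep (hx : IsGen K x) [Algebra.IsSeparable K⟮x⟯ F] :
    TwoChartPre (regSet K x) (regSet K x⁻¹) := by
  have hx' : IsGen K x⁻¹ := isGen_inv hx
  haveI : Algebra.IsSeparable K⟮x⁻¹⟯ F := isSeparable_inv x
  have hcover : regSet K x ∪ regSet K x⁻¹ = Set.univ := by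
    rw [Set.eq_univ_iff_forall]
    intro v
    exact v.toValuationSubring.mem_or_inv_mem x
  refine ⟨hcover, ?_, ?_, ?_, fun P => finiteResidue hx P, fun f hf => ?_⟩
  · haveI := isDedekindDomain_ringB hx
    haveI := isFractionRing_ringB hx
    rw [← chartSet_ringB hx]
    exact isChart_chartSet
  · haveI := isDedekindDomain_ringB hx'
    haveI := isFractionRing_ringB hx'
    rw [← chartSet_ringB hx']
    exact isChart_chartSet
  · haveI := isDedekindDomain_ringBB hx
    haveI := isFractionRing_ringBB hx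
    rw [← chartSet_ringBB hx]
    exact isChart_chartSet
  · have h0 : {v : Place K F | v ∈ regSet K x ∧ v.ord f ≠ 0}.Finite := by
      haveI := isDedekindDomain_ringB hx
      haveI := isFractionRing_ringB hx
      have := finite_ord_ne_zero_chart (K := K) (B := ↥(ringB K x)) hf
      rwa [chartSet_ringB hx] at this
    have h1 : {v : Place K F | v ∈ regSet K x⁻¹ ∧ v.ord f ≠ 0}.Finite := by
      haveI := isDedekindDomain_ringB hx'
      haveI := isFractionRing_ringB hx'
      have := finite_ord_ne_zero_chart (K := K) (B := ↥(ringB K x⁻¹)) hf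
      rwa [chartSet_ringB hx'] at this
    refine (h0.union h1).subset ?_
    intro v hv
    have hv' : v ∈ regSet K x ∪ regSet K x⁻¹ := by rw [hcover]; trivial
    rcases hv' with h | h
    · exact Or.inl ⟨h, hv⟩
    · exact Or.inr ⟨h, hv⟩

end Charts

/-! ### `H⁰(O) = K` -/

section HZero

variable [IsAlgClosed K] {x : F}

/-- A function integral over `K[x]` and over `K[x⁻¹]` is constant. -/
theorem exists_const_of_mem_ringB_inf {f : F} (h0 : f ∈ ringB K x) (h1 : f ∈ ringB K x⁻¹) :
    ∃ c : K, f = algebraMap K F c := by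
  classical
  by_cases hf0 : f = 0
  · exact ⟨0, by rw [hf0, map_zero]⟩
  let A : Subring F := (Algebra.adjoin K {f⁻¹}).toSubring
  have hfA : f⁻¹ ∈ A := Algebra.subset_adjoin (Set.mem_singleton _)
  let I : Ideal A := Ideal.span {⟨f⁻¹, hfA⟩}
  by_cases hI : I = ⊤
  · -- `f ∈ K[f⁻¹]`, hence `f` is algebraic over `K`
    have h1I : (1 : A) ∈ I := by rw [hI]; exact Submodule.mem_top
    obtain ⟨⟨a, ha⟩, hmul⟩ := Ideal.mem_span_singleton'.mp h1I
    have hmul' : a * f⁻¹ = 1 := congrArg Subtype.val hmul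
    have haf : a = f := by
      have := congrArg (· * f) hmul'
      simpa [mul_assoc, inv_mul_cancel₀ hf0] using this
    have ha' : f ∈ (aeval (R := K) f⁻¹).range := by
      rw [← Algebra.adjoin_singleton_eq_range_aeval]
      have ha2 : a ∈ Algebra.adjoin K {f⁻¹} := ha
      rwa [haf] at ha2
    obtain ⟨p, hp⟩ := ha'
    have halg : IsAlgebraic K f⁻¹ := by
      refine ⟨X * p - 1, ?_, ?_⟩
      · intro h
        have := congrArg (fun q => Polynomial.coeff q 0) h
        simp at this
      · have hp' : aeval f⁻¹ p = f := hp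
        rw [map_sub, map_mul, aeval_X, map_one, hp', inv_mul_cancel₀ hf0, sub_self]
    have halg' : IsAlgebraic K f := by simpa using halg.inv
    exact eq_algebraMap_of_isAlgebraic halg'
  · exfalso
    obtain ⟨V, hAV, hIV⟩ := Ideal.image_subset_nonunits_valuationSubring I hI
    have hfV : f⁻¹ ∈ V.nonunits :=
      hIV ⟨⟨f⁻¹, hfA⟩, Ideal.subset_span (Set.mem_singleton _), rfl⟩
    have hnot : f ∉ V := by
      have := Fermat.Agent.M1.Car.Centre99.inv_not_mem_of_mem_nonunits V (inv_ne_zero hf0) hfV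
      rwa [inv_inv] at this
    have hKV : ∀ c : K, algebraMap K F c ∈ V := fun c =>
      hAV ((Algebra.adjoin K {f⁻¹}).algebraMap_mem c)
    rcases V.mem_or_inv_mem x with hx | hx
    · exact hnot (Fermat.Agent.M1.Car.Centre99.chart_le_of_mem (B := ringB K x) (t := x)
        (fun g hg => hg) V hKV hx f h0)
    · exact hnot (Fermat.Agent.M1.Car.Centre99.chart_le_of_mem (B := ringB K x⁻¹) (t := x⁻¹)
        (fun g hg => hg) V hKV hx f h1)

/-- Sections of `O` over the chart `x ≠ ∞`. -/
theorem mem_lat_regSet_zero_iff (hx : IsGen K x) [Algebra.IsSeparable K⟮x⟯ F] {f : F} :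
    f ∈ lat (regSet K x) 0 ↔ f ∈ ringB K x := by
  haveI := isDedekindDomain_ringB hx
  haveI := isFractionRing_ringB hx
  rw [← chartSet_ringB hx, mem_lat_chartSet_zero_iff]
  constructor
  · rintro ⟨b, rfl⟩
    exact b.2
  · intro hf
    exact ⟨⟨f, hf⟩, rfl⟩

/-- Sections of `O` over the overlap. -/
theorem mem_lat_inter_zero_iff (hx : IsGen K x) [Algebra.IsSeparable K⟮x⟯ F] {f : F} :
    f ∈ lat (regSet K x ∩ regSet K x⁻¹) 0 ↔ f ∈ ringBB K x := by
  haveI := isDedekindDomain_ringBB hx
  haveI := isFractionRing_ringBB hx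
  rw [← chartSet_ringBB hx, mem_lat_chartSet_zero_iff]
  constructor
  · rintro ⟨b, rfl⟩
    exact b.2
  · intro hf
    exact ⟨⟨f, hf⟩, rfl⟩

theorem h0_zero_lt_of_sep (hx : IsGen K x) [Algebra.IsSeparable K⟮x⟯ F] :
    h0 (regSet K x) (regSet K x⁻¹) 0 < Cardinal.aleph0 := by
  have hx' : IsGen K x⁻¹ := isGen_inv hx
  haveI : Algebra.IsSeparable K⟮x⁻¹⟯ F := isSeparable_inv x
  rw [h0_eq_rank]
  have hle : lat (regSet K x) 0 ⊓ lat (regSet K x⁻¹) 0 ≤ Submodule.span K {(1 : F)} := by
    rintro f ⟨hf0, hf1⟩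
    rw [SetLike.mem_coe, mem_lat_regSet_zero_iff hx] at hf0
    rw [SetLike.mem_coe, mem_lat_regSet_zero_iff hx'] at hf1
    obtain ⟨c, rfl⟩ := exists_const_of_mem_ringB_inf hf0 hf1
    rw [Algebra.algebraMap_eq_smul_one]
    exact Submodule.smul_mem _ _ (Submodule.mem_span_singleton_self 1)
  haveI : FiniteDimensional K ↥(lat (regSet K x) 0 ⊓ lat (regSet K x⁻¹) 0) :=
    Submodule.finiteDimensional_of_le hle
  exact Module.rank_lt_aleph0 K _

end HZero

/-! ### The Čech decomposition `B₀₁ = B₀ + x ^ m B₁` -/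

section Cech

variable [IsAlgClosed K] {x : F}

/-- The integral closure of `K[x]` is the ring of functions regular wherever `x` is. -/
theorem mem_ringB_iff_forall_mem (hx : IsGen K x) [Algebra.IsSeparable K⟮x⟯ F] {f : F} :
    f ∈ ringB K x ↔ ∀ v : Place K F, x ∈ v.toValuationSubring → f ∈ v.toValuationSubring := by
  rw [← mem_lat_regSet_zero_iff hx, mem_lat]
  refine forall₂_congr fun v _ => ?_
  rw [mem_iff_adicValuation_le_one]
  simp

/-- A function regular on `x ≠ ∞` becomes regular on `x ≠ 0` after multiplication by a large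
power of `x⁻¹`. -/
theorem exists_pow_inv_mul_mem_ringB_inv (hx : IsGen K x) [Algebra.IsSeparable K⟮x⟯ F] {e : F}
    (he : e ∈ ringB K x) : ∃ m₀ : ℕ, ∀ m, m₀ ≤ m → (x⁻¹) ^ m * e ∈ ringB K x⁻¹ := by
  classical
  have hx' : IsGen K x⁻¹ := isGen_inv hx
  haveI : Algebra.IsSeparable K⟮x⁻¹⟯ F := isSeparable_inv x
  have hx0 := hx.ne_zero
  by_cases he0 : e = 0
  · exact ⟨0, fun m _ => by rw [he0, mul_zero]; exact zero_mem _⟩
  have Tp := twoChartPre_of_sep hx
  have hfin : {v : Place K F | v.ord x ≠ 0}.Finite := Tp.finite_ord_ne_zero x hx0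
  refine ⟨hfin.toFinset.sup (fun v => (-(v.ord e)).toNat), fun m hm => ?_⟩
  rw [mem_ringB_iff_forall_mem hx']
  intro v hv
  by_cases hxv : x ∈ v.toValuationSubring
  · exact mul_mem (pow_mem hv m) (ringB_le_place v hxv he)
  · have hordx : v.ord x < 0 := by
      by_contra h
      exact hxv (ffp_mem_of_ord_nonneg v (not_lt.mp h))
    have hvS : v ∈ hfin.toFinset := by
      rw [Set.Finite.mem_toFinset]
      show v.ord x ≠ 0
      omega
    have h1 : (-(v.ord e)).toNat ≤ m :=
      (Finset.le_sup (f := fun v : Place K F => (-(v.ord e)).toNat) hvS).trans hm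
    apply ffp_mem_of_ord_nonneg
    rw [v.ord_mul (pow_ne_zero m (inv_ne_zero hx0)) he0, ord_pow, v.ord_inv]
    have h2 : -(v.ord e) ≤ (m : ℤ) := by
      have := Int.self_le_toNat (-(v.ord e))
      omega
    nlinarith

/-- `x⁻ⁿ r(x) ∈ K[x⁻¹]` if `deg r ≤ n`. -/
theorem pow_inv_mul_aeval_mem (hx0 : x ≠ 0) (r : K[X]) (n : ℕ) (hr : r.natDegree ≤ n) :
    (x⁻¹) ^ n * aeval x r ∈ ringB K x⁻¹ := by
  rw [aeval_eq_sum_range, Finset.mul_sum]
  refine Subalgebra.sum_mem _ fun i hi => ?_
  have hi' : i ≤ n := (Nat.lt_succ_iff.mp (Finset.mem_range.mp hi)).trans hr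
  have h : (x⁻¹) ^ n * (r.coeff i • x ^ i) = r.coeff i • (x⁻¹) ^ (n - i) := by
    rw [mul_smul_comm]
    congr 1
    obtain ⟨j, rfl⟩ := Nat.exists_eq_add_of_le hi'
    rw [Nat.add_sub_cancel_left, pow_add, mul_comm ((x⁻¹) ^ i), mul_assoc, ← mul_pow,
      inv_mul_cancel₀ hx0, one_pow, mul_one]
  rw [h]
  exact Subalgebra.smul_mem _ (pow_mem (self_mem_ringB x⁻¹) _) _

theorem aeval_mem_ringB (x : F) (q : K[X]) : aeval x q ∈ ringB K x := by
  have hle : Algebra.adjoin K {x} ≤ ringB K x :=
    Algebra.adjoin_le (Set.singleton_subset_iff.mpr (self_mem_ringB x))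
  exact hle (aeval_mem_adjoin_singleton K x)

/-- **The Čech decomposition**: `B₀[1/x] = B₀ + x ^ m B₁` for a suitable `m`. -/
theorem exists_cech_decomp (hx : IsGen K x) [Algebra.IsSeparable K⟮x⟯ F] :
    ∃ m : ℕ, ∀ f ∈ ringBB K x, ∃ a ∈ ringB K x, ∃ b ∈ ringB K x⁻¹, f = a + x ^ m * b := by
  classical
  have hx0 := hx.ne_zero
  haveI : Module.Finite (polyRing K x) (intRing K x) := finite_intRing_sep hx
  obtain ⟨S, hS⟩ := (Module.Finite.fg_top : (⊤ : Submodule (polyRing K x) (intRing K x)).FG)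
  have hm₀ : ∀ e : intRing K x, ∃ m₀ : ℕ, ∀ m, m₀ ≤ m → (x⁻¹) ^ m * (e : F) ∈ ringB K x⁻¹ :=
    fun e => exists_pow_inv_mul_mem_ringB_inv hx e.2
  choose m₀ hm₀ using hm₀
  refine ⟨S.sup m₀, ?_⟩
  rintro f ⟨n, hn⟩
  have hmem : (⟨x ^ n * f, hn⟩ : intRing K x) ∈
      Submodule.span (polyRing K x) (S : Set (intRing K x)) := by
    rw [hS]; exact Submodule.mem_top
  obtain ⟨c, -, hc⟩ := Submodule.mem_span_finset.mp hmem
  have hp : ∀ e : intRing K x, ∃ p : K[X], aeval x p = ((c e : polyRing K x) : F) := by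
    intro e
    have h : ((c e : polyRing K x) : F) ∈ Algebra.adjoin K {x} := (c e).2
    rw [Algebra.adjoin_singleton_eq_range_aeval] at h
    exact h
  choose p hp using hp
  have hcF : x ^ n * f = ∑ e ∈ S, aeval x (p e) * (e : F) := by
    have := congrArg (fun z : intRing K x => (z : F)) hc
    simp only at this
    rw [← this, AddSubmonoidClass.coe_finsetSum]
    refine Finset.sum_congr rfl fun e _ => ?_
    rw [hp e]; rfl
  set m := S.sup m₀ with hm
  have hqr : ∀ e, aeval x (p e) =
      aeval x (p e %ₘ X ^ n) + x ^ n * aeval x (p e /ₘ X ^ n) := by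
    intro e
    conv_lhs => rw [← modByMonic_add_div (p e) (X ^ n)]
    rw [map_add, map_mul, map_pow, aeval_X]
  have hrdeg : ∀ e, (p e %ₘ X ^ n).natDegree ≤ n := by
    intro e
    have := natDegree_modByMonic_le (p e) (monic_X_pow (R := K) n)
    rwa [natDegree_X_pow] at this
  refine ⟨∑ e ∈ S, aeval x (p e /ₘ X ^ n) * (e : F), ?_,
    ∑ e ∈ S, ((x⁻¹) ^ n * aeval x (p e %ₘ X ^ n)) * ((x⁻¹) ^ m * (e : F)), ?_, ?_⟩
  · exact Subalgebra.sum_mem _ fun e _ => mul_mem (aeval_mem_ringB x _) e.2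
  · exact Subalgebra.sum_mem _ fun e he =>
      mul_mem (pow_inv_mul_aeval_mem hx0 _ _ (hrdeg e)) (hm₀ e m (Finset.le_sup he))
  · have hf : f = (x⁻¹) ^ n * (x ^ n * f) := by
      rw [← mul_assoc, ← mul_pow, inv_mul_cancel₀ hx0, one_pow, one_mul]
    rw [hf, hcF, Finset.mul_sum, Finset.mul_sum, ← Finset.sum_add_distrib]
    refine Finset.sum_congr rfl fun e _ => ?_
    rw [hqr e]
    have h1 : x ^ n * (x⁻¹) ^ n = 1 := by rw [← mul_pow, mul_inv_cancel₀ hx0, one_pow]
    have h2 : x ^ m * (x⁻¹) ^ m = 1 := by rw [← mul_pow, mul_inv_cancel₀ hx0, one_pow]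
    linear_combination (aeval x (p e /ₘ X ^ n) * (e : F)) * h1 -
      ((x⁻¹) ^ n * aeval x (p e %ₘ X ^ n) * (e : F)) * h2

end Cech

/-! ### The two-chart structure and its consequences -/

section Main

variable [IsAlgClosed K] {x : F}

/-- `H⁰(D)` is finite-dimensional for every divisor `D`. -/
theorem h0_lt_of_sep (hx : IsGen K x) [Algebra.IsSeparable K⟮x⟯ F] (D : Divisor K F) :
    h0 (regSet K x) (regSet K x⁻¹) D < Cardinal.aleph0 := by
  have Tp := twoChartPre_of_sep hx
  induction D using divisor_induction with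
  | h0 => exact h0_zero_lt_of_sep hx
  | hadd D P ih =>
    refine (Tp.h0_step_le D P).trans_lt (Cardinal.add_lt_aleph0 ih ?_)
    rw [Tp.rank_residue]; exact Cardinal.natCast_lt_aleph0
  | hsub D P ih => exact (TwoChartPre.h0_le_step D P).trans_lt ih

/-- `H¹(O(m (x)_∞)) = 0` for a suitable `m`. -/
theorem exists_h1_eq_zero_of_sep (hx : IsGen K x) [Algebra.IsSeparable K⟮x⟯ F] :
    ∃ m : ℕ, h1 (regSet K x) (regSet K x⁻¹)
      (m • divInfty (twoChartPre_of_sep hx) x hx.ne_zero) = 0 := by
  have hx' : IsGen K x⁻¹ := isGen_inv hx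
  haveI : Algebra.IsSeparable K⟮x⁻¹⟯ F := isSeparable_inv x
  have Tp := twoChartPre_of_sep hx
  have hx0 := hx.ne_zero
  obtain ⟨m, hm⟩ := exists_cech_decomp hx
  refine ⟨m, ?_⟩
  have hreg₀ : ∀ v ∈ regSet K x, x ∈ v.toValuationSubring := fun v hv => hv
  have hreg₁ : ∀ v ∈ regSet K x⁻¹, x⁻¹ ∈ v.toValuationSubring := fun v hv => hv
  have hreg₀₁ : ∀ v ∈ regSet K x ∩ regSet K x⁻¹, x ∈ v.toValuationSubring := fun v hv => hv.1
  have hL₀ : lat (regSet K x) (m • divInfty Tp x hx0) = lat (regSet K x) 0 := by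
    have := lat_add_smul_divInfty_of_mem Tp x hx0 hreg₀ 0 m
    rwa [zero_add] at this
  have hL₀₁ : lat (regSet K x ∩ regSet K x⁻¹) (m • divInfty Tp x hx0) =
      lat (regSet K x ∩ regSet K x⁻¹) 0 := by
    have := lat_add_smul_divInfty_of_mem Tp x hx0 hreg₀₁ 0 m
    rwa [zero_add] at this
  have hL₁ : ∀ g : F, g ∈ lat (regSet K x⁻¹) (m • divInfty Tp x hx0) ↔
      (x⁻¹) ^ m * g ∈ lat (regSet K x⁻¹) 0 := by
    intro g
    have := mem_lat_add_smul_divInfty_iff Tp x hx0 hreg₁ 0 m g
    rwa [zero_add] at this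
  rw [h1_eq_zero_iff, hL₀₁, hL₀]
  intro f hf
  rw [mem_lat_inter_zero_iff hx] at hf
  obtain ⟨a, ha, b, hb, rfl⟩ := hm f hf
  refine Submodule.add_mem_sup ((mem_lat_regSet_zero_iff hx).mpr ha) ?_
  rw [hL₁, ← mul_assoc, ← mul_pow, inv_mul_cancel₀ hx0, one_pow, one_mul]
  exact (mem_lat_regSet_zero_iff hx').mpr hb

/-- **A function field with a separating generator over an algebraically closed field of any
characteristic is a two-chart curve.** -/
theorem twoChart_of_sep (hx : IsGen K x) [Algebra.IsSeparable K⟮x⟯ F] :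
    TwoChart (regSet K x) (regSet K x⁻¹) := by
  obtain ⟨m, hm⟩ := exists_h1_eq_zero_of_sep hx
  exact (twoChartPre_of_sep hx).toTwoChart
    ⟨h0_lt_of_sep hx _, by rw [hm]; exact Cardinal.aleph0_pos⟩

/-- Principal divisors exist and have degree zero. -/
theorem hasPrincipalDivisors_of_sep (hx : IsGen K x) [Algebra.IsSeparable K⟮x⟯ F] :
    HasPrincipalDivisors K F :=
  (twoChart_of_sep hx).hasPrincipalDivisors

/-- The spaces `L(D)` are finite-dimensional. -/
theorem finite_riemannRochSpace_of_sep (hx : IsGen K x) [Algebra.IsSeparable K⟮x⟯ F]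
    (D : Divisor K F) : Module.Finite K ↥(riemannRochSpace D) :=
  (twoChart_of_sep hx).finite_riemannRochSpace D

/-- **Riemann's inequality** in any characteristic (literally `ResWeak54.RiemannIneq K F`). -/
theorem riemann_inequality_of_sep (hx : IsGen K x) [Algebra.IsSeparable K⟮x⟯ F] :
    ∃ γ : ℤ, ∀ D : Divisor K F,
      Divisor.degree D + 1 - γ ≤ (Module.finrank K (riemannRochSpace D) : ℤ) := by
  have T := twoChart_of_sep hx
  refine ⟨1 - chi (regSet K x) (regSet K x⁻¹) 0, fun D => ?_⟩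
  have h := T.riemann_inequality D
  rw [T.h0n_eq_finrank_riemannRochSpace] at h
  linarith

/-- A function without poles is constant. -/
theorem exists_const_of_forall_mem (hx : IsGen K x) [Algebra.IsSeparable K⟮x⟯ F] {f : F}
    (h : ∀ v : Place K F, f ∈ v.toValuationSubring) : ∃ c : K, f = algebraMap K F c := by
  have hx' : IsGen K x⁻¹ := isGen_inv hx
  haveI : Algebra.IsSeparable K⟮x⁻¹⟯ F := isSeparable_inv x
  exact exists_const_of_mem_ringB_inf ((mem_ringB_iff_forall_mem hx).mpr fun v _ => h v)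
    ((mem_ringB_iff_forall_mem hx').mpr fun v _ => h v)

/-- There is at least one place. -/
theorem nonempty_place_of_sep (hx : IsGen K x) [Algebra.IsSeparable K⟮x⟯ F] :
    Nonempty (Place K F) := by
  by_contra hne
  rw [not_nonempty_iff] at hne
  obtain ⟨c, hc⟩ := exists_const_of_forall_mem hx (f := x) fun v => (hne.false v).elim
  exact hx.transcendental (hc ▸ isAlgebraic_algebraMap c)

/-- **The hypotheses of the `L(D)`-theory (`RR/LSpace`, `M1/Link/ResWeak54`)** hold for a
function field with a separating generator over an algebraically closed field of any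
characteristic. -/
theorem lHyp_of_sep (hx : IsGen K x) [Algebra.IsSeparable K⟮x⟯ F] :
    Fermat.Agent.RR.LSpace.LHyp K F where
  residue := fun v _ hf => exists_ord_sub_pos hx v hf
  deg_eq_one := fun v => deg_eq_one hx v
  principal := fun f hf =>
    ⟨(twoChart_of_sep hx).div f hf, (twoChart_of_sep hx).div_apply f hf,
      (twoChart_of_sep hx).degree_div f hf⟩
  nonempty := nonempty_place_of_sep hx

end Main

end Fermat.Agent.M1.Link.TwoChartSep99
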