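/-
M1 (row 38, S44), chapter LINK, brick G SPEC = LK5b part 2 (helper99): the special fibre function
field `κ(M) = modularFunctionFieldFullC k M`, `k = ResidueField A` (`A ⊆ ℚbar` a valuation ring over
`ℓ ∤ M`), at a level `M` with a Hauptmodul base (`TMem n e M`, `TGenBase n e`; e.g. `4 ∣ M` or
`9 ∣ M`), satisfies the hypotheses of the characteristic-free `L(D)` / residue theory:

  `lHyp_fullC : LSpace.LHyp k κ(M)`,  `riemann_inequality_fullC` (literally `ResWeak54.RiemannIneq`),
  `hasPrincipalDivisors_fullC`, `finite_riemannRochSpace_fullC`, `exists_const_of_forall_mem_fullC`,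
  `twoChart_fullC`.

Everything is an instance of `M1/Link/TwoChartSep99` at the separating generator
`t̃ = SpecialGen25.tRes`.
-/
import Mathlib
import Fermat.Agent.M1.Link.TwoChartSep99
import Fermat.Agent.ES.RED.SpecialGen25

set_option autoImplicit false
set_option linter.style.haveILetI false
set_option linter.unusedSectionVars false

open AlgebraicCurve HahnSeries ModularCurve IntermediateField

namespace Fermat.Agent.M1.Link.SpecialLHyp99

open Fermat.Agent.X0 Fermat.Agent.RED.Interface4 Fermat.Agent.RED.BASE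
  Fermat.Agent.RED.BASE.EtaQuot12 Fermat.Agent.ES.RED.SpecialGen25
  Fermat.Agent.M1.Link.TwoChartSep99 Fermat.Agent.JAC.Fibre.Core38

variable (n e M : ℕ) [NeZero n] [NeZero M] (ℓ : ℕ) [Fact ℓ.Prime] (hℓM : ¬ ℓ ∣ M)
  (hmem : Interface12.TMem n e M) (hgen : Interface12.TGenBase n e)
  (A : ValuationSubring Qbar) (hA : A.LiesOverPrime ℓ)

include hℓM hmem hgen hA

/-- The special fibre function field is a two-chart curve (charts `t̃ ≠ ∞`, `t̃ ≠ 0`). -/
theorem twoChart_fullC :
    TwoChart (regSet (IsLocalRing.ResidueField ↥A) (tRes n e M ℓ hℓM hmem hgen A hA))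
      (regSet (IsLocalRing.ResidueField ↥A) (tRes n e M ℓ hℓM hmem hgen A hA)⁻¹) := by
  haveI : IsAlgClosed (IsLocalRing.ResidueField ↥A) :=
    Fermat.Agent.ES.KRON.KronInst10.isAlgClosed_residueField A
  haveI := isSeparable_tRes n e M ℓ hℓM hmem hgen A hA
  exact twoChart_of_sep (isGen_tRes n e M ℓ hℓM hmem hgen A hA)

/-- **`LHyp` for the special fibre function field.** -/
theorem lHyp_fullC :
    Fermat.Agent.RR.LSpace.LHyp (IsLocalRing.ResidueField ↥A)
      ↥(modularFunctionFieldFullC (IsLocalRing.ResidueField ↥A) M) := by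
  haveI : IsAlgClosed (IsLocalRing.ResidueField ↥A) :=
    Fermat.Agent.ES.KRON.KronInst10.isAlgClosed_residueField A
  haveI := isSeparable_tRes n e M ℓ hℓM hmem hgen A hA
  exact lHyp_of_sep (isGen_tRes n e M ℓ hℓM hmem hgen A hA)

/-- **Riemann's inequality for the special fibre function field.** -/
theorem riemann_inequality_fullC :
    ∃ γ : ℤ, ∀ D : Divisor (IsLocalRing.ResidueField ↥A)
        ↥(modularFunctionFieldFullC (IsLocalRing.ResidueField ↥A) M),
      Divisor.degree D + 1 - γ ≤
        (Module.finrank (IsLocalRing.ResidueField ↥A) (riemannRochSpace D) : ℤ) := by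
  haveI : IsAlgClosed (IsLocalRing.ResidueField ↥A) :=
    Fermat.Agent.ES.KRON.KronInst10.isAlgClosed_residueField A
  haveI := isSeparable_tRes n e M ℓ hℓM hmem hgen A hA
  exact riemann_inequality_of_sep (isGen_tRes n e M ℓ hℓM hmem hgen A hA)

/-- Principal divisors of the special fibre function field exist and have degree zero. -/
theorem hasPrincipalDivisors_fullC :
    HasPrincipalDivisors (IsLocalRing.ResidueField ↥A)
      ↥(modularFunctionFieldFullC (IsLocalRing.ResidueField ↥A) M) := by
  haveI : IsAlgClosed (IsLocalRing.ResidueField ↥A) :=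
    Fermat.Agent.ES.KRON.KronInst10.isAlgClosed_residueField A
  haveI := isSeparable_tRes n e M ℓ hℓM hmem hgen A hA
  exact hasPrincipalDivisors_of_sep (isGen_tRes n e M ℓ hℓM hmem hgen A hA)

/-- The spaces `L(D)` of the special fibre function field are finite-dimensional. -/
theorem finite_riemannRochSpace_fullC
    (D : Divisor (IsLocalRing.ResidueField ↥A)
      ↥(modularFunctionFieldFullC (IsLocalRing.ResidueField ↥A) M)) :
    Module.Finite (IsLocalRing.ResidueField ↥A) ↥(riemannRochSpace D) := by
  haveI : IsAlgClosed (IsLocalRing.ResidueField ↥A) :=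
    Fermat.Agent.ES.KRON.KronInst10.isAlgClosed_residueField A
  haveI := isSeparable_tRes n e M ℓ hℓM hmem hgen A hA
  exact finite_riemannRochSpace_of_sep (isGen_tRes n e M ℓ hℓM hmem hgen A hA) D

/-- A function of the special fibre without poles is constant. -/
theorem exists_const_of_forall_mem_fullC
    {f : ↥(modularFunctionFieldFullC (IsLocalRing.ResidueField ↥A) M)}
    (h : ∀ v : Place (IsLocalRing.ResidueField ↥A)
      ↥(modularFunctionFieldFullC (IsLocalRing.ResidueField ↥A) M), f ∈ v.toValuationSubring) :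
    ∃ c : IsLocalRing.ResidueField ↥A, f = algebraMap _ _ c := by
  haveI : IsAlgClosed (IsLocalRing.ResidueField ↥A) :=
    Fermat.Agent.ES.KRON.KronInst10.isAlgClosed_residueField A
  haveI := isSeparable_tRes n e M ℓ hℓM hmem hgen A hA
  exact exists_const_of_forall_mem (isGen_tRes n e M ℓ hℓM hmem hgen A hA) h

end Fermat.Agent.M1.Link.SpecialLHyp99
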