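/-
M1 (row 38, S44), chapter LINK, brick G SPEC = LK5b part 3 (helper99): `SpecialLHyp99` with the
Hauptmodul hypotheses discharged from `Hauptmodul12.BaseHyp n e` and `n ∣ M`; in particular for
every level `M` with `4 ∣ M` or with `9 ∣ M` (and `ℓ ∤ M`).
-/
import Mathlib
import Fermat.Agent.M1.Link.SpecialLHyp99
import Fermat.Agent.RED.BASE.Hauptmodul12

set_option autoImplicit false
set_option linter.style.haveILetI false
set_option linter.unusedSectionVars false

open AlgebraicCurve HahnSeries ModularCurve IntermediateField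

namespace Fermat.Agent.M1.Link.SpecialLHypBase99

open Fermat.Agent.X0 Fermat.Agent.RED.Interface4 Fermat.Agent.RED.BASE
  Fermat.Agent.RED.BASE.Hauptmodul12 Fermat.Agent.M1.Link.SpecialLHyp99

section Base

variable {n e : ℕ} [NeZero n] (hb : BaseHyp n e) {M : ℕ} [NeZero M] (hM : n ∣ M)
  (ℓ : ℕ) [Fact ℓ.Prime] (hℓM : ¬ ℓ ∣ M) (A : ValuationSubring Qbar) (hA : A.LiesOverPrime ℓ)

include hb hM hℓM hA

/-- `LHyp` for the special fibre function field at a level divisible by a base level. -/
theorem lHyp_fullC_of_baseHyp :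
    Fermat.Agent.RR.LSpace.LHyp (IsLocalRing.ResidueField ↥A)
      ↥(modularFunctionFieldFullC (IsLocalRing.ResidueField ↥A) M) :=
  lHyp_fullC n e M ℓ hℓM (tMem_of_dvd hb hM) (tGenBase' hb) A hA

/-- Riemann's inequality for the special fibre function field at a level divisible by a base
level. -/
theorem riemann_inequality_fullC_of_baseHyp :
    ∃ γ : ℤ, ∀ D : Divisor (IsLocalRing.ResidueField ↥A)
        ↥(modularFunctionFieldFullC (IsLocalRing.ResidueField ↥A) M),
      Divisor.degree D + 1 - γ ≤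
        (Module.finrank (IsLocalRing.ResidueField ↥A) (riemannRochSpace D) : ℤ) :=
  riemann_inequality_fullC n e M ℓ hℓM (tMem_of_dvd hb hM) (tGenBase' hb) A hA

theorem hasPrincipalDivisors_fullC_of_baseHyp :
    HasPrincipalDivisors (IsLocalRing.ResidueField ↥A)
      ↥(modularFunctionFieldFullC (IsLocalRing.ResidueField ↥A) M) :=
  hasPrincipalDivisors_fullC n e M ℓ hℓM (tMem_of_dvd hb hM) (tGenBase' hb) A hA

theorem finite_riemannRochSpace_fullC_of_baseHyp
    (D : Divisor (IsLocalRing.ResidueField ↥A)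
      ↥(modularFunctionFieldFullC (IsLocalRing.ResidueField ↥A) M)) :
    Module.Finite (IsLocalRing.ResidueField ↥A) ↥(riemannRochSpace D) :=
  finite_riemannRochSpace_fullC n e M ℓ hℓM (tMem_of_dvd hb hM) (tGenBase' hb) A hA D

theorem exists_const_of_forall_mem_fullC_of_baseHyp
    {f : ↥(modularFunctionFieldFullC (IsLocalRing.ResidueField ↥A) M)}
    (h : ∀ v : Place (IsLocalRing.ResidueField ↥A)
      ↥(modularFunctionFieldFullC (IsLocalRing.ResidueField ↥A) M), f ∈ v.toValuationSubring) :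
    ∃ c : IsLocalRing.ResidueField ↥A, f = algebraMap _ _ c :=
  exists_const_of_forall_mem_fullC n e M ℓ hℓM (tMem_of_dvd hb hM) (tGenBase' hb) A hA h

end Base

section FourNine

variable {M : ℕ} [NeZero M] (hM : 4 ∣ M ∨ 9 ∣ M)
  (ℓ : ℕ) [Fact ℓ.Prime] (hℓM : ¬ ℓ ∣ M) (A : ValuationSubring Qbar) (hA : A.LiesOverPrime ℓ)

include hM hℓM hA

/-- **`LHyp k κ(M)` for `4 ∣ M` or `9 ∣ M`, `ℓ ∤ M`.** -/
theorem lHyp_fullC_of_four_or_nine :
    Fermat.Agent.RR.LSpace.LHyp (IsLocalRing.ResidueField ↥A)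
      ↥(modularFunctionFieldFullC (IsLocalRing.ResidueField ↥A) M) := by
  rcases hM with h | h
  · exact lHyp_fullC_of_baseHyp baseHyp_four h ℓ hℓM A hA
  · exact lHyp_fullC_of_baseHyp baseHyp_nine h ℓ hℓM A hA

/-- **Riemann's inequality for `κ(M)`, `4 ∣ M` or `9 ∣ M`, `ℓ ∤ M`.** -/
theorem riemann_inequality_fullC_of_four_or_nine :
    ∃ γ : ℤ, ∀ D : Divisor (IsLocalRing.ResidueField ↥A)
        ↥(modularFunctionFieldFullC (IsLocalRing.ResidueField ↥A) M),
      Divisor.degree D + 1 - γ ≤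
        (Module.finrank (IsLocalRing.ResidueField ↥A) (riemannRochSpace D) : ℤ) := by
  rcases hM with h | h
  · exact riemann_inequality_fullC_of_baseHyp baseHyp_four h ℓ hℓM A hA
  · exact riemann_inequality_fullC_of_baseHyp baseHyp_nine h ℓ hℓM A hA

theorem hasPrincipalDivisors_fullC_of_four_or_nine :
    HasPrincipalDivisors (IsLocalRing.ResidueField ↥A)
      ↥(modularFunctionFieldFullC (IsLocalRing.ResidueField ↥A) M) := by
  rcases hM with h | h
  · exact hasPrincipalDivisors_fullC_of_baseHyp baseHyp_four h ℓ hℓM A hA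
  · exact hasPrincipalDivisors_fullC_of_baseHyp baseHyp_nine h ℓ hℓM A hA

theorem exists_const_of_forall_mem_fullC_of_four_or_nine
    {f : ↥(modularFunctionFieldFullC (IsLocalRing.ResidueField ↥A) M)}
    (h : ∀ v : Place (IsLocalRing.ResidueField ↥A)
      ↥(modularFunctionFieldFullC (IsLocalRing.ResidueField ↥A) M), f ∈ v.toValuationSubring) :
    ∃ c : IsLocalRing.ResidueField ↥A, f = algebraMap _ _ c := by
  rcases hM with h' | h'
  · exact exists_const_of_forall_mem_fullC_of_baseHyp baseHyp_four h' ℓ hℓM A hA h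
  · exact exists_const_of_forall_mem_fullC_of_baseHyp baseHyp_nine h' ℓ hℓM A hA h

end FourNine

end Fermat.Agent.M1.Link.SpecialLHypBase99
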