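/-
M1 (row 38, S44), chapter LINK, brick H INTG closing step (helper99; request #1541 of helper45):
**`KeyRel99.IntgAt M A` unconditionally** at every level `M` with a Hauptmodul base (`n ∣ M`,
`BaseHyp n e`; in particular `4 ∣ M` or `9 ∣ M`) and every valuation ring `A` of `ℚbar` over a prime
`ℓ ∤ M`; hence input (1) of `Core44.link_core` (`hintg`) and the relation form of I KEY
(`KeyRel99.dlog_mem_relSubgroup`) without hypotheses.

* `intgAt_of_model` : `IntgAt M A` from a coefficientwise two-chart model whose chart `0` coordinate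
  is a generator with a pole at `∞` and whose reduction map sends `∞` to `∞bar` (= `Intg45.intg`).
* `exists_model_inftyAt` : such a model exists (`ModelAtFinal8.modelAt` + `RedInst15` +
  `Infty8.r_infty` + `TqOrder26.order_tq`).
* `intgAt_of_baseHyp`, `intgAt_of_four_or_nine`, `dlog_mem_relSubgroup_of_four_or_nine`.
-/
import Mathlib
import Fermat.Agent.M1.Link.KeyRel99
import Fermat.Agent.M1.Link.Intg45
import Fermat.Agent.M1.Link.Infty8
import Fermat.Agent.M1.Link.SpecialLHypBase99
import Fermat.Agent.ES.TOP.ModelAtFinal8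
import Fermat.Agent.ES.RED.RedInst15
import Fermat.Agent.RED.PUR.TqOrder26

set_option autoImplicit false
set_option linter.style.haveILetI false
set_option linter.unusedSectionVars false
set_option synthInstance.maxHeartbeats 400000
set_option maxHeartbeats 1000000

open AlgebraicCurve HahnSeries ModularCurve IntermediateField

namespace Fermat.Agent.M1.Link.IntgAt99

open Fermat.Agent.X0 Fermat.Agent.X0.FF Fermat.Agent.RED.Interface4 Fermat.Agent.RED.BASE
  Fermat.Agent.RED.BASE.Hauptmodul12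
  Fermat.Agent.ES.RED Fermat.Agent.ES.RED.Contract8 Fermat.Agent.ES.RED.TwoCharts8
  Fermat.Agent.ES.RED.GaloisInst21
  Fermat.Agent.M1.Link.QPlace45 Fermat.Agent.M1.Link.KeyRel99

section Model

variable {M : ℕ} [NeZero M] {A : ValuationSubring Qbar}

/-- `IntgAt` from a coefficientwise two-chart model whose chart `0` coordinate is a generator with a
pole at `∞` and whose reduction map sends `∞` to `∞bar`. -/
theorem intgAt_of_model {x : FF M} {hx : IsGen Qbar x}
    (T : TwoCharts A hx ↥(modularFunctionFieldFullC (kA A) M))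
    (hS0 : CoeffChart (F₀ := modularFunctionFieldFull M) T.S0)
    (hgen : IsGen Qbar T.S0.s) (hpole : (inftyL Qbar M).ord T.S0.s < 0)
    (hr : IsPlaceReductionAlong A (resA A) M T.r)
    (hinf : T.r (inftyL Qbar M) = inftyC (kA A) M)
    (HL : Fermat.Agent.RR.LSpace.LHyp (kA A) ↥(modularFunctionFieldFullC (kA A) M)) :
    IntgAt M A := by
  intro g hreg hpp
  exact Fermat.Agent.M1.Link.Intg45.intg T.S0 hS0 hgen hpole T.r hr hinf HL g hreg hpp

end Model

section Base

variable {n e : ℕ} [NeZero n] (hb : BaseHyp n e) {M : ℕ} [NeZero M] (hnM : n ∣ M)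
  (ℓ : ℕ) [Fact ℓ.Prime] (hℓM : ¬ ℓ ∣ M) (A : ValuationSubring Qbar) (hA : A.LiesOverPrime ℓ)

include hb hnM hℓM hA

/-- the two-chart model at level `M`, with its behaviour at the cusp `∞`. -/
theorem exists_model_inftyAt :
    ∃ (x : FF M) (hx : IsGen Qbar x) (T : TwoCharts A hx ↥(modularFunctionFieldFullC (kA A) M)),
      CoeffChart (F₀ := modularFunctionFieldFull M) T.S0 ∧
      CoeffChart (F₀ := modularFunctionFieldFull M) T.S1 ∧
      T.S0.s = Interface12.tF M (tMem_of_dvd hb hnM) ∧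
      IsPlaceReductionAlong A (resA A) M T.r ∧
      T.r (inftyL Qbar M) = inftyC (kA A) M ∧
      (inftyL Qbar M).ord (Interface12.tF M (tMem_of_dvd hb hnM)) < 0 := by
  have hℓ : ℓ.Prime := Fact.out
  have : IsAlgClosed (kA A) := Fermat.Agent.ES.KRON.KronInst10.isAlgClosed_residueField A
  obtain ⟨x, hx, T, hS0, hS1, hs0, peel0, peel1⟩ :=
    Fermat.Agent.ES.TOP.ModelAtFinal8.modelAt ℓ hℓ A hA n e hb M hnM hℓM
  have hin := RedInst15.chartInputs_both n e M ℓ hℓM (tMem_of_dvd hb hnM) (tGenBase' hb) A hA T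
    hS0 hS1 hs0 peel0 peel1
  have hr : IsPlaceReductionModL A M T.r :=
    RedInst15.isPlaceReductionModL_main n e M ℓ hℓM (tMem_of_dvd hb hnM) (tGenBase' hb) A hA T
      hS0 hS1 hs0 peel0 peel1
  have hpole : (inftyL Qbar M).ord (Interface12.tF M (tMem_of_dvd hb hnM)) < 0 := by
    rw [ord_inftyL]
    show (Fermat.Agent.RED.BASE.EtaQuot12.tq Qbar n e).order < 0
    rw [Fermat.Agent.RED.PUR.TqOrder26.order_tq]
    norm_num
  have hs1 : 0 < (inftyL Qbar M).ord T.S1.s := by
    rw [T.s_inv, hs0, Place.ord_inv]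
    omega
  exact ⟨x, hx, T, hS0, hS1, hs0, hr, Fermat.Agent.M1.Link.Infty8.r_infty T hin.1.gent hS1 hs1,
    hpole⟩

/-- **H INTG, unconditional** at a level with a Hauptmodul base. -/
theorem intgAt_of_baseHyp : IntgAt M A := by
  obtain ⟨x, hx, T, hS0, _, hs0, hr, hinf, hpole⟩ := exists_model_inftyAt hb hnM ℓ hℓM A hA
  refine intgAt_of_model T hS0 ?_ (hs0 ▸ hpole) hr hinf
    (Fermat.Agent.M1.Link.SpecialLHypBase99.lHyp_fullC_of_baseHyp hb hnM ℓ hℓM A hA)
  rw [hs0]
  exact Fermat.Agent.RED.BASE.TGen19.isGen_tF n e M (tMem_of_dvd hb hnM)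

end Base

section FourNine

variable {M : ℕ} [NeZero M] (hM : 4 ∣ M ∨ 9 ∣ M)
  (p : ℕ) [Fact p.Prime] (hpM : ¬ p ∣ M) (A : ValuationSubring Qbar) (hA : A.LiesOverPrime p)

include hM hpM hA

/-- **H INTG, unconditional** for `4 ∣ M` or `9 ∣ M`, `p ∤ M`: the hypothesis `hintg` of
`Core44.link_core`. -/
theorem intgAt_of_four_or_nine : IntgAt M A := by
  rcases hM with h | h
  · exact intgAt_of_baseHyp baseHyp_four h p hpM A hA
  · exact intgAt_of_baseHyp baseHyp_nine h p hpM A hA

/-- **I KEY, relation form, unconditional**: input (1) of `Core44.link_core`. -/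
theorem dlog_mem_relSubgroup_of_four_or_nine
    (u : ↥(modularFunctionFieldFullC (IsLocalRing.ResidueField ↥A) M)) (hu : u ≠ 0)
    (hi : ∀ Q : Place (IsLocalRing.ResidueField ↥A)
        ↥(modularFunctionFieldFullC (IsLocalRing.ResidueField ↥A) M), (p : ℤ) ∣ Q.ord u) :
    (fun n : ℕ => (Fermat.Agent.M1.Link.ThetaLog88.dlog
        (u : LaurentSeries (IsLocalRing.ResidueField ↥A))).coeff (n : ℤ)) ∈
      Fermat.Agent.M1.Link.Abstract45.relSubgroup (k := IsLocalRing.ResidueField ↥A)
        (Fermat.Agent.M1.Link.SaturateCusp60.cuspRel M) :=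
  dlog_mem_relSubgroup hM p hpM A hA (intgAt_of_four_or_nine hM p hpM A hA) u hu hi

end FourNine

end Fermat.Agent.M1.Link.IntgAt99
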