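/-
M1 (row 38, S44), chapter LINK (helper44): **LINK-CORE with H INTG discharged.**

`Core44.link_core_of` with `hintg := IntgAt99.intgAt_of_four_or_nine` (helper99/45/8), and the special
case of the model level `M = lcm(M', 4)` for `p ≥ 5` (`IndexLcm44`).  The only remaining explicit input
is K OLDTR (`Core44.OldTrAt A M' M`, helper74).
-/
import Mathlib
import Fermat.Agent.M1.Link.Core44
import Fermat.Agent.M1.Link.IntgAt99
import Fermat.Agent.M1.Link.IndexLcm44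

set_option autoImplicit false
set_option synthInstance.maxHeartbeats 400000
set_option linter.style.haveILetI false
set_option linter.unusedSectionVars false

namespace Fermat.Agent.M1.Link.CoreFinal44

open Module CuspForm CongruenceSubgroup ModularCurve AlgebraicCurve ModularFormClass HahnSeries
open Fermat.Agent.X0 Fermat.Agent.X0.FF
open Fermat.Agent.M1.Link Fermat.Agent.M1.Link.ThetaLog88 Fermat.Agent.M1.Link.Core44

variable (A : ValuationSubring Kbar)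

/-- **LINK-CORE**, with K OLDTR as the only explicit hypothesis. -/
theorem link_core_of_oldtr {p : ℕ} [hp : Fact p.Prime] {M' M : ℕ} [NeZero M'] [NeZero M]
    (hM'M : M' ∣ M) (h4M : 4 ∣ M ∨ 9 ∣ M) (hpM : ¬ p ∣ M)
    (hd : ∀ d : ℕ, dedekindPsi M' * d = dedekindPsi M → ¬ p ∣ d)
    (hA : A.LiesOverPrime p) (holdtr : OldTrAt A M' M)
    {S' : Set ℕ} {σ : Type*} (ℓ : σ → ℕ) (hℓ : ∀ i, (ℓ i).Prime) (hℓM : ∀ i, ¬ ℓ i ∣ M')
    (T : σ → ↥(heckeAlgebra M' 2 S'))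
    (hT : ∀ i, ((T i : ↥(heckeAlgebra M' 2 S')) :
      Module.End ℂ (CuspForm (Gamma0 M') 2)) = CuspForm.heckeTLin 2 (hℓ i) (hℓM i))
    (a : σ → ℤ) (s : MvPolynomial σ ℤ) (hs : MvPolynomial.aeval T s = 0)
    (hsa : ¬ (p : ℤ) ∣ MvPolynomial.eval a s)
    (u : LaurentSeries (IsLocalRing.ResidueField ↥A))
    (hu : u ∈ modularFunctionFieldFullC (IsLocalRing.ResidueField ↥A) M') (hu0 : u ≠ 0)
    (hi : ∀ Q : Place (IsLocalRing.ResidueField ↥A)
        ↥(modularFunctionFieldFullC (IsLocalRing.ResidueField ↥A) M),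
      (p : ℤ) ∣ Q.ord (⟨u, full_degeneracyC_le (IsLocalRing.ResidueField ↥A) hM'M hu⟩ :
        ↥(modularFunctionFieldFullC (IsLocalRing.ResidueField ↥A) M)))
    (hii : ∀ i, haveI : NeZero (ℓ i) := ⟨(hℓ i).ne_zero⟩
      Tform (ℓ i) (dlog u) = a i • dlog u) :
    ∃ w ∈ modularFunctionFieldFullC (IsLocalRing.ResidueField ↥A) M', w ^ p = u :=
  link_core_of A hM'M h4M hpM hd hA (IntgAt99.intgAt_of_four_or_nine h4M p hpM A hA) holdtr
    ℓ hℓ hℓM T hT a s hs hsa u hu hu0 hi hii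

/-- **LINK-CORE at the model level `lcm(M', 4)`**, `p ≥ 5`. -/
theorem link_core_lcm {p : ℕ} [hp : Fact p.Prime] (hp5 : 5 ≤ p) {M' : ℕ} [NeZero M']
    [NeZero (Nat.lcm M' 4)] (hpM' : ¬ p ∣ M')
    (hA : A.LiesOverPrime p) (holdtr : OldTrAt A M' (Nat.lcm M' 4))
    {S' : Set ℕ} {σ : Type*} (ℓ : σ → ℕ) (hℓ : ∀ i, (ℓ i).Prime) (hℓM : ∀ i, ¬ ℓ i ∣ M')
    (T : σ → ↥(heckeAlgebra M' 2 S'))
    (hT : ∀ i, ((T i : ↥(heckeAlgebra M' 2 S')) :
      Module.End ℂ (CuspForm (Gamma0 M') 2)) = CuspForm.heckeTLin 2 (hℓ i) (hℓM i))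
    (a : σ → ℤ) (s : MvPolynomial σ ℤ) (hs : MvPolynomial.aeval T s = 0)
    (hsa : ¬ (p : ℤ) ∣ MvPolynomial.eval a s)
    (u : LaurentSeries (IsLocalRing.ResidueField ↥A))
    (hu : u ∈ modularFunctionFieldFullC (IsLocalRing.ResidueField ↥A) M') (hu0 : u ≠ 0)
    (hi : ∀ Q : Place (IsLocalRing.ResidueField ↥A)
        ↥(modularFunctionFieldFullC (IsLocalRing.ResidueField ↥A) (Nat.lcm M' 4)),
      (p : ℤ) ∣ Q.ord (⟨u, full_degeneracyC_le (IsLocalRing.ResidueField ↥A)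
        (IndexLcm44.dvd_lcm_four M') hu⟩ :
        ↥(modularFunctionFieldFullC (IsLocalRing.ResidueField ↥A) (Nat.lcm M' 4))))
    (hii : ∀ i, haveI : NeZero (ℓ i) := ⟨(hℓ i).ne_zero⟩
      Tform (ℓ i) (dlog u) = a i • dlog u) :
    ∃ w ∈ modularFunctionFieldFullC (IsLocalRing.ResidueField ↥A) M', w ^ p = u :=
  link_core_of_oldtr A (IndexLcm44.dvd_lcm_four M') (Or.inl (IndexLcm44.four_dvd_lcm_four M'))
    (IndexLcm44.not_dvd_lcm_four hp.out hp5 hpM')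
    (IndexLcm44.not_dvd_index_lcm_four hp.out hp5 (Nat.pos_of_ne_zero (NeZero.ne M')))
    hA holdtr ℓ hℓ hℓM T hT a s hs hsa u hu hu0 hi hii

end Fermat.Agent.M1.Link.CoreFinal44
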