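/-
M1 / LINK, lattice lemma (helper93).  Mathlib + `ModularCurve.coeffMap` only.

Let `A` be a valuation subring of a field `L`, `π : A →+* k` a ring homomorphism to a field and
`V` a finite-dimensional `L`-subspace of `ι → L` in which every nonzero vector has a coordinate of
maximal absolute value.  Then `V` contains `dim V` vectors with coordinates in `A` whose
coordinatewise reductions are `k`-linearly independent (echelon induction).  Consequently
`dim_L V ≤ dim_k W` for every `k`-subspace `W` containing the reductions of the `A`-integral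
vectors of `V` ("semicontinuity").  Versions for Laurent series (coefficientwise reduction
`ModularCurve.coeffMap`) are included.
-/
import Mathlib
import Fermat.Prelude.Def_ModularCurve_LaurentCoeff

set_option autoImplicit false

namespace Fermat.Agent.M1.Link.Lattice93

open Module

variable {L k ι : Type*} [Field L] [Field k]

/-- A vector all of whose coordinates are bounded by the coordinate `i`, which is nonzero. -/
def HasMaxCoord (A : ValuationSubring L) (x : ι → L) : Prop :=
  ∃ i, x i ≠ 0 ∧ ∀ j, A.valuation (x j) ≤ A.valuation (x i)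

/-- Normalising at a maximal coordinate: all coordinates of `(x i)⁻¹ • x` lie in `A`. -/
theorem inv_smul_mem (A : ValuationSubring L) {x : ι → L} {i : ι} (hi : x i ≠ 0)
    (hmax : ∀ j, A.valuation (x j) ≤ A.valuation (x i)) (j : ι) :
    ((x i)⁻¹ • x) j ∈ A := by
  rw [← A.valuation_le_one_iff, Pi.smul_apply, smul_eq_mul, map_mul, map_inv₀]
  have h0 : A.valuation (x i) ≠ 0 := (Valuation.ne_zero_iff _).mpr hi
  rw [inv_mul_le_iff₀ (zero_lt_iff.mpr h0), mul_one]
  exact hmax j

/-- **Lattice lemma** (echelon induction), function form. -/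
theorem exists_linearIndependent_reduction_aux (A : ValuationSubring L) (π : A →+* k) (n : ℕ) :
    ∀ (V : Submodule L (ι → L)) [FiniteDimensional L V], finrank L V = n →
      (∀ x ∈ V, x ≠ 0 → HasMaxCoord A x) →
      ∃ b : Fin n → (ι → A), (∀ m, (fun i => ((b m i : A) : L)) ∈ V) ∧
        LinearIndependent k (fun m => fun i => π (b m i)) := by
  induction n with
  | zero =>
    intro V _ _ _
    exact ⟨Fin.elim0, fun m => m.elim0, linearIndependent_empty_type⟩
  | succ n ih =>
    intro V _ hV hmax
    -- a nonzero vector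
    have hVne : V ≠ ⊥ := by
      intro h
      rw [h, finrank_bot] at hV
      exact Nat.succ_ne_zero n hV.symm
    obtain ⟨x, hxV, hx0⟩ := Submodule.exists_mem_ne_zero_of_ne_bot hVne
    obtain ⟨i₁, hi₁, hle⟩ := hmax x hxV hx0
    set x₁ : ι → L := (x i₁)⁻¹ • x with hx₁
    have hx₁V : x₁ ∈ V := V.smul_mem _ hxV
    have hx₁i : x₁ i₁ = 1 := by
      rw [hx₁, Pi.smul_apply, smul_eq_mul, inv_mul_cancel₀ hi₁]
    have hx₁A : ∀ j, x₁ j ∈ A := inv_smul_mem A hi₁ hle
    -- the hyperplane `V'` of vectors of `V` vanishing at `i₁`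
    let φ : V →ₗ[L] L := (LinearMap.proj i₁).comp V.subtype
    have hφ : ∀ y : V, φ y = (y : ι → L) i₁ := fun y => rfl
    have hrange : LinearMap.range φ = ⊤ := by
      rw [eq_top_iff]
      intro c _
      refine ⟨c • ⟨x₁, hx₁V⟩, ?_⟩
      rw [map_smul, hφ]
      show c • x₁ i₁ = c
      rw [hx₁i, smul_eq_mul, mul_one]
    have hker : finrank L (LinearMap.ker φ) = n := by
      have h := LinearMap.finrank_range_add_finrank_ker φ
      rw [hrange, finrank_top, finrank_self, hV] at h
      omega
    let V' : Submodule L (ι → L) := (LinearMap.ker φ).map V.subtype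
    have hV'le : V' ≤ V := by
      rintro _ ⟨y, _, rfl⟩
      exact y.2
    have : FiniteDimensional L V' := Submodule.finiteDimensional_of_le hV'le
    have hV'n : finrank L V' = n := by
      rw [Submodule.finrank_map_subtype_eq, hker]
    have hV'0 : ∀ y ∈ V', y i₁ = 0 := by
      rintro _ ⟨y, hy, rfl⟩
      exact hy
    obtain ⟨b', hb'V, hb'li⟩ := ih V' hV'n (fun y hy hy0 => hmax y (hV'le hy) hy0)
    -- assemble
    let b₁ : ι → A := fun j => ⟨x₁ j, hx₁A j⟩
    refine ⟨Fin.cons b₁ b', ?_, ?_⟩
    · intro m
      refine Fin.cases ?_ (fun m' => ?_) m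
      · simpa [b₁] using hx₁V
      · simpa using hV'le (hb'V m')
    · have hcons : (fun m : Fin (n + 1) => fun i => π ((Fin.cons b₁ b' : Fin (n + 1) → ι → A) m i)) =
          Fin.cons (fun i => π (b₁ i)) (fun m => fun i => π (b' m i)) := by
        funext m
        refine Fin.cases ?_ (fun m' => ?_) m <;> simp
      rw [hcons, linearIndependent_finCons]
      refine ⟨hb'li, fun hmem => ?_⟩
      -- every vector in the span vanishes at `i₁`
      have hspan : Submodule.span k (Set.range fun m => fun i => π (b' m i)) ≤
          LinearMap.ker (LinearMap.proj i₁ : (ι → k) →ₗ[k] k) := by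
        rw [Submodule.span_le]
        rintro _ ⟨m, rfl⟩
        have h0 : (b' m i₁ : L) = 0 := hV'0 _ (hb'V m)
        have h0' : b' m i₁ = 0 := Subtype.ext h0
        simp [h0']
      have h1 := hspan hmem
      have hb₁ : b₁ i₁ = 1 := Subtype.ext hx₁i
      simp [hb₁] at h1

/-- **Lattice lemma**: `dim V` integral vectors of `V` with linearly independent reductions. -/
theorem exists_linearIndependent_reduction (A : ValuationSubring L) (π : A →+* k)
    (V : Submodule L (ι → L)) [FiniteDimensional L V]
    (hmax : ∀ x ∈ V, x ≠ 0 → ∃ i, x i ≠ 0 ∧ ∀ j, A.valuation (x j) ≤ A.valuation (x i)) :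
    ∃ b : Fin (finrank L V) → (ι → A), (∀ m, (fun i => ((b m i : A) : L)) ∈ V) ∧
      LinearIndependent k (fun m => fun i => π (b m i)) :=
  exists_linearIndependent_reduction_aux A π _ V rfl hmax

/-- **Semicontinuity**, function form: if `W` contains the reductions of all `A`-integral vectors
of `V`, then `dim_L V ≤ dim_k W`. -/
theorem finrank_le_of_reduction_mem (A : ValuationSubring L) (π : A →+* k)
    (V : Submodule L (ι → L)) [FiniteDimensional L V]
    (hmax : ∀ x ∈ V, x ≠ 0 → ∃ i, x i ≠ 0 ∧ ∀ j, A.valuation (x j) ≤ A.valuation (x i))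
    (W : Submodule k (ι → k)) [FiniteDimensional k W]
    (hW : ∀ y : ι → A, (fun i => ((y i : A) : L)) ∈ V → (fun i => π (y i)) ∈ W) :
    finrank L V ≤ finrank k W := by
  obtain ⟨b, hbV, hli⟩ := exists_linearIndependent_reduction A π V hmax
  have hle : Submodule.span k (Set.range fun m => fun i => π (b m i)) ≤ W := by
    rw [Submodule.span_le]
    rintro _ ⟨m, rfl⟩
    exact hW _ (hbV m)
  calc finrank L V = Fintype.card (Fin (finrank L V)) := (Fintype.card_fin _).symm
    _ = finrank k (Submodule.span k (Set.range fun m => fun i => π (b m i))) :=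
        (finrank_span_eq_card hli).symm
    _ ≤ finrank k W := Submodule.finrank_mono hle


/-! ### Laurent series -/

section Laurent

open ModularCurve

/-- The coefficient function of a Laurent series, as a linear map. -/
def coeffFun (R : Type*) [CommRing R] : LaurentSeries R →ₗ[R] (ℤ → R) where
  toFun x := x.coeff
  map_add' _ _ := rfl
  map_smul' _ _ := rfl

@[simp]
theorem coeffFun_apply {R : Type*} [CommRing R] (x : LaurentSeries R) (i : ℤ) :
    coeffFun R x i = x.coeff i := rfl

theorem coeffFun_injective (R : Type*) [CommRing R] : Function.Injective (coeffFun R) :=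
  fun _ _ h => HahnSeries.coeff_injective h

/-- A Laurent series over `A` from an `A`-valued coefficient function whose image in `L` is the
coefficient function of a Laurent series over `L`. -/
def liftSeries (A : ValuationSubring L) (y : ℤ → A) (x : LaurentSeries L)
    (h : ∀ i, ((y i : A) : L) = x.coeff i) : LaurentSeries A where
  coeff := y
  isPWO_support' := by
    refine x.isPWO_support.mono fun i hi => ?_
    rw [Function.mem_support] at hi
    rw [HahnSeries.mem_support, ← h i]
    intro h0
    exact hi (Subtype.ext h0)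

@[simp]
theorem liftSeries_coeff (A : ValuationSubring L) (y : ℤ → A) (x : LaurentSeries L)
    (h : ∀ i, ((y i : A) : L) = x.coeff i) (i : ℤ) : (liftSeries A y x h).coeff i = y i := rfl

theorem coeffMap_subtype_liftSeries (A : ValuationSubring L) (y : ℤ → A) (x : LaurentSeries L)
    (h : ∀ i, ((y i : A) : L) = x.coeff i) : coeffMap A.subtype (liftSeries A y x h) = x := by
  ext i
  rw [coeffMap_coeff, liftSeries_coeff]
  exact h i

/-- **Lattice lemma**, Laurent series form. -/
theorem exists_linearIndependent_coeffMap (A : ValuationSubring L) (π : A →+* k)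
    (V : Submodule L (LaurentSeries L)) [FiniteDimensional L V]
    (hmax : ∀ x ∈ V, x ≠ 0 →
      ∃ i, x.coeff i ≠ 0 ∧ ∀ j, A.valuation (x.coeff j) ≤ A.valuation (x.coeff i)) :
    ∃ b : Fin (finrank L V) → LaurentSeries A, (∀ m, coeffMap A.subtype (b m) ∈ V) ∧
      LinearIndependent k (fun m => coeffMap π (b m)) := by
  set V₀ : Submodule L (ℤ → L) := V.map (coeffFun L) with hV₀
  let e : V ≃ₗ[L] V₀ := Submodule.equivMapOfInjective (coeffFun L) (coeffFun_injective L) V
  have : FiniteDimensional L V₀ := LinearEquiv.finiteDimensional e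
  have hfin : finrank L V₀ = finrank L V := (LinearEquiv.finrank_eq e).symm
  have hmax₀ : ∀ x ∈ V₀, x ≠ 0 →
      ∃ i, x i ≠ 0 ∧ ∀ j, A.valuation (x j) ≤ A.valuation (x i) := by
    rintro _ ⟨x, hxV, rfl⟩ hx0
    exact hmax x hxV (fun h => hx0 (by rw [h, map_zero]))
  obtain ⟨b₀, hb₀V, hli⟩ :=
    exists_linearIndependent_reduction_aux A π (finrank L V) V₀ hfin hmax₀
  choose x hxV hx using hb₀V
  have hcoef : ∀ m i, ((b₀ m i : A) : L) = (x m).coeff i := fun m i => (congrFun (hx m) i).symm
  refine ⟨fun m => liftSeries A (b₀ m) (x m) (hcoef m), fun m => ?_, ?_⟩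
  · rw [coeffMap_subtype_liftSeries]
    exact hxV m
  · have hfun : ((coeffFun k) ∘ fun m => coeffMap π (liftSeries A (b₀ m) (x m) (hcoef m))) =
        fun m i => π (b₀ m i) := by
      funext m i
      simp
    have hli' : LinearIndependent k
        ((coeffFun k) ∘ fun m => coeffMap π (liftSeries A (b₀ m) (x m) (hcoef m))) := by
      rw [hfun]
      exact hli
    exact LinearIndependent.of_comp (coeffFun k) hli'

/-- **Semicontinuity**, Laurent series form: if `W` contains the coefficientwise reductions of all
`A`-integral series of `V`, then `dim_L V ≤ dim_k W`. -/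
theorem finrank_le_of_coeffMap_mem (A : ValuationSubring L) (π : A →+* k)
    (V : Submodule L (LaurentSeries L)) [FiniteDimensional L V]
    (hmax : ∀ x ∈ V, x ≠ 0 →
      ∃ i, x.coeff i ≠ 0 ∧ ∀ j, A.valuation (x.coeff j) ≤ A.valuation (x.coeff i))
    (W : Submodule k (LaurentSeries k)) [FiniteDimensional k W]
    (hW : ∀ y : LaurentSeries A, coeffMap A.subtype y ∈ V → coeffMap π y ∈ W) :
    finrank L V ≤ finrank k W := by
  obtain ⟨b, hbV, hli⟩ := exists_linearIndependent_coeffMap A π V hmax
  have hle : Submodule.span k (Set.range fun m => coeffMap π (b m)) ≤ W := by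
    rw [Submodule.span_le]
    rintro _ ⟨m, rfl⟩
    exact hW _ (hbV m)
  calc finrank L V = Fintype.card (Fin (finrank L V)) := (Fintype.card_fin _).symm
    _ = finrank k (Submodule.span k (Set.range fun m => coeffMap π (b m))) :=
        (finrank_span_eq_card hli).symm
    _ ≤ finrank k W := Submodule.finrank_mono hle

end Laurent

end Fermat.Agent.M1.Link.Lattice93
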