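/-
M1 / LINK brick K OLDTR, input T2 (helper61; statement by helper74 #1181), conditional form:
the `Qbar`-`q`-expansion of a weight two cusp form of level `Γ₀(N)` has a coefficient of maximal
`A`-valuation (`Lattice93.HasMaxCoord`), for `A` a valuation subring of `Qbar` over a prime.
Input: `CuspForm.HasIntegralStructure N 2` (= statement S23), taken here as a hypothesis so that
this file has a small closure; `MaxCoeffS23_61` plugs in `Fermat.Agent.S23.result`.
Proof: `f = Σ c_i g_i` with `g_i` integral; a `Qbar`-linear retraction `ρ` of `Qbar → ℂ` gives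
`b_n = Σ m_{i,n} ρ(c_i)`; all `b_n` lie in a number field `K`, where `A ∩ K` is a DVR.
-/
import Mathlib
import Fermat.Agent.RED.DESC.NumberFieldDVR27
import Fermat.Agent.M1.Link.Lattice93
import Fermat.Agent.S49.QExp
import Fermat.Agent.X0.Defs
import Fermat.Prelude.Def_CuspForm_IntegralStructure

set_option autoImplicit false
set_option linter.style.haveILetI false

namespace Fermat.Agent.M1.Link.MaxCoeff61

open Fermat.Agent.RED.Interface4 Fermat.Agent.RED.DESC.NumberFieldDVR27
open Fermat.Agent.M1.Link.Lattice93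

/-- In a DVR, a family of elements, not all zero, contains a nonzero element dividing all. -/
theorem exists_dvd_all {R : Type*} [CommRing R] [IsDomain R] [IsDiscreteValuationRing R]
    {ι : Type*} (x : ι → R) (hx : ∃ i, x i ≠ 0) :
    ∃ i, x i ≠ 0 ∧ ∀ j, x i ∣ x j := by
  classical
  have hwf : WellFounded ((· < ·) : ℕ∞ → ℕ∞ → Prop) := wellFounded_lt
  set S : Set ℕ∞ := {k | ∃ i, x i ≠ 0 ∧ IsDiscreteValuationRing.addVal R (x i) = k} with hS
  have hSne : S.Nonempty := by
    obtain ⟨i, hi⟩ := hx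
    exact ⟨_, i, hi, rfl⟩
  obtain ⟨k, ⟨i, hi0, hik⟩, hmin⟩ := hwf.has_min S hSne
  refine ⟨i, hi0, fun j => ?_⟩
  by_cases hj : x j = 0
  · rw [hj]; exact dvd_zero _
  · rw [← IsDiscreteValuationRing.addVal_le_iff_dvd, hik]
    exact not_lt.mp (hmin _ ⟨j, hj, rfl⟩)

variable (A : ValuationSubring Qbar) {ℓ : ℕ}

/-- **Discreteness**: a sequence of elements of `Qbar`, not all zero, lying in the `ℤ`-span of
finitely many elements, has a term of maximal `A`-valuation. -/
theorem hasMaxCoord_of_mem_span (hℓ : ℓ ≠ 0) (hA : A.LiesOverPrime ℓ) {ι κ : Type*}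
    (s : Finset ι) (γ : ι → Qbar) (b : κ → Qbar)
    (hspan : ∀ n, ∃ m : ι → ℤ, b n = ∑ i ∈ s, (m i : Qbar) * γ i) (hne : b ≠ 0) :
    HasMaxCoord A b := by
  classical
  -- a number field containing the `γ i`
  obtain ⟨K, hKfin, -, hKγ⟩ := exists_numberField (⊥ : IntermediateField ℚ Qbar) (s.image γ)
  haveI := hKfin
  haveI : IsDiscreteValuationRing (AK A K) := isDiscreteValuationRing_AK A K hℓ hA
  have hγ : ∀ i ∈ s, γ i ∈ K := fun i hi => hKγ _ (Finset.mem_image_of_mem γ hi)
  -- lift to `K`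
  set γ' : ι → K := fun i => if h : i ∈ s then ⟨γ i, hγ i h⟩ else 0 with hγ'
  have hγ'c : ∀ i ∈ s, ((γ' i : K) : Qbar) = γ i := by
    intro i hi
    simp only [hγ', dif_pos hi]
  -- a common denominator
  obtain ⟨D, hD⟩ := IsLocalization.exist_integer_multiples_of_finset
    (nonZeroDivisors (AK A K)) (s.image γ')
  have hD0 : (D : AK A K) ≠ 0 := nonZeroDivisors.coe_ne_zero D
  have hy : ∀ i, ∃ y : AK A K, i ∈ s → ((y : K)) = ((D : AK A K) : K) * γ' i := by
    intro i
    by_cases hi : i ∈ s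
    · obtain ⟨y, hy⟩ := hD (γ' i) (Finset.mem_image_of_mem γ' hi)
      refine ⟨y, fun _ => ?_⟩
      rw [Algebra.smul_def] at hy
      exact hy
    · exact ⟨0, fun h => absurd h hi⟩
  choose y hy using hy
  choose m hm using hspan
  set x : κ → AK A K := fun n => ∑ i ∈ s, (m n i : AK A K) * y i with hx
  have hxb : ∀ n, (((x n : AK A K) : K) : Qbar) = (((D : AK A K) : K) : Qbar) * b n := by
    intro n
    rw [hm n, hx, Finset.mul_sum]
    push_cast
    refine Finset.sum_congr rfl fun i hi => ?_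
    rw [hy i hi]
    push_cast
    rw [hγ'c i hi]
    ring
  have hDq : ((((D : AK A K) : K)) : Qbar) ≠ 0 := by
    intro h
    apply hD0
    have : ((D : AK A K) : K) = 0 := Subtype.ext h
    exact Subtype.ext this
  have hex : ∃ n, x n ≠ 0 := by
    by_contra hcon
    push Not at hcon
    apply hne
    funext n
    have h1 := hxb n
    rw [hcon n] at h1
    have h2 : (((D : AK A K) : K) : Qbar) * b n = 0 := by
      rw [← h1]; rfl
    rcases mul_eq_zero.mp h2 with h | h
    · exact absurd h hDq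
    · exact h
  obtain ⟨n₀, hn₀, hdvd⟩ := exists_dvd_all x hex
  refine ⟨n₀, ?_, fun n => ?_⟩
  · intro h0
    apply hn₀
    have h1 := hxb n₀
    rw [h0, mul_zero] at h1
    have : ((x n₀ : AK A K) : K) = 0 := Subtype.ext h1
    exact Subtype.ext this
  · obtain ⟨r, hr⟩ := hdvd n
    have h1 : (((D : AK A K) : K) : Qbar) * b n
        = (((D : AK A K) : K) : Qbar) * b n₀ * (((r : AK A K) : K) : Qbar) := by
      rw [← hxb n, ← hxb n₀, hr]
      push_cast
      rfl
    have h2 : b n = b n₀ * (((r : AK A K) : K) : Qbar) := by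
      rw [mul_assoc] at h1
      exact mul_left_cancel₀ hDq h1
    have h3 : A.valuation ((((r : AK A K) : K)) : Qbar) ≤ 1 :=
      (A.valuation_le_one_iff _).mpr ((mem_AK_iff A K _).mp r.2)
    rw [h2, map_mul]
    exact mul_le_of_le_one_right' h3


/-! ### Cusp forms -/

open CuspForm CongruenceSubgroup ModularFormClass Fermat.Agent.X0 Fermat.Agent.S49

/-- Elements of the integral lattice have integral `q`-coefficients. -/
theorem exists_int_qCoeff_of_mem_intLattice {N : ℕ} {g : CuspForm (Gamma0 N) 2}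
    (hg : g ∈ CuspForm.intLattice N 2) (n : ℕ) : ∃ m : ℤ, qCoeff ⇑g n = (m : ℂ) := by
  unfold CuspForm.intLattice at hg
  induction hg using Submodule.span_induction with
  | mem g hg => exact hg n
  | zero => exact ⟨0, by rw [qCoeff_zero_form, Int.cast_zero]⟩
  | add g g' _ _ ih ih' =>
    obtain ⟨m, hm⟩ := ih
    obtain ⟨m', hm'⟩ := ih'
    exact ⟨m + m', by rw [qCoeff_add, hm, hm', Int.cast_add]⟩
  | smul c g _ ih =>
    obtain ⟨m, hm⟩ := ih
    exact ⟨c * m, by rw [qCoeff_zsmul, hm, Int.cast_mul]⟩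

theorem qCoeff_sum {N : ℕ} {ι : Type*} (s : Finset ι) (F : ι → CuspForm (Gamma0 N) 2) (n : ℕ) :
    qCoeff ⇑(∑ i ∈ s, F i) n = ∑ i ∈ s, qCoeff ⇑(F i) n := by
  have h := congrFun (map_sum (qCoeffLin N) F s) n
  rw [Finset.sum_apply] at h
  exact h

/-- **T2 (conditional form)**: the `Qbar`-`q`-expansion of a weight two cusp form has a
coefficient of maximal `A`-valuation. -/
theorem hasMaxCoord_qCoeff_of_hasIntegralStructure (p : ℕ) [Fact p.Prime]
    (A : ValuationSubring Kbar) (hA : A.LiesOverPrime p) (N : ℕ)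
    (hint : CuspForm.HasIntegralStructure N 2)
    (f : CuspForm (Gamma0 N) 2) (b : ℕ → Kbar)
    (hb : ∀ n, qCoeff ⇑f n = iotaK (b n)) (hne : b ≠ 0) : HasMaxCoord A b := by
  classical
  have hf : f ∈ Submodule.span ℂ ((CuspForm.intLattice N 2 :
      Submodule ℤ (CuspForm (Gamma0 N) 2)) : Set (CuspForm (Gamma0 N) 2)) := by
    rw [show Submodule.span ℂ ((CuspForm.intLattice N 2 :
      Submodule ℤ (CuspForm (Gamma0 N) 2)) : Set (CuspForm (Gamma0 N) 2)) = ⊤ from hint]
    exact Submodule.mem_top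
  obtain ⟨c, t, ht, -, hsum⟩ := Submodule.mem_span_iff_exists_finset_subset.mp hf
  -- a `Kbar`-linear retraction of `iotaK`
  letI : Algebra Kbar ℂ := iotaK.toAlgebra
  have hker : LinearMap.ker (Algebra.linearMap Kbar ℂ) = ⊥ :=
    LinearMap.ker_eq_bot.mpr iotaK.injective
  obtain ⟨ρ, hρ⟩ := LinearMap.exists_leftInverse_of_injective (Algebra.linearMap Kbar ℂ) hker
  have hρ' : ∀ x : Kbar, ρ (iotaK x) = x := fun x => by
    have := congrArg (fun φ : Kbar →ₗ[Kbar] Kbar => φ x) hρ
    exact this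
  have hint' : ∀ g, ∃ m : ℕ → ℤ, g ∈ t → ∀ n, qCoeff ⇑g n = (m n : ℂ) := by
    intro g
    by_cases hg : g ∈ t
    · have := exists_int_qCoeff_of_mem_intLattice (ht hg)
      choose m hm using this
      exact ⟨m, fun _ => hm⟩
    · exact ⟨fun _ => 0, fun h => absurd h hg⟩
  choose m hm using hint'
  refine hasMaxCoord_of_mem_span A (Fact.out : p.Prime).ne_zero hA t (fun g => ρ (c g)) b ?_ hne
  intro n
  refine ⟨fun g => m g n, ?_⟩
  rw [← hρ' (b n), ← hb n, ← hsum, qCoeff_sum, map_sum]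
  refine Finset.sum_congr rfl fun g hg => ?_
  rw [qCoeff_smul, hm g hg n]
  have h1 : c g * ((m g n : ℤ) : ℂ) = ((m g n : ℤ) : Kbar) • c g := by
    rw [Algebra.smul_def, mul_comm]
    congr 1
    exact (map_intCast iotaK (m g n)).symm
  rw [h1, map_smul, smul_eq_mul]

end Fermat.Agent.M1.Link.MaxCoeff61
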