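/-
M1 (S44), chapter LINK, brick K OLDTR parts (a), (b) instantiated (helper74).

`A ≤ ℚ̄` a valuation subring over a prime `ℓ`, `k` its residue field, `M' ∣ M`, `ℓ ∤ M`.

* `hasFrac_Fbar` : every nonzero element of `Fbar M` is `c · a / b`, `a, b ∈ Fbar M ∩ A((q))` of nonzero
  reduction (`TraceInt74.HasFrac`; from `GaussUnit25.exists_integral_fraction` by descent);
* `relfinrank_Fbar_mul`, `relfinrank_fullC_mul` : `[Fbar M : Fbar M'] · ψ(M') = ψ(M) =
  [κ(M) : κ(M')] · ψ(M')` with `κ(N) = modularFunctionFieldFullC k N`;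
* `exists_lift_basis` : there are `[κ(M) : κ(M')]` elements of `Fbar M ∩ A((q))` whose reductions
  are `κ(M')`-linearly independent;
* `exists_mul_trace_Fbar` : the instance of `TraceInt74.exists_mul_trace`.
-/
import Mathlib
import Fermat.Agent.ES.RED.RedMem16
import Fermat.Agent.M1.Link.TraceInt74

set_option autoImplicit false
set_option linter.unusedSectionVars false
set_option linter.style.haveILetI false
set_option synthInstance.maxHeartbeats 400000
set_option maxHeartbeats 1000000

noncomputable section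

open HahnSeries ModularCurve IntermediateField

namespace Fermat.Agent.M1.Link.TraceInst74

open Fermat.Agent.RED.Interface4 Fermat.Agent.RED.DESC Fermat.Agent.RED.DESC.NumberFieldDVR27
open Fermat.Agent.RED.PUR.GaussGen8 Fermat.Agent.RED.PUR
open Fermat.Agent.ES.RED Fermat.Agent.ES.RED.Setup8 Fermat.Agent.ES.RED.GaussUnit25
open Fermat.Agent.M1.Link.TraceInt74

/-! ### (I1) the fraction property -/

section Frac

variable (ℓ : ℕ) [Fact ℓ.Prime] (A : ValuationSubring Qbar) (hA : A.LiesOverPrime ℓ)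
  (M : ℕ) [NeZero M]

include hA in
theorem hasFrac_Fbar : HasFrac A (Fbar M) := by
  intro f hf0
  haveI := isAlgebraic_Qbar
  obtain ⟨K, -, hfin, x', hx', hx'f⟩ :=
    CoeffDescent1.exists_finite_descent (L := Qbar) (F₀ := modularFunctionFieldFull M) ⊥ f.2
  haveI := hfin
  haveI : IsDiscreteValuationRing ↥(AK A K) :=
    isDiscreteValuationRing_AK A K (Fact.out : ℓ.Prime).ne_zero hA
  obtain ⟨π, hπ⟩ := IsDiscreteValuationRing.exists_irreducible ↥(AK A K)
  have hu := isUnif_of_irreducible (AK A K) hπ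
  have hx'C : x' ∈ modularFunctionFieldFullC ↥K M := by
    rw [← DegBaseChange25.laurentBaseChange_full_eq]; exact hx'
  have hx'0 : x' ≠ 0 := by
    rintro rfl
    rw [map_zero] at hx'f
    exact hf0 (Subtype.ext hx'f.symm)
  obtain ⟨c, a, b, hc0, haE, hbE, hared, hbred, hrel⟩ := exists_integral_fraction hu M hx'C hx'0
  have hmemQ : ∀ z : LaurentSeries ↥(AK A K), embK (AK A K) z ∈ modularFunctionFieldFullC ↥K M →
      coeffMap A.subtype (coeffMap (incl A K) z) ∈ Fbar M := by
    intro z hz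
    rw [coeffMap_subtype_incl]
    refine CoeffDescent1.coeffMap_mem_laurentBaseChange_of_algHom (algebraMap K Qbar)
      (modularFunctionFieldFull M) ?_
    rw [DegBaseChange25.laurentBaseChange_full_eq]; exact hz
  have hne : ∀ z : LaurentSeries ↥(AK A K), redL (AK A K) z ≠ 0 →
      coeffMap (resA A) (coeffMap (incl A K) z) ≠ 0 := by
    intro z hz h
    apply hz
    rw [coeffMap_residue_incl] at h
    exact CoeffDescent1.coeffMap_injective_of_injective (resMap A K) (resMap_injective A K)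
      (h.trans (map_zero _).symm)
  refine ⟨algebraMap K Qbar c, ofSeries A (Fbar M) _ (hmemQ a haE),
    ofSeries A (Fbar M) _ (hmemQ b hbE), ?_, ?_, ?_, ?_⟩
  · rw [Ne, map_eq_zero]; exact hc0
  · rw [redA_ofSeries]; exact hne a hared
  · rw [redA_ofSeries]; exact hne b hbred
  · apply Subtype.ext
    show (f : LaurentSeries Qbar) * coeffMap A.subtype (coeffMap (incl A K) b) =
      algebraMap Qbar (LaurentSeries Qbar) (algebraMap K Qbar c) *
        coeffMap A.subtype (coeffMap (incl A K) a)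
    rw [coeffMap_subtype_incl, coeffMap_subtype_incl, ← hx'f, ← map_mul, hrel, map_mul,
      GaussGen8.coeffMap_C, algebraMap_eq_C (K := Qbar)]

end Frac


/-! ### (a) degrees -/

section Degrees

variable {M' M : ℕ} [NeZero M'] [NeZero M] (hdvd : M' ∣ M)

include hdvd in
theorem Fbar_le : Fbar M' ≤ Fbar M := by
  show laurentBaseChange Qbar (modularFunctionFieldFull M') ≤
    laurentBaseChange Qbar (modularFunctionFieldFull M)
  rw [DegBaseChange25.laurentBaseChange_full_eq, DegBaseChange25.laurentBaseChange_full_eq]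
  exact full_degeneracyC_le Qbar hdvd

theorem dedekindPsi_ne_zero (N : ℕ) [NeZero N] : dedekindPsi N ≠ 0 :=
  (Fermat.Agent.X0.GNPsi.gnp_dedekindPsi_pos (NeZero.ne N)).ne'

include hdvd in
/-- `ψ(M') · [Fbar M : Fbar M'] = ψ(M)`. -/
theorem relfinrank_Fbar_mul :
    dedekindPsi M' * relfinrank (Fbar M') (Fbar M) = dedekindPsi M := by
  show dedekindPsi M' * relfinrank (laurentBaseChange Qbar (modularFunctionFieldFull M'))
    (laurentBaseChange Qbar (modularFunctionFieldFull M)) = dedekindPsi M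
  rw [DegBaseChange25.laurentBaseChange_full_eq, DegBaseChange25.laurentBaseChange_full_eq]
  have h1 := DegBaseChange25.relfinrank_fullC_eq_psi_of_charZero Qbar M'
  have h2 := DegBaseChange25.relfinrank_fullC_eq_psi_of_charZero Qbar M
  have hj : Qbar⟮jqModC Qbar⟯ ≤ modularFunctionFieldFullC Qbar M' :=
    adjoin_simple_le_iff.mpr (jqModC_mem_full Qbar M')
  have := relfinrank_mul_relfinrank hj (full_degeneracyC_le Qbar hdvd)
  rw [h1, h2] at this
  exact this

variable (ℓ : ℕ) [Fact ℓ.Prime] (A : ValuationSubring Qbar) (hA : A.LiesOverPrime ℓ)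

include hA in
theorem charP_kA : CharP (kA A) ℓ := by
  haveI : CharP (Res (AK A ⊥)) ℓ := charP_residueField_AK A ⊥ Fact.out hA
  exact charP_of_injective_ringHom (resMap_injective A ⊥) ℓ

include hdvd hA in
/-- `ψ(M') · [κ(M) : κ(M')] = ψ(M)` for `ℓ ∤ M`. -/
theorem relfinrank_fullC_mul (hℓM : ¬ ℓ ∣ M) :
    dedekindPsi M' * relfinrank (modularFunctionFieldFullC (kA A) M')
      (modularFunctionFieldFullC (kA A) M) = dedekindPsi M := by
  haveI := charP_kA ℓ A hA
  have hℓM' : ¬ ℓ ∣ M' := fun h => hℓM (h.trans hdvd)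
  have h1 := DegBaseChange25.relfinrank_fullC_eq_psi_of_charP ℓ (kA A) M' hℓM'
  have h2 := DegBaseChange25.relfinrank_fullC_eq_psi_of_charP ℓ (kA A) M hℓM
  have hj : (kA A)⟮jqModC (kA A)⟯ ≤ modularFunctionFieldFullC (kA A) M' :=
    adjoin_simple_le_iff.mpr (jqModC_mem_full (kA A) M')
  have := relfinrank_mul_relfinrank hj (full_degeneracyC_le (kA A) hdvd)
  rw [h1, h2] at this
  exact this

include hdvd hA in
theorem relfinrank_fullC_eq (hℓM : ¬ ℓ ∣ M) :
    relfinrank (modularFunctionFieldFullC (kA A) M') (modularFunctionFieldFullC (kA A) M) =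
      relfinrank (Fbar M') (Fbar M) := by
  have h1 := relfinrank_fullC_mul hdvd ℓ A hA hℓM
  have h2 := relfinrank_Fbar_mul hdvd
  exact Nat.eq_of_mul_eq_mul_left (Nat.pos_of_ne_zero (dedekindPsi_ne_zero M')) (h1.trans h2.symm)

end Degrees


/-! ### (I2) a lifted basis -/

section AbstractBasis

variable {k Λ : Type*} [Field k] [Field Λ] [Algebra k Λ]

/-- A subring `R` of `Λ` containing generators `G` of `κ''` over `k` and contained in `κ''` contains
a basis of `κ''` over any intermediate field `κ' ≤ κ''` over which `κ''` is finite. -/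
theorem exists_basis_in_subring {κ' κ'' : IntermediateField k Λ} (hle : κ' ≤ κ'')
    (R : Subring Λ) (hR : ∀ s ∈ R, s ∈ κ'') (G : Set Λ) (hG : ∀ g ∈ G, g ∈ R)
    (hgen : κ'' = IntermediateField.adjoin k G) (hdeg : relfinrank κ' κ'' ≠ 0) :
    ∃ x : Fin (relfinrank κ' κ'') → Λ, (∀ i, x i ∈ R) ∧ LinearIndependent ↥κ' x := by
  classical
  have hfinE : Module.finrank ↥κ' ↥(extendScalars hle) = relfinrank κ' κ'' :=
    (relfinrank_eq_finrank_of_le hle).symm
  haveI : FiniteDimensional ↥κ' ↥(extendScalars hle) :=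
    Module.finite_of_finrank_pos (by rw [hfinE]; exact Nat.pos_of_ne_zero hdeg)
  have halg : ∀ s ∈ (R : Set Λ), IsAlgebraic ↥κ' s := by
    intro s hs
    have hsE : s ∈ extendScalars hle := hR s hs
    have := Algebra.IsAlgebraic.isAlgebraic (R := ↥κ') (⟨s, hsE⟩ : ↥(extendScalars hle))
    exact (IntermediateField.isAlgebraic_iff (S := extendScalars hle)).mp this
  have hTsub : (IntermediateField.adjoin ↥κ' (R : Set Λ)).toSubalgebra =
      Algebra.adjoin ↥κ' (R : Set Λ) := adjoin_toSubalgebra_of_isAlgebraic halg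
  have hspan : Subalgebra.toSubmodule (Algebra.adjoin ↥κ' (R : Set Λ)) =
      Submodule.span ↥κ' (R : Set Λ) := by
    rw [Algebra.adjoin_eq_span]
    have : (R : Set Λ) = (R.toSubmonoid : Set Λ) := rfl
    rw [this, Submonoid.closure_eq]
  have hGT : ∀ z ∈ G, z ∈ IntermediateField.adjoin ↥κ' (R : Set Λ) := fun z hz =>
    IntermediateField.subset_adjoin ↥κ' (R : Set Λ) (hG z hz)
  have hκ''T : ∀ z ∈ κ'', z ∈ IntermediateField.adjoin ↥κ' (R : Set Λ) := by
    have : κ'' ≤ (IntermediateField.adjoin ↥κ' (R : Set Λ)).restrictScalars k := by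
      rw [hgen, adjoin_le_iff]
      exact fun z hz => hGT z hz
    exact fun z hz => this hz
  have hspanE : Submodule.span ↥κ' (R : Set Λ) =
      Subalgebra.toSubmodule (extendScalars hle).toSubalgebra := by
    apply le_antisymm
    · rw [Submodule.span_le]
      exact fun s hs => hR s hs
    · intro z hz
      have h1 : z ∈ (IntermediateField.adjoin ↥κ' (R : Set Λ)).toSubalgebra := hκ''T z hz
      rw [hTsub] at h1
      rw [← hspan]
      exact h1
  obtain ⟨b, hbS, hbspan, hbli⟩ := exists_linearIndependent ↥κ' (R : Set Λ)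
  have heq : Submodule.span ↥κ' (Set.range ((↑) : b → Λ)) =
      Subalgebra.toSubmodule (extendScalars hle).toSubalgebra := by
    rw [Subtype.range_coe, hbspan, hspanE]
  have hcard : Nat.card b = relfinrank κ' κ'' := by
    rw [← Module.finrank_eq_nat_card_basis (Module.Basis.span hbli),
      (LinearEquiv.ofEq _ _ heq).finrank_eq]
    exact hfinE
  haveI : Finite b := Nat.finite_of_card_ne_zero (by rw [hcard]; exact hdeg)
  let e : Fin (relfinrank κ' κ'') ≃ b := (finCongr hcard.symm).trans (Finite.equivFin b).symm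
  exact ⟨fun i => ((e i : b) : Λ), fun i => hbS (e i).2, hbli.comp e e.injective⟩

end AbstractBasis

section LiftBasis

variable {M' M : ℕ} [NeZero M'] [NeZero M] (hdvd : M' ∣ M)
variable (ℓ : ℕ) [Fact ℓ.Prime] (A : ValuationSubring Qbar) (hA : A.LiesOverPrime ℓ)
  (hℓM : ¬ ℓ ∣ M)

/-- the generators `j̃(q^d)` are reductions of `A`-integral elements of `Fbar M`. -/
theorem gen_mem_range_redA {d : ℕ} [NeZero d] (hd : d ∣ M) :
    qExpand (kA A) d (jqModC (kA A)) ∈ (redA A (Fbar M)).range := by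
  have hmem : coeffMap A.subtype (qExpand ↥A d (jqModC ↥A)) ∈ Fbar M := by
    rw [ResidueUnion1.coeffMap_qExpand', coeffMap_jqModC]
    show _ ∈ laurentBaseChange Qbar (modularFunctionFieldFull M)
    rw [DegBaseChange25.laurentBaseChange_full_eq]
    exact jqModCd_mem_full Qbar M hd
  refine ⟨ofSeries A (Fbar M) _ hmem, ?_⟩
  rw [redA_ofSeries, ResidueUnion1.coeffMap_qExpand', coeffMap_jqModC]

include hdvd hA hℓM in
/-- **A lifted basis**: `[κ(M) : κ(M')]` elements of `Fbar M ∩ A((q))` with `κ(M')`-independent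
reductions. -/
theorem exists_lift_basis :
    ∃ x : Fin (relfinrank (modularFunctionFieldFullC (kA A) M')
        (modularFunctionFieldFullC (kA A) M)) → ↥(gaussA A (Fbar M)),
      LinearIndependent ↥(modularFunctionFieldFullC (kA A) M')
        (fun i => redA A (Fbar M) (x i)) := by
  have hdeg : relfinrank (modularFunctionFieldFullC (kA A) M')
      (modularFunctionFieldFullC (kA A) M) ≠ 0 := by
    intro h0
    have := relfinrank_fullC_mul hdvd ℓ A hA hℓM
    rw [h0, mul_zero] at this
    exact dedekindPsi_ne_zero M this.symm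
  obtain ⟨x, hxR, hxli⟩ := exists_basis_in_subring (full_degeneracyC_le (kA A) hdvd)
    (redA A (Fbar M)).range
    (by
      rintro _ ⟨g, rfl⟩
      exact RedMem16.redA_mem_fullC A ℓ hA hℓM g)
    (divisorExpansionsC (kA A) M)
    (by
      rintro _ ⟨d, hne, hd, rfl⟩
      haveI := hne
      exact gen_mem_range_redA A hd)
    rfl hdeg
  choose g hg using hxR
  refine ⟨g, ?_⟩
  have : (fun i => redA A (Fbar M) (g i)) = x := funext hg
  rw [this]
  exact hxli

end LiftBasis


/-! ### the inclusion algebra and the instance of `exists_mul_trace` -/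

section InclAlgebra

variable {K E : Type*} [Field K] [Field E] [Algebra K E] {A B : IntermediateField K E}

/-- the algebra structure of an inclusion of intermediate fields. -/
@[reducible] def inclAlgebra (h : A ≤ B) : Algebra ↥A ↥B :=
  (IntermediateField.inclusion h).toRingHom.toAlgebra

theorem inclAlgebra_algebraMap (h : A ≤ B) (a : ↥A) :
    ((@algebraMap ↥A ↥B _ _ (inclAlgebra h) a : ↥B) : E) = (a : E) := rfl

theorem isScalarTower_inclAlgebra (h : A ≤ B) :
    @IsScalarTower K ↥A ↥B _ (inclAlgebra h).toSMul _ :=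
  letI := inclAlgebra h
  IsScalarTower.of_algebraMap_eq fun _ => rfl

theorem finrank_inclAlgebra (h : A ≤ B) :
    @Module.finrank ↥A ↥B _ _ (inclAlgebra h).toModule = relfinrank A B := by
  rw [relfinrank_eq_finrank_of_le h]
  letI := inclAlgebra h
  refine LinearEquiv.finrank_eq ?_
  exact
    { toFun := fun x => ⟨x.1, x.2⟩
      invFun := fun x => ⟨x.1, x.2⟩
      map_add' := fun _ _ => rfl
      map_smul' := fun _ _ => rfl
      left_inv := fun _ => rfl
      right_inv := fun _ => rfl }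

end InclAlgebra

section Instance

variable {M' M : ℕ} [NeZero M'] [NeZero M] (hdvd : M' ∣ M)
variable (ℓ : ℕ) [Fact ℓ.Prime] (A : ValuationSubring Qbar) (hA : A.LiesOverPrime ℓ)
  (hℓM : ¬ ℓ ∣ M)

include hdvd in
theorem finrank_Fbar_pos :
    0 < @Module.finrank ↥(Fbar M') ↥(Fbar M) _ _ (inclAlgebra (Fbar_le hdvd)).toModule := by
  rw [finrank_inclAlgebra]
  apply Nat.pos_of_ne_zero
  intro h0
  have := relfinrank_Fbar_mul hdvd
  rw [h0, mul_zero] at this
  exact dedekindPsi_ne_zero M this.symm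

include hdvd in
theorem finiteDimensional_Fbar :
    @FiniteDimensional ↥(Fbar M') ↥(Fbar M) _ _ (inclAlgebra (Fbar_le hdvd)).toModule :=
  letI := inclAlgebra (Fbar_le hdvd)
  Module.finite_of_finrank_pos (finrank_Fbar_pos hdvd)

include hdvd hA hℓM in
/-- **Trace versus reduction for `Fbar M / Fbar M'`** (fraction form): for `y ∈ Fbar M ∩ A((q))` with
`ȳ ∈ κ(M')` there are `C, T ∈ Fbar M' ∩ A((q))`, `C̄ ≠ 0`, `T = C · Tr y`, `T̄ = d · C̄ · ȳ`,
`ψ(M') · d = ψ(M)`. -/
theorem exists_mul_trace_Fbar (y : ↥(gaussA A (Fbar M)))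
    (hy : redA A (Fbar M) y ∈ modularFunctionFieldFullC (kA A) M') :
    ∃ (d : ℕ) (C T : ↥(gaussA A (Fbar M'))), dedekindPsi M' * d = dedekindPsi M ∧
      redA A (Fbar M') C ≠ 0 ∧
      ((T : ↥(gaussA A (Fbar M'))) : ↥(Fbar M')) = (C : ↥(Fbar M')) *
        @Algebra.trace ↥(Fbar M') ↥(Fbar M) _ _ (inclAlgebra (Fbar_le hdvd))
          ((y : ↥(gaussA A (Fbar M))) : ↥(Fbar M)) ∧
      redA A (Fbar M') T =
        (d : LaurentSeries (kA A)) * redA A (Fbar M') C * redA A (Fbar M) y := by
  letI := inclAlgebra (Fbar_le hdvd)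
  haveI := finiteDimensional_Fbar hdvd
  have hℓM' : ¬ ℓ ∣ M' := fun h => hℓM (h.trans hdvd)
  have hdk := relfinrank_fullC_eq hdvd ℓ A hA hℓM
  have hfin : Module.finrank ↥(Fbar M') ↥(Fbar M) =
      relfinrank (modularFunctionFieldFullC (kA A) M') (modularFunctionFieldFullC (kA A) M) :=
    (finrank_inclAlgebra (Fbar_le hdvd)).trans hdk.symm
  obtain ⟨x, hx⟩ := exists_lift_basis hdvd ℓ A hA hℓM
  obtain ⟨C, T, hC, hT, hred⟩ := exists_mul_trace (A := A) (F' := Fbar M') (F'' := Fbar M)
    (fun a => inclAlgebra_algebraMap (Fbar_le hdvd) a) (hasFrac_Fbar ℓ A hA M')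
    (κ' := ↥(modularFunctionFieldFullC (kA A) M'))
    (fun g => ⟨⟨_, RedMem16.redA_mem_fullC A ℓ hA hℓM' g⟩, rfl⟩) hfin x hx y ⟨⟨_, hy⟩, rfl⟩
  refine ⟨_, C, T, ?_, hC, hT, hred⟩
  rw [hdk]
  exact relfinrank_Fbar_mul hdvd

end Instance

end Fermat.Agent.M1.Link.TraceInst74
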