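/-
M1 (S44), chapter LINK, brick K OLDTR, pure algebra (helper74): for a discrete valuation ring `A` with
fraction field `K`, a finite separable extension `L / K` and the integral closure `B` of `A` in `L`,
an element of `B` lying in every maximal ideal of `B` has trace in the maximal ideal of `A`.
Mathlib only.
-/
import Mathlib

set_option autoImplicit false
set_option linter.style.haveILetI false

namespace Fermat.Agent.M1.Link.JacTrace74

open IsLocalRing

attribute [local instance] Ideal.Quotient.field

theorem trace_mem_maximalIdeal_of_forall_mem_maximal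
    {A K L B : Type*} [CommRing A] [IsDomain A] [IsDiscreteValuationRing A]
    [Field K] [Algebra A K] [IsFractionRing A K]
    [Field L] [Algebra K L] [Algebra A L] [IsScalarTower A K L]
    [FiniteDimensional K L] [Algebra.IsSeparable K L]
    [CommRing B] [Algebra A B] [Algebra B L] [IsScalarTower A B L] [IsIntegralClosure B A L]
    (b : B) (hb : ∀ P : Ideal B, P.IsMaximal → b ∈ P) :
    ∃ a ∈ maximalIdeal A, algebraMap A K a = Algebra.trace K L (algebraMap B L b) := by
  classical
  haveI : Module.Finite A B := IsIntegralClosure.finite A K L B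
  haveI : Module.Free A B := by
    have : Module.IsTorsionFree A L := by
      rw [Module.isTorsionFree_iff_algebraMap_injective, IsScalarTower.algebraMap_eq A K L]
      exact (algebraMap K L).injective.comp (IsFractionRing.injective A K)
    exact IsIntegralClosure.module_free A K L B
  haveI : IsLocalization (Algebra.algebraMapSubmonoid B (nonZeroDivisors A)) L :=
    IsIntegralClosure.isLocalization A K L B
  have htr : Algebra.trace K L (algebraMap B L b) = algebraMap A K (Algebra.trace A B b) :=
    Algebra.trace_localization A (nonZeroDivisors A) b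
  refine ⟨Algebra.trace A B b, ?_, htr.symm⟩
  haveI : Algebra.IsIntegral A B := IsIntegralClosure.isIntegral_algebra A L
  -- `b` lies in the radical of `𝔪 B`
  have hrad : b ∈ (Ideal.map (algebraMap A B) (maximalIdeal A)).radical := by
    rw [Ideal.radical_eq_sInf, Ideal.mem_sInf]
    rintro Q ⟨hQle, hQprime⟩
    have hcomap : Q.comap (algebraMap A B) = maximalIdeal A := by
      have h1 : maximalIdeal A ≤ Q.comap (algebraMap A B) := Ideal.map_le_iff_le_comap.mp hQle
      have h2 : Q.comap (algebraMap A B) ≠ ⊤ := Ideal.comap_ne_top _ hQprime.ne_top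
      exact ((maximalIdeal.isMaximal A).eq_of_le h2 h1).symm
    have hQmax : Q.IsMaximal :=
      Ideal.isMaximal_of_isIntegral_of_isMaximal_comap Q
        (hcomap ▸ maximalIdeal.isMaximal A)
    exact hb Q hQmax
  obtain ⟨n, hn⟩ := hrad
  have hnil : IsNilpotent (Ideal.Quotient.mk (Ideal.map (algebraMap A B) (maximalIdeal A)) b) :=
    ⟨n, by rw [← map_pow]; exact Ideal.Quotient.eq_zero_iff_mem.mpr hn⟩
  have h1 := Algebra.isNilpotent_trace_of_isNilpotent (R := A ⧸ maximalIdeal A) hnil
  rw [Algebra.trace_quotient_mk] at h1
  exact Ideal.Quotient.eq_zero_iff_mem.mp h1.eq_zero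

end Fermat.Agent.M1.Link.JacTrace74
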