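/-
M1 (S44), chapter LINK, brick K OLDTR part (c) (helper74): **the trace of a regular differential
is regular** (characteristic `0`).

`K` algebraically closed of characteristic `0`, `F ⊆ F'` a finite extension of function fields in one
variable over `K`, `x ∈ F` a generator (`IsGen K x`).

* `trace_pos` : `y ∈ F'` with `ord_w y > 0` for every place `w` of `F'` over a place `v` of `F`
  ⟹ `Tr_{F'/F} y = 0` or `ord_v (Tr y) > 0`   (semilocal integral closure `IC F' v` of
  `ES/HECKE/NormFormula15` + `JacTrace`);
* `trace_regular` : `h • d x` regular at every place of `F'` ⟹ `Tr_{F'/F} h • d x` regular at every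
  place of `F`.
-/
import Mathlib
import Fermat.Agent.ES.HECKE.NormFormula15
import Fermat.Agent.ES.HECKE.FundId12
import Fermat.Agent.X0.FFDiff
import Fermat.Agent.M1.Link.JacTrace74

set_option autoImplicit false
set_option linter.unusedSectionVars false
set_option linter.style.haveILetI false

noncomputable section

open AlgebraicCurve IsDedekindDomain IsLocalRing KaehlerDifferential

namespace Fermat.Agent.M1.Link.TraceReg74

open Fermat.Agent.X0 Fermat.Agent.X0.FF Fermat.Agent.X0.FFDedekind
open Fermat.Agent.ES.HECKE.NormFormula15 Fermat.Agent.ES.HECKE.FundId12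

section TracePos

variable {K F F' : Type*} [Field K] [Field F] [Field F'] [Algebra K F] [Algebra K F']
  [Algebra F F'] [IsScalarTower K F F'] [FiniteDimensional F F'] [CharZero F]

/-- `B_v` is not a field. -/
theorem not_isField_IC (v : Place K F) : ¬ IsField ↥(IC F' v) := by
  intro hB
  have hA : IsField ↥v.toValuationSubring :=
    isField_of_isIntegral_of_isField (R := ↥v.toValuationSubring) (S := ↥(IC F' v))
      (FaithfulSMul.algebraMap_injective _ _) hB
  exact IsDiscreteValuationRing.not_isField ↥v.toValuationSubring hA

/-- **Positivity of the trace**: an element of `F'` vanishing at every place over `v` has a trace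
vanishing at `v`. -/
theorem trace_pos (v : Place K F) (y : F')
    (hy : ∀ w : Place K F', w.restrict F = v → 0 < w.ord y) :
    Algebra.trace F F' y = 0 ∨ 0 < v.ord (Algebra.trace F F' y) := by
  rcases eq_or_ne y 0 with rfl | hy0
  · left; simp
  have hval : ∀ P : HeightOneSpectrum ↥(IC F' v), P.valuation F' y < 1 := by
    intro P
    have h1 := hy (placeOf P) (restrict_placeOf P)
    rw [placeOf, ord_ofHeightOneSpectrum] at h1
    have h0 : P.valuation F' y ≠ 0 := (Valuation.ne_zero_iff _).mpr hy0
    rw [← WithZero.exp_log h0, ← WithZero.exp_zero, WithZero.exp_lt_exp]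
    omega
  obtain ⟨b, hb⟩ := HeightOneSpectrum.mem_integers_of_valuation_le_one F' y
    (fun P => (hval P).le)
  have hbmem : ∀ P : Ideal ↥(IC F' v), P.IsMaximal → b ∈ P := by
    intro P hP
    have hne : P ≠ ⊥ := (Ideal.bot_lt_of_maximal P (not_isField_IC v)).ne'
    let Q : HeightOneSpectrum ↥(IC F' v) := ⟨P, hP.isPrime, hne⟩
    have := hval Q
    rw [← hb, HeightOneSpectrum.valuation_lt_one_iff_mem] at this
    exact this
  obtain ⟨a, ha, hatr⟩ := JacTrace74.trace_mem_maximalIdeal_of_forall_mem_maximal
    (A := ↥v.toValuationSubring) (K := F) (L := F') (B := ↥(IC F' v)) b hbmem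
  rw [hb] at hatr
  rcases eq_or_ne a 0 with rfl | ha0
  · left
    rw [← hatr, map_zero]
  · right
    rw [← hatr]
    exact (ffp_mem_maximalIdeal_iff v a ha0).mp ha

end TracePos

section Regular

variable {K F F' : Type*} [Field K] [Field F] [Field F'] [Algebra K F] [Algebra K F']
  [Algebra F F'] [IsScalarTower K F F'] [FiniteDimensional F F'] [IsAlgClosed K] [CharZero K]

/-- **The trace of a regular differential is regular.** -/
theorem trace_regular {x : F} (hx : IsGen K x) (h : F')
    (hreg : ∀ w : Place K F', 0 ≤ w.ordDifferential (h • D K F' (algebraMap F F' x)))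
    (v : Place K F) :
    0 ≤ v.ordDifferential (Algebra.trace F F' h • D K F x) := by
  haveI : CharZero F := charZero_of_injective_algebraMap (algebraMap K F).injective
  haveI := dCoordGenerates hx v
  haveI := nontrivial_kaehler hx
  have hx' : IsGen K (algebraMap F F' x) := isGen_algebraMap hx
  -- trivial case
  rcases eq_or_ne (Algebra.trace F F' h) 0 with htr0 | htr0
  · rw [htr0, zero_smul, Place.ordDifferential, v.differentialCoeff_zero, v.ord_zero]
  have hh0 : h ≠ 0 := by
    rintro rfl
    exact htr0 (map_zero _)
  -- the uniformiser and the coefficient of `dx`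
  set t : F := ((ffu v : v.toValuationSubring) : F) with ht
  set c : F := v.differentialCoeff (D K F x) with hc
  have hDx : D K F x = c • D K F t := by
    have := (v.differentialCoeff_smul_dCoord (D K F x)).symm
    rwa [ffu_dCoord] at this
  have hc0 : c ≠ 0 := ffg_differentialCoeff_ne_zero hx v (D_ne_zero hx)
  have ht0 : t ≠ 0 := ffu_ne_zero v
  have htord : v.ord t = 1 := ffu_ord v
  set t' : F' := algebraMap F F' t with ht'
  set c' : F' := algebraMap F F' c with hc'
  have hc'0 : c' ≠ 0 := by rw [hc', Ne, map_eq_zero]; exact hc0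
  have hDx' : D K F' (algebraMap F F' x) = c' • D K F' t' := by
    have h1 := congrArg (KaehlerDifferential.map K K F F') hDx
    rw [KaehlerDifferential.map_D, LinearMap.map_smul, KaehlerDifferential.map_D,
      algebra_compatible_smul F' c] at h1
    exact h1
  -- positivity upstairs
  have hpos : ∀ w : Place K F', w.restrict F = v → 0 < w.ord (h * c' * t') := by
    intro w hw
    have he : w.ord t' = (w.ramificationIndex F : ℤ) := by
      rw [ht', w.ord_restrict t, hw, htord, mul_one]
    have hepos : (0 : ℤ) < w.ramificationIndex F := by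
      exact_mod_cast w.ramificationIndex_pos (F := F)
    have ht'ord : w.ord t' ≠ 0 := by rw [he]; exact hepos.ne'
    have ht'0 : t' ≠ 0 := by
      rintro h0
      rw [h0, w.ord_zero] at ht'ord
      exact ht'ord rfl
    have hgen' : IsGen K t' := hx'.of_transcendental (ffp_transcendental_of_ord_ne_zero w ht'ord)
    have hDt' : D K F' t' ≠ 0 := D_ne_zero hgen'
    have h1 := hreg w
    rw [hDx', smul_smul,
      ordDifferential_smul' hx' w (mul_ne_zero hh0 hc'0) hDt',
      ordDifferential_D_of_ord_ne_zero hx' w ht'ord] at h1
    rw [w.ord_mul (mul_ne_zero hh0 hc'0) ht'0]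
    omega
  -- the trace downstairs
  have htrace : Algebra.trace F F' (h * c' * t') = c * t * Algebra.trace F F' h := by
    have : h * c' * t' = (c * t) • h := by
      rw [Algebra.smul_def, map_mul]; ring
    rw [this, map_smul, smul_eq_mul]
  have hne : Algebra.trace F F' (h * c' * t') ≠ 0 := by
    rw [htrace]
    exact mul_ne_zero (mul_ne_zero hc0 ht0) htr0
  rcases trace_pos v (h * c' * t') hpos with h0 | h1
  · exact absurd h0 hne
  · rw [htrace, v.ord_mul (mul_ne_zero hc0 ht0) htr0, v.ord_mul hc0 ht0, htord] at h1
    rw [ordDifferential_smul' hx v htr0 (D_ne_zero hx)]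
    have : v.ordDifferential (D K F x) = v.ord c := rfl
    rw [this]
    omega

end Regular

end Fermat.Agent.M1.Link.TraceReg74
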