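/-
M1 (S44), chapter LINK, brick **K OLDTR** (helper74): the trace from level `M` to level `M' ∣ M`.

`A ≤ ℚ̄` a valuation subring over `p ∤ M`, `k` its residue field.  If `h ∈ FF M` has `A`-integral
`q`-expansion `Y`, `h • dj` is regular on `FF M`, and the reduction `Ȳ` lies in
`κ(M') = modularFunctionFieldFullC k M'`, then there is a cusp form `f' ∈ S₂(Γ₀(M'))` with
`A`-integral `q`-expansion `Z` and `Z̄ = d • (Ȳ · θ(j̄))`, `ψ(M') · d = ψ(M)`.

`f'` is the form attached (`S20.LowerBound.lowStatement`) to `Tr_{FF M / FF M'} h`: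
* `TraceReg74.trace_regular` : `Tr h • dj` is regular;
* `TraceInst74.exists_mul_trace_Fbar` : `C · Tr h ∈ A((q))` reduces to `d · C̄ · Ȳ` for some
  `C ∈ FF M' ∩ A((q))`, `C̄ ≠ 0`;
* `MaxCoeff61` (from `S23`) : `Tr h · θ(j)` has a coefficient of maximal valuation, hence (with the
  previous point) is `A`-integral (`integral_of_maxCoord`).
-/
import Mathlib
import Fermat.Agent.M1.Link.TraceInst74
import Fermat.Agent.M1.Link.TraceReg74
import Fermat.Agent.M1.Link.MaxCoeff61
import Fermat.Agent.M1.Link.SatFinal60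
import Fermat.Agent.S20.LowerBound
import Fermat.Agent.X0.HasCanDivInst

set_option autoImplicit false
set_option linter.unusedSectionVars false
set_option linter.style.haveILetI false
set_option synthInstance.maxHeartbeats 400000
set_option maxHeartbeats 1000000

noncomputable section

open HahnSeries ModularCurve IntermediateField AlgebraicCurve KaehlerDifferential

namespace Fermat.Agent.M1.Link.OldTr74

open Fermat.Agent.ES.RED.Setup8 Fermat.Agent.RED.PUR.GaussGen8
open Fermat.Agent.M1.Link.Lattice93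

/-! ### integrality from a coefficient of maximal valuation -/

section MaxCoord

variable {L : Type*} [Field L] (A : ValuationSubring L)

/-- If `H ∈ L((q))` has a coefficient of maximal valuation and `C · H ∈ A((q))` for some
`C ∈ A((q))` of nonzero reduction, then `H ∈ A((q))`. -/
theorem integral_of_maxCoord (H : LaurentSeries L)
    (hmax : ∃ n₀ : ℤ, H.coeff n₀ ≠ 0 ∧ ∀ n, A.valuation (H.coeff n) ≤ A.valuation (H.coeff n₀))
    (Cs W : LaurentSeries ↥A) (hCs : coeffMap (resA A) Cs ≠ 0)
    (hW : coeffMap A.subtype Cs * H = coeffMap A.subtype W) :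
    ∃ Z : LaurentSeries ↥A, coeffMap A.subtype Z = H := by
  obtain ⟨n₀, hn₀, hle⟩ := hmax
  set γ : L := H.coeff n₀ with hγ
  have hyA : ∀ n, γ⁻¹ * H.coeff n ∈ A := by
    intro n
    have := inv_smul_mem A hn₀ hle n
    simpa [Pi.smul_apply, smul_eq_mul] using this
  set β : LaurentSeries ↥A := liftSeries A (fun n => ⟨γ⁻¹ * H.coeff n, hyA n⟩)
    (HahnSeries.C γ⁻¹ * H) (fun n => by rw [C_mul_coeff]) with hβ
  have hβK : coeffMap A.subtype β = HahnSeries.C γ⁻¹ * H := coeffMap_subtype_liftSeries _ _ _ _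
  have hβ1 : β.coeff n₀ = 1 := by
    apply Subtype.ext
    show γ⁻¹ * H.coeff n₀ = 1
    exact inv_mul_cancel₀ hn₀
  have hβred : coeffMap (resA A) β ≠ 0 := by
    intro h0
    have := congrArg (fun z : LaurentSeries (kA A) => z.coeff n₀) h0
    simp only [coeffMap_coeff, hβ1, map_one, HahnSeries.coeff_zero] at this
    exact one_ne_zero this
  by_cases hγA : γ ∈ A
  · refine ⟨HahnSeries.C (⟨γ, hγA⟩ : ↥A) * β, ?_⟩
    rw [map_mul, hβK, coeffMap_C, ← mul_assoc, ← map_mul]
    show HahnSeries.C (γ * γ⁻¹) * H = H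
    rw [mul_inv_cancel₀ hn₀, map_one, one_mul]
  · exfalso
    have hγinv : γ⁻¹ ∈ A := (A.mem_or_inv_mem γ).resolve_left hγA
    have hgmem : (⟨γ⁻¹, hγinv⟩ : ↥A) ∈ IsLocalRing.maximalIdeal ↥A := by
      rw [ValuationSubring.valuation_lt_one_iff]
      show A.valuation γ⁻¹ < 1
      rw [map_inv₀]
      have h1 : 1 < A.valuation γ := by
        rw [← not_le, A.valuation_le_one_iff]
        exact hγA
      exact inv_lt_one_of_one_lt₀ h1
    have hg0 : resA A (⟨γ⁻¹, hγinv⟩ : ↥A) = 0 := (IsLocalRing.residue_eq_zero_iff _).mpr hgmem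
    have hrel : HahnSeries.C (⟨γ⁻¹, hγinv⟩ : ↥A) * W = Cs * β := by
      apply coeffMap_subtype_injective A
      rw [map_mul, map_mul, hβK, coeffMap_C, ← hW]
      show HahnSeries.C γ⁻¹ * (coeffMap A.subtype Cs * H) =
        coeffMap A.subtype Cs * (HahnSeries.C γ⁻¹ * H)
      ring
    have hred := congrArg (coeffMap (resA A)) hrel
    rw [map_mul, map_mul, coeffMap_C, hg0, map_zero, zero_mul] at hred
    exact mul_ne_zero hCs hβred hred.symm

end MaxCoord


/-! ### the main theorem -/

section Main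

open Fermat.Agent.X0 Fermat.Agent.X0.FF Fermat.Agent.RED.Interface4
open Fermat.Agent.M1.Link.TraceInst74 Fermat.Agent.M1.Link.SatFinal60
open Fermat.Agent.S20.LowDJ Fermat.Agent.IG.PR.Theta20
open CongruenceSubgroup

variable {p : ℕ} [Fact p.Prime] (A : ValuationSubring Kbar) (hA : A.LiesOverPrime p)
  {M' M : ℕ} [NeZero M'] [NeZero M] (hdvd : M' ∣ M) (hpM : ¬ p ∣ M)

/-- `j` of level `M'` maps to `j` of level `M`. -/
theorem algebraMap_jF :
    @algebraMap ↥(Fbar M') ↥(Fbar M) _ _ (inclAlgebra (Fbar_le hdvd)) (jF M') = jF M :=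
  Subtype.ext rfl

include hA hpM hdvd in
/-- **K OLDTR.** -/
theorem oldtr (h : FF M)
    (hreg : ∀ v : Place Kbar (FF M), 0 ≤ v.ordDifferential (h • D Kbar (FF M) (jF M)))
    (Y : LaurentSeries ↥A) (hY : coeffMap A.subtype Y = (h : LaurentSeries Kbar))
    (hbar : coeffMap (IsLocalRing.residue ↥A) Y ∈
      modularFunctionFieldFullC (IsLocalRing.ResidueField ↥A) M') :
    ∃ (d : ℕ) (f' : CuspForm (Gamma0 M') 2) (Z : LaurentSeries ↥A),
      dedekindPsi M' * d = dedekindPsi M ∧
      (∀ n : ℕ, ModularFormClass.qCoeff f' n = iotaK (((Z.coeff (n : ℤ) : ↥A)) : Kbar)) ∧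
      (∀ n : ℤ, n < 0 → Z.coeff n = 0) ∧
      coeffMap (IsLocalRing.residue ↥A) Z =
        d • (coeffMap (IsLocalRing.residue ↥A) Y *
          theta (jqModC (IsLocalRing.ResidueField ↥A))) := by
  classical
  letI alg : Algebra ↥(Fbar M') ↥(Fbar M) := inclAlgebra (Fbar_le hdvd)
  haveI tower : IsScalarTower Kbar ↥(Fbar M') ↥(Fbar M) := isScalarTower_inclAlgebra (Fbar_le hdvd)
  haveI fd : FiniteDimensional ↥(Fbar M') ↥(Fbar M) := finiteDimensional_Fbar hdvd
  -- `h` as a Gauss-integral element
  have hYmem : coeffMap A.subtype Y ∈ Fbar M := by rw [hY]; exact h.2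
  set y : ↥(gaussA A (Fbar M)) := ofSeries A (Fbar M) Y hYmem with hy
  have hyh : ((y : ↥(gaussA A (Fbar M))) : ↥(Fbar M)) = h := Subtype.ext hY
  have hyred : redA A (Fbar M) y = coeffMap (resA A) Y := redA_ofSeries A (Fbar M) Y hYmem
  obtain ⟨d, C, T, hdψ, hC, hT, hred⟩ := exists_mul_trace_Fbar hdvd p A hA hpM y
    (by rw [hyred]; exact hbar)
  rw [hyh] at hT
  rw [hyred] at hred
  -- the trace and its regularity
  set h' : ↥(Fbar M') := Algebra.trace ↥(Fbar M') ↥(Fbar M) h with hh'
  have hreg' : ∀ v : Place Kbar (FF M'),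
      0 ≤ v.ordDifferential (h' • D Kbar (FF M') (jF M')) := by
    intro v
    refine TraceReg74.trace_regular (F := ↥(Fbar M')) (F' := ↥(Fbar M))
      (HasCanDivInst.isGen M') h ?_ v
    intro w
    rw [algebraMap_jF hdvd]
    exact hreg w
  -- θ(j) over the three rings
  have hθK : coeffMap A.subtype (thetaJR ↥A) = thetaJ := by
    rw [coeffMap_thetaJR, thetaJR_Kbar]
  have hθk : coeffMap (resA A) (thetaJR ↥A) = theta (jqModC (kA A)) := by
    rw [coeffMap_thetaJR, thetaJR_eq_theta]
  -- `C`, `T` as series over `A`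
  have hCK : coeffMap A.subtype (liftA A (Fbar M') C) =
      (((C : ↥(gaussA A (Fbar M'))) : ↥(Fbar M')) : LaurentSeries Kbar) := coeffMap_liftA A _ C
  have hTK : coeffMap A.subtype (liftA A (Fbar M') T) =
      (((T : ↥(gaussA A (Fbar M'))) : ↥(Fbar M')) : LaurentSeries Kbar) := coeffMap_liftA A _ T
  have hTC : (((T : ↥(gaussA A (Fbar M'))) : ↥(Fbar M')) : LaurentSeries Kbar) =
      (((C : ↥(gaussA A (Fbar M'))) : ↥(Fbar M')) : LaurentSeries Kbar) *
        (h' : LaurentSeries Kbar) := by
    rw [hT]; rfl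
  have hCred : coeffMap (resA A) (liftA A (Fbar M') C) ≠ 0 := hC
  have hTred : coeffMap (resA A) (liftA A (Fbar M') T) =
      (d : LaurentSeries (kA A)) * coeffMap (resA A) (liftA A (Fbar M') C) *
        coeffMap (resA A) Y := hred
  refine ⟨d, ?_⟩
  rcases eq_or_ne h' 0 with h0 | h0
  · -- trivial case
    refine ⟨0, 0, hdψ, ?_, ?_, ?_⟩
    · intro n
      rw [Fermat.Agent.S49.qCoeff_zero_form]
      simp
    · intro n _; rfl
    · have hT0 : liftA A (Fbar M') T = 0 := by
        apply coeffMap_subtype_injective A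
        rw [hTK, hTC, h0, map_zero]
        show _ * (0 : LaurentSeries Kbar) = 0
        rw [mul_zero]
      rw [hT0, map_zero] at hTred
      have h1 : (d : LaurentSeries (kA A)) * coeffMap (resA A) Y = 0 := by
        have h2 : coeffMap (resA A) (liftA A (Fbar M') C) *
            ((d : LaurentSeries (kA A)) * coeffMap (resA A) Y) = 0 := by
          rw [hTred]; ring
        exact (mul_eq_zero.mp h2).resolve_left hCred
      rw [map_zero, nsmul_eq_mul, ← mul_assoc, h1, zero_mul]
  · -- the cusp form of `Tr h`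
    obtain ⟨⟨f', hf'⟩, hneg⟩ := Fermat.Agent.S20.LowerBound.lowStatement M' h' h0 hreg'
    set H : LaurentSeries Kbar := (h' : LaurentSeries Kbar) * thetaJ with hH
    have hH0 : H ≠ 0 := by
      rw [hH]
      refine mul_ne_zero ?_ thetaJ_ne_zero
      intro hz
      exact h0 (Subtype.ext hz)
    -- a coefficient of maximal valuation
    have hb0 : (fun n : ℕ => H.coeff (n : ℤ)) ≠ 0 := by
      intro hz
      apply hH0
      ext n
      rw [HahnSeries.coeff_zero]
      rcases lt_or_ge n 0 with hn | hn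
      · exact hneg n hn
      · have := congrFun hz n.toNat
        simp only [Pi.zero_apply] at this
        rwa [Int.toNat_of_nonneg hn] at this
    obtain ⟨n₀, hn₀, hle⟩ := MaxCoeff61.hasMaxCoord_qCoeff_of_hasIntegralStructure p A hA M'
      (Fermat.Agent.S23.result M') f' (fun n : ℕ => H.coeff (n : ℤ)) hf' hb0
    have hmax : ∃ n₀ : ℤ, H.coeff n₀ ≠ 0 ∧
        ∀ n, A.valuation (H.coeff n) ≤ A.valuation (H.coeff n₀) := by
      refine ⟨(n₀ : ℤ), hn₀, fun n => ?_⟩
      rcases lt_or_ge n 0 with hn | hn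
      · rw [hneg n hn, map_zero]
        exact zero_le
      · have := hle n.toNat
        simp only at this
        rwa [Int.toNat_of_nonneg hn] at this
    -- integrality
    have hW : coeffMap A.subtype (liftA A (Fbar M') C) * H =
        coeffMap A.subtype (liftA A (Fbar M') T * thetaJR ↥A) := by
      rw [map_mul, hθK, hTK, hTC, hCK, hH, mul_assoc]
    obtain ⟨Z, hZ⟩ := integral_of_maxCoord A H hmax _ _ hCred hW
    refine ⟨f', Z, hdψ, ?_, ?_, ?_⟩
    · intro n
      rw [hf' n]
      congr 1
      have := congrArg (fun z : LaurentSeries Kbar => z.coeff (n : ℤ)) hZ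
      simp only [coeffMap_coeff] at this
      exact this.symm
    · intro n hn
      apply Subtype.ext
      have := congrArg (fun z : LaurentSeries Kbar => z.coeff n) hZ
      simp only [coeffMap_coeff] at this
      rw [hneg n hn] at this
      exact this
    · -- the reduction
      have hrel : liftA A (Fbar M') C * Z = liftA A (Fbar M') T * thetaJR ↥A := by
        apply coeffMap_subtype_injective A
        rw [← hW, map_mul, hZ]
      have hredrel := congrArg (coeffMap (resA A)) hrel
      rw [map_mul, map_mul, hθk, hTred] at hredrel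
      have h2 : coeffMap (resA A) (liftA A (Fbar M') C) * coeffMap (resA A) Z =
          coeffMap (resA A) (liftA A (Fbar M') C) *
            ((d : LaurentSeries (kA A)) * (coeffMap (resA A) Y * theta (jqModC (kA A)))) := by
        rw [hredrel]; ring
      rw [nsmul_eq_mul]
      exact mul_left_cancel₀ hCred h2

end Main

end Fermat.Agent.M1.Link.OldTr74
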