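/-
M1 (row 38, S44), chapter LINK (helper44): **LINK-CORE, unconditional.**

`Core44.link_core_of` with H INTG (`IntgAt99`, helper99/45/8) and K OLDTR (`OldTr74.oldtr`, helper74)
discharged:

* `oldTrAt` : `Core44.OldTrAt A M' M` for `M' ∣ M`, `p ∤ M`;
* `link_core` : `u ∈ κ(M')ˣ`, `p ∣ ord_Q u` at all places of `κ(M)` (`4 ∣ M` or `9 ∣ M`, `p ∤ M`,
  `p ∤ ψ(M)/ψ(M')`), `dlog u` a `Tform`-eigenvector for an eigen-system which does not occur in
  `S₂(Γ₀(M'))` modulo `p` ⟹ `u` is a `p`-th power in `κ(M')`;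
* `link_core_aux` : the same at the model level `M = lcm(M', 4)`, `p ≥ 5` — the literal `hCORE` of the
  T4 chain.
-/
import Mathlib
import Fermat.Agent.M1.Link.CoreFinal44
import Fermat.Agent.M1.Link.OldTr74

set_option autoImplicit false
set_option synthInstance.maxHeartbeats 400000
set_option linter.style.haveILetI false
set_option linter.unusedSectionVars false

namespace Fermat.Agent.M1.Link.LinkCore44

open Module CuspForm CongruenceSubgroup ModularCurve AlgebraicCurve ModularFormClass HahnSeries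
open Fermat.Agent.X0 Fermat.Agent.X0.FF
open Fermat.Agent.M1.Link Fermat.Agent.M1.Link.ThetaLog88 Fermat.Agent.M1.Link.Core44

variable (A : ValuationSubring Kbar)

/-- **K OLDTR** in the packaged form of `Core44`. -/
theorem oldTrAt {p : ℕ} [Fact p.Prime] (hA : A.LiesOverPrime p) {M' M : ℕ} [NeZero M'] [NeZero M]
    (hdvd : M' ∣ M) (hpM : ¬ p ∣ M) : OldTrAt A M' M :=
  fun h hreg Y hY hbar => OldTr74.oldtr A hA hdvd hpM h hreg Y hY hbar

/-- **LINK-CORE**, unconditional. -/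
theorem link_core {p : ℕ} [hp : Fact p.Prime] {M' M : ℕ} [NeZero M'] [NeZero M]
    (hM'M : M' ∣ M) (h4M : 4 ∣ M ∨ 9 ∣ M) (hpM : ¬ p ∣ M)
    (hd : ∀ d : ℕ, dedekindPsi M' * d = dedekindPsi M → ¬ p ∣ d)
    (hA : A.LiesOverPrime p)
    {S' : Set ℕ} {σ : Type*} (ℓ : σ → ℕ) (hℓ : ∀ i, (ℓ i).Prime) (hℓM : ∀ i, ¬ ℓ i ∣ M')
    (T : σ → ↥(heckeAlgebra M' 2 S'))
    (hT : ∀ i, ((T i : ↥(heckeAlgebra M' 2 S')) :
      Module.End ℂ (CuspForm (Gamma0 M') 2)) = CuspForm.heckeTLin 2 (hℓ i) (hℓM i))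
    (a : σ → ℤ) (s : MvPolynomial σ ℤ) (hs : MvPolynomial.aeval T s = 0)
    (hsa : ¬ (p : ℤ) ∣ MvPolynomial.eval a s)
    (u : LaurentSeries (IsLocalRing.ResidueField ↥A))
    (hu : u ∈ modularFunctionFieldFullC (IsLocalRing.ResidueField ↥A) M') (hu0 : u ≠ 0)
    (hi : ∀ Q : Place (IsLocalRing.ResidueField ↥A)
        ↥(modularFunctionFieldFullC (IsLocalRing.ResidueField ↥A) M),
      (p : ℤ) ∣ Q.ord (⟨u, full_degeneracyC_le (IsLocalRing.ResidueField ↥A) hM'M hu⟩ :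
        ↥(modularFunctionFieldFullC (IsLocalRing.ResidueField ↥A) M)))
    (hii : ∀ i, haveI : NeZero (ℓ i) := ⟨(hℓ i).ne_zero⟩
      Tform (ℓ i) (dlog u) = a i • dlog u) :
    ∃ w ∈ modularFunctionFieldFullC (IsLocalRing.ResidueField ↥A) M', w ^ p = u :=
  CoreFinal44.link_core_of_oldtr A hM'M h4M hpM hd hA (oldTrAt A hA hM'M hpM)
    ℓ hℓ hℓM T hT a s hs hsa u hu hu0 hi hii

/-- **LINK-CORE at the model level `lcm(M', 4)`**, `p ≥ 5`, unconditional. -/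
theorem link_core_aux {p : ℕ} [hp : Fact p.Prime] (hp5 : 5 ≤ p) {M' : ℕ} [NeZero M']
    [NeZero (Nat.lcm M' 4)] (hpM' : ¬ p ∣ M') (hA : A.LiesOverPrime p)
    {S' : Set ℕ} {σ : Type*} (ℓ : σ → ℕ) (hℓ : ∀ i, (ℓ i).Prime) (hℓM : ∀ i, ¬ ℓ i ∣ M')
    (T : σ → ↥(heckeAlgebra M' 2 S'))
    (hT : ∀ i, ((T i : ↥(heckeAlgebra M' 2 S')) :
      Module.End ℂ (CuspForm (Gamma0 M') 2)) = CuspForm.heckeTLin 2 (hℓ i) (hℓM i))
    (a : σ → ℤ) (s : MvPolynomial σ ℤ) (hs : MvPolynomial.aeval T s = 0)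
    (hsa : ¬ (p : ℤ) ∣ MvPolynomial.eval a s)
    (u : LaurentSeries (IsLocalRing.ResidueField ↥A))
    (hu : u ∈ modularFunctionFieldFullC (IsLocalRing.ResidueField ↥A) M') (hu0 : u ≠ 0)
    (hi : ∀ Q : Place (IsLocalRing.ResidueField ↥A)
        ↥(modularFunctionFieldFullC (IsLocalRing.ResidueField ↥A) (Nat.lcm M' 4)),
      (p : ℤ) ∣ Q.ord (⟨u, full_degeneracyC_le (IsLocalRing.ResidueField ↥A)
        (IndexLcm44.dvd_lcm_four M') hu⟩ :
        ↥(modularFunctionFieldFullC (IsLocalRing.ResidueField ↥A) (Nat.lcm M' 4))))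
    (hii : ∀ i, haveI : NeZero (ℓ i) := ⟨(hℓ i).ne_zero⟩
      Tform (ℓ i) (dlog u) = a i • dlog u) :
    ∃ w ∈ modularFunctionFieldFullC (IsLocalRing.ResidueField ↥A) M', w ^ p = u :=
  CoreFinal44.link_core_lcm A hp5 hpM' hA
    (oldTrAt A hA (IndexLcm44.dvd_lcm_four M') (IndexLcm44.not_dvd_lcm_four hp.out hp5 hpM'))
    ℓ hℓ hℓM T hT a s hs hsa u hu hu0 hi hii

end Fermat.Agent.M1.Link.LinkCore44
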