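/-
M1 (row 38, S44), chapter LINK (helper44): **LINK-CORE in the vocabulary of `Iface44.CoreTors`.**

For the data `(S, a)` of `CoreTors` — `S` a finite set of primes containing the primes of `M'`, `a` a
system of integers which is not residually modular of level `M'` away from `S` — the hypothesis `hCORE`
of the T4 chain (`Old/T4Main45.t4_of_bricks` and its variants) holds with
`σ := PIdx S`, `ℓ i := (i : ℕ)`, `a i := a (i : ℕ)`, `κ' := κ(M')`, `κ'' := κ(lcm(M', 4))`.
-/
import Mathlib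
import Fermat.Agent.M1.Link.LinkCore44
import Fermat.Agent.M1.Glue.TorsionEigen44

set_option autoImplicit false
set_option synthInstance.maxHeartbeats 400000
set_option linter.style.haveILetI false
set_option linter.unusedSectionVars false

namespace Fermat.Agent.M1.Link.CoreInst44

open Module CuspForm CongruenceSubgroup ModularCurve AlgebraicCurve ModularFormClass HahnSeries
open Fermat.Agent.X0 Fermat.Agent.X0.FF
open Fermat.Agent.M1.Link Fermat.Agent.M1.Link.ThetaLog88
open Fermat.Agent.ES.N35.QNewCore19 Fermat.Agent.M1.Glue.TorsionEigen44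

/-- the primes outside `S` are nonzero. -/
theorem neZero_pIdx {S : Finset ℕ} (i : PIdx S) : NeZero (i : ℕ) := ⟨i.2.1.ne_zero⟩

/-- **`hCORE` of the T4 chain from `¬ IsResModular p M' S a`.** -/
theorem hCORE_of_not_isResModular {p : ℕ} [hp : Fact p.Prime] (hp5 : 5 ≤ p) {M' : ℕ} [NeZero M']
    [NeZero (Nat.lcm M' 4)] (hpM' : ¬ p ∣ M') (A : ValuationSubring Kbar) (hA : A.LiesOverPrime p)
    (S : Finset ℕ) (hM'S : ∀ r : ℕ, r.Prime → r ∣ M' → r ∈ S) (a : ℕ → ℤ)
    (hnres : ¬ IsResModular p M' S a) [∀ i : PIdx S, NeZero (i : ℕ)]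
    (u : LaurentSeries (IsLocalRing.ResidueField ↥A))
    (hu : u ∈ modularFunctionFieldFullC (IsLocalRing.ResidueField ↥A) M') (hu0 : u ≠ 0)
    (hi : ∀ Q : Place (IsLocalRing.ResidueField ↥A)
        ↥(modularFunctionFieldFullC (IsLocalRing.ResidueField ↥A) (Nat.lcm M' 4)),
      (p : ℤ) ∣ Q.ord (⟨u, full_degeneracyC_le (IsLocalRing.ResidueField ↥A)
        (IndexLcm44.dvd_lcm_four M') hu⟩ :
        ↥(modularFunctionFieldFullC (IsLocalRing.ResidueField ↥A) (Nat.lcm M' 4))))
    (hii : ∀ i : PIdx S, Tform (i : ℕ) (dlog u) = a (i : ℕ) • dlog u) :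
    ∃ w ∈ modularFunctionFieldFullC (IsLocalRing.ResidueField ↥A) M', w ^ p = u := by
  obtain ⟨s, hs, hsa⟩ := exists_poly_of_not_isResModular S hM'S a hnres
  exact LinkCore44.link_core_aux A hp5 hpM' hA (S' := (↑S : Set ℕ)) (σ := PIdx S)
    (fun i => (i : ℕ)) (fun i => i.2.1) (fun i => i.not_dvd hM'S) (TfamQ M' S hM'S)
    (fun i => rfl) (fun i => a (i : ℕ)) s hs hsa u hu hu0 hi hii

end Fermat.Agent.M1.Link.CoreInst44
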