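/-
Program M1 (S44), chapter LINK, brick B CUSPKILL, part 2 (helper39):
THE DICTIONARY  `L(div dj) ↔ S₂(Γ₀(N))`  IN BOTH DIRECTIONS.

`F = FF N = ℚbar(X₀(N)) ⊆ ℚbar((q))`, `θ_j = q dj/dq`, `ι = iotaK : ℚbar → ℂ`.

* `IsRegular N h` : the differential `h • dj` is regular at every place;
  `regSub N` = the `ℚbar`-subspace of these `h` (`= L(div dj)`), finite-dimensional.
* forward (`S20.Low`): `exists_cuspForm` : a regular `h` gives the cusp form with `q`-expansion
  `ι (h θ_j)`; `regular_ext` : `h` is determined by the coefficients of `h θ_j` in degrees `≥ 0`.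
* `exists_dictionary_basis` : a `ℚbar`-basis `h_i` of `regSub N` and cusp forms `f_i` with
  `q`-expansions `ι (h_i θ_j)`; the `f_i` are `ℂ`-linearly independent, and they span `S₂` as soon
  as `dim_ℂ S₂ ≤ dim L(div dj)` (hypothesis `hdim`; discharged in `CuspIsoInst39`).
* backward, **`exists_regular_of_cuspForm`** : under `hdim`, every cusp form `f` whose
  `q`-coefficients lie in `ι(ℚbar)` (for instance: integers) is `ι (h θ_j)` for a regular `h`.
-/
import Mathlib
import Fermat.Agent.S20.Low
import Fermat.Agent.S20.DictRank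
import Fermat.Agent.S20.IndepBaseChange
import Fermat.Agent.S23.RegSpace
import Fermat.Agent.S49.QExp
import Fermat.Agent.RR.InstPrep
import Fermat.Agent.X0.HasCanDivInst

set_option autoImplicit false
set_option linter.unusedSectionVars false
set_option linter.style.haveILetI false

open AlgebraicCurve CongruenceSubgroup KaehlerDifferential Module

namespace Fermat.Agent.M1.Link.CuspIso39

open Fermat.Agent.X0 Fermat.Agent.S20.LowDJ Fermat.Agent.S20.DictRank Fermat.Agent.RR
open Fermat.Agent.S23

variable (N : ℕ) [NeZero N]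

/-- `h • dj` is regular at every place of `F / ℚbar`. -/
def IsRegular (h : FF N) : Prop :=
  ∀ v : Place Kbar (FF N), 0 ≤ v.ordDifferential (h • D Kbar (FF N) (jF N))

/-- The divisor of `dj`. -/
noncomputable def divDj : Divisor Kbar (FF N) :=
  haveI : HasCanonicalDivisor (K := Kbar) (F := FF N) := HasCanDivInst.hasCanonicalDivisor N
  canonicalDivisorOf (FF.D_ne_zero (HasCanDivInst.isGen N))

theorem divDj_apply (v : Place Kbar (FF N)) :
    divDj N v = v.ordDifferential (D Kbar (FF N) (jF N)) := by
  haveI : HasCanonicalDivisor (K := Kbar) (F := FF N) := HasCanDivInst.hasCanonicalDivisor N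
  exact canonicalDivisorOf_apply (FF.D_ne_zero (HasCanDivInst.isGen N)) v

/-- The space `L(div dj)` of the `h` with `h • dj` regular. -/
noncomputable def regSub : Submodule Kbar (FF N) := riemannRochSpace (divDj N)

theorem mem_regSub_iff (h : FF N) : h ∈ regSub N ↔ IsRegular N h :=
  GaloisReg.mem_riemannRochSpace_iff_regular (HasCanDivInst.isGen N) (divDj N) (divDj_apply N) h

instance finiteDimensional_regSub : FiniteDimensional Kbar (regSub N) := by
  haveI : HasCanonicalDivisor (K := Kbar) (F := FF N) := HasCanDivInst.hasCanonicalDivisor N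
  exact InstPrep.finiteDimensional_L_isGen (HasCanDivInst.isGen N) _

/-- Forward direction: the cusp form of a regular differential. -/
theorem exists_cuspForm {h : FF N} (hreg : IsRegular N h) :
    ∃ f : CuspForm (Gamma0 N) 2, ∀ n : ℕ,
      ModularFormClass.qCoeff f n = iotaK (((h : LaurentSeries Kbar) * thetaJ).coeff (n : ℤ)) := by
  obtain ⟨f, hf, -⟩ := Fermat.Agent.S20.Low.exists_cuspForm_of_regular_full N h hreg
  exact ⟨f, hf⟩

theorem coeff_neg_eq_zero {h : FF N} (hreg : IsRegular N h) {k : ℤ} (hk : k < 0) :
    ((h : LaurentSeries Kbar) * thetaJ).coeff k = 0 := by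
  obtain ⟨f, -, hneg⟩ := Fermat.Agent.S20.Low.exists_cuspForm_of_regular_full N h hreg
  exact hneg k hk

/-- The space of `q`-expansions of the regular `h`. -/
noncomputable abbrev regE : Submodule Kbar (LaurentSeries Kbar) := RegSpace.regE N (divDj N)

theorem regE_neg : ∀ s ∈ regE N, ∀ k : ℤ, k < 0 → (s * thetaJ).coeff k = 0 := by
  intro s hs k hk
  obtain ⟨h, hh, rfl⟩ := (RegSpace.mem_regE_iff N (divDj N) s).mp hs
  exact coeff_neg_eq_zero N ((mem_regSub_iff N h).mp hh) hk

/-- A regular `h` is determined by the coefficients of `h θ_j`. -/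
theorem regular_ext {h h' : FF N} (hreg : IsRegular N h) (hreg' : IsRegular N h')
    (heq : ∀ n : ℕ, ((h : LaurentSeries Kbar) * thetaJ).coeff (n : ℤ) =
      ((h' : LaurentSeries Kbar) * thetaJ).coeff (n : ℤ)) : h = h' := by
  have h1 : (h : LaurentSeries Kbar) ∈ regE N :=
    (RegSpace.mem_regE_iff N (divDj N) _).mpr ⟨h, (mem_regSub_iff N h).mpr hreg, rfl⟩
  have h2 : (h' : LaurentSeries Kbar) ∈ regE N :=
    (RegSpace.mem_regE_iff N (divDj N) _).mpr ⟨h', (mem_regSub_iff N h').mpr hreg', rfl⟩
  have := coeffNat_injOn thetaJ_ne_zero (regE N) (regE_neg N) h1 h2 (funext heq)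
  exact Subtype.ext this

/-- Core: the coefficient sequences of `regE`, a basis and the attached cusp forms. -/
theorem exists_dictionary_basis :
    ∃ (h : Fin (finrank Kbar (regSub N)) → FF N) (f : Fin (finrank Kbar (regSub N)) →
        CuspForm (Gamma0 N) 2),
      (∀ i, IsRegular N (h i)) ∧ LinearIndependent Kbar h ∧
      Submodule.span Kbar (Set.range h) = regSub N ∧
      (∀ i (n : ℕ), ModularFormClass.qCoeff (f i) n =
        iotaK (((h i : LaurentSeries Kbar) * thetaJ).coeff (n : ℤ))) ∧
      LinearIndependent ℂ f := by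
  classical
  let b := Module.finBasis Kbar (regSub N)
  set h : Fin (finrank Kbar (regSub N)) → FF N := fun i => (b i : FF N) with hh
  have hreg : ∀ i, IsRegular N (h i) := fun i => (mem_regSub_iff N _).mp (b i).2
  have hli : LinearIndependent Kbar h :=
    b.linearIndependent.map' (regSub N).subtype (Submodule.ker_subtype _)
  have hspan : Submodule.span Kbar (Set.range h) = regSub N := by
    have h1 : Set.range h = (regSub N).subtype '' Set.range b := by
      rw [← Set.range_comp]; rfl
    rw [h1, ← Submodule.map_span, b.span_eq, Submodule.map_top, Submodule.range_subtype]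
  choose f hf using fun i => exists_cuspForm N (hreg i)
  refine ⟨h, f, hreg, hli, hspan, hf, ?_⟩
  -- coefficient sequences
  have hv : LinearIndependent Kbar
      (fun i => coeffNat thetaJ ((h i : FF N) : LaurentSeries Kbar)) := by
    have h0 : LinearIndependent Kbar (fun i => RegSpace.valLin N (h i)) :=
      hli.map' (RegSpace.valLin N) (LinearMap.ker_eq_bot.mpr (RegSpace.valLin_injective N))
    rw [linearIndependent_iff'] at h0 ⊢
    intro s g hg i hi
    refine h0 s g ?_ i hi
    have hmem : ∑ j ∈ s, g j • RegSpace.valLin N (h j) ∈ regE N := by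
      refine Submodule.sum_mem _ fun j _ => Submodule.smul_mem _ _ ?_
      exact (RegSpace.mem_regE_iff N (divDj N) _).mpr ⟨h j, (mem_regSub_iff N _).mpr (hreg j), rfl⟩
    have hzero : coeffNat thetaJ (∑ j ∈ s, g j • RegSpace.valLin N (h j)) =
        coeffNat thetaJ 0 := by
      rw [map_sum, map_zero]
      simp only [map_smul]
      exact hg
    exact coeffNat_injOn thetaJ_ne_zero (regE N) (regE_neg N) hmem (Submodule.zero_mem _) hzero
  have hL := Fermat.Agent.S20.IndepBaseChange.linearIndependent_map iotaK hv
  have hq : (Fermat.Agent.S49.qCoeffLin N) ∘ f =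
      fun i => fun n => iotaK (coeffNat thetaJ ((h i : FF N) : LaurentSeries Kbar) n) := by
    funext i n
    exact hf i n
  exact LinearIndependent.of_comp (Fermat.Agent.S49.qCoeffLin N) (hq ▸ hL)

/-- **Backward direction.**  Under the dimension inequality `dim S₂ ≤ dim L(div dj)`, every cusp
form with `q`-coefficients in `ι(ℚbar)` is the `q`-expansion of a regular differential. -/
theorem exists_regular_of_cuspForm [FiniteDimensional ℂ (CuspForm (Gamma0 N) 2)]
    (hdim : finrank ℂ (CuspForm (Gamma0 N) 2) ≤ finrank Kbar (regSub N))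
    (f₀ : CuspForm (Gamma0 N) 2)
    (hf₀ : ∀ n : ℕ, ∃ a : Kbar, ModularFormClass.qCoeff f₀ n = iotaK a) :
    ∃ h : FF N, IsRegular N h ∧ ∀ n : ℕ,
      ModularFormClass.qCoeff f₀ n = iotaK (((h : LaurentSeries Kbar) * thetaJ).coeff (n : ℤ)) := by
  classical
  obtain ⟨h, f, hreg, hli, hspan, hf, hfli⟩ := exists_dictionary_basis N
  choose a ha using hf₀
  set v : Fin (finrank Kbar (regSub N)) → ℕ → Kbar :=
    fun i => coeffNat thetaJ ((h i : FF N) : LaurentSeries Kbar) with hv
  -- the `f i` span
  have htop : Submodule.span ℂ (Set.range f) = ⊤ := by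
    apply hfli.span_eq_top_of_card_eq_finrank'
    rw [Fintype.card_fin]
    apply le_antisymm
    · have := hfli.fintype_card_le_finrank
      simpa using this
    · exact hdim
  -- `a` lies in the span of the coefficient sequences
  have hvli : LinearIndependent Kbar v := by
    have hq : (Fermat.Agent.S49.qCoeffLin N) ∘ f = fun i => fun n => iotaK (v i n) := by
      funext i n
      exact hf i n
    have h1 : LinearIndependent ℂ (fun i => fun n => iotaK (v i n)) :=
      hq ▸ hfli.map' _ (LinearMap.ker_eq_bot.mpr (Fermat.Agent.S49.qCoeffLin_injective N))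
    exact Fermat.Agent.S20.IndepBaseChange.linearIndependent_of_map iotaK h1
  have hamem : a ∈ Submodule.span Kbar (Set.range v) := by
    by_contra hnot
    have h1 : LinearIndependent Kbar (fun o => Option.casesOn' o a v : Option _ → ℕ → Kbar) :=
      hvli.option hnot
    have h2 := Fermat.Agent.S20.IndepBaseChange.linearIndependent_map iotaK h1
    have h3 : (fun (o : Option (Fin (finrank Kbar (regSub N)))) => fun (k : ℕ) =>
          iotaK ((Option.casesOn' o a v : ℕ → Kbar) k)) =
        fun o => Option.casesOn' o (fun k => iotaK (a k)) (fun i => fun k => iotaK (v i k)) := by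
      funext o
      cases o <;> rfl
    rw [h3] at h2
    have h4 := (linearIndependent_option'.mp h2).2
    apply h4
    have h5 : Fermat.Agent.S49.qCoeffLin N f₀ ∈
        (Submodule.span ℂ (Set.range f)).map (Fermat.Agent.S49.qCoeffLin N) :=
      Submodule.mem_map_of_mem (by rw [htop]; trivial)
    rw [Submodule.map_span, ← Set.range_comp] at h5
    have h6 : (Fermat.Agent.S49.qCoeffLin N) ∘ f = fun i => fun k => iotaK (v i k) := by
      funext i n
      exact hf i n
    have h7 : Fermat.Agent.S49.qCoeffLin N f₀ = fun k => iotaK (a k) := by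
      funext n
      exact ha n
    rw [h6, h7] at h5
    exact h5
  -- hence `a` is the coefficient sequence of a regular `h₀`
  have hrange : Submodule.span Kbar (Set.range v) =
      (Submodule.span Kbar (Set.range h)).map ((coeffNat thetaJ).comp (RegSpace.valLin N)) := by
    rw [Submodule.map_span, ← Set.range_comp]
    rfl
  rw [hrange, hspan] at hamem
  obtain ⟨h₀, hh₀, hh₀a⟩ := hamem
  refine ⟨h₀, (mem_regSub_iff N h₀).mp hh₀, fun n => ?_⟩
  rw [ha n, ← hh₀a]
  rfl

end Fermat.Agent.M1.Link.CuspIso39
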