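/-
Program M1 (S44), chapter LINK, brick B CUSPKILL, part 3 (helper39): the dictionary
`L(div dj) ↔ S₂(Γ₀(N))` of `CuspIso39`, UNCONDITIONALLY (the dimension inequality
`dim_ℂ S₂(Γ₀(N)) ≤ dim L(div dj)` comes from S21 (upper bound by the genus formula), S24 (genus of
`X₀(N)`) and Riemann-Roch, exactly as in `Agent/S23.lean`).

* `finite_cusp`, `finrank_cusp_le` : the two hypotheses of `CuspIso39.exists_regular_of_cuspForm`;
* `finrank_regSub_eq` : `dim L(div dj) = dim_ℂ S₂(Γ₀(N))`;
* `exists_regular_of_cuspForm`, `exists_regular_of_intCoeff` : every cusp form with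
  `q`-coefficients in `ι(ℚbar)` (resp. in `ℤ`) is the `q`-expansion `h θ_j` of a regular `h • dj`;
* `exists_dictionary_basis` : a `ℚbar`-basis `h_i` of `L(div dj)` whose cusp forms `f_i` are a
  `ℂ`-basis of `S₂(Γ₀(N))`.
-/
import Mathlib
import Fermat.Agent.M1.Link.CuspIso39
import Fermat.Agent.S21.Assembly
import Fermat.Agent.S24
import Fermat.Agent.RR.GlobAdele

set_option autoImplicit false
set_option synthInstance.maxHeartbeats 400000
set_option linter.unusedSectionVars false
set_option linter.style.haveILetI false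

open AlgebraicCurve CongruenceSubgroup KaehlerDifferential Module

namespace Fermat.Agent.M1.Link.CuspIsoInst39

open Fermat.Agent.X0 Fermat.Agent.S20.LowDJ Fermat.Agent.RR Fermat.Agent.M1.Link.CuspIso39

variable (N : ℕ) [NeZero N]

theorem finite_cusp : FiniteDimensional ℂ (CuspForm (Gamma0 N) 2) :=
  Fermat.Agent.S21.Assembly.finite_cusp N

/-- `dim_ℂ S₂(Γ₀(N)) ≤ dim L(div dj)`. -/
theorem finrank_cusp_le :
    finrank ℂ (CuspForm (Gamma0 N) 2) ≤ finrank Kbar (regSub N) := by
  have hx : FF.IsGen Kbar (jF N) := HasCanDivInst.isGen N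
  haveI : HasCanonicalDivisor (K := Kbar) (F := FF N) := HasCanDivInst.hasCanonicalDivisor N
  have hgenus := InstPrep.finrank_L_dx_eq_genus hx (GlobAdele.dualityResidueData hx)
  have hS24 := Fermat.Agent.S24.result N
  have hup := Fermat.Agent.S21.Assembly.finrank_le_genusFormula N
  show finrank ℂ (CuspForm (Gamma0 N) 2)
      ≤ finrank Kbar (riemannRochSpace (canonicalDivisorOf (FF.D_ne_zero hx)))
  rw [hgenus]
  have : (finrank ℂ (CuspForm (Gamma0 N) 2) : ℚ) ≤ (genus Kbar (FF N) : ℚ) := by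
    rw [hS24]; exact hup
  exact_mod_cast this

/-- **Backward dictionary**: a cusp form with `q`-coefficients in `ι(ℚbar)` comes from a regular
differential. -/
theorem exists_regular_of_cuspForm (f₀ : CuspForm (Gamma0 N) 2)
    (hf₀ : ∀ n : ℕ, ∃ a : Kbar, ModularFormClass.qCoeff f₀ n = iotaK a) :
    ∃ h : FF N, IsRegular N h ∧ ∀ n : ℕ,
      ModularFormClass.qCoeff f₀ n = iotaK (((h : LaurentSeries Kbar) * thetaJ).coeff (n : ℤ)) :=
  haveI := finite_cusp N
  CuspIso39.exists_regular_of_cuspForm N (finrank_cusp_le N) f₀ hf₀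

/-- The same for integral `q`-coefficients, with the coefficients of `h θ_j` computed in `ℚbar`. -/
theorem exists_regular_of_intCoeff (f₀ : CuspForm (Gamma0 N) 2) (a : ℕ → ℤ)
    (hf₀ : ∀ n : ℕ, ModularFormClass.qCoeff f₀ n = (a n : ℂ)) :
    ∃ h : FF N, IsRegular N h ∧
      (∀ n : ℕ, ((h : LaurentSeries Kbar) * thetaJ).coeff (n : ℤ) = (a n : Kbar)) ∧
      ∀ k : ℤ, k ≤ 0 → ((h : LaurentSeries Kbar) * thetaJ).coeff k = 0 := by
  obtain ⟨h, hreg, hh⟩ := exists_regular_of_cuspForm N f₀
    (fun n => ⟨(a n : Kbar), by rw [hf₀ n, map_intCast]⟩)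
  refine ⟨h, hreg, fun n => ?_, fun k hk => ?_⟩
  · apply iotaK_injective
    rw [← hh n, hf₀ n, map_intCast]
  · rcases lt_or_eq_of_le hk with hlt | rfl
    · exact coeff_neg_eq_zero N hreg hlt
    · have h0 : ModularFormClass.qCoeff f₀ 0 = 0 := Fermat.Agent.S49.qCoeff_zero_index f₀
      have h1 := hh 0
      rw [h0] at h1
      have h2 : iotaK (((h : LaurentSeries Kbar) * thetaJ).coeff ((0 : ℕ) : ℤ)) = iotaK 0 := by
        rw [← h1, map_zero]
      simpa using iotaK_injective h2

/-- A `ℚbar`-basis of `L(div dj)` whose cusp forms are a `ℂ`-basis of `S₂(Γ₀(N))`. -/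
theorem exists_dictionary_basis :
    ∃ (h : Fin (finrank Kbar (regSub N)) → FF N) (f : Fin (finrank Kbar (regSub N)) →
        CuspForm (Gamma0 N) 2),
      (∀ i, IsRegular N (h i)) ∧ LinearIndependent Kbar h ∧
      Submodule.span Kbar (Set.range h) = regSub N ∧
      (∀ i (n : ℕ), ModularFormClass.qCoeff (f i) n =
        iotaK (((h i : LaurentSeries Kbar) * thetaJ).coeff (n : ℤ))) ∧
      LinearIndependent ℂ f ∧ Submodule.span ℂ (Set.range f) = ⊤ := by
  haveI := finite_cusp N
  obtain ⟨h, f, h1, h2, h3, h4, h5⟩ := CuspIso39.exists_dictionary_basis N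
  refine ⟨h, f, h1, h2, h3, h4, h5, ?_⟩
  apply h5.span_eq_top_of_card_eq_finrank'
  rw [Fintype.card_fin]
  apply le_antisymm
  · have := h5.fintype_card_le_finrank
    simpa using this
  · exact finrank_cusp_le N

/-- `dim L(div dj) = dim_ℂ S₂(Γ₀(N))`. -/
theorem finrank_regSub_eq :
    finrank Kbar (regSub N) = finrank ℂ (CuspForm (Gamma0 N) 2) := by
  haveI := finite_cusp N
  obtain ⟨h, f, -, -, -, -, h5, -⟩ := exists_dictionary_basis N
  apply le_antisymm
  · have := h5.fintype_card_le_finrank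
    simpa using this
  · exact finrank_cusp_le N

end Fermat.Agent.M1.Link.CuspIsoInst39
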