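/-
M1 / LINK + OLD (T4-I), helper61: DESCENT of divisibility of orders along a finite separable
extension `F ⊆ F'` of function fields of degree prime to `p` (any characteristic):
`(∀ Q : Place K F', p ∣ ord_Q u) → (∀ Q' : Place K F, p ∣ ord_{Q'} u)` for `u ∈ F`.
Input: the characteristic-free local sum formula `∑_{Q | Q'} e(Q|Q') = [F' : F]`
(port of `ES/HECKE/FundIdentity19.sum_ramificationIndex` with separability as a hypothesis).
The converse direction (ascent, no hypothesis on the degree) is `LevelOrd61`.
-/
import Mathlib
import Fermat.Agent.X0.FFSum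
import Fermat.Prelude.Def_AlgebraicCurve_Correspondence
import Fermat.Agent.ES.HECKE.FundIdentity19

set_option autoImplicit false
set_option linter.style.haveILetI false

open AlgebraicCurve IsDedekindDomain

noncomputable section

namespace Fermat.Agent.M1.Link.DescendOrd61

open Fermat.Agent.X0 Fermat.Agent.X0.FF Fermat.Agent.ES.HECKE.FundIdentity19

section AlgebraMap

variable {K F F' : Type*} [Field K] [Field F] [Field F'] [Algebra K F] [Algebra K F']
  [Algebra F F'] [IsScalarTower K F F']

/-- **The local sum formula, characteristic free**: for a finite SEPARABLE extension `F ⊆ F'` of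
function fields (all residue fields `= K`), the ramification indices of the places of `F'` over a
place `v` of `F` sum to `[F' : F]`.  (Port of `FundIdentity19.sum_ramificationIndex`, where
characteristic zero was only used for separability.) -/
theorem sum_ramificationIndex_sep [FiniteDimensional F F'] [Algebra.IsSeparable F F']
    [HasPrincipalDivisors K F']
    (hres : ∀ w : Place K F', ∀ f ∈ w.toValuationSubring,
      ∃ c : K, f = algebraMap K F' c ∨ 0 < w.ord (f - algebraMap K F' c))
    (v : Place K F) :
    ∑ w ∈ v.fiber F', (w.ramificationIndex F : ℤ) = (Module.finrank F F' : ℤ) := by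
  classical
  let A := v.toValuationSubring
  letI : Algebra A F' := ((algebraMap F F').comp A.subtype).toAlgebra
  haveI : IsScalarTower A F F' := IsScalarTower.of_algebraMap_eq (fun _ => rfl)
  let B := integralClosure A F'
  haveI hDedB : IsDedekindDomain B := integralClosure.isDedekindDomain A F F'
  haveI hFracB : IsFractionRing B F' := integralClosure.isFractionRing_of_finite_extension F F'
  haveI hFinB : Module.Finite A B := IsIntegralClosure.finite A F F' B
  haveI hfaith : FaithfulSMul A B :=
    (faithfulSMul_iff_algebraMap_injective _ _).mpr (fun a b h => by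
      have h1 : algebraMap A F' a = algebraMap A F' b :=
        congrArg (fun z : B => (z : F')) h
      exact Subtype.ext ((algebraMap F F').injective h1))
  letI : Algebra K B := ((algebraMap A B).comp (algebraMap K A)).toAlgebra
  haveI : IsScalarTower K A B := IsScalarTower.of_algebraMap_eq (fun _ => rfl)
  haveI : IsScalarTower K B F' := IsScalarTower.of_algebraMap_eq (fun c => by
    show algebraMap K F' c = algebraMap F F' (algebraMap K F c)
    exact IsScalarTower.algebraMap_apply K F F' c)
  obtain ⟨t, ht⟩ := IsDiscreteValuationRing.exists_irreducible A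
  have ht0 : t ≠ 0 := ht.ne_zero
  have hmax : (Ideal.span {t}).IsMaximal := by
    rw [← ht.maximalIdeal_eq]
    exact IsLocalRing.maximalIdeal.isMaximal A
  have key := sum_ord_of_dedekind (K := K) (F := F') (A := A) (B := B) t ht0 hmax hres
  have htF : algebraMap B F' (algebraMap A B t) = algebraMap F F' (t : F) := rfl
  rw [htF] at key
  have hvt : v.ord (t : F) = 1 := v.ord_coe_irreducible ht
  have hord : ∀ w : Place K F', w.restrict F = v →
      w.ord (algebraMap F F' (t : F)) = (w.ramificationIndex F : ℤ) := by
    intro w hw
    rw [w.ord_restrict (t : F), hw, hvt, mul_one]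
  have hset : {w : Place K F' | (∀ b : B, algebraMap B F' b ∈ w.toValuationSubring) ∧
      0 < w.ord (algebraMap F F' (t : F))} = ((v.fiber F' : Finset (Place K F')) : Set (Place K F')) := by
    ext w
    rw [Set.mem_ofPred_eq, Finset.mem_coe, Place.mem_fiber]
    constructor
    · rintro ⟨hB, -⟩
      apply Place.ext
      apply valuationSubring_eq_of_le v _ _ (w.restrict F).ne_top'
      intro a ha
      exact hB (algebraMap A B ⟨a, ha⟩)
    · intro hw
      refine ⟨fun b => ?_, ?_⟩
      · have hA : ∀ a : A, algebraMap A F' a ∈ w.toValuationSubring.toSubring := by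
          intro a
          have ha : (a : F) ∈ (w.restrict F).toValuationSubring := by rw [hw]; exact a.2
          exact ha
        let _ : Algebra A w.toValuationSubring :=
          ((algebraMap A F').codRestrict w.toValuationSubring.toSubring hA).toAlgebra
        have : IsScalarTower A w.toValuationSubring F' :=
          IsScalarTower.of_algebraMap_eq fun f => rfl
        have hb : IsIntegral A (algebraMap B F' b) := b.2
        have hb' : IsIntegral w.toValuationSubring (algebraMap B F' b) := hb.tower_top
        obtain ⟨z, hz⟩ := IsIntegrallyClosed.isIntegral_iff.mp hb'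
        exact hz ▸ z.2
      · rw [hord w hw]
        exact_mod_cast w.ramificationIndex_pos (F := F)
  rw [hset] at key
  have hrank : Module.finrank A B = Module.finrank F F' :=
    (IsFractionRing.finrank_eq A F B F').symm
  rw [finsum_mem_coe_finset, hrank] at key
  rw [← key.2]
  refine Finset.sum_congr rfl fun w hw => ?_
  exact (hord w (Place.mem_fiber.mp hw)).symm

/-- **Descent of divisibility of orders.**  `F ⊆ F'` finite separable of degree prime to `p`.
If `p ∣ ord_Q u` at every place `Q` of `F'`, for `u ∈ F`, then `p ∣ ord_{Q'} u` at every place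
`Q'` of `F`: some place over `Q'` has ramification index prime to `p`. -/
theorem dvd_ord_of_forall_dvd_ord_algebraMap [FiniteDimensional F F'] [Algebra.IsSeparable F F']
    [HasPrincipalDivisors K F']
    (hres : ∀ w : Place K F', ∀ f ∈ w.toValuationSubring,
      ∃ c : K, f = algebraMap K F' c ∨ 0 < w.ord (f - algebraMap K F' c))
    {p : ℕ} (hp : p.Prime) (hpn : ¬ p ∣ Module.finrank F F') (u : F)
    (h : ∀ Q : Place K F', (p : ℤ) ∣ Q.ord (algebraMap F F' u)) (Q' : Place K F) :
    (p : ℤ) ∣ Q'.ord u := by
  by_contra hnot
  have hpZ : Prime (p : ℤ) := Nat.prime_iff_prime_int.mp hp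
  have hsum := sum_ramificationIndex_sep hres Q'
  have hall : ∀ w ∈ Q'.fiber F', (p : ℤ) ∣ (w.ramificationIndex F : ℤ) := by
    intro w hw
    have h1 := h w
    rw [w.ord_restrict u, Place.mem_fiber.mp hw] at h1
    rcases hpZ.dvd_or_dvd h1 with h2 | h2
    · exact h2
    · exact absurd h2 hnot
  have h3 : (p : ℤ) ∣ (Module.finrank F F' : ℤ) := by
    rw [← hsum]
    exact Finset.dvd_sum hall
  exact hpn (Int.natCast_dvd_natCast.mp h3)

end AlgebraMap

section Along

variable {K F F' : Type*} [Field K] [Field F] [Field F'] [Algebra K F] [Algebra K F']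

/-- The same along a `K`-embedding `φ : F → F'` (Prelude's `Along` vocabulary). -/
theorem dvd_ord_of_forall_dvd_ord_along [HasPrincipalDivisors K F'] (φ : F →ₐ[K] F')
    (hfin : FiniteAlong K φ) (hsep : SeparableAlong K φ)
    (hres : ∀ w : Place K F', ∀ f ∈ w.toValuationSubring,
      ∃ c : K, f = algebraMap K F' c ∨ 0 < w.ord (f - algebraMap K F' c))
    {p : ℕ} (hp : p.Prime) (hpn : ¬ p ∣ finrankAlong K φ) (u : F)
    (h : ∀ Q : Place K F', (p : ℤ) ∣ Q.ord (φ u)) (Q' : Place K F) :
    (p : ℤ) ∣ Q'.ord u := by
  letI := algebraAlong φ
  haveI := isScalarTower_along φ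
  haveI : FiniteDimensional F F' := hfin
  haveI : Algebra.IsSeparable F F' := hsep
  exact dvd_ord_of_forall_dvd_ord_algebraMap hres hp hpn u h Q'

end Along

end Fermat.Agent.M1.Link.DescendOrd61
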