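/-
M1 (S44), chapter LINK, brick LK7-c / #1008-LK10(c), CHARACTERISTIC-ZERO PART (helper88).

`FF N = modularFunctionFieldBar N`, `l ∤ N` a prime, `T_l = heckeOperatorBar N l` on
`JZero N = Pic⁰`.  If `[D]` is an eigenclass, `T_l [D] = a • [D]`, and `m • D = div g`, then the Hecke
norm `N_α (β g)` (whose divisor is `T_l (div g)`, `PointFormula28.correspondence_eq_ord_norm`)
satisfies

  `N_α (β g) = c • (g ^ a * h ^ m)`     for some constant `c ≠ 0` and some function `h ≠ 0`.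

(`h` is a function with `div h = T_l D - a • D`.)  Twin of `ES/N35/PushO12.exists_norm_eq_of_push_eq_zero`.
-/
import Mathlib
import Fermat.Agent.ES.HECKE.PointFormula28
import Fermat.Agent.ES.HECKE.InputsFinal15
import Fermat.Agent.X0.FFConst
import Fermat.Agent.X0.FFSum
import Fermat.Agent.RED.TOP.FbarFacts20

set_option autoImplicit false
set_option synthInstance.maxHeartbeats 400000
set_option linter.style.haveILetI false
set_option linter.unusedSectionVars false

noncomputable section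

open HahnSeries ModularCurve AlgebraicCurve

namespace Fermat.Agent.M1.Link.EigenNorm88

open Fermat.Agent.X0 Fermat.Agent.ES.HECKE.PointFormula28

variable {N : ℕ} [NeZero N]

/-- a function of `FF N` all of whose orders vanish is a nonzero constant. -/
theorem exists_const_of_ord_eq_zero {x : FF N} (hx0 : x ≠ 0)
    (hx : ∀ v : Place Kbar (FF N), v.ord x = 0) :
    ∃ c : Kbar, c ≠ 0 ∧ x = algebraMap Kbar (FF N) c := by
  have halg : IsAlgebraic Kbar x := by
    by_contra htr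
    have hgen : Fermat.Agent.X0.FF.IsGen Kbar x :=
      Fermat.Agent.X0.FF.IsGen.of_transcendental (Fermat.Agent.RED.TOP.FbarFacts20.isGen_j N) htr
    have hsum := Fermat.Agent.X0.FF.sum_ord_poles hgen
    have h0 : (∑ᶠ (v : Place Kbar (FF N)) (_ : v.ord x < 0), -v.ord x) = 0 := by
      refine finsum_eq_zero_of_forall_eq_zero fun v => ?_
      rw [finsum_eq_if, if_neg]
      rw [hx v]
      exact lt_irrefl 0
    rw [h0] at hsum
    have hfin : FiniteDimensional (IntermediateField.adjoin Kbar {x}) (FF N) := hgen.2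
    have hpos : 0 < Module.finrank (IntermediateField.adjoin Kbar {x}) (FF N) :=
      Module.finrank_pos
    have : (Module.finrank (IntermediateField.adjoin Kbar {x}) (FF N) : ℤ) = 0 := hsum.symm
    omega
  obtain ⟨c, hc⟩ := Fermat.Agent.X0.FF.eq_algebraMap_of_isAlgebraic halg
  refine ⟨c, ?_, hc⟩
  rintro rfl
  rw [map_zero] at hc
  exact hx0 hc

set_option maxHeartbeats 1600000 in
/-- **Eigen-relation ⟹ norm relation** (char 0).  `T_l [D] = a • [D]`, `m • D = div g` ⟹
`N_α (β g) = c • (g ^ a * h ^ m)`. -/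
theorem exists_norm_eq_of_eigen (l : Nat.Primes) (hlN : ¬ (l : ℕ) ∣ N) (a : ℤ)
    (D : Divisor.degZero (K := Kbar) (F := FF N))
    (heig : heckeOperatorBar N l (Pic0.mk D) = a • Pic0.mk D)
    {m : ℕ} {g : FF N} (hg : g ≠ 0)
    (hgD : ∀ v : Place Kbar (FF N), (m : ℤ) * (D : Divisor Kbar (FF N)) v = v.ord g) :
    ∃ (c : Kbar) (h : FF N), c ≠ 0 ∧ h ≠ 0 ∧
      (haveI : NeZero (l : ℕ) := ⟨l.2.ne_zero⟩;
        normAlong (heckeAlphaBar Kbar N (l : ℕ)) (heckeBetaBar Kbar N (l : ℕ) g)) =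
        c • (g ^ a * h ^ m) := by
  haveI : NeZero (l : ℕ) := ⟨l.2.ne_zero⟩
  haveI := Fermat.Agent.ES.HECKE.InputsMain19.hasPrincipalDivisors_level N (l : ℕ)
  have hα := Fermat.Agent.ES.HECKE.AlongDegree25.heckeAlphaBarIntegral Kbar N (l : ℕ) l.2 hlN
  have hβ := Fermat.Agent.ES.HECKE.AlongDegree25.heckeBetaBarIntegral Kbar N (l : ℕ) l.2 hlN
  have hfin := Fermat.Agent.ES.HECKE.AlongDegree25.finiteAlong_alpha Kbar N (l : ℕ) l.2 hlN
  have hFI := Fermat.Agent.ES.HECKE.InputsMain19.fundamentalIdentityAlong_beta N (l : ℕ) l.2 hlN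
  have hN := Fermat.Agent.ES.HECKE.InputsFinal15.normFormulaAlong_alpha N (l : ℕ) l.2 hlN
  -- unfold `T_l`
  rw [heckeOperatorBar_mk l hα hβ hFI hfin hN D] at heig
  -- `T_l D - a • D = div h`
  have h1 : Pic0.mk (Pic0.degZeroCorrespondence (heckeBetaBar Kbar N (l : ℕ))
      (heckeAlphaBar Kbar N (l : ℕ)) hβ hα hFI D - a • D) = 0 := by
    have : Pic0.mk (Pic0.degZeroCorrespondence (heckeBetaBar Kbar N (l : ℕ))
        (heckeAlphaBar Kbar N (l : ℕ)) hβ hα hFI D - a • D) =
        Pic0.mk (Pic0.degZeroCorrespondence (heckeBetaBar Kbar N (l : ℕ))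
          (heckeAlphaBar Kbar N (l : ℕ)) hβ hα hFI D) - a • Pic0.mk D := rfl
    rw [this, heig, sub_self]
  have h2 := (QuotientAddGroup.eq_zero_iff _).mp h1
  rw [AddSubgroup.mem_addSubgroupOf] at h2
  obtain ⟨h, hh0, hhD⟩ := h2
  have hhD' : ∀ v : Place Kbar (FF N),
      Divisor.correspondence (heckeBetaBar Kbar N (l : ℕ)) (heckeAlphaBar Kbar N (l : ℕ)) hβ hα
        (D : Divisor Kbar (FF N)) v - a * (D : Divisor Kbar (FF N)) v = v.ord h := by
    intro v
    have h3 := hhD v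
    simp only [AddSubgroup.coe_sub, AddSubgroup.coe_zsmul, Finsupp.sub_apply, Finsupp.smul_apply,
      smul_eq_mul] at h3
    exact h3
  -- `ord_v (N (β g)) = (T_l (m • D)) v`
  have hmD : ∀ w : Place Kbar (FF N), (m • (D : Divisor Kbar (FF N))) w = w.ord g := by
    intro w
    rw [← hgD w]
    simp
  set Ng : FF N := normAlong (heckeAlphaBar Kbar N (l : ℕ)) (heckeBetaBar Kbar N (l : ℕ) g)
    with hNgdef
  have hord : ∀ v : Place Kbar (FF N),
      v.ord Ng = a * v.ord g + (m : ℤ) * v.ord h := by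
    intro v
    rw [hNgdef, ← correspondence_eq_ord_norm (heckeBetaBar Kbar N (l : ℕ))
      (heckeAlphaBar Kbar N (l : ℕ)) hβ hα hfin hN hg hmD v, map_nsmul, ← hhD' v, ← hgD v]
    simp only [Finsupp.smul_apply, nsmul_eq_mul]
    ring
  have hNg0 : Ng ≠ 0 := by
    letI := algebraAlong (heckeAlphaBar Kbar N (l : ℕ))
    haveI : Module.Finite (FF N) (FF (N * (l : ℕ))) := hfin
    have hβg : heckeBetaBar Kbar N (l : ℕ) g ≠ 0 := by
      rw [Ne, map_eq_zero_iff (heckeBetaBar Kbar N (l : ℕ))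
        (heckeBetaBar Kbar N (l : ℕ)).toRingHom.injective]
      exact hg
    show Algebra.norm (FF N) (heckeBetaBar Kbar N (l : ℕ) g) ≠ 0
    exact Algebra.norm_ne_zero_iff.mpr hβg
  have hga0 : g ^ a ≠ 0 := zpow_ne_zero a hg
  have hhm0 : h ^ m ≠ 0 := pow_ne_zero m hh0
  have hden0 : g ^ a * h ^ m ≠ 0 := mul_ne_zero hga0 hhm0
  obtain ⟨c, hc0, hc⟩ := exists_const_of_ord_eq_zero (x := Ng / (g ^ a * h ^ m))
    (div_ne_zero hNg0 hden0) (fun v => by
      rw [div_eq_mul_inv, v.ord_mul hNg0 (inv_ne_zero hden0), v.ord_inv, hord v,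
        v.ord_mul hga0 hhm0, v.ord_zpow, ← zpow_natCast h m, v.ord_zpow]
      ring)
  refine ⟨c, h, hc0, hh0, ?_⟩
  rw [Algebra.smul_def, ← hc, div_mul_cancel₀ _ hden0]

end Fermat.Agent.M1.Link.EigenNorm88
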