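/-
M1 (S44), chapter LINK, brick LK7-c / #1008-LK10(c), FORMAL PART (helper88).

`A ⊂ L` a valuation subring with residue field `κ`.  A Laurent series `X ∈ L((q))` has *Gauss
reduction* `u ∈ κ((q))` (`Red A X u`) when `X · b = a` with `a, b ∈ A((q))` of NONZERO reduction and
`u = ā / b̄`.  (An element of a modular function field with Gauss norm one need not have an integral
`q`-expansion: `1/(p + 1/j)`; but every nonzero modular function is a constant times a quotient of
two integral ones with nonzero reduction, `ES/RED/GaussUnit25`.)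

* `Red.unique`, `Red.mul`, `Red.inv`, `Red.div`, `Red.pow`, `Red.zpow`, `Red.one`,
  `Red.of_integral` : `Red A` is (the graph of) a partial group homomorphism `L((q))ˣ ⇀ κ((q))ˣ`;
* `Red.const` : a constant `C c` with a Gauss reduction is a unit of `A` and reduces to `C c̄`;
* `dlog_inv`, `dlog_div`, `dlog_pow`, `dlog_zpow`, `dlog_C`, `dlog_pow_char`,
  `Tform_add`, `Tform_sub`, `Tform_zsmul` : complements to `ThetaLog88`;
* `eigen_dlog` : **the formal core of `eigen-relation ⟹ (hii)`**: if
  `X' = C c · X ^ n · Y ^ p` in `L((q))`, `Red A X u`, `Red A X' u'`, `Red A Y w`, `κ` of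
  characteristic `p` and `dlog u' = Tform l (dlog u)`, then `Tform l (dlog u) = n • dlog u`.
-/
import Mathlib
import Fermat.Agent.M1.Link.ThetaLog88

set_option autoImplicit false
set_option linter.style.haveILetI false

noncomputable section

open HahnSeries ModularCurve

namespace Fermat.Agent.M1.Link.GaussRed88

open Fermat.Agent.IG.PR.Theta20 Fermat.Agent.M1.Link.ThetaLog88

/-! ### Complements on `dlog` and `Tform` -/

section Dlog

variable {k : Type*} [Field k]

theorem dlog_C (c : k) : dlog (HahnSeries.C c : LaurentSeries k) = 0 := by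
  unfold dlog
  rw [theta_C, zero_div]

theorem dlog_inv {x : LaurentSeries k} (hx : x ≠ 0) : dlog x⁻¹ = -dlog x := by
  have h := dlog_mul hx (inv_ne_zero hx)
  rw [mul_inv_cancel₀ hx, dlog_one] at h
  exact eq_neg_of_add_eq_zero_right h.symm

theorem dlog_div {x y : LaurentSeries k} (hx : x ≠ 0) (hy : y ≠ 0) :
    dlog (x / y) = dlog x - dlog y := by
  rw [div_eq_mul_inv, dlog_mul hx (inv_ne_zero hy), dlog_inv hy, sub_eq_add_neg]

theorem dlog_pow {x : LaurentSeries k} (hx : x ≠ 0) (n : ℕ) : dlog (x ^ n) = n • dlog x := by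
  induction n with
  | zero => rw [pow_zero, dlog_one, zero_smul]
  | succ n ih => rw [pow_succ, dlog_mul (pow_ne_zero n hx) hx, ih, succ_nsmul]

theorem dlog_zpow {x : LaurentSeries k} (hx : x ≠ 0) (n : ℤ) : dlog (x ^ n) = n • dlog x := by
  obtain ⟨m, rfl | rfl⟩ := n.eq_nat_or_neg
  · rw [zpow_natCast, dlog_pow hx, natCast_zsmul]
  · rw [zpow_neg, zpow_natCast, dlog_inv (pow_ne_zero m hx), dlog_pow hx, neg_smul, natCast_zsmul]

/-- In characteristic `p`, `p`-th powers have trivial logarithmic derivative. -/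
theorem dlog_pow_char (p : ℕ) [CharP k p] {x : LaurentSeries k} (hx : x ≠ 0) :
    dlog (x ^ p) = 0 := by
  rw [dlog_pow hx, ← Nat.cast_smul_eq_nsmul k, CharP.cast_eq_zero, zero_smul]

variable {R : Type*} [CommRing R]

theorem Tform_add (l : ℕ) [NeZero l] (f g : LaurentSeries R) :
    Tform l (f + g) = Tform l f + Tform l g := by
  unfold Tform
  rw [map_add, map_add]
  ring

theorem Tform_zero (l : ℕ) [NeZero l] : Tform l (0 : LaurentSeries R) = 0 := by
  unfold Tform
  rw [map_zero, map_zero, mul_zero, add_zero]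

/-- `Tform l` as an additive map. -/
def TformHom (l : ℕ) [NeZero l] : LaurentSeries R →+ LaurentSeries R where
  toFun := Tform l
  map_zero' := Tform_zero l
  map_add' := Tform_add l

theorem TformHom_apply (l : ℕ) [NeZero l] (f : LaurentSeries R) : TformHom l f = Tform l f := rfl

theorem Tform_neg (l : ℕ) [NeZero l] (f : LaurentSeries R) : Tform l (-f) = -Tform l f :=
  map_neg (TformHom l) f

theorem Tform_sub (l : ℕ) [NeZero l] (f g : LaurentSeries R) :
    Tform l (f - g) = Tform l f - Tform l g :=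
  map_sub (TformHom l) f g

theorem Tform_zsmul (l : ℕ) [NeZero l] (n : ℤ) (f : LaurentSeries R) :
    Tform l (n • f) = n • Tform l f :=
  map_zsmul (TformHom l) n f

end Dlog

/-! ### Gauss reduction of quotients -/

section Red

variable {L : Type*} [Field L] (A : ValuationSubring L)

/-- The coefficientwise residue map `A((q)) → κ((q))`. -/
abbrev rd : LaurentSeries ↥A →+* LaurentSeries (IsLocalRing.ResidueField ↥A) :=
  coeffMap (IsLocalRing.residue ↥A)

/-- The coefficientwise inclusion `A((q)) → L((q))`. -/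
abbrev em : LaurentSeries ↥A →+* LaurentSeries L :=
  coeffMap A.subtype

theorem em_injective : Function.Injective (em A) := by
  intro x y h
  ext n
  have := congrArg (fun z => z.coeff n) h
  simpa using this

theorem em_ne_zero {a : LaurentSeries ↥A} (ha : rd A a ≠ 0) : em A a ≠ 0 := by
  intro h
  apply ha
  have h0 : a = 0 := em_injective A (h.trans (map_zero _).symm)
  rw [h0, map_zero]

/-- `X ∈ L((q))` is a quotient of two integral series of nonzero reduction, with reduced quotient
`u`. -/
def Red (X : LaurentSeries L) (u : LaurentSeries (IsLocalRing.ResidueField ↥A)) : Prop :=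
  ∃ a b : LaurentSeries ↥A, rd A a ≠ 0 ∧ rd A b ≠ 0 ∧ X * em A b = em A a ∧ u = rd A a / rd A b

variable {A}

theorem Red.of_integral {a : LaurentSeries ↥A} (ha : rd A a ≠ 0) : Red A (em A a) (rd A a) :=
  ⟨a, 1, ha, by rw [map_one]; exact one_ne_zero, by rw [map_one, mul_one],
    by rw [map_one, div_one]⟩

theorem Red.one : Red A 1 1 := by
  have h := Red.of_integral (A := A) (a := 1) (by rw [map_one]; exact one_ne_zero)
  rwa [map_one, map_one] at h

theorem Red.ne_zero {X : LaurentSeries L} {u : LaurentSeries (IsLocalRing.ResidueField ↥A)}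
    (h : Red A X u) : u ≠ 0 := by
  obtain ⟨a, b, ha, hb, -, rfl⟩ := h
  exact div_ne_zero ha hb

theorem Red.ne_zero_left {X : LaurentSeries L} {u : LaurentSeries (IsLocalRing.ResidueField ↥A)}
    (h : Red A X u) : X ≠ 0 := by
  obtain ⟨a, b, ha, hb, hX, -⟩ := h
  rintro rfl
  rw [zero_mul] at hX
  exact em_ne_zero A ha hX.symm

theorem Red.unique {X : LaurentSeries L} {u u' : LaurentSeries (IsLocalRing.ResidueField ↥A)}
    (h : Red A X u) (h' : Red A X u') : u = u' := by
  obtain ⟨a, b, ha, hb, hX, rfl⟩ := h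
  obtain ⟨a', b', ha', hb', hX', rfl⟩ := h'
  have h1 : em A (a * b') = em A (a' * b) := by
    rw [map_mul, map_mul, ← hX, ← hX']
    ring
  have h2 := congrArg (rd A) (em_injective A h1)
  rw [map_mul, map_mul] at h2
  rw [div_eq_div_iff hb hb', h2]

theorem Red.mul {X Y : LaurentSeries L} {u w : LaurentSeries (IsLocalRing.ResidueField ↥A)}
    (hX : Red A X u) (hY : Red A Y w) : Red A (X * Y) (u * w) := by
  obtain ⟨a, b, ha, hb, hX, rfl⟩ := hX
  obtain ⟨a', b', ha', hb', hY, rfl⟩ := hY
  refine ⟨a * a', b * b', ?_, ?_, ?_, ?_⟩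
  · rw [map_mul]; exact mul_ne_zero ha ha'
  · rw [map_mul]; exact mul_ne_zero hb hb'
  · rw [map_mul, map_mul, ← hX, ← hY]; ring
  · rw [map_mul, map_mul, div_mul_div_comm]

theorem Red.inv {X : LaurentSeries L} {u : LaurentSeries (IsLocalRing.ResidueField ↥A)}
    (hX : Red A X u) : Red A X⁻¹ u⁻¹ := by
  have hX0 := hX.ne_zero_left
  obtain ⟨a, b, ha, hb, hX, rfl⟩ := hX
  refine ⟨b, a, hb, ha, ?_, ?_⟩
  · rw [← hX, ← mul_assoc, inv_mul_cancel₀ hX0, one_mul]
  · rw [inv_div]

theorem Red.div {X Y : LaurentSeries L} {u w : LaurentSeries (IsLocalRing.ResidueField ↥A)}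
    (hX : Red A X u) (hY : Red A Y w) : Red A (X / Y) (u / w) := by
  rw [div_eq_mul_inv, div_eq_mul_inv]
  exact hX.mul hY.inv

theorem Red.pow {X : LaurentSeries L} {u : LaurentSeries (IsLocalRing.ResidueField ↥A)}
    (hX : Red A X u) (n : ℕ) : Red A (X ^ n) (u ^ n) := by
  induction n with
  | zero => rw [pow_zero, pow_zero]; exact Red.one
  | succ n ih => rw [pow_succ, pow_succ]; exact ih.mul hX

theorem Red.zpow {X : LaurentSeries L} {u : LaurentSeries (IsLocalRing.ResidueField ↥A)}
    (hX : Red A X u) (n : ℤ) : Red A (X ^ n) (u ^ n) := by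
  obtain ⟨m, rfl | rfl⟩ := n.eq_nat_or_neg
  · rw [zpow_natCast, zpow_natCast]; exact hX.pow m
  · rw [zpow_neg, zpow_neg, zpow_natCast, zpow_natCast]; exact (hX.pow m).inv

/-- A series of nonzero reduction has a unit coefficient. -/
theorem exists_coeff_isUnit {a : LaurentSeries ↥A} (ha : rd A a ≠ 0) :
    ∃ n : ℤ, IsUnit (a.coeff n) := by
  by_contra hcon
  apply ha
  ext n
  rw [coeffMap_coeff, HahnSeries.coeff_zero, IsLocalRing.residue_eq_zero_iff]
  exact (IsLocalRing.mem_maximalIdeal _).mpr fun hn => hcon ⟨n, hn⟩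

/-- **Constants.** A constant with a Gauss reduction is a unit of `A`, and reduces to a nonzero
constant. -/
theorem Red.const {c : L} {u : LaurentSeries (IsLocalRing.ResidueField ↥A)}
    (h : Red A (HahnSeries.C c) u) :
    ∃ c' : IsLocalRing.ResidueField ↥A, c' ≠ 0 ∧ u = HahnSeries.C c' := by
  obtain ⟨a, b, ha, hb, hX, rfl⟩ := h
  have hco : ∀ n : ℤ, c * ((b.coeff n : ↥A) : L) = ((a.coeff n : ↥A) : L) := by
    intro n
    have := congrArg (fun z => z.coeff n) hX
    simpa [HahnSeries.C_mul_eq_smul] using this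
  obtain ⟨n, hn⟩ := exists_coeff_isUnit hb
  obtain ⟨m, hm⟩ := exists_coeff_isUnit ha
  obtain ⟨v, hv⟩ := hn
  obtain ⟨w, hw⟩ := hm
  -- `c ∈ A`
  have hcA : c ∈ A := by
    have h1 : c = ((a.coeff n : ↥A) : L) * ((v⁻¹ : (↥A)ˣ) : ↥A) := by
      rw [← hco n, ← hv, mul_assoc, ← Subring.coe_mul, ← Units.val_mul, mul_inv_cancel,
        Units.val_one, Subring.coe_one, mul_one]
    rw [h1]
    exact A.mul_mem _ _ (SetLike.coe_mem _) (SetLike.coe_mem _)
  set cA : ↥A := ⟨c, hcA⟩ with hcAdef
  have hrel : a = HahnSeries.C cA * b := by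
    apply em_injective A
    rw [← hX, map_mul]
    congr 1
    ext k
    simp only [coeffMap_coeff, HahnSeries.C_apply, HahnSeries.coeff_single]
    split_ifs <;> simp [hcAdef]
  have hrd : rd A a = HahnSeries.C (IsLocalRing.residue ↥A cA) * rd A b := by
    rw [hrel, map_mul]
    congr 1
    ext k
    simp only [coeffMap_coeff, HahnSeries.C_apply, HahnSeries.coeff_single]
    split_ifs <;> simp
  refine ⟨IsLocalRing.residue ↥A cA, ?_, ?_⟩
  · intro h0
    rw [h0, map_zero, zero_mul] at hrd
    exact ha hrd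
  · rw [hrd, mul_div_assoc, div_self hb, mul_one]

end Red

/-! ### The formal core of `eigen-relation ⟹ (hii)` -/

section Eigen

variable {L : Type*} [Field L] {A : ValuationSubring L}

/-- **Formal core of LINK-HECKE.**  If `X' = c · X ^ n · Y ^ p` (`c` a constant) in `L((q))`, all
three series have Gauss reductions, the residue field has characteristic `p`, and
`dlog u' = Tform l (dlog u)` (`X'` = the Hecke norm of `X`, `NormLinkFF88`), then
`Tform l (dlog u) = n • dlog u`. -/
theorem eigen_dlog (p : ℕ) [CharP (IsLocalRing.ResidueField ↥A) p] (l : ℕ) [NeZero l]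
    {X X' Y : LaurentSeries L} {u u' w : LaurentSeries (IsLocalRing.ResidueField ↥A)}
    (hX : Red A X u) (hX' : Red A X' u') (hY : Red A Y w) (c : L) (n : ℤ)
    (hrel : X' = HahnSeries.C c * (X ^ n * Y ^ p))
    (hT : dlog u' = Tform l (dlog u)) :
    Tform l (dlog u) = n • dlog u := by
  have hXn := hX.zpow n
  have hYp := hY.pow p
  have hprod := hXn.mul hYp
  have hprod0 := hprod.ne_zero_left
  have hc : Red A (HahnSeries.C c) (u' / (u ^ n * w ^ p)) := by
    have h1 := hX'.div hprod
    rwa [hrel, mul_div_assoc, div_self hprod0, mul_one] at h1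
  obtain ⟨c', hc'0, hc'⟩ := hc.const
  have hu0 := hX.ne_zero
  have hw0 := hY.ne_zero
  have hun0 : u ^ n ≠ 0 := zpow_ne_zero n hu0
  have hwp0 : w ^ p ≠ 0 := pow_ne_zero p hw0
  have hu' : u' = HahnSeries.C c' * (u ^ n * w ^ p) := by
    rw [← hc', div_mul_cancel₀ _ (mul_ne_zero hun0 hwp0)]
  have hC0 : (HahnSeries.C c' : LaurentSeries (IsLocalRing.ResidueField ↥A)) ≠ 0 := by
    intro h0
    apply hc'0
    have := congrArg (fun z => z.coeff 0) h0
    simpa using this
  haveI : CharP (IsLocalRing.ResidueField ↥A) p := inferInstance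
  rw [← hT, hu', dlog_mul hC0 (mul_ne_zero hun0 hwp0), dlog_C, zero_add, dlog_mul hun0 hwp0,
    dlog_zpow hu0, dlog_pow_char p hw0, add_zero]

end Eigen

end Fermat.Agent.M1.Link.GaussRed88
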