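/-
M1 (S44), chapter LINK, brick LK7-c (helper88): **descent and reduction of the Hecke norm `N_l f`
for `l ≠ p`, and its `θ`-logarithmic derivative modulo `p`.**
Mathlib + `ThetaLog88` + `ES/KRON/{KronCong24, KronNorm10, KronInst10}`.

* `norm_descent_gen` : if `Nn(q^l) = ∏_b y(ζ^b q) · y(q^{l²})` after an injective coefficient
  extension `ι : R → K`, then `Nn` has coefficients in `R` (no hypothesis on characteristics; the
  `l = p` case with its Frobenius shape is `KronNorm10.norm_descent`).
* `dlog_reduction` : moreover, for `res : R → k` into a field in which `l` is invertible and `res ζ` is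
  a primitive `l`-th root of unity, and `ȳ := res y ≠ 0`:
  `res Nn ≠ 0` and `θ(res Nn)/res Nn = T_l (θ ȳ / ȳ)`.
* `isPrimitiveRoot_residue` : a primitive `l`-th root of unity (`l` prime) stays primitive in the residue
  field of a valuation subring over `p ≠ l`.
* `dlog_reduction_inst` : the statement at a valuation subring `A` of `L` over `p`:
  `ι = A.subtype`, `res = residue A`.
-/
import Mathlib
import Fermat.Agent.M1.Link.ThetaLog88
import Fermat.Agent.ES.KRON.KronInst10

set_option autoImplicit false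
set_option linter.style.haveILetI false

noncomputable section

open HahnSeries ModularCurve

namespace Fermat.Agent.M1.Link.NormLink88

open Fermat.Agent.IG.PR.Theta20 Fermat.Agent.ES.KRON.KronCong24 Fermat.Agent.ES.KRON.KronNorm10
  Fermat.Agent.ES.KRON.KronInst10 Fermat.Agent.M1.Link.ThetaLog88

section Generic

variable {R : Type*} [CommRing R]

/-- **Descent of the norm product**, any characteristics. -/
theorem norm_descent_gen {K : Type*} [CommRing K] (ι : R →+* K) (hι : Function.Injective ι)
    (l : ℕ) [NeZero l] (ζ : Rˣ) (y : LaurentSeries R) (Nn : LaurentSeries K)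
    (hN : qExpand K l Nn = coeffMap ι (normProd l ζ y)) :
    ∃ NR : LaurentSeries R, qExpand R l NR = normProd l ζ y ∧ coeffMap ι NR = Nn := by
  obtain ⟨z, hz⟩ := mem_range_qExpand_of_coeffMap ι hι l (normProd l ζ y) Nn hN.symm
  refine ⟨z, hz, ?_⟩
  apply qExpand_injective (R := K) l
  rw [hN, ← hz, coeffMap_qExpand]

theorem normProd_ne_zero {k : Type*} [Field k] (l : ℕ) [NeZero l] (ζ : kˣ) {y : LaurentSeries k}
    (hy : y ≠ 0) : normProd l ζ y ≠ 0 := by
  unfold normProd
  exact mul_ne_zero (Finset.prod_ne_zero_iff.mpr fun b _ => twistU_ne_zero _ hy)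
    (qExpand_ne_zero _ hy)

/-- **Reduction of the norm and its logarithmic derivative** (`l` invertible in the residue
field). -/
theorem dlog_reduction {K k : Type*} [CommRing K] [Field k] (ι : R →+* K)
    (hι : Function.Injective ι) (res : R →+* k) (l : ℕ) [NeZero l] (hl : (l : k) ≠ 0) (ζ : Rˣ)
    (hζ : IsPrimitiveRoot (Units.map (res : R →* k) ζ) l) (y : LaurentSeries R)
    (hy : coeffMap res y ≠ 0) (Nn : LaurentSeries K)
    (hN : qExpand K l Nn = coeffMap ι (normProd l ζ y)) :
    ∃ NR : LaurentSeries R, coeffMap ι NR = Nn ∧ qExpand R l NR = normProd l ζ y ∧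
      coeffMap res NR ≠ 0 ∧
      dlog (coeffMap res NR) = Tform l (dlog (coeffMap res y)) := by
  obtain ⟨NR, h1, h2⟩ := norm_descent_gen ι hι l ζ y Nn hN
  have h3 : qExpand k l (coeffMap res NR) =
      normProd l (Units.map (res : R →* k) ζ) (coeffMap res y) := by
    rw [← coeffMap_qExpand, h1, normProd_map]
  refine ⟨NR, h2, h1, ?_, dlog_eq_Tform_of_normProd hl hζ hy h3⟩
  intro h0
  rw [h0, map_zero] at h3
  exact normProd_ne_zero l _ hy h3.symm

end Generic

/-! ### At a valuation subring -/

section Inst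

variable {L : Type*} [Field L] (A : ValuationSubring L)

/-- A primitive `l`-th root of unity (`l` prime) remains primitive in the residue field of a
valuation subring lying over a prime `p ≠ l`. -/
theorem isPrimitiveRoot_residue {l p : ℕ} (hl : l.Prime) (hp : p.Prime) (hlp : l ≠ p)
    (hA : A.LiesOverPrime p) {ζ : L} (hζ : IsPrimitiveRoot ζ l) :
    IsPrimitiveRoot (Units.map ((IsLocalRing.residue A : ↥A →+* IsLocalRing.ResidueField A) :
        ↥A →* IsLocalRing.ResidueField A) (unitOfPowEqOne A hl.pos hζ.pow_eq_one)) l ∧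
      ((l : ℕ) : IsLocalRing.ResidueField A) ≠ 0 := by
  haveI : Fact l.Prime := ⟨hl⟩
  haveI := charP_residueField A hp hA
  set κ := IsLocalRing.ResidueField A
  have hlk : ((l : ℕ) : κ) ≠ 0 := by
    intro h0
    have hdvd : p ∣ l := (CharP.cast_eq_zero_iff κ p l).mp h0
    rcases (Nat.dvd_prime hl).mp hdvd with h1 | h1
    · exact hp.one_lt.ne' h1
    · exact hlp h1.symm
  refine ⟨?_, hlk⟩
  set ζA : (↥A)ˣ := unitOfPowEqOne A hl.pos hζ.pow_eq_one with hζA
  set u : κˣ := Units.map ((IsLocalRing.residue A : ↥A →+* κ) : ↥A →* κ) ζA with hu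
  have hul : u ^ l = 1 := by
    rw [hu, ← map_pow, unitOfPowEqOne_pow, map_one]
  have hu1 : u ≠ 1 := by
    intro h1
    -- geometric sum: `∑ ζ^b = 0` in `L`, hence in `A`, hence `l = 0` in `κ`
    have hζ1 : ζ ≠ 1 := hζ.ne_one hl.one_lt
    have hgeomL : ∑ b ∈ Finset.range l, ζ ^ b = 0 := hζ.geom_sum_eq_zero hl.one_lt
    have hgeomA : ∑ b ∈ Finset.range l, ((ζA : ↥A)) ^ b = 0 := by
      apply Subtype.ext
      have : ((∑ b ∈ Finset.range l, ((ζA : ↥A)) ^ b : ↥A) : L) =
          ∑ b ∈ Finset.range l, ζ ^ b := by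
        rw [← A.subtype_apply, map_sum]
        refine Finset.sum_congr rfl fun b _ => ?_
        rw [map_pow]
        rfl
      rw [this, hgeomL]
      rfl
    have hres := congrArg (IsLocalRing.residue A) hgeomA
    rw [map_sum, map_zero] at hres
    have hone : ∀ b ∈ Finset.range l, IsLocalRing.residue A (((ζA : ↥A)) ^ b) = 1 := by
      intro b _
      rw [map_pow]
      have : IsLocalRing.residue A (ζA : ↥A) = (u : κ) := rfl
      rw [this, h1, Units.val_one, one_pow]
    rw [Finset.sum_congr rfl hone, Finset.sum_const, Finset.card_range, nsmul_eq_mul, mul_one]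
      at hres
    exact hlk hres
  have hord : orderOf u = l := orderOf_eq_prime hul hu1
  have := IsPrimitiveRoot.orderOf u
  rwa [hord] at this

/-- **LK7-c at a valuation subring** `A ⊂ L` over `p`, `l ≠ p` prime, `ζ` a primitive `l`-th root of
unity: if `Nn(q^l) = ∏_b f(ζ^b q) · f(q^{l²})` over `L((q))` with `f = coeffMap A.subtype y` and
`ȳ ≠ 0`, then `Nn` has coefficients in `A`, its reduction is nonzero and
`θ(N̄n)/N̄n = T_l (θ ȳ/ȳ)`. -/
theorem dlog_reduction_inst {l p : ℕ} (hl : l.Prime) (hp : p.Prime) (hlp : l ≠ p)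
    (hA : A.LiesOverPrime p) {ζ : Lˣ} (hζ : IsPrimitiveRoot (ζ : L) l) (y : LaurentSeries ↥A)
    (hy : coeffMap (IsLocalRing.residue A) y ≠ 0) (Nn : LaurentSeries L) :
    haveI : NeZero l := ⟨hl.ne_zero⟩
    qExpand L l Nn = normProd l ζ (coeffMap A.subtype y) →
    ∃ NR : LaurentSeries ↥A, coeffMap A.subtype NR = Nn ∧
      coeffMap (IsLocalRing.residue A) NR ≠ 0 ∧
      dlog (coeffMap (IsLocalRing.residue A) NR) =
        Tform l (dlog (coeffMap (IsLocalRing.residue A) y)) := by
  haveI : NeZero l := ⟨hl.ne_zero⟩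
  intro hN
  obtain ⟨hprim, hlk⟩ := isPrimitiveRoot_residue A hl hp hlp hA hζ
  set ζA : (↥A)ˣ := unitOfPowEqOne A hl.pos hζ.pow_eq_one with hζA
  have hmap : Units.map ((A.subtype : ↥A →+* L) : ↥A →* L) ζA = ζ := Units.ext rfl
  have hN' : qExpand L l Nn = coeffMap A.subtype (normProd l ζA y) := by
    rw [normProd_map, hmap]
    exact hN
  obtain ⟨NR, h1, -, h3, h4⟩ := dlog_reduction A.subtype Subtype.val_injective
    (IsLocalRing.residue A) l hlk ζA hprim y hy Nn hN'
  exact ⟨NR, h1, h3, h4⟩

end Inst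

end Fermat.Agent.M1.Link.NormLink88
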