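/-
M1 (S44), chapter LINK, brick LK7 (helper88), MODULAR INSTANCE.
`ES/KRON/ConjAlpha24` ((NORM-α): `N_α(β f)(q^l) = ∏_b f(ζ^b q) · f(q^{l²})`) + `NormLink88`.

`N` a level, `l ∤ N` a prime, `A` a valuation subring of `ℚ̄` over a prime `p ≠ l`, `f : FF N` a
function whose `q`-expansion has coefficients in `A` (`= coeffMap A.subtype y`) and nonzero reduction
`ȳ`.  Then the function `g := N_α (β f) : FF N` (with `div g = T_l (div f)`,
`PointFormula28.correspondence_eq_ord_norm`) has `q`-expansion with coefficients in `A`, nonzero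
reduction `ḡ`, and

  `θ ḡ / ḡ = T_l (θ ȳ / ȳ)`   in `κ((q))`,  `T_l (∑ a_n q^n) = ∑ (a_{nl} + l a_{n/l}) q^n`.
-/
import Mathlib
import Fermat.Agent.M1.Link.NormLink88
import Fermat.Agent.ES.KRON.ConjAlpha24

set_option autoImplicit false
set_option linter.style.haveILetI false

noncomputable section

open HahnSeries ModularCurve AlgebraicCurve

namespace Fermat.Agent.M1.Link.NormLinkFF88

open Fermat.Agent.X0 Fermat.Agent.X0.Analytic
open Fermat.Agent.ES.KRON.KronCong24 Fermat.Agent.ES.KRON.KronNorm10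
  Fermat.Agent.ES.KRON.KronInst10 Fermat.Agent.ES.KRON.ConjAlpha24
  Fermat.Agent.ES.HECKE.PointFormula28
  Fermat.Agent.M1.Link.ThetaLog88 Fermat.Agent.M1.Link.NormLink88

variable (N l : ℕ) [NeZero N] [NeZero l]

/-- **LK7** (functions): integrality, reduction and `θ`-logarithmic derivative of the Hecke norm
`N_α (β f)`. -/
theorem dlog_hecke_norm {p : ℕ} (hl : l.Prime) (hlN : ¬ l ∣ N) (hp : p.Prime) (hlp : l ≠ p)
    (A : ValuationSubring Kbar) (hA : A.LiesOverPrime p) (f : FF N) (y : LaurentSeries ↥A)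
    (hy : coeffMap A.subtype y = (f : LaurentSeries Kbar))
    (hyr : coeffMap (IsLocalRing.residue A) y ≠ 0) :
    ∃ NR : LaurentSeries ↥A,
      coeffMap A.subtype NR =
        ((normAlong (heckeAlphaBar Kbar N l) (heckeBetaBar Kbar N l f) : FF N) :
          LaurentSeries Kbar) ∧
      coeffMap (IsLocalRing.residue A) NR ≠ 0 ∧
      dlog (coeffMap (IsLocalRing.residue A) NR) =
        Tform l (dlog (coeffMap (IsLocalRing.residue A) y)) := by
  haveI : Fact l.Prime := ⟨hl⟩
  obtain ⟨ζ, -, hζ⟩ := exists_primitiveRoot_unit (L := Kbar) (ℓ := l)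
  have hζu : IsPrimitiveRoot ζ l := IsPrimitiveRoot.coe_units_iff.mp hζ
  have hnorm := qExpand_normAlong_alpha N l hl hlN ζ hζu f
  rw [← hy] at hnorm
  exact dlog_reduction_inst A hl hp hlp hA hζ y hyr _ hnorm

end Fermat.Agent.M1.Link.NormLinkFF88
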