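/-
M1 (S44), chapter LINK, brick LK7-c / #1008-LK10(c) (helper88): **eigen-relation ⟹ (hii)**.

`N` a level, `l ∤ N` a prime, `A ⊂ ℚ̄` a valuation subring over a prime `p ≠ l`, `κ` its residue
field.  Let `[D] ∈ JZero N` be an eigenclass, `T_l [D] = a_l • [D]`, of order dividing `p`:
`p • D = div g`.  Write `g = a / b` with `a, b ∈ FF N ∩ A((q))` of nonzero reduction
(`exists_gauss_fraction_bar`: always possible up to a constant) and put `u := ā / b̄ ∈ κ((q))`.  Then

  `Tform l (dlog u) = a_l • dlog u`,     `Tform l (∑ c_n q^n) = ∑ (c_{nl} + l c_{n/l}) q^n`,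
                                          `dlog u = θ u / u`, `θ = q d/dq`.

Proof: `N_α (β g) = c • (g ^ a_l * h ^ p)` (`EigenNorm88`), `N_α (β a)`, `N_α (β b)` are integral of
nonzero reduction with `dlog = Tform l (dlog ·)` (`NormLinkFF88`), `h = c' a'/b'`
(`exists_gauss_fraction_bar`), and the formal core `GaussRed88.eigen_dlog`.
-/
import Mathlib
import Fermat.Agent.M1.Link.NormLinkFF88
import Fermat.Agent.M1.Link.GaussRed88
import Fermat.Agent.M1.Link.EigenNorm88
import Fermat.Agent.ES.RED.GaussUnit25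

set_option autoImplicit false
set_option synthInstance.maxHeartbeats 400000
set_option linter.style.haveILetI false
set_option linter.unusedSectionVars false

noncomputable section

open HahnSeries ModularCurve AlgebraicCurve

namespace Fermat.Agent.M1.Link.HeckeDlog88

open Fermat.Agent.X0
open Fermat.Agent.ES.HECKE.PointFormula28
open Fermat.Agent.M1.Link.ThetaLog88 Fermat.Agent.M1.Link.GaussRed88

/-! ### Gauss fractions over `ℚ̄` -/

section Frac

open Fermat.Agent.RED.Interface4 Fermat.Agent.RED.DESC Fermat.Agent.RED.DESC.NumberFieldDVR27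
open Fermat.Agent.RED.PUR.GaussGen8 Fermat.Agent.RED.PUR.KtGauss8
open Fermat.Agent.RED.PUR.GaussBridge10 Fermat.Agent.RED.PUR.GaussInst25
open Fermat.Agent.RED.PUR Fermat.Agent.IG.PR
open Fermat.Agent.ES.RED.GaussUnit25

/-- Every nonzero function of `FF M` is a constant times a quotient of two functions of `FF M` with
`A`-integral `q`-expansions of NONZERO reduction (`A` a valuation subring of `ℚ̄` over a prime). -/
theorem exists_gauss_fraction_bar {ℓ : ℕ} (hℓ : ℓ.Prime) (A : ValuationSubring Qbar)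
    (hA : A.LiesOverPrime ℓ) (M : ℕ) [NeZero M]
    (f : ↥(laurentBaseChange Qbar (modularFunctionFieldFull M))) (hf0 : f ≠ 0) :
    ∃ (c : Qbar) (a b : LaurentSeries ↥A), c ≠ 0 ∧
      coeffMap A.subtype a ∈ laurentBaseChange Qbar (modularFunctionFieldFull M) ∧
      coeffMap A.subtype b ∈ laurentBaseChange Qbar (modularFunctionFieldFull M) ∧
      coeffMap (IsLocalRing.residue ↥A) a ≠ 0 ∧ coeffMap (IsLocalRing.residue ↥A) b ≠ 0 ∧
      (f : LaurentSeries Qbar) * coeffMap A.subtype b =
        HahnSeries.C c * coeffMap A.subtype a := by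
  haveI := isAlgebraic_Qbar
  obtain ⟨K, -, hfin, x', hx', hx'f⟩ :=
    CoeffDescent1.exists_finite_descent (L := Qbar) (F₀ := modularFunctionFieldFull M) ⊥ f.2
  haveI := hfin
  haveI : IsDiscreteValuationRing ↥(AK A K) := isDiscreteValuationRing_AK A K hℓ.ne_zero hA
  obtain ⟨π, hπ⟩ := IsDiscreteValuationRing.exists_irreducible ↥(AK A K)
  have hu := isUnif_of_irreducible (AK A K) hπ
  have hx'C : x' ∈ modularFunctionFieldFullC ↥K M := by
    rw [← DegBaseChange25.laurentBaseChange_full_eq]; exact hx'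
  have hx'0 : x' ≠ 0 := by
    rintro rfl
    rw [map_zero] at hx'f
    exact hf0 (Subtype.ext hx'f.symm)
  obtain ⟨c, a, b, hc0, haE, hbE, hared, hbred, hrel⟩ := exists_integral_fraction hu M hx'C hx'0
  have hmemQ : ∀ z : LaurentSeries ↥(AK A K), embK (AK A K) z ∈ modularFunctionFieldFullC ↥K M →
      coeffMap A.subtype (coeffMap (incl A K) z) ∈
        laurentBaseChange Qbar (modularFunctionFieldFull M) := by
    intro z hz
    rw [coeffMap_subtype_incl]
    refine CoeffDescent1.coeffMap_mem_laurentBaseChange_of_algHom (algebraMap K Qbar)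
      (modularFunctionFieldFull M) ?_
    rw [DegBaseChange25.laurentBaseChange_full_eq]; exact hz
  have hred : ∀ z : LaurentSeries ↥(AK A K), redL (AK A K) z ≠ 0 →
      coeffMap (IsLocalRing.residue ↥A) (coeffMap (incl A K) z) ≠ 0 := by
    intro z hz h
    rw [coeffMap_residue_incl] at h
    apply hz
    exact CoeffDescent1.coeffMap_injective_of_injective (resMap A K) (resMap_injective A K)
      (h.trans (map_zero _).symm)
  refine ⟨algebraMap K Qbar c, coeffMap (incl A K) a, coeffMap (incl A K) b, ?_, hmemQ a haE,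
    hmemQ b hbE, hred a hared, hred b hbred, ?_⟩
  · rw [Ne, map_eq_zero]; exact hc0
  · rw [coeffMap_subtype_incl, coeffMap_subtype_incl, ← hx'f, ← map_mul, hrel, map_mul,
      GaussGen8.coeffMap_C]

end Frac

/-! ### The eigen-relation -/

section Main

variable {N : ℕ} [NeZero N]

theorem coe_algebraMap_FF (c : Kbar) :
    ((algebraMap Kbar (FF N) c : FF N) : LaurentSeries Kbar) = HahnSeries.C c := by
  show algebraMap Kbar (LaurentSeries Kbar) c = _
  rw [algebraMap_laurentSeries_eq_single]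
  rfl

theorem coe_zpow_FF (g : FF N) (n : ℤ) :
    ((g ^ n : FF N) : LaurentSeries Kbar) = (g : LaurentSeries Kbar) ^ n :=
  map_zpow₀ (algebraMap (FF N) (LaurentSeries Kbar)) g n

/-- **LINK-HECKE (hii)**: the `θ`-logarithmic derivative of the reduction of a function whose
divisor is `p` times a `T_l`-eigendivisor is a `Tform l`-eigenvector with the same eigenvalue. -/
theorem hecke_dlog_eigen (l : Nat.Primes) (hlN : ¬ (l : ℕ) ∣ N) {p : ℕ} (hp : p.Prime)
    (hlp : (l : ℕ) ≠ p) (A : ValuationSubring Kbar) (hA : A.LiesOverPrime p) (al : ℤ)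
    (D : Divisor.degZero (K := Kbar) (F := FF N))
    (heig : heckeOperatorBar N l (Pic0.mk D) = al • Pic0.mk D)
    {g : FF N} (hg : g ≠ 0)
    (hgD : ∀ v : Place Kbar (FF N), (p : ℤ) * (D : Divisor Kbar (FF N)) v = v.ord g)
    (a b : LaurentSeries ↥A)
    (ha : coeffMap A.subtype a ∈ modularFunctionFieldBar N)
    (hb : coeffMap A.subtype b ∈ modularFunctionFieldBar N)
    (har : coeffMap (IsLocalRing.residue ↥A) a ≠ 0) (hbr : coeffMap (IsLocalRing.residue ↥A) b ≠ 0)
    (hab : (g : LaurentSeries Kbar) * coeffMap A.subtype b = coeffMap A.subtype a) :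
    haveI : NeZero (l : ℕ) := ⟨l.2.ne_zero⟩
    Tform (l : ℕ) (dlog (coeffMap (IsLocalRing.residue ↥A) a / coeffMap (IsLocalRing.residue ↥A) b))
      = al • dlog (coeffMap (IsLocalRing.residue ↥A) a / coeffMap (IsLocalRing.residue ↥A) b) := by
  haveI : NeZero (l : ℕ) := ⟨l.2.ne_zero⟩
  haveI : CharP (IsLocalRing.ResidueField ↥A) p :=
    Fermat.Agent.ES.KRON.KronInst10.charP_residueField A hp hA
  set fa : FF N := ⟨coeffMap A.subtype a, ha⟩ with hfa
  set fb : FF N := ⟨coeffMap A.subtype b, hb⟩ with hfb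
  have hgfb : g * fb = fa := Subtype.ext hab
  -- the Hecke norms of `a`, `b`
  obtain ⟨NRa, hNRa, hNRa0, hNRad⟩ :=
    NormLinkFF88.dlog_hecke_norm N (l : ℕ) l.2 hlN hp hlp A hA fa a rfl har
  obtain ⟨NRb, hNRb, hNRb0, hNRbd⟩ :=
    NormLinkFF88.dlog_hecke_norm N (l : ℕ) l.2 hlN hp hlp A hA fb b rfl hbr
  -- multiplicativity of the norm
  have hmul : normAlong (heckeAlphaBar Kbar N (l : ℕ)) (heckeBetaBar Kbar N (l : ℕ) g) *
      normAlong (heckeAlphaBar Kbar N (l : ℕ)) (heckeBetaBar Kbar N (l : ℕ) fb) =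
      normAlong (heckeAlphaBar Kbar N (l : ℕ)) (heckeBetaBar Kbar N (l : ℕ) fa) := by
    rw [← hgfb, map_mul]
    letI := algebraAlong (heckeAlphaBar Kbar N (l : ℕ))
    exact (map_mul (Algebra.norm (FF N)) _ _).symm
  set Ng : FF N := normAlong (heckeAlphaBar Kbar N (l : ℕ)) (heckeBetaBar Kbar N (l : ℕ) g)
    with hNgdef
  -- Gauss reductions
  have hRedg : Red A (g : LaurentSeries Kbar)
      (coeffMap (IsLocalRing.residue ↥A) a / coeffMap (IsLocalRing.residue ↥A) b) :=
    ⟨a, b, har, hbr, hab, rfl⟩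
  have hRedN : Red A (Ng : LaurentSeries Kbar)
      (coeffMap (IsLocalRing.residue ↥A) NRa / coeffMap (IsLocalRing.residue ↥A) NRb) := by
    refine ⟨NRa, NRb, hNRa0, hNRb0, ?_, rfl⟩
    show (Ng : LaurentSeries Kbar) * coeffMap A.subtype NRb = coeffMap A.subtype NRa
    rw [hNRa, hNRb, ← hmul]
    rfl
  -- the norm relation
  obtain ⟨c, h, hc0, hh0, hrel⟩ := EigenNorm88.exists_norm_eq_of_eigen l hlN al D heig hg hgD
  obtain ⟨ch, ah, bh, hch0, -, -, hah0, hbh0, hhrel⟩ :=
    exists_gauss_fraction_bar hp A hA N h hh0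
  have hCch0 : (HahnSeries.C ch : LaurentSeries Kbar) ≠ 0 := by
    intro h0
    apply hch0
    have := congrArg (fun z => z.coeff 0) h0
    simpa using this
  have hRedh : Red A ((h : LaurentSeries Kbar) / HahnSeries.C ch)
      (coeffMap (IsLocalRing.residue ↥A) ah / coeffMap (IsLocalRing.residue ↥A) bh) := by
    refine ⟨ah, bh, hah0, hbh0, ?_, rfl⟩
    show (h : LaurentSeries Kbar) / HahnSeries.C ch * coeffMap A.subtype bh = coeffMap A.subtype ah
    rw [div_mul_eq_mul_div, hhrel, mul_div_cancel_left₀ _ hCch0]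
  have hrelL : (Ng : LaurentSeries Kbar) = HahnSeries.C (c * ch ^ p) *
      ((g : LaurentSeries Kbar) ^ al * ((h : LaurentSeries Kbar) / HahnSeries.C ch) ^ p) := by
    have h1 : (Ng : LaurentSeries Kbar) =
        HahnSeries.C c * ((g : LaurentSeries Kbar) ^ al * (h : LaurentSeries Kbar) ^ p) := by
      have := congrArg (fun z : FF N => (z : LaurentSeries Kbar)) hrel
      simp only [Algebra.smul_def] at this
      rw [this]
      show ((algebraMap Kbar (FF N) c : FF N) : LaurentSeries Kbar) *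
        (((g ^ al : FF N) : LaurentSeries Kbar) * ((h ^ p : FF N) : LaurentSeries Kbar)) = _
      rw [coe_algebraMap_FF, coe_zpow_FF]
      rfl
    rw [h1, div_pow, map_mul, map_pow]
    have hp0 : (HahnSeries.C ch : LaurentSeries Kbar) ^ p ≠ 0 := pow_ne_zero p hCch0
    field_simp
  -- `dlog` of the reduction of the norm
  have hT : dlog (coeffMap (IsLocalRing.residue ↥A) NRa / coeffMap (IsLocalRing.residue ↥A) NRb) =
      Tform (l : ℕ)
        (dlog (coeffMap (IsLocalRing.residue ↥A) a / coeffMap (IsLocalRing.residue ↥A) b)) := by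
    rw [dlog_div hNRa0 hNRb0, hNRad, hNRbd, dlog_div har hbr, Tform_sub]
  exact eigen_dlog p (l : ℕ) hRedg hRedN hRedh (c * ch ^ p) al hrelL hT

end Main

end Fermat.Agent.M1.Link.HeckeDlog88
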