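/-
M1 (S44), chapter LINK, brick HECKE(c), abstract reduction core (helper41, claim #1189).
Mathlib + `Link/NormLink88` (hence `ThetaLog88`: `Tform`, `dlog`; `KronNorm10.normProd`).  No function
fields inside: pure `L((q))` / `A((q))` / `k((q))` algebra.

`L` a field, `A : ValuationSubring L` over `p`, `k` its residue field, `inc = coeffMap A.subtype`,
`red = coeffMap (residue A)`, `l ≠ p` primes, `ζ ∈ L` a primitive `l`-th root of unity.

* `normProd_mul`, `normProd_C`, `twistU_C`, `qExpand_C`, `coeffMap_C`;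
* `dlog_C`, `dlog_inv`, `dlog_pow`, `dlog_zpow`, `dlog_C_mul`, `natCast_zsmul_eq_zero`;
* `gauss_const` : Gauss lemma for constants (`inc y' = c · inc y`, `ȳ, ȳ' ≠ 0` ⟹ `c ∈ Aˣ`,
  `ȳ' = c̄ ȳ`);
* `RedTo A X x` : `X ∈ L((q))` is a quotient of two `A`-integral series with nonzero reductions and
  `x ∈ k((q))` is the quotient of the reductions.  `RedTo.mul/inv/pow/zpow/one/const/of_int`,
  `RedTo.qExpand`, `RedTo.normProd`, `RedTo.const_mul` (Gauss lemma), `RedTo.unique`, `RedTo.ne_zero`;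
* `IsGaussFrac A G y₁ y₂ lam` : `G · inc y₂ = lam · inc y₁`, `lam ≠ 0`, `ȳ₁, ȳ₂ ≠ 0`;
  `IsGaussFrac.redTo`, `red_unique`, `dlog_unique` (independence of the normalisation);
* **`Tform_dlog_eq_zsmul`** (and the `'` version with a constant `e`, e.g. a sign, in front of
  `normProd`; and the `_of_redTo` versions): if `Nn(q^l) = normProd l ζ G` (the `q`-expansion of the
  Hecke norm `N_l G`, brick NORMQ) and `Nn = c · G^a · H^p` (the eigen-relation on functions) then
  `ū := ȳ₁/ȳ₂` satisfies `T_l (θ ū/ū) = a • (θ ū/ū)` in `k((q))`, i.e. (hii) of LINK-CORE;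
* `Tform_eq_zsmul_coeff` : the coefficientwise form of the conclusion.
-/
import Mathlib
import Fermat.Agent.M1.Link.NormLink88

set_option autoImplicit false

noncomputable section

open HahnSeries ModularCurve

namespace Fermat.Agent.M1.Link.HeckeRed41

open Fermat.Agent.IG.PR.Theta20 Fermat.Agent.ES.KRON.KronCong24 Fermat.Agent.ES.KRON.KronNorm10
  Fermat.Agent.ES.KRON.KronInst10 Fermat.Agent.M1.Link.ThetaLog88 Fermat.Agent.M1.Link.NormLink88

/-! ### `normProd` is multiplicative -/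

section Ring

variable {R : Type*} [CommRing R]

theorem twistU_C (u : Rˣ) (c : R) : twistU u (HahnSeries.C c : LaurentSeries R) = HahnSeries.C c := by
  ext n
  rw [twistU_coeff]
  show ((u ^ n : Rˣ) : R) * (HahnSeries.single 0 c : LaurentSeries R).coeff n =
    (HahnSeries.single 0 c : LaurentSeries R).coeff n
  rcases eq_or_ne n 0 with rfl | hn
  · simp
  · rw [HahnSeries.coeff_single_of_ne hn, mul_zero]

theorem qExpand_C (m : ℕ) [NeZero m] (c : R) :
    qExpand R m (HahnSeries.C c : LaurentSeries R) = HahnSeries.C c := by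
  show qExpand R m (HahnSeries.single 0 c) = HahnSeries.single 0 c
  rw [qExpand_single, mul_zero]

theorem normProd_mul (l : ℕ) [NeZero l] (ζ : Rˣ) (x y : LaurentSeries R) :
    normProd l ζ (x * y) = normProd l ζ x * normProd l ζ y := by
  unfold normProd
  simp only [map_mul, Finset.prod_mul_distrib]
  ring

theorem normProd_C (l : ℕ) [NeZero l] (ζ : Rˣ) (c : R) :
    normProd l ζ (HahnSeries.C c : LaurentSeries R) = HahnSeries.C (c ^ (l + 1)) := by
  unfold normProd
  simp only [twistU_C, qExpand_C, Finset.prod_const, Finset.card_range]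
  rw [pow_succ, map_mul, map_pow]

theorem coeffMap_C {S : Type*} [CommRing S] (φ : R →+* S) (c : R) :
    coeffMap φ (HahnSeries.C c : LaurentSeries R) = HahnSeries.C (φ c) := by
  show coeffMap φ (HahnSeries.single 0 c) = HahnSeries.single 0 (φ c)
  rw [coeffMap_single]

theorem coeffMap_inj {S : Type*} [CommRing S] (φ : R →+* S) (hφ : Function.Injective φ) :
    Function.Injective (coeffMap φ) := by
  intro x y h
  ext n
  apply hφ
  have := congrArg (fun z : LaurentSeries S => z.coeff n) h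
  simpa using this

end Ring

/-! ### More on `dlog` -/

section Field

variable {k : Type*} [Field k]

theorem dlog_C (c : k) : dlog (HahnSeries.C c : LaurentSeries k) = 0 := by
  unfold dlog
  rw [theta_C, zero_div]

theorem dlog_zero : dlog (0 : LaurentSeries k) = 0 := by
  unfold dlog
  rw [div_zero]

theorem dlog_inv (x : LaurentSeries k) : dlog x⁻¹ = - dlog x := by
  by_cases hx : x = 0
  · subst hx; rw [inv_zero, dlog_zero, neg_zero]
  · have h := dlog_mul hx (inv_ne_zero hx)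
    rw [mul_inv_cancel₀ hx, dlog_one] at h
    exact eq_neg_of_add_eq_zero_right h.symm

theorem dlog_pow (x : LaurentSeries k) (n : ℕ) : dlog (x ^ n) = n • dlog x := by
  by_cases hx : x = 0
  · subst hx
    rcases Nat.eq_zero_or_pos n with rfl | hn
    · simp [dlog_one]
    · rw [zero_pow hn.ne', dlog_zero, smul_zero]
  · induction n with
    | zero => simp [dlog_one]
    | succ n ih => rw [pow_succ, dlog_mul (pow_ne_zero n hx) hx, ih, succ_nsmul]

theorem dlog_zpow (x : LaurentSeries k) (a : ℤ) : dlog (x ^ a) = a • dlog x := by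
  obtain ⟨n, rfl | rfl⟩ := a.eq_nat_or_neg
  · rw [zpow_natCast, dlog_pow, natCast_zsmul]
  · rw [zpow_neg, zpow_natCast, dlog_inv, dlog_pow, neg_zsmul, natCast_zsmul]

theorem dlog_C_mul {c : k} (hc : c ≠ 0) {x : LaurentSeries k} (hx : x ≠ 0) :
    dlog (HahnSeries.C c * x) = dlog x := by
  have hC : (HahnSeries.C c : LaurentSeries k) ≠ 0 := by
    intro h0
    exact hc (HahnSeries.C_injective (by rw [h0, map_zero]))
  rw [dlog_mul hC hx, dlog_C, zero_add]

theorem natCast_zsmul_eq_zero (p : ℕ) [CharP k p] (z : LaurentSeries k) : ((p : ℕ) : ℤ) • z = 0 := by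
  rw [zsmul_eq_mul, Int.cast_natCast]
  have : ((p : ℕ) : LaurentSeries k) = HahnSeries.C ((p : ℕ) : k) := by simp
  rw [this, CharP.cast_eq_zero, map_zero, zero_mul]

end Field

/-! ### Gauss-unit fractions and their reductions -/

section Gauss

variable {L : Type*} [Field L] (A : ValuationSubring L)

set_option quotPrecheck false in
local notation "kA" => IsLocalRing.ResidueField ↥A
set_option quotPrecheck false in
local notation "inc" => coeffMap (A.subtype : ↥A →+* L)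
set_option quotPrecheck false in
local notation "red" =>
  coeffMap (IsLocalRing.residue ↥A : ↥A →+* IsLocalRing.ResidueField ↥A)

theorem inc_injective : Function.Injective (inc) :=
  coeffMap_inj _ Subtype.val_injective

theorem ne_zero_of_red_ne_zero {y : LaurentSeries ↥A} (hy : red y ≠ 0) : y ≠ 0 := by
  rintro rfl
  exact hy (map_zero _)

theorem inc_ne_zero_of_red_ne_zero {y : LaurentSeries ↥A} (hy : red y ≠ 0) : inc y ≠ 0 := by
  intro h0
  apply ne_zero_of_red_ne_zero A hy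
  apply inc_injective A
  rw [h0, map_zero]

/-- **Gauss lemma for constants.** -/
theorem gauss_const {y y' : LaurentSeries ↥A} (hy : red y ≠ 0) (hy' : red y' ≠ 0) {c : L}
    (h : inc y' = HahnSeries.C c * inc y) :
    ∃ cA : ↥A, IsUnit cA ∧ (cA : L) = c ∧ red y' = HahnSeries.C (IsLocalRing.residue ↥A cA) * red y := by
  -- the integral case
  have key : ∀ (w w' : LaurentSeries ↥A), red w' ≠ 0 → ∀ d : ↥A, inc w' = HahnSeries.C (d : L) * inc w →
      IsUnit d ∧ red w' = HahnSeries.C (IsLocalRing.residue ↥A d) * red w := by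
    intro w w' hw' d hd
    have h1 : w' = HahnSeries.C d * w := by
      apply inc_injective A
      rw [hd, map_mul, coeffMap_C]
      rfl
    have h2 : red w' = HahnSeries.C (IsLocalRing.residue ↥A d) * red w := by
      rw [h1, map_mul, coeffMap_C]
    refine ⟨?_, h2⟩
    by_contra hnu
    have : IsLocalRing.residue ↥A d = 0 := by
      rw [IsLocalRing.residue_eq_zero_iff]
      exact (IsLocalRing.mem_maximalIdeal d).mpr hnu
    rw [this, map_zero, zero_mul] at h2
    exact hw' h2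
  rcases A.mem_or_inv_mem c with hc | hc
  · obtain ⟨hu, h2⟩ := key y y' hy' ⟨c, hc⟩ h
    exact ⟨⟨c, hc⟩, hu, rfl, h2⟩
  · have hc0 : c ≠ 0 := by
      rintro rfl
      rw [map_zero, zero_mul] at h
      exact inc_ne_zero_of_red_ne_zero A hy' h
    have hC : (HahnSeries.C c : LaurentSeries L) * HahnSeries.C c⁻¹ = 1 := by
      rw [← map_mul, mul_inv_cancel₀ hc0, map_one]
    have h' : inc y = HahnSeries.C ((⟨c⁻¹, hc⟩ : ↥A) : L) * inc y' := by
      rw [h, ← mul_assoc]
      show inc y = HahnSeries.C c⁻¹ * HahnSeries.C c * inc y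
      rw [mul_comm (HahnSeries.C c⁻¹ : LaurentSeries L), hC, one_mul]
    obtain ⟨hu, h2⟩ := key y' y hy ⟨c⁻¹, hc⟩ h'
    obtain ⟨u, hu'⟩ := hu
    refine ⟨((u⁻¹ : (↥A)ˣ) : ↥A), (u⁻¹).isUnit, ?_, ?_⟩
    · have h3 : ((u : ↥A) : L) = c⁻¹ := by rw [hu']
      have h4 : (((u⁻¹ : (↥A)ˣ) : ↥A) : L) * ((u : ↥A) : L) = 1 := by
        rw [← MulMemClass.coe_mul, Units.inv_mul]; rfl
      rw [h3] at h4
      field_simp at h4
      exact h4
    · rw [h2, ← mul_assoc, ← map_mul, ← hu', ← map_mul, Units.inv_mul, map_one, map_one, one_mul]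

/-- `RedTo A X x`: the Laurent series `X` over `L` is a quotient of two `A`-integral series with
nonzero reductions, and `x` is the quotient of the reductions. -/
def RedTo (X : LaurentSeries L) (x : LaurentSeries (IsLocalRing.ResidueField ↥A)) : Prop :=
  ∃ y₁ y₂ : LaurentSeries ↥A, red y₁ ≠ 0 ∧ red y₂ ≠ 0 ∧ X * inc y₂ = inc y₁ ∧ x * red y₂ = red y₁

variable {A}

theorem RedTo.of_int {y : LaurentSeries ↥A} (hy : red y ≠ 0) : RedTo A (inc y) (red y) :=
  ⟨y, 1, hy, by rw [map_one]; exact one_ne_zero, by rw [map_one, mul_one], by rw [map_one, mul_one]⟩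

theorem RedTo.one : RedTo A 1 1 :=
  ⟨1, 1, by rw [map_one]; exact one_ne_zero, by rw [map_one]; exact one_ne_zero,
    by rw [one_mul], by rw [one_mul]⟩

theorem RedTo.ne_zero {X : LaurentSeries L} {x : LaurentSeries kA} (h : RedTo A X x) :
    X ≠ 0 ∧ x ≠ 0 := by
  obtain ⟨y₁, y₂, h1, h2, h3, h4⟩ := h
  constructor
  · rintro rfl
    rw [zero_mul] at h3
    exact inc_ne_zero_of_red_ne_zero A h1 h3.symm
  · rintro rfl
    rw [zero_mul] at h4
    exact h1 h4.symm

theorem RedTo.mul {X Y : LaurentSeries L} {x y : LaurentSeries kA} (hX : RedTo A X x)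
    (hY : RedTo A Y y) : RedTo A (X * Y) (x * y) := by
  obtain ⟨y₁, y₂, h1, h2, h3, h4⟩ := hX
  obtain ⟨w₁, w₂, g1, g2, g3, g4⟩ := hY
  refine ⟨y₁ * w₁, y₂ * w₂, ?_, ?_, ?_, ?_⟩
  · rw [map_mul]; exact mul_ne_zero h1 g1
  · rw [map_mul]; exact mul_ne_zero h2 g2
  · rw [map_mul, map_mul, ← h3, ← g3]; ring
  · rw [map_mul, map_mul, ← h4, ← g4]; ring

theorem RedTo.inv {X : LaurentSeries L} {x : LaurentSeries kA} (hX : RedTo A X x) :
    RedTo A X⁻¹ x⁻¹ := by
  obtain ⟨hX0, hx0⟩ := hX.ne_zero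
  obtain ⟨y₁, y₂, h1, h2, h3, h4⟩ := hX
  refine ⟨y₂, y₁, h2, h1, ?_, ?_⟩
  · rw [← h3]; field_simp
  · rw [← h4]; field_simp

theorem RedTo.pow {X : LaurentSeries L} {x : LaurentSeries kA} (hX : RedTo A X x) (n : ℕ) :
    RedTo A (X ^ n) (x ^ n) := by
  induction n with
  | zero => simpa using RedTo.one
  | succ n ih => rw [pow_succ, pow_succ]; exact ih.mul hX

theorem RedTo.zpow {X : LaurentSeries L} {x : LaurentSeries kA} (hX : RedTo A X x) (a : ℤ) :
    RedTo A (X ^ a) (x ^ a) := by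
  obtain ⟨n, rfl | rfl⟩ := a.eq_nat_or_neg
  · rw [zpow_natCast, zpow_natCast]; exact hX.pow n
  · rw [zpow_neg, zpow_natCast, zpow_neg, zpow_natCast]; exact (hX.pow n).inv

/-- **Gauss lemma**: two Gauss-unit fractions which differ by a constant of `L` differ by a unit of
`A`, and their reductions differ by its residue. -/
theorem RedTo.const_mul {X : LaurentSeries L} {x x' : LaurentSeries kA} {c : L} (hX : RedTo A X x)
    (hX' : RedTo A (HahnSeries.C c * X) x') :
    ∃ cA : ↥A, IsUnit cA ∧ (cA : L) = c ∧ x' = HahnSeries.C (IsLocalRing.residue ↥A cA) * x := by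
  obtain ⟨y₁, y₂, h1, h2, h3, h4⟩ := hX
  obtain ⟨w₁, w₂, g1, g2, g3, g4⟩ := hX'
  have hy : red (y₁ * w₂) ≠ 0 := by rw [map_mul]; exact mul_ne_zero h1 g2
  have hy' : red (w₁ * y₂) ≠ 0 := by rw [map_mul]; exact mul_ne_zero g1 h2
  have h : inc (w₁ * y₂) = HahnSeries.C c * inc (y₁ * w₂) := by
    rw [map_mul, map_mul, ← g3, ← h3]; ring
  obtain ⟨cA, hu, hc, hr⟩ := gauss_const A hy hy' h
  refine ⟨cA, hu, hc, ?_⟩
  rw [map_mul, map_mul, ← g4, ← h4] at hr
  have hne : red w₂ * red y₂ ≠ 0 := mul_ne_zero g2 h2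
  apply mul_right_cancel₀ hne
  rw [show x' * (red w₂ * red y₂) = x' * red w₂ * red y₂ by ring, hr]
  ring

theorem RedTo.unique {X : LaurentSeries L} {x x' : LaurentSeries kA} (hX : RedTo A X x)
    (hX' : RedTo A X x') : x' = x := by
  have h1 : RedTo A (HahnSeries.C (1 : L) * X) x' := by rwa [map_one, one_mul]
  obtain ⟨cA, -, hc, hr⟩ := hX.const_mul h1
  have : cA = 1 := Subtype.ext hc
  rw [hr, this, map_one, map_one, one_mul]

theorem RedTo.const {cA : ↥A} (hc : IsUnit cA) :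
    RedTo A (HahnSeries.C (cA : L)) (HahnSeries.C (IsLocalRing.residue ↥A cA)) := by
  have h : red (HahnSeries.C cA : LaurentSeries ↥A) ≠ 0 := by
    rw [coeffMap_C]
    intro h0
    have h1 : IsLocalRing.residue ↥A cA = 0 := HahnSeries.C_injective (by rw [h0, map_zero])
    rw [IsLocalRing.residue_eq_zero_iff] at h1
    exact (IsLocalRing.mem_maximalIdeal cA).mp h1 hc
  have := RedTo.of_int h
  rwa [coeffMap_C, coeffMap_C] at this

theorem RedTo.qExpand {X : LaurentSeries L} {x : LaurentSeries kA} (hX : RedTo A X x) (m : ℕ)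
    [NeZero m] : RedTo A (ModularCurve.qExpand L m X) (ModularCurve.qExpand kA m x) := by
  obtain ⟨y₁, y₂, h1, h2, h3, h4⟩ := hX
  refine ⟨ModularCurve.qExpand ↥A m y₁, ModularCurve.qExpand ↥A m y₂, ?_, ?_, ?_, ?_⟩
  · rw [coeffMap_qExpand]; exact (map_ne_zero_iff _ (qExpand_injective m)).mpr h1
  · rw [coeffMap_qExpand]; exact (map_ne_zero_iff _ (qExpand_injective m)).mpr h2
  · rw [coeffMap_qExpand, coeffMap_qExpand, ← map_mul, h3]
  · rw [coeffMap_qExpand, coeffMap_qExpand, ← map_mul, h4]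

theorem RedTo.normProd {X : LaurentSeries L} {x : LaurentSeries kA} (hX : RedTo A X x) (l : ℕ)
    [NeZero l] (ζA : (↥A)ˣ) :
    RedTo A (Fermat.Agent.ES.KRON.KronNorm10.normProd l
        (Units.map ((A.subtype : ↥A →+* L) : ↥A →* L) ζA) X)
      (Fermat.Agent.ES.KRON.KronNorm10.normProd l
        (Units.map ((IsLocalRing.residue ↥A : ↥A →+* kA) : ↥A →* kA) ζA) x) := by
  obtain ⟨y₁, y₂, h1, h2, h3, h4⟩ := hX
  refine ⟨Fermat.Agent.ES.KRON.KronNorm10.normProd l ζA y₁,
    Fermat.Agent.ES.KRON.KronNorm10.normProd l ζA y₂, ?_, ?_, ?_, ?_⟩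
  · rw [normProd_map]; exact normProd_ne_zero l _ h1
  · rw [normProd_map]; exact normProd_ne_zero l _ h2
  · rw [normProd_map, normProd_map, ← normProd_mul, h3]
  · rw [normProd_map, normProd_map, ← normProd_mul, h4]

end Gauss

/-! ### The reduction of the eigen-relation -/

section Main

variable {L : Type*} [Field L] (A : ValuationSubring L)

set_option quotPrecheck false in
local notation "kA" => IsLocalRing.ResidueField ↥A
set_option quotPrecheck false in
local notation "inc" => coeffMap (A.subtype : ↥A →+* L)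
set_option quotPrecheck false in
local notation "red" =>
  coeffMap (IsLocalRing.residue ↥A : ↥A →+* IsLocalRing.ResidueField ↥A)

/-- **The abstract reduction core of LINK-HECKE.**  `G₀`, `H₀` Gauss-unit fractions with reductions
`u`, `h`; `G = lam·G₀` (`lam ≠ 0`), `H = mu·H₀`; `Nn` with `Nn(q^l) = e · normProd l ζ G` (the
`q`-expansion of the Hecke norm `N_l G`; `e ≠ 0` a constant, e.g. a sign) and the eigen-relation
`Nn = c · G^a · H^p`.  Then `T_l (θ u / u) = a • (θ u / u)` in `k((q))`. -/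
theorem Tform_dlog_eq_zsmul_of_redTo' {l p : ℕ} (hl : l.Prime) (hp : p.Prime) (hlp : l ≠ p)
    (hA : A.LiesOverPrime p) {ζ : Lˣ} (hζ : IsPrimitiveRoot (ζ : L) l)
    {G₀ H₀ : LaurentSeries L} {u h : LaurentSeries kA} (hG : RedTo A G₀ u) (hH : RedTo A H₀ h)
    {lam e : L} (hlam : lam ≠ 0) (he : e ≠ 0) (mu c : L) (a : ℤ) (Nn : LaurentSeries L) :
    haveI : NeZero l := ⟨hl.ne_zero⟩
    qExpand L l Nn = HahnSeries.C e * normProd l ζ (HahnSeries.C lam * G₀) →
    Nn = HahnSeries.C c * (HahnSeries.C lam * G₀) ^ a * (HahnSeries.C mu * H₀) ^ (p : ℤ) →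
    Tform l (dlog u) = a • dlog u := by
  have : NeZero l := ⟨hl.ne_zero⟩
  intro hN hrel
  have := charP_residueField A hp hA
  obtain ⟨hprim, hlk⟩ := isPrimitiveRoot_residue A hl hp hlp hA hζ
  set ζA : (↥A)ˣ := unitOfPowEqOne A hl.pos hζ.pow_eq_one with hζA
  have hmap : Units.map ((A.subtype : ↥A →+* L) : ↥A →* L) ζA = ζ := Units.ext rfl
  set ζk : (kA)ˣ := Units.map ((IsLocalRing.residue ↥A : ↥A →+* kA) : ↥A →* kA) ζA with hζk
  obtain ⟨hG0, hu0⟩ := hG.ne_zero
  obtain ⟨hH0, hh0⟩ := hH.ne_zero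
  -- the two sides as Gauss-unit fractions
  have hnorm : RedTo A (normProd l ζ G₀) (normProd l ζk u) := by
    have := hG.normProd l ζA
    rwa [hmap] at this
  have hrhs : RedTo A (qExpand L l (G₀ ^ a * H₀ ^ (p : ℤ))) (qExpand kA l (u ^ a * h ^ (p : ℤ))) :=
    ((hG.zpow a).mul (hH.zpow p)).qExpand l
  have hCne : ∀ {d : L}, d ≠ 0 → (HahnSeries.C d : LaurentSeries L) ≠ 0 := by
    intro d hd h0
    exact hd (HahnSeries.C_injective (by rw [h0, map_zero]))
  have hCzpow : ∀ (d : L) (n : ℤ), (HahnSeries.C d : LaurentSeries L) ^ n = HahnSeries.C (d ^ n) :=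
    fun d n => (map_zpow₀ (HahnSeries.C : L →+* LaurentSeries L) d n).symm
  rw [normProd_mul, normProd_C, ← mul_assoc, ← map_mul] at hN
  have hlam1 : e * lam ^ (l + 1) ≠ 0 := mul_ne_zero he (pow_ne_zero _ hlam)
  -- `Nn ≠ 0`, hence `c ≠ 0` and `mu ≠ 0`
  have hNn0 : Nn ≠ 0 := by
    intro h0
    rw [h0, map_zero] at hN
    exact mul_ne_zero (hCne hlam1) hnorm.ne_zero.1 hN.symm
  have hp0 : ((p : ℕ) : ℤ) ≠ 0 := by exact_mod_cast hp.ne_zero
  have hmu : mu ≠ 0 := by
    rintro rfl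
    rw [map_zero, zero_mul, zero_zpow _ hp0, mul_zero] at hrel
    exact hNn0 hrel
  have hc : c ≠ 0 := by
    rintro rfl
    rw [map_zero, zero_mul, zero_mul] at hrel
    exact hNn0 hrel
  -- the relation with the constants collected
  have hrel' : Nn = HahnSeries.C (c * lam ^ a * mu ^ (p : ℤ)) * (G₀ ^ a * H₀ ^ (p : ℤ)) := by
    rw [hrel, mul_zpow, mul_zpow, hCzpow, hCzpow, map_mul, map_mul]
    ring
  set c' : L := (e * lam ^ (l + 1))⁻¹ * (c * lam ^ a * mu ^ (p : ℤ)) with hc'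
  have hkey : normProd l ζ G₀ = HahnSeries.C c' * qExpand L l (G₀ ^ a * H₀ ^ (p : ℤ)) := by
    have h1 : HahnSeries.C (e * lam ^ (l + 1)) * normProd l ζ G₀ =
        HahnSeries.C (c * lam ^ a * mu ^ (p : ℤ)) * qExpand L l (G₀ ^ a * H₀ ^ (p : ℤ)) := by
      rw [← hN, hrel', map_mul, qExpand_C]
    apply mul_left_cancel₀ (hCne hlam1)
    rw [h1, hc', ← mul_assoc, ← map_mul, ← mul_assoc, mul_inv_cancel₀ hlam1, one_mul]
  -- Gauss lemma
  have hnorm' : RedTo A (HahnSeries.C c' * qExpand L l (G₀ ^ a * H₀ ^ (p : ℤ))) (normProd l ζk u) := by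
    rw [← hkey]; exact hnorm
  obtain ⟨cA, hcA, -, hred⟩ := hrhs.const_mul hnorm'
  have hcbar : IsLocalRing.residue ↥A cA ≠ 0 := by
    intro h0
    rw [IsLocalRing.residue_eq_zero_iff] at h0
    exact (IsLocalRing.mem_maximalIdeal cA).mp h0 hcA
  have hGk : qExpand kA l (HahnSeries.C (IsLocalRing.residue ↥A cA) * (u ^ a * h ^ (p : ℤ))) =
      normProd l ζk u := by
    rw [map_mul, qExpand_C, hred]
  have hfin := dlog_eq_Tform_of_normProd hlk hprim hu0 hGk
  rw [← hfin, dlog_C_mul hcbar (mul_ne_zero (zpow_ne_zero _ hu0) (zpow_ne_zero _ hh0)),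
    dlog_mul (zpow_ne_zero _ hu0) (zpow_ne_zero _ hh0), dlog_zpow, dlog_zpow,
    natCast_zsmul_eq_zero p, add_zero]

/-- The same with `e = 1`. -/
theorem Tform_dlog_eq_zsmul_of_redTo {l p : ℕ} (hl : l.Prime) (hp : p.Prime) (hlp : l ≠ p)
    (hA : A.LiesOverPrime p) {ζ : Lˣ} (hζ : IsPrimitiveRoot (ζ : L) l)
    {G₀ H₀ : LaurentSeries L} {u h : LaurentSeries kA} (hG : RedTo A G₀ u) (hH : RedTo A H₀ h)
    {lam : L} (hlam : lam ≠ 0) (mu c : L) (a : ℤ) (Nn : LaurentSeries L) :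
    haveI : NeZero l := ⟨hl.ne_zero⟩
    qExpand L l Nn = normProd l ζ (HahnSeries.C lam * G₀) →
    Nn = HahnSeries.C c * (HahnSeries.C lam * G₀) ^ a * (HahnSeries.C mu * H₀) ^ (p : ℤ) →
    Tform l (dlog u) = a • dlog u := by
  have : NeZero l := ⟨hl.ne_zero⟩
  intro hN hrel
  refine Tform_dlog_eq_zsmul_of_redTo' A hl hp hlp hA hζ hG hH hlam one_ne_zero mu c a Nn ?_ hrel
  rw [map_one, one_mul]
  exact hN

/-- `G = lam · y₁ / y₂` with `lam ≠ 0` a constant and `y₁, y₂` `A`-integral series with nonzero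
reductions (a Gauss normalisation of `G`, as produced by `GaussUnit25.exists_integral_fraction`). -/
structure IsGaussFrac (G : LaurentSeries L) (y₁ y₂ : LaurentSeries ↥A) (lam : L) : Prop where
  lam_ne : lam ≠ 0
  red₁ : red y₁ ≠ 0
  red₂ : red y₂ ≠ 0
  eq : G * inc y₂ = HahnSeries.C lam * inc y₁

variable {A}

theorem IsGaussFrac.redTo {G : LaurentSeries L} {y₁ y₂ : LaurentSeries ↥A} {lam : L}
    (hG : IsGaussFrac A G y₁ y₂ lam) : RedTo A (HahnSeries.C lam⁻¹ * G) (red y₁ / red y₂) := by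
  refine ⟨y₁, y₂, hG.red₁, hG.red₂, ?_, div_mul_cancel₀ _ hG.red₂⟩
  rw [mul_assoc, hG.eq, ← mul_assoc, ← map_mul, inv_mul_cancel₀ hG.lam_ne, map_one, one_mul]

theorem IsGaussFrac.eq_C_mul {G : LaurentSeries L} {y₁ y₂ : LaurentSeries ↥A} {lam : L}
    (hG : IsGaussFrac A G y₁ y₂ lam) : G = HahnSeries.C lam * (HahnSeries.C lam⁻¹ * G) := by
  rw [← mul_assoc, ← map_mul, mul_inv_cancel₀ hG.lam_ne, map_one, one_mul]

/-- Two Gauss normalisations of the same series have reductions differing by a nonzero constant. -/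
theorem IsGaussFrac.red_unique {G : LaurentSeries L} {y₁ y₂ w₁ w₂ : LaurentSeries ↥A} {lam lam' : L}
    (hG : IsGaussFrac A G y₁ y₂ lam) (hG' : IsGaussFrac A G w₁ w₂ lam') :
    ∃ d : kA, d ≠ 0 ∧ red w₁ / red w₂ = HahnSeries.C d * (red y₁ / red y₂) := by
  have h1 := hG.redTo
  have h2 : RedTo A (HahnSeries.C (lam'⁻¹ * lam) * (HahnSeries.C lam⁻¹ * G)) (red w₁ / red w₂) := by
    have := hG'.redTo
    rwa [map_mul, mul_assoc, ← hG.eq_C_mul]
  obtain ⟨cA, hu, -, hr⟩ := h1.const_mul h2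
  refine ⟨IsLocalRing.residue ↥A cA, ?_, hr⟩
  intro h0
  rw [IsLocalRing.residue_eq_zero_iff] at h0
  exact (IsLocalRing.mem_maximalIdeal cA).mp h0 hu

/-- ... hence the same `θ`-logarithmic derivative. -/
theorem IsGaussFrac.dlog_unique {G : LaurentSeries L} {y₁ y₂ w₁ w₂ : LaurentSeries ↥A}
    {lam lam' : L} (hG : IsGaussFrac A G y₁ y₂ lam) (hG' : IsGaussFrac A G w₁ w₂ lam') :
    dlog (red w₁ / red w₂) = dlog (red y₁ / red y₂) := by
  obtain ⟨d, hd, h⟩ := hG.red_unique hG'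
  rw [h, dlog_C_mul hd (div_ne_zero hG.red₁ hG.red₂)]

variable (A)

/-- **LINK-HECKE, reduction core, in terms of Gauss normalisations.**  `G`, `H` Laurent series over
`L` with Gauss normalisations `G = lam·y₁/y₂`, `H = mu·z₁/z₂`; `Nn(q^l) = e · normProd l ζ G`
(`e ≠ 0`); `Nn = c · G^a · H^p`.  Then `ū := ȳ₁/ȳ₂` satisfies `T_l (θ ū / ū) = a • (θ ū / ū)`. -/
theorem Tform_dlog_eq_zsmul' {l p : ℕ} (hl : l.Prime) (hp : p.Prime) (hlp : l ≠ p)
    (hA : A.LiesOverPrime p) {ζ : Lˣ} (hζ : IsPrimitiveRoot (ζ : L) l)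
    {G H : LaurentSeries L} {y₁ y₂ z₁ z₂ : LaurentSeries ↥A} {lam mu : L}
    (hG : IsGaussFrac A G y₁ y₂ lam) (hH : IsGaussFrac A H z₁ z₂ mu) {e : L} (he : e ≠ 0) (c : L)
    (a : ℤ) (Nn : LaurentSeries L) :
    haveI : NeZero l := ⟨hl.ne_zero⟩
    qExpand L l Nn = HahnSeries.C e * normProd l ζ G →
    Nn = HahnSeries.C c * G ^ a * H ^ (p : ℤ) →
    Tform l (dlog (red y₁ / red y₂)) = a • dlog (red y₁ / red y₂) := by
  have : NeZero l := ⟨hl.ne_zero⟩
  intro hN hrel
  refine Tform_dlog_eq_zsmul_of_redTo' A hl hp hlp hA hζ hG.redTo hH.redTo hG.lam_ne he mu c a Nn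
    ?_ ?_
  · rw [← hG.eq_C_mul]; exact hN
  · rw [← hG.eq_C_mul, ← hH.eq_C_mul]; exact hrel

/-- The same with `e = 1`. -/
theorem Tform_dlog_eq_zsmul {l p : ℕ} (hl : l.Prime) (hp : p.Prime) (hlp : l ≠ p)
    (hA : A.LiesOverPrime p) {ζ : Lˣ} (hζ : IsPrimitiveRoot (ζ : L) l)
    {G H : LaurentSeries L} {y₁ y₂ z₁ z₂ : LaurentSeries ↥A} {lam mu : L}
    (hG : IsGaussFrac A G y₁ y₂ lam) (hH : IsGaussFrac A H z₁ z₂ mu) (c : L)
    (a : ℤ) (Nn : LaurentSeries L) :
    haveI : NeZero l := ⟨hl.ne_zero⟩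
    qExpand L l Nn = normProd l ζ G →
    Nn = HahnSeries.C c * G ^ a * H ^ (p : ℤ) →
    Tform l (dlog (red y₁ / red y₂)) = a • dlog (red y₁ / red y₂) := by
  have : NeZero l := ⟨hl.ne_zero⟩
  intro hN hrel
  refine Tform_dlog_eq_zsmul' A hl hp hlp hA hζ hG hH one_ne_zero c a Nn ?_ hrel
  rw [map_one, one_mul]
  exact hN

end Main

/-- Coefficientwise form of an eigen-relation `T_l φ = a • φ`. -/
theorem Tform_eq_zsmul_coeff {k : Type*} [Field k] {l : ℕ} [NeZero l] {φ : LaurentSeries k} {a : ℤ}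
    (h : Tform l φ = a • φ) (n : ℤ) :
    φ.coeff ((l : ℤ) * n) + (if (l : ℤ) ∣ n then (l : k) * φ.coeff (n / l) else 0) =
      (a : k) * φ.coeff n := by
  rw [← Tform_coeff, h, HahnSeries.coeff_smul, zsmul_eq_mul]


end Fermat.Agent.M1.Link.HeckeRed41
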