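/-
M1 (row 38, S44), chapter LINK, brick LK6 part (a) (helper8): **a correspondence preserves the kernel
of the reduction of divisors**, ABSTRACT form (report #1169).

Setting: `L` algebraically closed of characteristic `0`, `A : ValuationSubring L`, `k = A/𝔪`
algebraically closed; `F`, `F'` function fields over `L`, `φ ψ : F →ₐ[L] F'` integral, `φ` finite
(in the application `φ = β`, `ψ = α`, so that `ψ_* φ^* = T_ℓ`); `T : TwoCharts A hx Ft` the two-chart
model of `F` with its reduction map `T.r` on places.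

* `map_eq_zero_of_fibre_const` : an additive map on divisors which is constant on the fibres of `r`
  (on points) kills the kernel of `r_*`;
* `chi_eq_of_rAt_eq`, `rAt_eq_of_chi_eq` : `r(v) = r(v') ↔ χ_v = χ_{v'}` inside one chart;
* `exists_sep` : separation of finitely many centres by an element of the chart ring;
* `chart_key` : inside one chart `S`, localised at `d`: if the coefficients of the characteristic
  polynomials `Ψ_g` (`g ∈ B`) lie in `B[1/d]` and the correspondence preserves the chart, then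
  `r v = r v' → r_* (ψ_* φ^* [v]) = r_* (ψ_* φ^* [v'])`;
* `mapDomain_correspondence_eq_zero` : the global statement for a `TwoCharts`.
-/
import Mathlib
import Fermat.Agent.ES.RED.TwoCharts8
import Fermat.Agent.ES.HECKE.ValueFormula28
import Fermat.Agent.ES.HECKE.PointFormula28

set_option autoImplicit false
set_option linter.unusedSectionVars false

noncomputable section

open AlgebraicCurve Polynomial

namespace Fermat.Agent.M1.Link.HeckeRedAbs8

open Fermat.Agent.X0.FF Fermat.Agent.ES.RED.PlaceValue13 Fermat.Agent.ES.RED.Contract8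
open Fermat.Agent.ES.RED.TwoCharts8 Fermat.Agent.ES.HECKE.ValueFormula28
open Fermat.Agent.ES.HECKE.PointFormula28

/-! ### 1. Maps constant on the fibres of `r` -/

section Fibre

variable {P Q G : Type*} [AddCommGroup G]

/-- An additive map on `P →₀ ℤ` which takes the same value on `[v]` and `[v']` whenever
`r v = r v'` kills the kernel of `mapDomain r`. -/
theorem map_eq_zero_of_fibre_const (r : P → Q) (Lm : (P →₀ ℤ) →+ G)
    (h : ∀ v v', r v = r v' → Lm (Finsupp.single v 1) = Lm (Finsupp.single v' 1))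
    (D : P →₀ ℤ) (hD : Finsupp.mapDomain r D = 0) : Lm D = 0 := by
  classical
  rcases isEmpty_or_nonempty P with hP | hP
  · have : D = 0 := by
      ext v
      exact (hP.false v).elim
    rw [this, map_zero]
  obtain ⟨v₀⟩ := hP
  let s : Q → P := fun y => if hy : ∃ v, r v = y then hy.choose else v₀
  have hs : ∀ v, r (s (r v)) = r v := by
    intro v
    have hy : ∃ v', r v' = r v := ⟨v, rfl⟩
    show r (if hy : ∃ v', r v' = r v then hy.choose else v₀) = r v
    rw [dif_pos hy]
    exact hy.choose_spec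
  have key : ∀ E : P →₀ ℤ, Lm E = Lm (Finsupp.mapDomain s (Finsupp.mapDomain r E)) := by
    intro E
    induction E using Finsupp.induction_linear with
    | zero => simp
    | add E E' hE hE' =>
      rw [map_add, Finsupp.mapDomain_add, Finsupp.mapDomain_add, map_add, ← hE, ← hE']
    | single v n =>
      rw [Finsupp.mapDomain_single, Finsupp.mapDomain_single]
      have h1 : ∀ u : P, Lm (Finsupp.single u n) = n • Lm (Finsupp.single u 1) := by
        intro u
        rw [← map_zsmul, Finsupp.smul_single, smul_eq_mul, mul_one]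
      rw [h1 v, h1 (s (r v)), h v (s (r v)) (hs v).symm]
  rw [key D, hD, Finsupp.mapDomain_zero, map_zero]

end Fibre

variable {L : Type*} [Field L] [IsAlgClosed L] {A : ValuationSubring L}
variable {F : Type*} [Field F] [Algebra L F] {x : F} {hx : IsGen L x}
variable {Ft : Type*} [Field Ft] [Algebra (kA A) Ft]

/-! ### 2. Centres and places inside one chart -/

section Centres

variable (S : ChartSpec A hx Ft) (hS : HasPlaces S) (htr : Transcendental (kA A) (S.red S.sB))

/-- the same centre gives the same place. -/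
theorem rAt_eq_of_chi_eq {v v' : Place L F} (hv : S.InChart v) (hv' : S.InChart v')
    (h : ∀ b : ↥S.B, S.chi v hv b = S.chi v' hv' b) :
    rAt hS htr v hv = rAt hS htr v' hv' := by
  apply Place.ext
  ext y
  show y ∈ (rAt hS htr v hv).toValuationSubring ↔ y ∈ (rAt hS htr v' hv').toValuationSubring
  rw [mem_rAt_iff, mem_rAt_iff]
  constructor
  · rintro ⟨a, d, hd, hy⟩
    exact ⟨a, d, by rwa [← h d], hy⟩
  · rintro ⟨a, d, hd, hy⟩
    exact ⟨a, d, by rwa [h d], hy⟩

variable [IsAlgClosed (kA A)] {xt : Ft} (hxt : IsGen (kA A) xt)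

include hxt in
/-- the same place gives the same centre. -/
theorem chi_eq_of_rAt_eq {v v' : Place L F} (hv : S.InChart v) (hv' : S.InChart v')
    (h : rAt hS htr v hv = rAt hS htr v' hv') (b : ↥S.B) :
    S.chi v hv b = S.chi v' hv' b := by
  have hQ : ∀ y : Ft, y ∈ (rAt hS htr v hv).toValuationSubring ↔ y ∈ S.rSubring v' hv' := by
    intro y
    rw [h]
    exact Iff.rfl
  have h1 := S.valueHom_red_of_eq hxt v' hv' (rAt hS htr v hv) hQ b
  have h2 := valueHom_rAt hxt hS htr v hv b
  rw [← h1, ← h2]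

/-- an inclusion of the kernels of two centres forces their equality. -/
theorem chi_eq_of_ker_le {v v' : Place L F} (hv : S.InChart v) (hv' : S.InChart v')
    (h : RingHom.ker (S.chi v hv) ≤ RingHom.ker (S.chi v' hv')) (b : ↥S.B) :
    S.chi v hv b = S.chi v' hv' b := by
  have h1 : b - S.const (S.ev v hv b) ∈ RingHom.ker (S.chi v hv) := by
    rw [RingHom.mem_ker, ChartSpec.chi_apply, S.ev_sub_const v hv b, map_zero]
  have h2 := h h1
  rw [RingHom.mem_ker, map_sub, sub_eq_zero, S.chi_const] at h2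
  rw [h2, ChartSpec.chi_apply]

end Centres

/-! ### 3. Total versions of the value and of the centre -/

section Total

variable (S : ChartSpec A hx Ft)

open Classical in
/-- the value `g(u) ∈ A` for `u` in the chart (junk value `0` outside). -/
def evT (u : Place L F) (g : ↥S.B) : ↥A := if h : S.InChart u then S.ev u h g else 0

open Classical in
/-- the centre `χ_u(g) ∈ k` for `u` in the chart (junk value `0` outside). -/
def chiT (u : Place L F) (g : ↥S.B) : kA A := if h : S.InChart u then S.chi u h g else 0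

theorem evT_eq {u : Place L F} (h : S.InChart u) (g : ↥S.B) : evT S u g = S.ev u h g :=
  dif_pos h

theorem chiT_eq {u : Place L F} (h : S.InChart u) (g : ↥S.B) : chiT S u g = S.chi u h g :=
  dif_pos h

theorem resA_evT (u : Place L F) (g : ↥S.B) : resA A (evT S u g) = chiT S u g := by
  by_cases h : S.InChart u
  · rw [evT_eq S h, chiT_eq S h, ChartSpec.chi_apply]
  · rw [evT, chiT, dif_neg h, dif_neg h, map_zero]

end Total

/-! ### 4. Separation -/

section Sep

variable (S : ChartSpec A hx Ft) (hS : HasPlaces S) (htr : Transcendental (kA A) (S.red S.sB))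
variable [IsAlgClosed (kA A)] {xt : Ft} (hxt : IsGen (kA A) xt)

include hxt in
/-- **Separation**: for finitely many places `u` of the chart and a place `y₀` of `Ft` there is
`g ∈ B` whose reduction vanishes exactly at those `r(u)` which are equal to `y₀`. -/
theorem exists_sep (rr : Place L F → Place (kA A) Ft)
    (hrr : ∀ (P : Place L F) (hP : S.InChart P), rr P = rAt hS htr P hP)
    (U : Finset (Place L F)) (hU : ∀ u ∈ U, S.InChart u) (y₀ : Place (kA A) Ft) :
    ∃ g : ↥S.B, ∀ u ∈ U, (chiT S u g = 0 ↔ rr u = y₀) := by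
  classical
  by_cases h0 : ∃ u₀ ∈ U, rr u₀ = y₀
  · obtain ⟨u₀, hu₀, hy₀⟩ := h0
    have hc₀ := hU u₀ hu₀
    set I : Ideal ↥S.B := RingHom.ker (S.chi u₀ hc₀) with hI
    set Ub : Finset (Place L F) := U.filter (fun u => rr u ≠ y₀) with hUb
    let f : Place L F → Ideal ↥S.B := fun u =>
      if h : S.InChart u then RingHom.ker (S.chi u h) else ⊤
    have hf : ∀ u (h : S.InChart u), f u = RingHom.ker (S.chi u h) := fun u h => dif_pos h
    have hnot : ¬ ((I : Set ↥S.B) ⊆ ⋃ u ∈ (↑Ub : Set (Place L F)), (f u : Set ↥S.B)) := by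
      intro hsub
      have hp : ∀ u ∈ Ub, u ≠ u₀ → u ≠ u₀ → (f u).IsPrime := by
        intro u hu _ _
        have hcu := hU u (Finset.mem_filter.mp hu).1
        rw [hf u hcu]
        exact RingHom.ker_isPrime _
      obtain ⟨u, huUb, hle⟩ := (Ideal.subset_union_prime u₀ u₀ hp).mp hsub
      have hcu := hU u (Finset.mem_filter.mp huUb).1
      rw [hf u hcu] at hle
      have h1 := rAt_eq_of_chi_eq S hS htr hc₀ hcu (chi_eq_of_ker_le S hc₀ hcu hle)
      apply (Finset.mem_filter.mp huUb).2
      rw [hrr u hcu, ← h1, ← hrr u₀ hc₀, hy₀]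
    obtain ⟨g, hgI, hgU⟩ := Set.not_subset.mp hnot
    refine ⟨g, fun u hu => ?_⟩
    have hcu := hU u hu
    rw [chiT_eq S hcu]
    by_cases hyu : rr u = y₀
    · have h2 : rAt hS htr u₀ hc₀ = rAt hS htr u hcu := by
        rw [← hrr u₀ hc₀, ← hrr u hcu, hy₀, hyu]
      have h3 := chi_eq_of_rAt_eq S hS htr hxt hc₀ hcu h2 g
      rw [← h3]
      exact ⟨fun _ => hyu, fun _ => hgI⟩
    · constructor
      · intro hz
        exfalso
        apply hgU
        refine Set.mem_iUnion₂.mpr ⟨u, Finset.mem_coe.mpr (Finset.mem_filter.mpr ⟨hu, hyu⟩), ?_⟩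
        rw [hf u hcu]
        exact hz
      · intro h
        exact absurd h hyu
  · refine ⟨1, fun u hu => ?_⟩
    have hcu := hU u hu
    rw [chiT_eq S hcu, map_one]
    constructor
    · intro h
      exact absurd h one_ne_zero
    · intro h
      exact absurd ⟨u, hu, h⟩ h0

end Sep

/-! ### 5. Counting roots -/

section Count

theorem count_roots_prod {k ι : Type*} [Field k] [DecidableEq k] (s : Finset ι) (a : ι → k)
    (e : ι → ℕ) (c : k) :
    (∏ w ∈ s, (X - C (a w)) ^ e w).roots.count c = ∑ w ∈ s, if a w = c then e w else 0 := by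
  classical
  have hne : ∏ w ∈ s, (X - C (a w)) ^ e w ≠ 0 :=
    Finset.prod_ne_zero_iff.mpr fun w _ => pow_ne_zero _ (X_sub_C_ne_zero _)
  rw [Polynomial.roots_prod _ _ hne, Multiset.count_bind, Finset.sum_eq_multiset_sum]
  congr 1
  refine Multiset.map_congr rfl fun w _ => ?_
  rw [Polynomial.roots_pow, roots_X_sub_C, Multiset.count_nsmul, Multiset.count_singleton]
  split_ifs with h1 h2 h2
  · simp
  · exact absurd h1.symm h2
  · exact absurd h2.symm h1
  · simp

end Count

/-! ### 6. The key statement inside one chart -/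

section Key

variable [CharZero L]
variable (S : ChartSpec A hx Ft) (hS : HasPlaces S) (htr : Transcendental (kA A) (S.red S.sB))
variable [IsAlgClosed (kA A)] {xt : Ft} (hxt : IsGen (kA A) xt)
variable {F' : Type*} [Field F'] [Algebra L F'] [HasPrincipalDivisors L F'] {x' : F'}
  (hx' : IsGen L x')
variable (φ ψ : F →ₐ[L] F') (hφ : φ.toRingHom.IsIntegral) (hψ : ψ.toRingHom.IsIntegral)
  (hfin : FiniteAlong L φ)

/-- the polynomial of the values of `g` on `ψ_* φ^* [v]`, over `A`. -/
def intPoly (v : Place L F) (g : ↥S.B) : (↥A)[X] :=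
  ∏ w ∈ Place.fiberAlong φ hφ v,
    (X - C (evT S (w.restrictAlong ψ hψ) g)) ^ (w.ramificationIndexAlong φ)

/-- the polynomial of the reduced values of `g` on `ψ_* φ^* [v]`, over `k`. -/
def redPoly (v : Place L F) (g : ↥S.B) : (kA A)[X] :=
  ∏ w ∈ Place.fiberAlong φ hφ v,
    (X - C (chiT S (w.restrictAlong ψ hψ) g)) ^ (w.ramificationIndexAlong φ)

theorem intPoly_map_res (v : Place L F) (g : ↥S.B) :
    (intPoly S φ ψ hφ hψ v g).map (resA A) = redPoly S φ ψ hφ hψ v g := by
  simp only [intPoly, redPoly, Polynomial.map_prod, Polynomial.map_pow, Polynomial.map_sub,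
    Polynomial.map_X, Polynomial.map_C, resA_evT]

theorem intPoly_map_subtype (v : Place L F) (g : ↥S.B) :
    (intPoly S φ ψ hφ hψ v g).map A.subtype =
      fibrePolyAlong φ hφ v (fun w => ((evT S (w.restrictAlong ψ hψ) g : ↥A) : L)) := by
  simp only [intPoly, fibrePolyAlong, Polynomial.map_prod, Polynomial.map_pow, Polynomial.map_sub,
    Polynomial.map_X, Polynomial.map_C]
  rfl

/-- the values of `ψ g` on the fibre of `v`. -/
theorem hval_of_stab (v : Place L F) (g : ↥S.B)
    (hstab : ∀ w ∈ Place.fiberAlong φ hφ v, S.InChart (w.restrictAlong ψ hψ)) :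
    ∀ w ∈ Place.fiberAlong φ hφ v,
      ψ (g : F) = algebraMap L F' ((evT S (w.restrictAlong ψ hψ) g : ↥A) : L) ∨
        0 < w.ord (ψ (g : F) - algebraMap L F' ((evT S (w.restrictAlong ψ hψ) g : ↥A) : L)) := by
  intro w hw
  have hu := hstab w hw
  rw [evT_eq S hu]
  set u := w.restrictAlong ψ hψ with hu_def
  set c : L := ((S.ev u hu g : ↥A) : L) with hc
  have h0 := (S.ev_eq_zero_iff u hu (g - S.const (S.ev u hu g))).mp (S.ev_sub_const u hu g)
  have hcoe : ((g - S.const (S.ev u hu g) : ↥S.B) : F) = (g : F) - algebraMap L F c := rfl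
  rw [hcoe] at h0
  have hψ' : ψ ((g : F) - algebraMap L F c) = ψ (g : F) - algebraMap L F' c := by
    rw [map_sub, ψ.commutes]
  rcases h0 with h0 | h0
  · left
    have := congrArg ψ h0
    rw [hψ', map_zero, sub_eq_zero] at this
    exact this
  · right
    rw [← hψ', Place.ord_restrictAlong ψ hψ w]
    have he : 0 < Place.ramificationIndexAlong ψ w := by
      let _ := algebraAlong ψ
      have := isScalarTower_along ψ
      have := isIntegral_along ψ hψ
      exact Place.ramificationIndex_pos (F := F) w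
    have he' : (0 : ℤ) < (Place.ramificationIndexAlong ψ w : ℤ) := by exact_mod_cast he
    exact mul_pos he' h0

include hx' in
/-- the value at `v` of a coefficient of `Ψ_g`, cleared of its denominator. -/
theorem ev_pow_mul_coeff_intPoly (v : Place L F) (hv : S.InChart v) (g : ↥S.B)
    (hstab : ∀ w ∈ Place.fiberAlong φ hφ v, S.InChart (w.restrictAlong ψ hψ))
    (d a : ↥S.B) (n i : ℕ)
    (ha : (d : F) ^ n * (charpolyAlong φ hfin (ψ (g : F))).coeff i = (a : F)) :
    S.ev v hv d ^ n * (intPoly S φ ψ hφ hψ v g).coeff i = S.ev v hv a := by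
  obtain ⟨hc, hcv⟩ := charpolyAlong_coeff_value_of_isGen φ hφ hfin hx' v (ψ (g : F))
    (fun w => ((evT S (w.restrictAlong ψ hψ) g : ↥A) : L))
    (hval_of_stab S φ ψ hφ hψ v g hstab) i
  have hval : valueHom hx v ⟨(charpolyAlong φ hfin (ψ (g : F))).coeff i, hc⟩ =
      (((intPoly S φ ψ hφ hψ v g).coeff i : ↥A) : L) := by
    rw [valueHom_eq_iff]
    have : (((intPoly S φ ψ hφ hψ v g).coeff i : ↥A) : L) =
        (fibrePolyAlong φ hφ v
          (fun w => ((evT S (w.restrictAlong ψ hψ) g : ↥A) : L))).coeff i := by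
      rw [← intPoly_map_subtype, Polynomial.coeff_map]
      rfl
    rw [this]
    exact hcv
  apply Subtype.ext
  show ((S.ev v hv d : ↥A) : L) ^ n * (((intPoly S φ ψ hφ hψ v g).coeff i : ↥A) : L) =
    ((S.ev v hv a : ↥A) : L)
  rw [ChartSpec.coe_ev, ChartSpec.coe_ev, ← hval, ← map_pow, ← map_mul]
  congr 1
  exact Subtype.ext ha

include hx' in
/-- the same after reduction. -/
theorem chi_pow_mul_coeff_redPoly (v : Place L F) (hv : S.InChart v) (g : ↥S.B)
    (hstab : ∀ w ∈ Place.fiberAlong φ hφ v, S.InChart (w.restrictAlong ψ hψ))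
    (d a : ↥S.B) (n i : ℕ)
    (ha : (d : F) ^ n * (charpolyAlong φ hfin (ψ (g : F))).coeff i = (a : F)) :
    S.chi v hv d ^ n * (redPoly S φ ψ hφ hψ v g).coeff i = S.chi v hv a := by
  have h := congrArg (resA A) (ev_pow_mul_coeff_intPoly S hx' φ ψ hφ hψ hfin v hv g hstab d a n i ha)
  rw [map_mul, map_pow] at h
  rw [ChartSpec.chi_apply, ChartSpec.chi_apply, ← intPoly_map_res, Polynomial.coeff_map]
  exact h

include hxt hx' in
/-- **the polynomial of reduced values depends only on `r(v)`.** -/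
theorem redPoly_eq (d : ↥S.B)
    (hint : ∀ g : ↥S.B, ∀ i, ∃ n : ℕ,
      (d : F) ^ n * (charpolyAlong φ hfin (ψ (g : F))).coeff i ∈ S.B)
    {v v' : Place L F} (hv : S.InChart v) (hv' : S.InChart v') (hdv : S.chi v hv d ≠ 0)
    (hstab : ∀ w ∈ Place.fiberAlong φ hφ v, S.InChart (w.restrictAlong ψ hψ))
    (hstab' : ∀ w ∈ Place.fiberAlong φ hφ v', S.InChart (w.restrictAlong ψ hψ))
    (hr : rAt hS htr v hv = rAt hS htr v' hv') (g : ↥S.B) :
    redPoly S φ ψ hφ hψ v g = redPoly S φ ψ hφ hψ v' g := by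
  ext i
  obtain ⟨n, hn⟩ := hint g i
  have e1 := chi_pow_mul_coeff_redPoly S hx' φ ψ hφ hψ hfin v hv g hstab d ⟨_, hn⟩ n i rfl
  have e2 := chi_pow_mul_coeff_redPoly S hx' φ ψ hφ hψ hfin v' hv' g hstab' d ⟨_, hn⟩ n i rfl
  rw [← chi_eq_of_rAt_eq S hS htr hxt hv hv' hr, ← chi_eq_of_rAt_eq S hS htr hxt hv hv' hr,
    ← e1] at e2
  exact (mul_left_cancel₀ (pow_ne_zero n hdv) e2).symm

include hxt hx' in
/-- **Key statement in one chart** (localised at `d`): `r v = r v'` implies
`r_* (ψ_* φ^* [v]) = r_* (ψ_* φ^* [v'])`. -/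
theorem chart_key (rr : Place L F → Place (kA A) Ft)
    (hrr : ∀ (P : Place L F) (hP : S.InChart P), rr P = rAt hS htr P hP)
    (d : ↥S.B)
    (hint : ∀ g : ↥S.B, ∀ i, ∃ n : ℕ,
      (d : F) ^ n * (charpolyAlong φ hfin (ψ (g : F))).coeff i ∈ S.B)
    {v v' : Place L F} (hv : S.InChart v) (hv' : S.InChart v') (hdv : S.chi v hv d ≠ 0)
    (hstab : ∀ w ∈ Place.fiberAlong φ hφ v, S.InChart (w.restrictAlong ψ hψ))
    (hstab' : ∀ w ∈ Place.fiberAlong φ hφ v', S.InChart (w.restrictAlong ψ hψ))
    (hr : rr v = rr v') :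
    Finsupp.mapDomain rr (Divisor.correspondence φ ψ hφ hψ (Finsupp.single v 1)) =
      Finsupp.mapDomain rr (Divisor.correspondence φ ψ hφ hψ (Finsupp.single v' 1)) := by
  classical
  have hdeg : ∀ w : Place L F', w.deg = 1 := fun w => deg_eq_one hx' w
  have hE : ∀ v₀ : Place L F,
      Finsupp.mapDomain rr (Divisor.correspondence φ ψ hφ hψ (Finsupp.single v₀ 1)) =
        ∑ w ∈ Place.fiberAlong φ hφ v₀,
          Finsupp.single (rr (w.restrictAlong ψ hψ)) (w.ramificationIndexAlong φ : ℤ) := by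
    intro v₀
    rw [correspondence_single_of_deg φ ψ hφ hψ hdeg, Finsupp.mapDomain_finsetSum]
    refine Finset.sum_congr rfl fun w _ => ?_
    rw [Finsupp.mapDomain_single, one_mul]
  ext y₀
  rw [hE v, hE v', Finsupp.finsetSum_apply, Finsupp.finsetSum_apply]
  simp only [Finsupp.single_apply]
  -- a separating function
  set U : Finset (Place L F) :=
    (Place.fiberAlong φ hφ v ∪ Place.fiberAlong φ hφ v').image (fun w => w.restrictAlong ψ hψ)
    with hU
  have hUc : ∀ u ∈ U, S.InChart u := by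
    intro u hu
    obtain ⟨w, hw, rfl⟩ := Finset.mem_image.mp hu
    rcases Finset.mem_union.mp hw with hw | hw
    · exact hstab w hw
    · exact hstab' w hw
  obtain ⟨g, hg⟩ := exists_sep S hS htr hxt rr hrr U hUc y₀
  have hrAt : rAt hS htr v hv = rAt hS htr v' hv' := by
    rw [← hrr v hv, ← hrr v' hv', hr]
  have hP := redPoly_eq S hS htr hxt hx' φ ψ hφ hψ hfin d hint hv hv' hdv hstab hstab' hrAt g
  have hcount : ∀ v₀ : Place L F, Place.fiberAlong φ hφ v₀ ⊆
      Place.fiberAlong φ hφ v ∪ Place.fiberAlong φ hφ v' →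
      (∑ w ∈ Place.fiberAlong φ hφ v₀,
        if rr (w.restrictAlong ψ hψ) = y₀ then (w.ramificationIndexAlong φ : ℤ) else 0) =
        (((redPoly S φ ψ hφ hψ v₀ g).roots.count 0 : ℕ) : ℤ) := by
    intro v₀ hsub
    rw [redPoly, count_roots_prod, Nat.cast_sum]
    refine Finset.sum_congr rfl fun w hw => ?_
    have hmem : w.restrictAlong ψ hψ ∈ U :=
      Finset.mem_image.mpr ⟨w, hsub hw, rfl⟩
    by_cases hy : rr (w.restrictAlong ψ hψ) = y₀
    · rw [if_pos hy, if_pos ((hg _ hmem).mpr hy)]
    · rw [if_neg hy, if_neg (fun h => hy ((hg _ hmem).mp h)), Nat.cast_zero]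
  rw [hcount v Finset.subset_union_left, hcount v' Finset.subset_union_right, hP]

end Key

/-! ### 7. The global statement -/

section Global

variable [CharZero L] [IsAlgClosed (kA A)] {xt : Ft} (hxt : IsGen (kA A) xt)
variable {F' : Type*} [Field F'] [Algebra L F'] [HasPrincipalDivisors L F'] {x' : F'}
  (hx' : IsGen L x')
variable (T : TwoCharts A hx Ft)
variable (φ ψ : F →ₐ[L] F') (hφ : φ.toRingHom.IsIntegral) (hψ : ψ.toRingHom.IsIntegral)
  (hfin : FiniteAlong L φ)

include hxt hx' in
/-- `r v = r v'` implies `r_* (ψ_* φ^* [v]) = r_* (ψ_* φ^* [v'])`, for a two-chart model whose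
chart `0` is stable under the correspondence (with integral characteristic polynomials), and whose
chart `1` is so on the residue disc `s⁻¹ ≡ 0`, after inverting `d`. -/
theorem mapDomain_correspondence_single_eq
    (hstab0 : ∀ v : Place L F, T.S0.InChart v → ∀ w ∈ Place.fiberAlong φ hφ v,
      T.S0.InChart (w.restrictAlong ψ hψ))
    (hint0 : ∀ g : ↥T.S0.B, ∀ i, (charpolyAlong φ hfin (ψ (g : F))).coeff i ∈ T.S0.B)
    (d : ↥T.S1.B)
    (hd : ∀ (v : Place L F) (h1 : T.S1.InChart v), T.S1.chi v h1 T.S1.sB = 0 →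
      T.S1.chi v h1 d ≠ 0)
    (hstab1 : ∀ (v : Place L F) (h1 : T.S1.InChart v), T.S1.chi v h1 T.S1.sB = 0 →
      ∀ w ∈ Place.fiberAlong φ hφ v, T.S1.InChart (w.restrictAlong ψ hψ))
    (hint1 : ∀ g : ↥T.S1.B, ∀ i, ∃ n : ℕ,
      (d : F) ^ n * (charpolyAlong φ hfin (ψ (g : F))).coeff i ∈ T.S1.B)
    {v v' : Place L F} (hr : T.r v = T.r v') :
    Finsupp.mapDomain T.r (Divisor.correspondence φ ψ hφ hψ (Finsupp.single v 1)) =
      Finsupp.mapDomain T.r (Divisor.correspondence φ ψ hφ hψ (Finsupp.single v' 1)) := by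
  -- chart membership only depends on `r v`
  have h0iff : ∀ {u u' : Place L F}, T.r u = T.r u' → T.S0.InChart u → T.S0.InChart u' := by
    intro u u' huu hu
    apply T.inChart0_of_red_mem hxt
    rw [← huu, T.r_eq0 u hu]
    exact red_mem_rAt T.places0 T.tr0 u hu _
  by_cases h0 : T.S0.InChart v
  · have h0' : T.S0.InChart v' := h0iff hr h0
    refine chart_key T.S0 T.places0 T.tr0 hxt hx' φ ψ hφ hψ hfin T.r (fun P hP => T.r_eq0 P hP) 1
      ?_ h0 h0' ?_ (hstab0 v h0) (hstab0 v' h0') hr
    · intro g i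
      exact ⟨0, by rw [pow_zero, one_mul]; exact hint0 g i⟩
    · rw [map_one]
      exact one_ne_zero
  · have h0' : ¬ T.S0.InChart v' := fun h => h0 (h0iff hr.symm h)
    have h1 : T.S1.InChart v := (T.inChart_or v).resolve_left h0
    have h1' : T.S1.InChart v' := (T.inChart_or v').resolve_left h0'
    have hχ := T.chi1_s_eq_zero v h0 h1
    have hχ' := T.chi1_s_eq_zero v' h0' h1'
    exact chart_key T.S1 T.places1 T.tr1 hxt hx' φ ψ hφ hψ hfin T.r
      (fun P hP => T.r_eq1 hxt P hP) d hint1 h1 h1' (hd v h1 hχ) (hstab1 v h1 hχ)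
      (hstab1 v' h1' hχ') hr

include hxt hx' in
/-- **LK6, abstract form**: the correspondence `ψ_* φ^*` preserves the kernel of `r_*`. -/
theorem mapDomain_correspondence_eq_zero
    (hstab0 : ∀ v : Place L F, T.S0.InChart v → ∀ w ∈ Place.fiberAlong φ hφ v,
      T.S0.InChart (w.restrictAlong ψ hψ))
    (hint0 : ∀ g : ↥T.S0.B, ∀ i, (charpolyAlong φ hfin (ψ (g : F))).coeff i ∈ T.S0.B)
    (d : ↥T.S1.B)
    (hd : ∀ (v : Place L F) (h1 : T.S1.InChart v), T.S1.chi v h1 T.S1.sB = 0 →
      T.S1.chi v h1 d ≠ 0)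
    (hstab1 : ∀ (v : Place L F) (h1 : T.S1.InChart v), T.S1.chi v h1 T.S1.sB = 0 →
      ∀ w ∈ Place.fiberAlong φ hφ v, T.S1.InChart (w.restrictAlong ψ hψ))
    (hint1 : ∀ g : ↥T.S1.B, ∀ i, ∃ n : ℕ,
      (d : F) ^ n * (charpolyAlong φ hfin (ψ (g : F))).coeff i ∈ T.S1.B)
    (D : Divisor L F) (hD : Finsupp.mapDomain T.r D = 0) :
    Finsupp.mapDomain T.r (Divisor.correspondence φ ψ hφ hψ D) = 0 := by
  have h := map_eq_zero_of_fibre_const T.r
    ((Finsupp.mapDomain.addMonoidHom T.r).comp (Divisor.correspondence φ ψ hφ hψ))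
    (fun v v' hr => mapDomain_correspondence_single_eq hxt hx' T φ ψ hφ hψ hfin hstab0 hint0 d hd
      hstab1 hint1 hr) D hD
  exact h

end Global

end Fermat.Agent.M1.Link.HeckeRedAbs8
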