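/-
M1 (row 38, S44), chapter LINK (helper44): the index `d = ψ(lcm(M',4)) / ψ(M')` of the auxiliary level
is `1`, `2` or `6`, hence prime to every prime `p ≥ 5` (hypothesis `hd` of `Core44.link_core_of`).
-/
import Mathlib
import Fermat.Agent.RED.LVL.LevelDegree10

set_option autoImplicit false

open ModularCurve

namespace Fermat.Agent.M1.Link.IndexLcm44

open Fermat.Agent.RED.LVL.LevelDegree10

theorem index_lcm_four_cases {M' : ℕ} (hM' : 0 < M') (d : ℕ)
    (hd : dedekindPsi M' * d = dedekindPsi (Nat.lcm M' 4)) : d = 1 ∨ d = 2 ∨ d = 6 := by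
  have hψ := dedekindPsi_pos hM'
  have h4 : (4 : ℕ) = 2 ^ 2 := by norm_num
  rw [h4] at hd
  rcases lcm_sq_cases Nat.prime_two hM' with ⟨-, h2⟩ | ⟨-, h2⟩ | ⟨-, h2⟩
  · left
    rw [h2] at hd
    exact Nat.eq_of_mul_eq_mul_left hψ (by rw [hd, mul_one])
  · right; left
    rw [h2] at hd
    exact Nat.eq_of_mul_eq_mul_left hψ (by rw [hd]; ring)
  · right; right
    rw [h2] at hd
    exact Nat.eq_of_mul_eq_mul_left hψ (by rw [hd]; ring)

theorem not_dvd_index_lcm_four {p M' : ℕ} (hp : p.Prime) (hp5 : 5 ≤ p) (hM' : 0 < M') (d : ℕ)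
    (hd : dedekindPsi M' * d = dedekindPsi (Nat.lcm M' 4)) : ¬ p ∣ d := by
  intro hpd
  rcases index_lcm_four_cases hM' d hd with rfl | rfl | rfl
  · have := Nat.le_of_dvd one_pos hpd
    omega
  · have := Nat.le_of_dvd two_pos hpd
    omega
  · have h6 := Nat.le_of_dvd (by norm_num) hpd
    have h5 : p = 5 ∨ p = 6 := by omega
    rcases h5 with rfl | rfl
    · norm_num at hpd
    · norm_num at hp

theorem four_dvd_lcm_four (M' : ℕ) : 4 ∣ Nat.lcm M' 4 := Nat.dvd_lcm_right M' 4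

theorem dvd_lcm_four (M' : ℕ) : M' ∣ Nat.lcm M' 4 := Nat.dvd_lcm_left M' 4

theorem not_dvd_lcm_four {p M' : ℕ} (hp : p.Prime) (hp5 : 5 ≤ p) (hpM : ¬ p ∣ M') :
    ¬ p ∣ Nat.lcm M' 4 := by
  intro h
  have h1 : p ∣ M' * 4 := h.trans (Nat.lcm_dvd_mul M' 4)
  rcases hp.dvd_mul.mp h1 with h2 | h2
  · exact hpM h2
  · have := Nat.le_of_dvd (by norm_num) h2
    omega

end Fermat.Agent.M1.Link.IndexLcm44
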