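/-
M1 (row 38, S44), chapter LINK, brick H0 INFTY, packaging (helper8; target = report #1251):

`exists_model_infty` : for a Hauptmodul base `(n, e)` (`BaseHyp n e`, e.g. `(4, 8)`), `n ∣ M`,
`ℓ ∤ M`, `A` over `ℓ`: a two-chart model `T` at level `M` with coefficientwise charts,
`T.S0.s = t`, `IsPlaceReductionAlong A (resA A) M T.r`, `T.r ∞ = ∞bar` and `ord_∞ t < 0`
(from `ES/TOP/ModelAtFinal8.modelAt`, `ES/RED/RedInst15.isPlaceReductionModL_main`,
`Infty8.r_infty`).
-/
import Mathlib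
import Fermat.Agent.ES.RED.RedInst15
import Fermat.Agent.ES.TOP.ModelAtFinal8
import Fermat.Agent.M1.Link.Infty8

set_option autoImplicit false
set_option linter.unusedSectionVars false
set_option synthInstance.maxHeartbeats 400000

noncomputable section

open AlgebraicCurve ModularCurve HahnSeries

namespace Fermat.Agent.M1.Link.InftyModel8

open Fermat.Agent.X0.FF Fermat.Agent.ES.RED.PlaceValue13 Fermat.Agent.ES.RED.Contract8
open Fermat.Agent.ES.RED.TwoCharts8 Fermat.Agent.ES.RED.GaloisInst21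
open Fermat.Agent.M1.Link.QPlace45 Fermat.Agent.M1.Link.Infty8

section Packaging

open Fermat.Agent.RED.Interface4 Fermat.Agent.RED.BASE Fermat.Agent.RED.BASE.Hauptmodul12
  Fermat.Agent.RED.BASE.Interface12

/-- `ord_∞ t = -1` for the Hauptmodul `t = tF M hmem`. -/
theorem ord_inftyL_tF (n e M : ℕ) [NeZero n] [NeZero M] (hmem : TMem n e M) :
    (inftyL Qbar M).ord (tF M hmem) = -1 := by
  rw [ord_inftyL]
  exact TGen19.order_tK n e

/-- **The concrete two-chart model with `r(∞) = ∞bar`** (for `helper45`'s `Intg45.intg`). -/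
theorem exists_model_infty (n e : ℕ) [NeZero n] (hb : BaseHyp n e) (M : ℕ) [NeZero M]
    (hnM : n ∣ M) (ℓ : ℕ) (hℓ : ℓ.Prime) (hℓM : ¬ ℓ ∣ M) (A : ValuationSubring Qbar)
    (hA : A.LiesOverPrime ℓ) :
    ∃ (x : X0.FF M) (hx : IsGen Qbar x)
      (T : TwoCharts A hx ↥(modularFunctionFieldFullC (kA A) M)),
      CoeffChart (F₀ := modularFunctionFieldFull M) T.S0 ∧
      CoeffChart (F₀ := modularFunctionFieldFull M) T.S1 ∧
      T.S0.s = tF M (tMem_of_dvd hb hnM) ∧
      IsPlaceReductionAlong A (resA A) M T.r ∧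
      T.r (inftyL Qbar M) = inftyC (kA A) M ∧
      (inftyL Qbar M).ord (tF M (tMem_of_dvd hb hnM)) < 0 := by
  have : Fact ℓ.Prime := ⟨hℓ⟩
  have : IsAlgClosed (kA A) := Fermat.Agent.ES.KRON.KronInst10.isAlgClosed_residueField A
  obtain ⟨x, hx, T, hS0, hS1, hs0, peel0, peel1⟩ :=
    Fermat.Agent.ES.TOP.ModelAtFinal8.modelAt ℓ hℓ A hA n e hb M hnM hℓM
  have hxt := Fermat.Agent.ES.RED.SpecialGen25.isGen_tRes n e M ℓ hℓM (tMem_of_dvd hb hnM)
    (tGenBase' hb) A hA
  have hord := ord_inftyL_tF n e M (tMem_of_dvd hb hnM)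
  refine ⟨x, hx, T, hS0, hS1, hs0, ?_, ?_, ?_⟩
  · exact Fermat.Agent.ES.RED.RedInst15.isPlaceReductionModL_main n e M ℓ hℓM
      (tMem_of_dvd hb hnM) (tGenBase' hb) A hA T hS0 hS1 hs0 peel0 peel1
  · refine r_infty T hxt hS1 ?_
    rw [T.s_inv, hs0, Place.ord_inv, hord]
    norm_num
  · rw [hord]
    norm_num

end Packaging

end Fermat.Agent.M1.Link.InftyModel8
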