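/-
M1 / LINK, brick K OLDTR, input T1 (helper42; statement by helper74, #1181).

`A` a DVR with fraction field `K`, `L / K` finite separable, `B` the integral closure of `A` in `L`.
If `b ∈ B` lies in every maximal ideal of `B`, then `Tr_{L/K} b ∈ 𝔪_A`.

Proof: `B` is finite free over `A`, so `Tr_{L/K} b = Tr_{B/A} b`, and `Tr_{B/A} b mod 𝔪` is the trace of
`b mod 𝔪B` on the artinian `A/𝔪`-algebra `B/𝔪B`; there `b` lies in every maximal ideal, hence is
nilpotent, hence has trace `0`.
-/
import Mathlib

set_option autoImplicit false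

open scoped nonZeroDivisors

namespace Fermat.Agent.M1.Link.JacTrace42

attribute [local instance] Ideal.Quotient.field

/-- An element of a commutative artinian ring which lies in every maximal ideal is nilpotent. -/
theorem isNilpotent_of_forall_mem_maximal {R : Type*} [CommRing R] [IsArtinianRing R] (x : R)
    (hx : ∀ P : Ideal R, P.IsMaximal → x ∈ P) : IsNilpotent x := by
  have h1 : x ∈ (⊥ : Ideal R).jacobson := by
    rw [Ideal.jacobson, Ideal.mem_sInf]
    rintro J ⟨-, hJ⟩
    exact hx J hJ
  rw [IsArtinianRing.jacobson_eq_radical] at h1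
  exact h1

/-- Local version: `A` local, `B` finite free over `A`; an element of `B` lying in every maximal
ideal of `B` has trace in the maximal ideal of `A`. -/
theorem trace_mem_maximalIdeal_of_free {A B : Type*} [CommRing A] [IsLocalRing A] [CommRing B]
    [Algebra A B] [Module.Free A B] [Module.Finite A B] (b : B)
    (hb : ∀ P : Ideal B, P.IsMaximal → b ∈ P) :
    Algebra.trace A B b ∈ IsLocalRing.maximalIdeal A := by
  set p := IsLocalRing.maximalIdeal A with hp
  set pB := Ideal.map (algebraMap A B) p with hpB
  rw [← Ideal.Quotient.eq_zero_iff_mem, ← Algebra.trace_quotient_mk]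
  have : Module.Finite (A ⧸ p) (B ⧸ pB) :=
    Module.Finite.of_basis (IsLocalRing.basisQuotient (Module.Free.chooseBasis A B))
  have : IsArtinianRing (B ⧸ pB) := IsArtinianRing.of_finite (A ⧸ p) (B ⧸ pB)
  have hnil : IsNilpotent (Ideal.Quotient.mk pB b) := by
    apply isNilpotent_of_forall_mem_maximal
    intro J hJ
    have hJ' : (J.comap (Ideal.Quotient.mk pB)).IsMaximal :=
      Ideal.comap_isMaximal_of_surjective _ Ideal.Quotient.mk_surjective
    exact hb _ hJ'
  exact (Algebra.isNilpotent_trace_of_isNilpotent (R := A ⧸ p) hnil).eq_zero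

/-- **T1 (JacTrace).** -/
theorem trace_mem_maximalIdeal_of_forall_mem_maximal
    {A K L B : Type*} [CommRing A] [IsDomain A] [IsDiscreteValuationRing A] [Field K] [Algebra A K]
    [IsFractionRing A K]
    [Field L] [Algebra K L] [Algebra A L] [IsScalarTower A K L] [FiniteDimensional K L]
    [Algebra.IsSeparable K L]
    [CommRing B] [Algebra A B] [Algebra B L] [IsScalarTower A B L] [IsIntegralClosure B A L]
    (b : B) (hb : ∀ P : Ideal B, P.IsMaximal → b ∈ P) :
    ∃ a ∈ IsLocalRing.maximalIdeal A, algebraMap A K a = Algebra.trace K L (algebraMap B L b) := by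
  have : Module.IsTorsionFree A L := .trans_faithfulSMul A K L
  have : Module.Finite A B := IsIntegralClosure.finite A K L B
  have : Module.Free A B := IsIntegralClosure.module_free A K L B
  have : IsLocalization (Algebra.algebraMapSubmonoid B A⁰) L :=
    IsIntegralClosure.isLocalization A K L B
  refine ⟨Algebra.trace A B b, trace_mem_maximalIdeal_of_free b hb, ?_⟩
  exact (Algebra.trace_localization A A⁰ (Rₘ := K) (Sₘ := L) b).symm

end Fermat.Agent.M1.Link.JacTrace42
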