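/-
M1 / LINK brick K OLDTR, input T1 (helper61; statement by helper74 #1181), Mathlib only:
`A` a DVR with fraction field `K`, `L / K` finite separable, `B` the integral closure of `A` in `L`.
If `b : B` lies in every maximal ideal of `B` then `Tr_{L/K} b` lies in the maximal ideal of `A`.
-/
import Mathlib

set_option autoImplicit false

namespace Fermat.Agent.M1.Link.JacTrace61

open scoped nonZeroDivisors

/-- In a commutative Artinian ring, an element lying in every maximal ideal is nilpotent. -/
theorem isNilpotent_of_forall_mem_maximal {R : Type*} [CommRing R] [IsArtinianRing R] (x : R)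
    (hx : ∀ P : Ideal R, P.IsMaximal → x ∈ P) : IsNilpotent x := by
  have h1 : x ∈ (⊥ : Ideal R).jacobson := by
    rw [Ideal.jacobson, Ideal.mem_sInf]
    intro P hP
    exact hx P hP.2
  rw [IsArtinianRing.jacobson_eq_radical] at h1
  exact mem_nilradical.mp h1

attribute [local instance] Ideal.Quotient.field

theorem trace_mem_maximalIdeal_of_forall_mem_maximal
    {A K L B : Type*} [CommRing A] [IsDomain A] [IsDiscreteValuationRing A] [Field K] [Algebra A K]
    [IsFractionRing A K] [Field L] [Algebra K L] [Algebra A L] [IsScalarTower A K L]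
    [FiniteDimensional K L] [Algebra.IsSeparable K L]
    [CommRing B] [Algebra A B] [Algebra B L] [IsScalarTower A B L] [IsIntegralClosure B A L]
    (b : B) (hb : ∀ P : Ideal B, P.IsMaximal → b ∈ P) :
    ∃ a ∈ IsLocalRing.maximalIdeal A, algebraMap A K a = Algebra.trace K L (algebraMap B L b) := by
  have : Module.IsTorsionFree A L := .trans_faithfulSMul A K L
  have : Module.Finite A B := IsIntegralClosure.finite A K L B
  have : Module.Free A B := IsIntegralClosure.module_free A K L B
  have : IsLocalization (Algebra.algebraMapSubmonoid B A⁰) L :=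
    IsIntegralClosure.isLocalization A K L B
  refine ⟨Algebra.trace A B b, ?_, (Algebra.trace_localization A A⁰ (Rₘ := K) (Sₘ := L) b).symm⟩
  rw [← Ideal.Quotient.eq_zero_iff_mem, ← Algebra.trace_quotient_mk]
  set pB := Ideal.map (algebraMap A B) (IsLocalRing.maximalIdeal A) with hpB
  have : Module.Finite (A ⧸ IsLocalRing.maximalIdeal A) (B ⧸ pB) := inferInstance
  have : IsArtinianRing (B ⧸ pB) :=
    IsArtinianRing.of_finite (A ⧸ IsLocalRing.maximalIdeal A) (B ⧸ pB)
  have hnil : IsNilpotent (Ideal.Quotient.mk pB b) := by
    apply isNilpotent_of_forall_mem_maximal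
    intro Q hQ
    have := hb (Q.comap (Ideal.Quotient.mk pB))
      (Ideal.comap_isMaximal_of_surjective _ Ideal.Quotient.mk_surjective)
    exact this
  exact (Algebra.isNilpotent_trace_of_isNilpotent hnil).eq_zero

end Fermat.Agent.M1.Link.JacTrace61
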