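/-
M1 / LINK brick D RESQ, Part 1 (helper61): Tate's abstract residue on `K((q))` relative to
`K[[q]]` for multiplication operators.  Characteristic free.  The `K`-module structure on
`LaurentSeries K` is the coefficientwise one (`HahnSeries.instModule`).
Main results: `inE_mulL`, `resL_leibniz`, `resL_eq_zero_of_mem`, `resL_Xz`.
-/
import Mathlib
import Fermat.Agent.RR.AbsResidue

set_option autoImplicit false

namespace Fermat.Agent.M1.Link.LaurentRes61

open Fermat.Agent.RR Fermat.Agent.RR.Commens Fermat.Agent.RR.AbsResidue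
open HahnSeries
open scoped KaehlerDifferential

variable (K : Type*) [Field K]

/-- Laurent series with no terms of degree `< -N`. -/
def lowSub (N : ℕ) : Submodule K (LaurentSeries K) where
  carrier := {G | ∀ n : ℤ, n < -(N : ℤ) → G.coeff n = 0}
  add_mem' := by
    intro G H hG hH n hn
    rw [coeff_add, hG n hn, hH n hn, add_zero]
  zero_mem' := fun n _ => rfl
  smul_mem' := by
    intro c G hG n hn
    rw [coeff_smul, hG n hn, smul_zero]

variable {K}

theorem mem_lowSub {N : ℕ} {G : LaurentSeries K} :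
    G ∈ lowSub K N ↔ ∀ n : ℤ, n < -(N : ℤ) → G.coeff n = 0 := Iff.rfl

theorem lowSub_mono {N M : ℕ} (h : N ≤ M) : lowSub K N ≤ lowSub K M := by
  intro G hG n hn
  exact hG n (by omega)

theorem mem_lowSub_iff_order {N : ℕ} {G : LaurentSeries K} (hG : G ≠ 0) :
    G ∈ lowSub K N ↔ -(N : ℤ) ≤ G.order := by
  rw [le_order_iff_forall hG]; rfl

theorem mem_lowSub_zero_iff {G : LaurentSeries K} :
    G ∈ lowSub K 0 ↔ ∀ n : ℤ, n < 0 → G.coeff n = 0 := by
  rw [mem_lowSub]; simp

/-- Products: `lowSub N * lowSub M ⊆ lowSub (N + M)`. -/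
theorem mul_mem_lowSub {N M : ℕ} {G H : LaurentSeries K} (hG : G ∈ lowSub K N)
    (hH : H ∈ lowSub K M) : G * H ∈ lowSub K (N + M) := by
  by_cases hG0 : G = 0
  · rw [hG0, zero_mul]; exact Submodule.zero_mem _
  by_cases hH0 : H = 0
  · rw [hH0, mul_zero]; exact Submodule.zero_mem _
  rw [mem_lowSub_iff_order hG0] at hG
  rw [mem_lowSub_iff_order hH0] at hH
  rw [mem_lowSub_iff_order (mul_ne_zero hG0 hH0), order_mul hG0 hH0]
  push_cast
  omega

/-- The variable `q`. -/
noncomputable def X : LaurentSeries K := single 1 1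

/-- `q ^ n` for an integer `n`. -/
noncomputable def Xz (n : ℤ) : LaurentSeries K := single n 1

theorem Xz_add (m n : ℤ) : (Xz (m + n) : LaurentSeries K) = Xz m * Xz n := by
  unfold Xz
  rw [single_mul_single, mul_one]

theorem Xz_zero : (Xz 0 : LaurentSeries K) = 1 := rfl

theorem Xz_one : (Xz 1 : LaurentSeries K) = X := rfl

theorem Xz_mul_neg (n : ℤ) : (Xz n : LaurentSeries K) * Xz (-n) = 1 := by
  rw [← Xz_add, add_neg_cancel, Xz_zero]

theorem coeff_Xz_mul (n m : ℤ) (G : LaurentSeries K) : (Xz n * G).coeff m = G.coeff (m - n) := by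
  have := coeff_single_mul_add (r := (1 : K)) (x := G) (a := m - n) (b := n)
  rw [sub_add_cancel, one_mul] at this
  exact this

theorem coeff_mul_Xz (n m : ℤ) (G : LaurentSeries K) : (G * Xz n).coeff m = G.coeff (m - n) := by
  rw [mul_comm, coeff_Xz_mul]

theorem Xz_eq_zpow (n : ℤ) : (Xz n : LaurentSeries K) = X ^ n := by
  have hX : (X : LaurentSeries K) * Xz (-1) = 1 := by rw [← Xz_one, Xz_mul_neg]
  have hnat : ∀ k : ℕ, (Xz (k : ℤ) : LaurentSeries K) = X ^ k := by
    intro k
    induction k with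
    | zero => simp [Xz_zero]
    | succ k ih => rw [Nat.cast_succ, Xz_add, ih, Xz_one, pow_succ]
  rcases n with k | k
  · rw [Int.ofNat_eq_natCast, zpow_natCast, hnat]
  · rw [zpow_negSucc, ← hnat, Nat.cast_succ]
    refine eq_inv_of_mul_eq_one_left ?_
    rw [Int.negSucc_eq, ← Xz_add]
    have : -((k : ℤ) + 1) + ((k : ℤ) + 1) = 0 := by ring
    rw [this, Xz_zero]

theorem Xz_mem_lowSub_zero {n : ℤ} (hn : 0 ≤ n) : (Xz n : LaurentSeries K) ∈ lowSub K 0 := by
  rw [mem_lowSub_zero_iff]
  intro m hm
  unfold Xz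
  rw [coeff_single_of_ne]
  omega


/-! ### Multiplication operators and commensurability -/

theorem mul_smul' (c : K) (G H : LaurentSeries K) : G * (c • H) = c • (G * H) := by
  rw [← C_mul_eq_smul, ← C_mul_eq_smul, mul_left_comm]

theorem smul_mul' (c : K) (G H : LaurentSeries K) : (c • G) * H = c • (G * H) := by
  rw [← C_mul_eq_smul, ← C_mul_eq_smul, mul_assoc]

/-- Multiplication by `G` as a `K`-linear endomorphism of `K((q))`. -/
noncomputable def mulL (G : LaurentSeries K) : Module.End K (LaurentSeries K) where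
  toFun H := G * H
  map_add' := mul_add G
  map_smul' c H := mul_smul' c G H

theorem mulL_apply (G H : LaurentSeries K) : mulL G H = G * H := rfl

theorem mulL_mul (G H : LaurentSeries K) : mulL (G * H) = mulL G * mulL H := by
  ext1 a
  rw [Module.End.mul_apply, mulL_apply, mulL_apply, mulL_apply, mul_assoc]

theorem mulL_comm (G H : LaurentSeries K) : mulL G * mulL H = mulL H * mulL G := by
  rw [← mulL_mul, ← mulL_mul, mul_comm]

theorem mulL_add (G H : LaurentSeries K) : mulL (G + H) = mulL G + mulL H := by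
  ext1 a
  rw [LinearMap.add_apply, mulL_apply, mulL_apply, mulL_apply, add_mul]

theorem mulL_smul (c : K) (G : LaurentSeries K) : mulL (c • G) = c • mulL G := by
  ext1 a
  rw [LinearMap.smul_apply, mulL_apply, mulL_apply, smul_mul']

theorem mulL_one : mulL (1 : LaurentSeries K) = 1 := by
  ext1 a
  rw [mulL_apply, one_mul, Module.End.one_apply]

theorem exists_mem_lowSub (G : LaurentSeries K) : ∃ N : ℕ, G ∈ lowSub K N := by
  by_cases hG : G = 0
  · exact ⟨0, hG ▸ Submodule.zero_mem _⟩
  · refine ⟨(-G.order).toNat, ?_⟩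
    rw [mem_lowSub_iff_order hG]
    omega

theorem sub_smul_Xz_mem {N : ℕ} {G : LaurentSeries K} (hG : G ∈ lowSub K (N + 1)) :
    G - G.coeff (-((N : ℤ) + 1)) • Xz (-((N : ℤ) + 1)) ∈ lowSub K N := by
  intro n hn
  rw [coeff_sub, coeff_smul]
  unfold Xz
  by_cases h : n = -((N : ℤ) + 1)
  · rw [h, coeff_single_same, smul_eq_mul, mul_one, sub_self]
  · rw [coeff_single_of_ne h, smul_zero, sub_zero]
    apply hG
    push_cast
    omega

theorem lowSub_succ_prec (N : ℕ) : lowSub K (N + 1) ≺ lowSub K N := by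
  refine ⟨Submodule.span K {Xz (-((N : ℤ) + 1))}, inferInstance, ?_⟩
  intro G hG
  have h1 := sub_smul_Xz_mem hG
  have h2 : G = (G - G.coeff (-((N : ℤ) + 1)) • Xz (-((N : ℤ) + 1)))
      + G.coeff (-((N : ℤ) + 1)) • Xz (-((N : ℤ) + 1)) := by abel
  rw [h2]
  exact Submodule.add_mem_sup h1
    (Submodule.smul_mem _ _ (Submodule.subset_span (Set.mem_singleton _)))

theorem lowSub_prec (N : ℕ) : lowSub K N ≺ lowSub K 0 := by
  induction N with
  | zero => exact prec_refl _
  | succ N ih => exact (lowSub_succ_prec N).trans ih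

theorem map_mulL_le {N : ℕ} {G : LaurentSeries K} (hG : G ∈ lowSub K N) :
    (lowSub K 0).map (mulL G) ≤ lowSub K N := by
  rintro _ ⟨H, hH, rfl⟩
  have := mul_mem_lowSub hG hH
  rw [add_zero] at this
  exact this

/-- Every multiplication operator lies in `E(K[[q]])`. -/
theorem inE_mulL (G : LaurentSeries K) : InE (lowSub K 0) (mulL G) := by
  obtain ⟨N, hN⟩ := exists_mem_lowSub G
  exact (prec_of_le (map_mulL_le hN)).trans (lowSub_prec N)

/-! ### The residue pairing on `K((q))` -/

/-- Tate's residue pairing on `K((q))` relative to `K[[q]]`: `(G, H) ↦ res (G dH)`. -/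
noncomputable def resL (G H : LaurentSeries K) : K := res (lowSub K 0) (mulL G) (mulL H)

theorem resL_add_left (G G' H : LaurentSeries K) : resL (G + G') H = resL G H + resL G' H := by
  unfold resL
  rw [mulL_add]
  exact res_add_left (mulL_comm G H) (mulL_comm G' H) (inE_mulL G) (inE_mulL G') (inE_mulL H)

theorem resL_add_right (G H H' : LaurentSeries K) : resL G (H + H') = resL G H + resL G H' := by
  unfold resL
  rw [mulL_add]
  exact res_add_right (mulL_comm G H) (mulL_comm G H') (inE_mulL G) (inE_mulL H) (inE_mulL H')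

theorem resL_smul_left (c : K) (G H : LaurentSeries K) : resL (c • G) H = c * resL G H := by
  unfold resL
  rw [mulL_smul, res_smul_left]

theorem resL_smul_right (c : K) (G H : LaurentSeries K) : resL G (c • H) = c * resL G H := by
  unfold resL
  rw [mulL_smul, res_smul_right]

theorem resL_zero_left (H : LaurentSeries K) : resL 0 H = 0 := by
  have := resL_smul_left (0 : K) 0 H
  rwa [zero_smul, zero_mul] at this

theorem resL_zero_right (G : LaurentSeries K) : resL G 0 = 0 := by
  have := resL_smul_right (0 : K) G 0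
  rwa [zero_smul, zero_mul] at this

theorem resL_sub_left (G G' H : LaurentSeries K) : resL (G - G') H = resL G H - resL G' H := by
  have := resL_add_left (G - G') G' H
  rw [sub_add_cancel] at this
  rw [this, add_sub_cancel_right]

theorem resL_sub_right (G H H' : LaurentSeries K) : resL G (H - H') = resL G H - resL G H' := by
  have := resL_add_right G (H - H') H'
  rw [sub_add_cancel] at this
  rw [this, add_sub_cancel_right]

theorem resL_one_right (G : LaurentSeries K) : resL G 1 = 0 := by
  unfold resL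
  rw [mulL_one]
  exact res_one_right _

theorem resL_leibniz (F G H : LaurentSeries K) :
    resL F (G * H) = resL (F * G) H + resL (F * H) G := by
  unfold resL
  rw [mulL_mul G H, mulL_mul F G, mulL_mul F H]
  exact res_leibniz (mulL_comm F G) (mulL_comm F H) (mulL_comm G H) (inE_mulL F) (inE_mulL G)
    (inE_mulL H)

/-- `res (G dH) = 0` for power series `G`, `H`. -/
theorem resL_eq_zero_of_mem {G H : LaurentSeries K} (hG : G ∈ lowSub K 0) (hH : H ∈ lowSub K 0) :
    resL G H = 0 := by
  unfold resL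
  exact res_eq_zero_of_stable (mulL_comm G H) (map_mulL_le hG) (map_mulL_le hH)

/-- `res (G d(qⁿ)) = n res (G qⁿ⁻¹ dq)` for natural `n`. -/
theorem resL_Xz_nat (k : ℕ) : ∀ G : LaurentSeries K,
    resL G (Xz (k : ℤ)) = (k : K) * resL (G * Xz ((k : ℤ) - 1)) X := by
  induction k with
  | zero =>
    intro G
    rw [Nat.cast_zero, Nat.cast_zero, zero_mul, Xz_zero, resL_one_right]
  | succ k ih =>
    intro G
    rw [Nat.cast_succ, Xz_add, resL_leibniz, Xz_one, ih (G * X), add_sub_cancel_right]
    have h1 : G * X * Xz ((k : ℤ) - 1) = G * Xz (k : ℤ) := by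
      rw [mul_assoc, ← Xz_one, ← Xz_add, add_sub_cancel]
    rw [h1]
    push_cast
    ring

/-- `res (G d(qⁿ)) = n res (G qⁿ⁻¹ dq)` for every integer `n`. -/
theorem resL_Xz (G : LaurentSeries K) (n : ℤ) :
    resL G (Xz n) = (n : K) * resL (G * Xz (n - 1)) X := by
  rcases Int.eq_nat_or_neg n with ⟨k, rfl | rfl⟩
  · have := resL_Xz_nat k G
    rwa [← Int.cast_natCast (R := K)] at this
  · -- `0 = res (G' d(q^k q^{-k}))` with `G' = G q^{-k}`
    have h0 := resL_leibniz (G * Xz (-(k : ℤ))) (Xz (k : ℤ)) (Xz (-(k : ℤ)))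
    rw [Xz_mul_neg, resL_one_right] at h0
    have h1 : G * Xz (-(k : ℤ)) * Xz (k : ℤ) = G := by
      rw [mul_assoc, mul_comm (Xz (-(k : ℤ))), Xz_mul_neg, mul_one]
    rw [h1, resL_Xz_nat k] at h0
    have h2 : G * Xz (-(k : ℤ)) * Xz (-(k : ℤ)) * Xz ((k : ℤ) - 1) = G * Xz (-(k : ℤ) - 1) := by
      rw [mul_assoc, mul_assoc, ← Xz_add, ← Xz_add]
      congr 2
      ring
    rw [h2] at h0
    rw [Int.cast_neg, Int.cast_natCast, neg_mul]
    exact eq_neg_of_add_eq_zero_left h0.symm

end Fermat.Agent.M1.Link.LaurentRes61
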