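/-
M1 / LINK brick D RESQ, Part 1b (helper61): on `K((q))` relative to `K[[q]]`, Tate's abstract
residue of multiplication operators is the formal residue:
`res (K[[q]]) (G·) (H·) = coeff_{-1} (G · H')`, in every characteristic.
(`K`-module structure on `LaurentSeries K`: the coefficientwise one, `HahnSeries.instModule`.)
-/
import Mathlib
import Fermat.Agent.RR.AbsResidue
import Fermat.Agent.M1.Link.LaurentRes61

set_option autoImplicit false

namespace Fermat.Agent.M1.Link.LaurentResMain61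

open Fermat.Agent.RR Fermat.Agent.RR.Commens Fermat.Agent.RR.AbsResidue
open HahnSeries Fermat.Agent.M1.Link.LaurentRes61

variable {K : Type*} [Field K]

/-! ### Series of order `≥ j` -/

/-- Laurent series all of whose coefficients of index `< j` vanish. -/
def ordSub (K : Type*) [Field K] (j : ℤ) : Submodule K (LaurentSeries K) where
  carrier := {G | ∀ n : ℤ, n < j → G.coeff n = 0}
  add_mem' := by
    intro G H hG hH n hn
    rw [coeff_add, hG n hn, hH n hn, add_zero]
  zero_mem' := fun n _ => rfl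
  smul_mem' := by
    intro c G hG n hn
    rw [coeff_smul, hG n hn, smul_zero]

theorem mem_ordSub {j : ℤ} {G : LaurentSeries K} :
    G ∈ ordSub K j ↔ ∀ n : ℤ, n < j → G.coeff n = 0 := Iff.rfl

theorem lowSub_eq_ordSub (N : ℕ) : lowSub K N = ordSub K (-(N : ℤ)) := rfl

theorem lowSub_zero_eq : lowSub K 0 = ordSub K 0 := by
  ext G
  rw [mem_lowSub_zero_iff, mem_ordSub]

theorem ordSub_anti {i j : ℤ} (h : i ≤ j) : ordSub K j ≤ ordSub K i := by
  intro G hG n hn
  exact hG n (by omega)

theorem mem_ordSub_iff_order {j : ℤ} {G : LaurentSeries K} (hG : G ≠ 0) :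
    G ∈ ordSub K j ↔ j ≤ G.order := by
  rw [le_order_iff_forall hG]; rfl

theorem mul_mem_ordSub {i j : ℤ} {G H : LaurentSeries K} (hG : G ∈ ordSub K i)
    (hH : H ∈ ordSub K j) : G * H ∈ ordSub K (i + j) := by
  by_cases hG0 : G = 0
  · rw [hG0, zero_mul]; exact Submodule.zero_mem _
  by_cases hH0 : H = 0
  · rw [hH0, mul_zero]; exact Submodule.zero_mem _
  rw [mem_ordSub_iff_order hG0] at hG
  rw [mem_ordSub_iff_order hH0] at hH
  rw [mem_ordSub_iff_order (mul_ne_zero hG0 hH0), order_mul hG0 hH0]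
  omega

theorem Xz_mem_ordSub (n : ℤ) : (Xz n : LaurentSeries K) ∈ ordSub K n := by
  intro m hm
  unfold Xz
  rw [coeff_single_of_ne]
  omega

theorem exists_mem_ordSub (G : LaurentSeries K) : ∃ j : ℤ, G ∈ ordSub K j := by
  obtain ⟨N, hN⟩ := exists_mem_lowSub G
  exact ⟨-(N : ℤ), hN⟩

theorem sub_smul_Xz_mem_ordSub {j : ℤ} {G : LaurentSeries K} (hG : G ∈ ordSub K j) :
    G - G.coeff j • Xz j ∈ ordSub K (j + 1) := by
  intro n hn
  rw [coeff_sub, coeff_smul]
  unfold Xz
  by_cases h : n = j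
  · rw [h, coeff_single_same, smul_eq_mul, mul_one, sub_self]
  · rw [coeff_single_of_ne h, smul_zero, sub_zero]
    apply hG
    omega

/-- Division by `q ^ j` of a series of order `≥ j`. -/
theorem exists_eq_Xz_mul {j : ℤ} {G : LaurentSeries K} (hG : G ∈ ordSub K j) :
    ∃ G' ∈ ordSub K 0, G = Xz j * G' := by
  refine ⟨Xz (-j) * G, ?_, ?_⟩
  · have := mul_mem_ordSub (Xz_mem_ordSub (K := K) (-j)) hG
    rwa [neg_add_cancel] at this
  · rw [← mul_assoc, Xz_mul_neg, one_mul]

/-! ### Residues of monomials -/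

theorem mem_map_mulL_X_iff {G : LaurentSeries K} :
    G ∈ (lowSub K 0).map (mulL X) ↔ G ∈ ordSub K 1 := by
  constructor
  · rintro ⟨H, hH, rfl⟩
    rw [mulL_apply, ← Xz_one]
    have hH' : H ∈ ordSub K 0 := by rw [← lowSub_zero_eq]; exact hH
    have := mul_mem_ordSub (Xz_mem_ordSub (K := K) 1) hH'
    rwa [add_zero] at this
  · intro hG
    obtain ⟨G', hG', rfl⟩ := exists_eq_Xz_mul hG
    refine ⟨G', ?_, ?_⟩
    · rw [lowSub_zero_eq]; exact hG'
    · rw [mulL_apply, Xz_one]

theorem finrank_quotient_X :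
    Module.finrank K (↥(lowSub K 0) ⧸
      ((lowSub K 0).map (mulL X)).comap (lowSub K 0).subtype) = 1 := by
  set W := ((lowSub K 0).map (mulL (X : LaurentSeries K))).comap (lowSub K 0).subtype with hW
  have h1mem : (1 : LaurentSeries K) ∈ lowSub K 0 := by
    rw [← Xz_zero]; exact Xz_mem_lowSub_zero le_rfl
  have hne : (W.mkQ ⟨1, h1mem⟩) ≠ 0 := by
    rw [ne_eq, Submodule.mkQ_apply, Submodule.Quotient.mk_eq_zero, hW, Submodule.mem_comap]
    show ¬ (1 : LaurentSeries K) ∈ _
    rw [mem_map_mulL_X_iff, mem_ordSub]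
    intro h
    have := h 0 zero_lt_one
    rw [coeff_one, if_pos rfl] at this
    exact one_ne_zero this
  rw [finrank_eq_one_iff_of_nonzero' _ hne]
  intro w
  obtain ⟨⟨a, ha⟩, rfl⟩ := W.mkQ_surjective w
  refine ⟨a.coeff 0, ?_⟩
  rw [← map_smul, eq_comm, ← sub_eq_zero, ← map_sub, Submodule.mkQ_apply,
    Submodule.Quotient.mk_eq_zero, hW, Submodule.mem_comap]
  show a - a.coeff 0 • (1 : LaurentSeries K) ∈ _
  rw [mem_map_mulL_X_iff, ← Xz_zero]
  have ha' : a ∈ ordSub K 0 := by rw [← lowSub_zero_eq]; exact ha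
  have := sub_smul_Xz_mem_ordSub ha'
  rwa [zero_add] at this


theorem X_mem_lowSub_zero : (X : LaurentSeries K) ∈ lowSub K 0 := by
  rw [← Xz_one]; exact Xz_mem_lowSub_zero zero_le_one

theorem mulL_pow (G : LaurentSeries K) (n : ℕ) : mulL (G ^ n) = mulL G ^ n := by
  induction n with
  | zero => rw [pow_zero, pow_zero, mulL_one]
  | succ n ih => rw [pow_succ, pow_succ, mulL_mul, ih]

theorem Xz_pow (m : ℤ) (n : ℕ) : (Xz m : LaurentSeries K) ^ n = Xz ((n : ℤ) * m) := by
  induction n with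
  | zero => rw [pow_zero, Nat.cast_zero, zero_mul, Xz_zero]
  | succ n ih =>
    rw [pow_succ, ih, ← Xz_add]
    congr 1
    push_cast
    ring

theorem mulL_X_mul_inv : mulL (X : LaurentSeries K) * mulL (Xz (-1)) = 1 := by
  rw [← mulL_mul, ← Xz_one, Xz_mul_neg, mulL_one]

theorem mulL_inv_mul_X : mulL (Xz (-1) : LaurentSeries K) * mulL X = 1 := by
  rw [mulL_comm, mulL_X_mul_inv]

/-- `res (q⁻¹ dq) = 1`. -/
theorem resL_inv_X : resL (Xz (-1) : LaurentSeries K) X = 1 := by
  unfold resL
  rw [res_inv_self (A := lowSub K 0) (f := mulL X) (h := mulL (Xz (-1))) mulL_X_mul_inv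
    mulL_inv_mul_X (inE_mulL _) (map_mulL_le X_mem_lowSub_zero), finrank_quotient_X, Nat.cast_one]

/-- `res (q⁻ⁿ⁻² dq) = 0`. -/
theorem resL_inv_pow_X (n : ℕ) : resL (Xz (-((n : ℤ) + 2)) : LaurentSeries K) X = 0 := by
  have h := res_inv_pow_self (A := lowSub K 0) (f := mulL (X : LaurentSeries K))
    (h := mulL (Xz (-1))) mulL_X_mul_inv mulL_inv_mul_X (inE_mulL _) (inE_mulL _) n
  rw [← mulL_pow, Xz_pow] at h
  unfold resL
  have h2 : ((n + 2 : ℕ) : ℤ) * (-1) = -((n : ℤ) + 2) := by push_cast; ring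
  rw [h2] at h
  exact h

/-- `res (qⁿ dq) = δ_{n,-1}`. -/
theorem resL_Xz_X (n : ℤ) : resL (Xz n : LaurentSeries K) X = if n = -1 then 1 else 0 := by
  by_cases h1 : n = -1
  · rw [if_pos h1, h1, resL_inv_X]
  rw [if_neg h1]
  by_cases h0 : 0 ≤ n
  · exact resL_eq_zero_of_mem (Xz_mem_lowSub_zero h0) X_mem_lowSub_zero
  · have h2 : n = -(((-n - 2).toNat : ℤ) + 2) := by omega
    rw [h2]
    exact resL_inv_pow_X _

/-- `res (G dq) = ` coefficient of `q⁻¹` in `G`. -/
theorem resL_X_of_mem (N : ℕ) : ∀ G : LaurentSeries K, G ∈ ordSub K (-(N : ℤ)) →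
    resL G X = G.coeff (-1) := by
  induction N with
  | zero =>
    intro G hG
    rw [Nat.cast_zero, neg_zero] at hG
    rw [hG (-1) (by omega)]
    rw [← lowSub_zero_eq] at hG
    exact resL_eq_zero_of_mem hG X_mem_lowSub_zero
  | succ N ih =>
    intro G hG
    set j : ℤ := -((N + 1 : ℕ) : ℤ) with hj
    have h1 := sub_smul_Xz_mem_ordSub hG
    have hj1 : j + 1 = -(N : ℤ) := by rw [hj]; push_cast; ring
    rw [hj1] at h1
    have h2 := ih _ h1
    rw [resL_sub_left, resL_smul_left, resL_Xz_X, coeff_sub, coeff_smul] at h2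
    have h3 : (Xz j : LaurentSeries K).coeff (-1) = if j = -1 then 1 else 0 := by
      unfold Xz
      rw [coeff_single]
      by_cases h : j = -1
      · rw [if_pos h, if_pos h.symm]
      · rw [if_neg h, if_neg (fun h' => h h'.symm)]
    rw [h3, smul_eq_mul] at h2
    exact sub_left_injective h2

theorem resL_X (G : LaurentSeries K) : resL G X = G.coeff (-1) := by
  obtain ⟨N, hN⟩ := exists_mem_lowSub G
  exact resL_X_of_mem N G hN

/-- `res (G d(qⁿ)) = n · coeff_{-n} G`. -/
theorem resL_Xz_eq (G : LaurentSeries K) (n : ℤ) : resL G (Xz n) = (n : K) * G.coeff (-n) := by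
  rw [resL_Xz, resL_X, coeff_mul_Xz]
  congr 2
  ring

/-- The tail estimate: `res (G dH) = 0` when `ord G + ord H ≥ 1`. -/
theorem resL_eq_zero_of_ord {i j : ℤ} (hij : 1 ≤ i + j) {G H : LaurentSeries K}
    (hG : G ∈ ordSub K i) (hH : H ∈ ordSub K j) : resL G H = 0 := by
  obtain ⟨H', hH', rfl⟩ := exists_eq_Xz_mul hH
  rw [resL_leibniz, resL_Xz_eq]
  have h1 : G * Xz j ∈ lowSub K 0 := by
    rw [lowSub_zero_eq]
    exact ordSub_anti (by omega) (mul_mem_ordSub hG (Xz_mem_ordSub j))
  have h2 : (G * H').coeff (-j) = 0 := by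
    have := mul_mem_ordSub hG hH'
    exact this (-j) (by omega)
  rw [resL_eq_zero_of_mem h1 (by rw [lowSub_zero_eq]; exact hH'), h2, mul_zero, add_zero]


/-! ### Comparison with the formal derivative -/

/-- The formal residue pairing `(G, H) ↦ coeff_{-1} (G · H')`. -/
noncomputable def dres (G H : LaurentSeries K) : K :=
  (G * LaurentSeries.derivative K H).coeff (-1)

theorem coeff_derivative (H : LaurentSeries K) (n : ℤ) :
    (LaurentSeries.derivative K H).coeff n = ((n + 1 : ℤ) : K) * H.coeff (n + 1) := by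
  rw [LaurentSeries.derivative_apply, LaurentSeries.hasseDeriv_coeff, Nat.cast_one,
    Ring.choose_one_right, zsmul_eq_mul]

theorem dres_add_right (G H H' : LaurentSeries K) : dres G (H + H') = dres G H + dres G H' := by
  unfold dres
  rw [map_add, mul_add, coeff_add]

theorem dres_smul_right (c : K) (G H : LaurentSeries K) : dres G (c • H) = c * dres G H := by
  unfold dres
  rw [map_smul, mul_smul', coeff_smul, smul_eq_mul]

theorem dres_sub_right (G H H' : LaurentSeries K) : dres G (H - H') = dres G H - dres G H' := by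
  unfold dres
  rw [map_sub, mul_sub, coeff_sub]

theorem derivative_Xz (n : ℤ) :
    LaurentSeries.derivative K (Xz n : LaurentSeries K) = (n : K) • Xz (n - 1) := by
  ext m
  rw [coeff_derivative, coeff_smul]
  unfold Xz
  rw [coeff_single, coeff_single, smul_eq_mul]
  by_cases h : m + 1 = n
  · rw [if_pos h, if_pos (by omega), h]
  · rw [if_neg h, if_neg (by omega), mul_zero, mul_zero]

theorem dres_Xz (G : LaurentSeries K) (n : ℤ) : dres G (Xz n) = (n : K) * G.coeff (-n) := by
  unfold dres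
  rw [derivative_Xz, mul_smul', coeff_smul, coeff_mul_Xz, smul_eq_mul]
  congr 2
  ring

theorem derivative_mem_ordSub {j : ℤ} {H : LaurentSeries K} (hH : H ∈ ordSub K j) :
    LaurentSeries.derivative K H ∈ ordSub K (j - 1) := by
  intro n hn
  rw [coeff_derivative, hH (n + 1) (by omega), mul_zero]

theorem dres_eq_zero_of_ord {i j : ℤ} (hij : 1 ≤ i + j) {G H : LaurentSeries K}
    (hG : G ∈ ordSub K i) (hH : H ∈ ordSub K j) : dres G H = 0 := by
  have := mul_mem_ordSub hG (derivative_mem_ordSub hH)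
  exact this (-1) (by omega)

theorem resL_eq_dres_aux {i : ℤ} {G : LaurentSeries K} (hG : G ∈ ordSub K i) (d : ℕ) :
    ∀ H : LaurentSeries K, H ∈ ordSub K (1 - i - d) → resL G H = dres G H := by
  induction d with
  | zero =>
    intro H hH
    rw [Nat.cast_zero, sub_zero] at hH
    rw [resL_eq_zero_of_ord (by omega) hG hH, dres_eq_zero_of_ord (by omega) hG hH]
  | succ d ih =>
    intro H hH
    set j : ℤ := 1 - i - ((d + 1 : ℕ) : ℤ) with hj
    have h1 := sub_smul_Xz_mem_ordSub hH
    have hj1 : j + 1 = 1 - i - (d : ℤ) := by rw [hj]; push_cast; ring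
    rw [hj1] at h1
    have h2 := ih _ h1
    rw [resL_sub_right, dres_sub_right, resL_smul_right, dres_smul_right, resL_Xz_eq, dres_Xz] at h2
    exact sub_left_injective h2

/-- **Tate's residue on `K((q))` is the formal residue**: `res (G dH) = coeff_{-1} (G · H')`,
in every characteristic. -/
theorem resL_eq_dres (G H : LaurentSeries K) : resL G H = dres G H := by
  obtain ⟨i, hG⟩ := exists_mem_ordSub G
  obtain ⟨j, hH⟩ := exists_mem_ordSub H
  by_cases h : 1 - i ≤ j
  · exact resL_eq_dres_aux hG 0 H (by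
      rw [Nat.cast_zero, sub_zero]; exact ordSub_anti h hH)
  · have h2 : j = 1 - i - ((1 - i - j).toNat : ℤ) := by omega
    rw [h2] at hH
    exact resL_eq_dres_aux hG _ H hH

/-- Literal form. -/
theorem res_mulL_eq_coeff (G H : LaurentSeries K) :
    AbsResidue.res (lowSub K 0) (mulL G) (mulL H)
      = (G * LaurentSeries.derivative K H).coeff (-1) :=
  resL_eq_dres G H


/-- `θ`-form: with `θ = q d/dq`, `coeff_{-1} (G · H') = coeff_0 (G · θ H)`. -/
theorem coeff_mul_X_mul_derivative (G H : LaurentSeries K) :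
    (G * (X * LaurentSeries.derivative K H)).coeff 0
      = (G * LaurentSeries.derivative K H).coeff (-1) := by
  rw [mul_left_comm, ← Xz_one, coeff_Xz_mul, zero_sub]

theorem res_mulL_eq_coeff_theta (G H : LaurentSeries K) :
    AbsResidue.res (lowSub K 0) (mulL G) (mulL H)
      = (G * (HahnSeries.single 1 (1 : K) * LaurentSeries.derivative K H)).coeff 0 := by
  rw [res_mulL_eq_coeff]
  exact (coeff_mul_X_mul_derivative G H).symm

end Fermat.Agent.M1.Link.LaurentResMain61
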