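/-
M1 / LINK, brick O2 of #1251 (helper61): level bookkeeping for divisibility of orders.
For a finite extension `F ⊆ F'` of function fields, `ord_Q (u) = e(Q) · ord_{Q|F} (u)`
(Prelude `Place.ord_restrict`); hence `n ∣ ord_{Q'} u` for all places `Q'` of `F` implies
`n ∣ ord_Q u` for all places `Q` of `F'`.  Instantiated for `κ(M') ⊆ κ(M)`, `M' ∣ M`
(`modularFunctionFieldFullC`), with the algebraicity of `κ(M) / κ(M')` reduced to integrality of
the generators `j(q^d)` over `k(j)`.
-/
import Mathlib
import Fermat.Prelude.Def_AlgebraicCurve_DivisorPushPull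
import Fermat.Prelude.Def_AlgebraicCurve_Correspondence
import Fermat.Prelude.Def_ModularCurve_X0ModL

set_option autoImplicit false
set_option linter.style.haveILetI false

namespace Fermat.Agent.M1.Link.LevelOrd61

open AlgebraicCurve IntermediateField ModularCurve

section Abstract

variable {K F F' : Type*} [Field K] [Field F] [Field F'] [Algebra K F] [Algebra K F']
  [Algebra F F'] [IsScalarTower K F F'] [Algebra.IsIntegral F F']

/-- Orders upstairs are multiples of orders downstairs: a divisibility `n ∣ ord_{Q'} u` valid at
all places of `F` persists at all places of a finite extension `F'`. -/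
theorem dvd_ord_algebraMap_of_forall (n : ℤ) (u : F) (h : ∀ Q' : Place K F, n ∣ Q'.ord u)
    (Q : Place K F') : n ∣ Q.ord (algebraMap F F' u) := by
  rw [Q.ord_restrict u]
  exact Dvd.dvd.mul_left (h _) _

theorem ord_algebraMap_eq (u : F) (Q : Place K F') :
    Q.ord (algebraMap F F' u) = (Place.ramificationIndex (F := F) Q : ℤ) * (Q.restrict F).ord u :=
  Q.ord_restrict u

end Abstract

section Inclusion

variable {K L : Type*} [Field K] [Field L] [Algebra K L] {E E' : IntermediateField K L}

/-- The version for two intermediate fields `E ≤ E'` of `L / K`, `E'` algebraic over `E`. -/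
theorem dvd_ord_inclusion_of_forall (hle : E ≤ E') (halg : ∀ x ∈ E', IsIntegral E x) (n : ℤ)
    (u : E) (h : ∀ Q' : Place K E, n ∣ Q'.ord u) (Q : Place K E') :
    n ∣ Q.ord (inclusion hle u) := by
  letI : Algebra E E' := (inclusion hle).toRingHom.toAlgebra
  haveI : IsScalarTower K E E' := IsScalarTower.of_algebraMap_eq fun c => rfl
  haveI : IsScalarTower E E' L := IsScalarTower.of_algebraMap_eq fun c => rfl
  haveI : Algebra.IsIntegral E E' := by
    refine ⟨fun x => ?_⟩
    have hx := halg x x.2
    exact (isIntegral_algebraMap_iff (A := E') (B := L) (R := E)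
      (algebraMap E' L).injective).mp hx
  exact dvd_ord_algebraMap_of_forall n u h Q

end Inclusion

section Level

variable (k : Type*) [Field k] {M' M : ℕ} [NeZero M'] [NeZero M]

/-- **Level bookkeeping**: if `p ∣ ord_{Q'} u` at every place `Q'` of `κ(M')`, then `p ∣ ord_Q u`
at every place `Q` of `κ(M)`, `M' ∣ M`.  The algebraicity of `κ(M)` over `κ(M')` is a hypothesis
(it follows from the modular equations: `IG/VAL/XdIntegral15.xdC_isIntegral_adjoinField`). -/
theorem dvd_ord_fullC_of_forall (hdvd : M' ∣ M)
    (halg : ∀ x ∈ modularFunctionFieldFullC k M, IsIntegral (modularFunctionFieldFullC k M') x)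
    (n : ℤ) (u : modularFunctionFieldFullC k M')
    (h : ∀ Q' : Place k (modularFunctionFieldFullC k M'), n ∣ Q'.ord u)
    (Q : Place k (modularFunctionFieldFullC k M)) :
    n ∣ Q.ord (inclusion (full_degeneracyC_le k hdvd) u) :=
  dvd_ord_inclusion_of_forall _ halg n u h Q

omit [NeZero M'] [NeZero M] in
/-- Algebraicity of `κ(M)` over `κ(M')` from integrality of the generators `j(q^d)`, `d ∣ M`,
over `k(j)`. -/
theorem isIntegral_fullC_of_generators
    (hgen : ∀ (d : ℕ) (_ : NeZero d), d ∣ M →
      IsIntegral (IntermediateField.adjoin k ({jqModC k} : Set (LaurentSeries k)))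
        (qExpand k d (jqModC k))) :
    ∀ x ∈ modularFunctionFieldFullC k M, IsIntegral (modularFunctionFieldFullC k M') x := by
  set E := modularFunctionFieldFullC k M' with hE
  have hj : IntermediateField.adjoin k ({jqModC k} : Set (LaurentSeries k)) ≤ E := by
    rw [adjoin_le_iff]
    rintro x rfl
    exact jqModC_mem_full k M'
  -- generators are integral over `E`
  have hS : ∀ x ∈ divisorExpansionsC k M, IsIntegral E x := by
    rintro x ⟨d, hd, hdM, rfl⟩
    have hint := hgen d hd hdM
    letI : Algebra (IntermediateField.adjoin k ({jqModC k} : Set (LaurentSeries k))) E :=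
      (inclusion hj).toRingHom.toAlgebra
    haveI : IsScalarTower (IntermediateField.adjoin k ({jqModC k} : Set (LaurentSeries k))) E
        (LaurentSeries k) := IsScalarTower.of_algebraMap_eq fun c => rfl
    exact hint.tower_top
  have halg : Algebra.IsAlgebraic E (IntermediateField.adjoin E (divisorExpansionsC k M)) :=
    isAlgebraic_adjoin hS
  have hle : modularFunctionFieldFullC k M
      ≤ (IntermediateField.adjoin E (divisorExpansionsC k M)).restrictScalars k := by
    rw [modularFunctionFieldFullC, adjoin_le_iff]
    intro x hx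
    exact subset_adjoin E _ hx
  intro x hx
  have hx' : x ∈ IntermediateField.adjoin E (divisorExpansionsC k M) := hle hx
  have h1 := (halg.isAlgebraic (⟨x, hx'⟩ : IntermediateField.adjoin E (divisorExpansionsC k M)))
  have h2 : IsAlgebraic E x := by
    have := h1.algebraMap (A := LaurentSeries k)
    exact this
  exact h2.isIntegral

end Level

end Fermat.Agent.M1.Link.LevelOrd61
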