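/-
M1 / LINK brick K OLDTR, input T2 (helper61; literal statement of helper74 #1181):
`MaxCoeff61.hasMaxCoord_qCoeff_of_hasIntegralStructure` with `Fermat.Agent.S23.result` plugged in.
-/
import Fermat.Agent.M1.Link.MaxCoeff61
import Fermat.Agent.S23

set_option autoImplicit false

namespace Fermat.Agent.M1.Link.MaxCoeffS23_61

open Fermat.Agent.X0 Fermat.Agent.M1.Link

/-- **T2**: the `Qbar`-`q`-expansion of a weight two cusp form of level `Γ₀(N)` has a coefficient
of maximal `A`-valuation. -/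
theorem hasMaxCoord_qCoeff (p : ℕ) [Fact p.Prime] (A : ValuationSubring Kbar)
    (hA : A.LiesOverPrime p) (N : ℕ) [NeZero N]
    (f : CuspForm (CongruenceSubgroup.Gamma0 N) 2) (b : ℕ → Kbar)
    (hb : ∀ n, ModularFormClass.qCoeff f n = iotaK (b n)) (hne : b ≠ 0) :
    Lattice93.HasMaxCoord A b :=
  MaxCoeff61.hasMaxCoord_qCoeff_of_hasIntegralStructure p A hA N (Fermat.Agent.S23.result N) f b
    hb hne

end Fermat.Agent.M1.Link.MaxCoeffS23_61
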