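/-
M1 (S44), chapter LINK, brick K OLDTR, input (P2) of `TraceInt74.exists_mul_trace` (helper61;
assignment helper45 #2122): **INTEGRALITY FROM A COEFFICIENT OF MAXIMAL VALUATION**.
Mathlib + Prelude `coeffMap` + `Lattice93.HasMaxCoord`.

`L` a field with a valuation subring `A`, residue map `res`.  `Z ∈ L((q))` zero or with a coefficient
of maximal `A`-valuation; `C ∈ A((q))` with `red C ≠ 0` and `C · Z ∈ A((q))`.  Then `Z ∈ A((q))` and
`red (C · Z) = red C · red Z`  (`exists_lift_of_mul`; `exists_lift_of_mul_nat` for a series given by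
a sequence `b : ℕ → L`).  Proof: `Z = c · Z₀` with `c` the maximal coefficient, `Z₀ ∈ A((q))` with a
coefficient `1`; `red (C · Z₀) = red C · red Z₀ ≠ 0` (`k((q))` is a domain), so `C · Z₀` has a unit
coefficient `u`, and `c · u ∈ A` forces `c ∈ A`.
-/
import Mathlib
import Fermat.Prelude.Def_ModularCurve_LaurentCoeff
import Fermat.Agent.M1.Link.Lattice93

set_option autoImplicit false

noncomputable section

open HahnSeries ModularCurve

namespace Fermat.Agent.M1.Link.MaxInt61

open Fermat.Agent.M1.Link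

variable {L : Type*} [Field L] (A : ValuationSubring L)

/-- A Laurent series over `L` all of whose coefficients lie in `A` comes from `A((q))`. -/
theorem exists_lift_of_coeff_mem (Z : LaurentSeries L) (h : ∀ n, Z.coeff n ∈ A) :
    ∃ Y : LaurentSeries ↥A, coeffMap A.subtype Y = Z := by
  refine ⟨⟨fun n => ⟨Z.coeff n, h n⟩, ?_⟩, ?_⟩
  · refine Z.isPWO_support.mono fun n hn => ?_
    rw [Function.mem_support] at hn
    rw [HahnSeries.mem_support]
    intro h0
    apply hn
    exact Subtype.ext h0
  · ext n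
    rfl

/-- a series over `A` with nonzero reduction has a coefficient which is a unit of `A`. -/
theorem exists_coeff_valuation_eq_one {C : LaurentSeries ↥A}
    (hC : coeffMap (IsLocalRing.residue ↥A) C ≠ 0) :
    ∃ n, A.valuation ((C.coeff n : ↥A) : L) = 1 := by
  by_contra hne
  push Not at hne
  apply hC
  ext n
  rw [coeffMap_coeff, HahnSeries.coeff_zero, IsLocalRing.residue_eq_zero_iff]
  have h1 : A.valuation ((C.coeff n : ↥A) : L) ≤ 1 := (A.valuation_le_one_iff _).mpr (C.coeff n).2
  have h2 : A.valuation ((C.coeff n : ↥A) : L) < 1 := lt_of_le_of_ne h1 (hne n)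
  exact (A.valuation_lt_one_iff _).mpr h2

theorem coeffMap_subtype_injective : Function.Injective (coeffMap A.subtype) := by
  intro x y h
  ext n
  have := congrArg (fun z : LaurentSeries L => z.coeff n) h
  simp only [coeffMap_coeff] at this
  exact this

/-- **Integrality from a coefficient of maximal valuation** (generic form).  `Z ∈ L((q))` is zero
or has a coefficient of maximal `A`-valuation; `C ∈ A((q))` has nonzero reduction and
`C · Z ∈ A((q))`.  Then `Z ∈ A((q))` and `red (C · Z) = red C · red Z`. -/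
theorem exists_lift_of_mul (Z : LaurentSeries L)
    (hmax : Z ≠ 0 → Lattice93.HasMaxCoord A (fun n : ℤ => Z.coeff n))
    (C T : LaurentSeries ↥A) (hC : coeffMap (IsLocalRing.residue ↥A) C ≠ 0)
    (hT : coeffMap A.subtype T = coeffMap A.subtype C * Z) :
    ∃ Y : LaurentSeries ↥A, coeffMap A.subtype Y = Z ∧
      coeffMap (IsLocalRing.residue ↥A) T =
        coeffMap (IsLocalRing.residue ↥A) C * coeffMap (IsLocalRing.residue ↥A) Y := by
  have hfin : ∀ Y : LaurentSeries ↥A, coeffMap A.subtype Y = Z →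
      coeffMap (IsLocalRing.residue ↥A) T =
        coeffMap (IsLocalRing.residue ↥A) C * coeffMap (IsLocalRing.residue ↥A) Y := by
    intro Y hY
    have : T = C * Y := by
      apply coeffMap_subtype_injective A
      rw [hT, map_mul, hY]
    rw [this, map_mul]
  rcases eq_or_ne Z 0 with rfl | hZ0
  · exact ⟨0, map_zero _, hfin 0 (map_zero _)⟩
  obtain ⟨i, hi, hle⟩ := hmax hZ0
  set c : L := Z.coeff i with hc
  -- the normalised series
  have hmem : ∀ n, (HahnSeries.C c⁻¹ * Z).coeff n ∈ A := by
    intro n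
    rw [HahnSeries.C_mul_eq_smul, HahnSeries.coeff_smul, smul_eq_mul]
    exact Lattice93.inv_smul_mem A hi hle n
  obtain ⟨Y₀, hY₀⟩ := exists_lift_of_coeff_mem A _ hmem
  have hY₀i : Y₀.coeff i = 1 := by
    apply Subtype.ext
    have := congrArg (fun z : LaurentSeries L => z.coeff i) hY₀
    simp only [coeffMap_coeff] at this
    rw [ValuationSubring.subtype_apply] at this
    rw [this, HahnSeries.C_mul_eq_smul, HahnSeries.coeff_smul, smul_eq_mul, ← hc,
      inv_mul_cancel₀ hi]
    rfl
  have hredY₀ : coeffMap (IsLocalRing.residue ↥A) Y₀ ≠ 0 := by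
    intro h0
    have := congrArg (fun z : LaurentSeries (IsLocalRing.ResidueField ↥A) => z.coeff i) h0
    simp only [coeffMap_coeff, HahnSeries.coeff_zero] at this
    rw [hY₀i, map_one] at this
    exact one_ne_zero this
  have hredP : coeffMap (IsLocalRing.residue ↥A) (C * Y₀) ≠ 0 := by
    rw [map_mul]
    exact mul_ne_zero hC hredY₀
  obtain ⟨n, hn⟩ := exists_coeff_valuation_eq_one A hredP
  -- `T = c • (C * Y₀)` coefficientwise
  have hTP : coeffMap A.subtype T = HahnSeries.C c * coeffMap A.subtype (C * Y₀) := by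
    rw [hT, map_mul, hY₀, ← mul_assoc, mul_comm (HahnSeries.C c), mul_assoc, ← mul_assoc
      (HahnSeries.C c), ← map_mul, mul_inv_cancel₀ hi, map_one, one_mul]
  have hcA : c ∈ A := by
    rw [← A.valuation_le_one_iff]
    have h1 := congrArg (fun z : LaurentSeries L => z.coeff n) hTP
    simp only [coeffMap_coeff] at h1
    rw [HahnSeries.C_mul_eq_smul, HahnSeries.coeff_smul, smul_eq_mul, coeffMap_coeff] at h1
    have h2 : A.valuation (A.subtype (T.coeff n)) ≤ 1 :=
      (A.valuation_le_one_iff _).mpr (T.coeff n).2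
    rw [h1, map_mul] at h2
    rw [ValuationSubring.subtype_apply] at h2
    rwa [hn, mul_one] at h2
  have hZmem : ∀ m, Z.coeff m ∈ A := by
    intro m
    have h1 : Z.coeff m = c * (HahnSeries.C c⁻¹ * Z).coeff m := by
      rw [HahnSeries.C_mul_eq_smul, HahnSeries.coeff_smul, smul_eq_mul, ← mul_assoc,
        mul_inv_cancel₀ hi, one_mul]
    rw [h1]
    exact A.mul_mem _ _ hcA (hmem m)
  obtain ⟨Y, hY⟩ := exists_lift_of_coeff_mem A Z hZmem
  exact ⟨Y, hY, hfin Y hY⟩

/-- a maximal coordinate of the sequence of coefficients of non-negative index is a maximal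
coefficient of a series without coefficients of negative index. -/
theorem hasMaxCoord_int_of_nat {Z : LaurentSeries L} {b : ℕ → L}
    (hb : Lattice93.HasMaxCoord A b) (hZ : ∀ n : ℕ, Z.coeff (n : ℤ) = b n)
    (hneg : ∀ n : ℤ, n < 0 → Z.coeff n = 0) :
    Lattice93.HasMaxCoord A (fun n : ℤ => Z.coeff n) := by
  obtain ⟨i, hi, hle⟩ := hb
  refine ⟨(i : ℤ), by show Z.coeff (i : ℤ) ≠ 0; rw [hZ]; exact hi, fun j => ?_⟩
  show A.valuation (Z.coeff j) ≤ A.valuation (Z.coeff (i : ℤ))
  rcases lt_or_ge j 0 with hj | hj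
  · rw [hneg j hj, map_zero]
    exact zero_le
  · obtain ⟨m, rfl⟩ := Int.eq_ofNat_of_zero_le hj
    rw [hZ, hZ]
    exact hle m

/-- `exists_lift_of_mul` for a series given by a sequence `b : ℕ → L` which is zero or has a
maximal coordinate. -/
theorem exists_lift_of_mul_nat (Z : LaurentSeries L) (b : ℕ → L)
    (hb : b ≠ 0 → Lattice93.HasMaxCoord A b) (hZ : ∀ n : ℕ, Z.coeff (n : ℤ) = b n)
    (hneg : ∀ n : ℤ, n < 0 → Z.coeff n = 0)
    (C T : LaurentSeries ↥A) (hC : coeffMap (IsLocalRing.residue ↥A) C ≠ 0)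
    (hT : coeffMap A.subtype T = coeffMap A.subtype C * Z) :
    ∃ Y : LaurentSeries ↥A, coeffMap A.subtype Y = Z ∧
      coeffMap (IsLocalRing.residue ↥A) T =
        coeffMap (IsLocalRing.residue ↥A) C * coeffMap (IsLocalRing.residue ↥A) Y := by
  refine exists_lift_of_mul A Z (fun hZ0 => ?_) C T hC hT
  refine hasMaxCoord_int_of_nat A (hb fun hb0 => hZ0 ?_) hZ hneg
  ext n
  rw [HahnSeries.coeff_zero]
  rcases lt_or_ge n 0 with hn | hn
  · exact hneg n hn
  · obtain ⟨m, rfl⟩ := Int.eq_ofNat_of_zero_le hn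
    rw [hZ, hb0]
    rfl

end Fermat.Agent.M1.Link.MaxInt61
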