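/-
M1 (S44), chapter LINK, brick K OLDTR, input (P2), instance (helper61; helper45 #2122):
`MaxInt61.exists_lift_of_mul_nat` with `MaxCoeffS23_61.hasMaxCoord_qCoeff` plugged in — the
`q`-expansion `Z ∈ ℚ̄((q))` of a weight two cusp form of level `Γ₀(N)` with `C · Z ∈ A((q))`,
`red C ≠ 0`, is `A`-integral, and `red (C · Z) = red C · red Z`.  Output in the literal shape of the
`Z` of `Core44.OldTrAt`.
-/
import Fermat.Agent.M1.Link.MaxInt61
import Fermat.Agent.M1.Link.MaxCoeffS23_61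

set_option autoImplicit false

noncomputable section

open HahnSeries ModularCurve ModularFormClass CongruenceSubgroup

namespace Fermat.Agent.M1.Link.MaxIntCusp61

open Fermat.Agent.X0 Fermat.Agent.M1.Link

/-- **Integrality of the `q`-expansion of a weight two cusp form from a multiple.**  `Z ∈ ℚ̄((q))`
the `q`-expansion of `f ∈ S₂(Γ₀(N))`; `C ∈ A((q))` with `red C ≠ 0` and `C · Z = T ∈ A((q))`.  Then
`Z = Y ∈ A((q))` and `red T = red C · red Y`. -/
theorem cuspForm_lift (p : ℕ) [Fact p.Prime] (A : ValuationSubring Kbar) (hA : A.LiesOverPrime p)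
    (N : ℕ) [NeZero N] (f : CuspForm (Gamma0 N) 2) (Z : LaurentSeries Kbar)
    (hZ : ∀ n : ℕ, qCoeff ⇑f n = iotaK (Z.coeff (n : ℤ)))
    (hneg : ∀ n : ℤ, n < 0 → Z.coeff n = 0)
    (C T : LaurentSeries ↥A) (hC : coeffMap (IsLocalRing.residue ↥A) C ≠ 0)
    (hT : coeffMap A.subtype T = coeffMap A.subtype C * Z) :
    ∃ Y : LaurentSeries ↥A, coeffMap A.subtype Y = Z ∧
      (∀ n : ℕ, qCoeff ⇑f n = iotaK ((Y.coeff (n : ℤ) : ↥A) : Kbar)) ∧
      (∀ n : ℤ, n < 0 → Y.coeff n = 0) ∧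
      coeffMap (IsLocalRing.residue ↥A) T =
        coeffMap (IsLocalRing.residue ↥A) C * coeffMap (IsLocalRing.residue ↥A) Y := by
  obtain ⟨Y, hY, hred⟩ := MaxInt61.exists_lift_of_mul_nat A Z (fun n : ℕ => Z.coeff (n : ℤ))
    (fun hne => MaxCoeffS23_61.hasMaxCoord_qCoeff p A hA N f _ hZ hne) (fun _ => rfl) hneg C T hC hT
  have hcoeff : ∀ n : ℤ, ((Y.coeff n : ↥A) : Kbar) = Z.coeff n := by
    intro n
    have := congrArg (fun z : LaurentSeries Kbar => z.coeff n) hY
    simp only [coeffMap_coeff] at this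
    exact this
  refine ⟨Y, hY, fun n => ?_, fun n hn => ?_, hred⟩
  · rw [hZ n, hcoeff]
  · apply Subtype.ext
    rw [hcoeff n, hneg n hn]
    rfl

end Fermat.Agent.M1.Link.MaxIntCusp61
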