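/-
M1 / LINK (helper42): Tate's abstract residue is compatible with a "dense" embedding.

Let `ι : V → V'` be an injective `K`-linear map, `A' ⊆ V'`, `A = ι⁻¹ A'`, and assume
`ι V + A' = V'`.  If `f, g` are commuting endomorphisms of `V` (in Tate's algebra `E A`) and
`f', g'` commuting endomorphisms of `V'` (in `E A'`) with `ι ∘ f = f' ∘ ι`, `ι ∘ g = g' ∘ ι`, then

  `res A f g = res A' f' g'`.

(Typical use: `V = F` a function field, `A = O_v`, `V' = K((q))`, `A' = K[[q]]`.)

Proof: choose a complement `B` of `A` in `V`; then `P = ι B` is a complement of `A'` in `V'`, the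
projection `π'` onto `A'` along `P` preserves `ι V` and is the identity modulo `ι V`, so the
finite potent operator `[π' f', g']` maps `V'` into `ι V` and restricts there to the conjugate of
`[π f, g]`.
-/
import Mathlib
import Fermat.Agent.RR.AbsResidue

set_option autoImplicit false
set_option linter.unusedSectionVars false

open Fermat.Agent.RR Fermat.Agent.RR.Commens Fermat.Agent.RR.AbsResidue

namespace Fermat.Agent.M1.Link.ResCompat42

variable {K V V' : Type*} [Field K] [AddCommGroup V] [Module K V] [AddCommGroup V'] [Module K V']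

/-- The projection onto `A` along a complement `B`, as an endomorphism of `V`. -/
noncomputable def projAlong (A B : Submodule K V) (h : IsCompl A B) : Module.End K V :=
  A.subtype ∘ₗ Submodule.projectionOnto A B h

theorem isProj_projAlong (A B : Submodule K V) (h : IsCompl A B) : IsProj A (projAlong A B h) := by
  refine ⟨fun v => (Submodule.projectionOnto A B h v).2, fun a ha => ?_⟩
  show ((Submodule.projectionOnto A B h a : A) : V) = a
  rw [Submodule.projectionOnto_apply_of_mem_left h ha]

theorem projAlong_apply_right (A B : Submodule K V) (h : IsCompl A B) {b : V} (hb : b ∈ B) :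
    projAlong A B h b = 0 := by
  show ((Submodule.projectionOnto A B h b : A) : V) = 0
  rw [Submodule.projectionOnto_apply_of_mem_right h hb]
  rfl

theorem projAlong_add (A B : Submodule K V) (h : IsCompl A B) {a b : V} (ha : a ∈ A)
    (hb : b ∈ B) : projAlong A B h (a + b) = a := by
  rw [map_add, (isProj_projAlong A B h).apply_mem a ha, projAlong_apply_right A B h hb, add_zero]

theorem projAlong_sub_self_mem (A B : Submodule K V) (h : IsCompl A B) (x : V) :
    projAlong A B h x - x ∈ B := by
  obtain ⟨a, b, rfl, -⟩ := Submodule.existsUnique_add_of_isCompl h x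
  rw [projAlong_add A B h a.2 b.2]
  have : (a : V) - ((a : V) + b) = -(b : V) := by abel
  rw [this]
  exact B.neg_mem b.2

/-- **Compatibility of Tate's residue with a dense embedding.** -/
theorem res_eq_res_of_dense (ι : V →ₗ[K] V') (hι : Function.Injective ι)
    {A : Submodule K V} {A' : Submodule K V'} (hA : ∀ x, x ∈ A ↔ ι x ∈ A')
    (hsum : LinearMap.range ι ⊔ A' = ⊤)
    {f g : Module.End K V} {f' g' : Module.End K V'}
    (hf : ∀ x, ι (f x) = f' (ι x)) (hg : ∀ x, ι (g x) = g' (ι x))
    (hfg : f * g = g * f) (hfg' : f' * g' = g' * f')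
    (hfE : InE A f) (hgE : InE A g) (hfE' : InE A' f') (hgE' : InE A' g') :
    res A f g = res A' f' g' := by
  classical
  obtain ⟨B, hB⟩ := Submodule.exists_isCompl A
  set P : Submodule K V' := B.map ι with hP
  -- `P` is a complement of `A'`
  have hc : IsCompl A' P := by
    constructor
    · rw [Submodule.disjoint_def]
      rintro x hxA ⟨b, hb, rfl⟩
      have hbA : b ∈ A := (hA b).mpr hxA
      have : b ∈ A ⊓ B := ⟨hbA, hb⟩
      rw [hB.inf_eq_bot, Submodule.mem_bot] at this
      rw [this, map_zero]
    · rw [codisjoint_iff, eq_top_iff, ← hsum]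
      refine sup_le ?_ le_sup_left
      rintro _ ⟨x, rfl⟩
      obtain ⟨a, b, rfl, -⟩ := Submodule.existsUnique_add_of_isCompl hB x
      rw [map_add]
      exact Submodule.add_mem_sup ((hA a).mp a.2) ⟨b, b.2, rfl⟩
  set π := projAlong A B hB with hπdef
  set π' := projAlong A' P hc with hπ'def
  have hπ : IsProj A π := isProj_projAlong A B hB
  have hπ' : IsProj A' π' := isProj_projAlong A' P hc
  -- `ι ∘ π = π' ∘ ι`
  have hπι : ∀ x, ι (π x) = π' (ι x) := by
    intro x
    obtain ⟨a, b, rfl, -⟩ := Submodule.existsUnique_add_of_isCompl hB x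
    rw [hπdef, projAlong_add A B hB a.2 b.2, map_add, hπ'def,
      projAlong_add A' P hc ((hA a).mp a.2) ⟨b, b.2, rfl⟩]
  set θ : Module.End K V := π * f * g - g * (π * f) with hθ
  set θ' : Module.End K V' := π' * f' * g' - g' * (π' * f') with hθ'
  have hθι : ∀ x, ι (θ x) = θ' (ι x) := by
    intro x
    simp only [hθ, hθ', LinearMap.sub_apply, Module.End.mul_apply, map_sub, hπι, hf, hg]
  rw [res_eq_of_isProj hfg hfE hgE hπ, res_eq_of_isProj hfg' hfE' hgE' hπ']
  have hfp : IsFinitePotent θ' := isFinitePotent_commutator_proj hfg' hfE' hgE' hπ'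
  -- `θ'` maps `V'` into `ι V`
  have hPW : P ≤ LinearMap.range ι := by
    rintro _ ⟨b, -, rfl⟩
    exact ⟨b, rfl⟩
  have hgW : ∀ y ∈ LinearMap.range ι, g' y ∈ LinearMap.range ι := by
    rintro _ ⟨x, rfl⟩
    exact ⟨g x, hg x⟩
  have hrange : LinearMap.range θ' ≤ LinearMap.range ι := by
    rintro _ ⟨x, rfl⟩
    have e : θ' x = (π' (f' (g' x)) - f' (g' x)) - g' (π' (f' x) - f' x) := by
      simp only [hθ', LinearMap.sub_apply, Module.End.mul_apply, map_sub]
      have := congrArg (fun φ : Module.End K V' => φ x) hfg'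
      simp only [Module.End.mul_apply] at this
      rw [this]
      abel
    rw [e]
    refine Submodule.sub_mem _ (hPW (projAlong_sub_self_mem A' P hc _)) (hgW _ ?_)
    exact hPW (projAlong_sub_self_mem A' P hc _)
  rw [fpTrace_eq_restrict_of_range_le hfp _ hrange]
  refine fpTrace_conj (LinearEquiv.ofInjective ι hι) θ _ ?_
  intro x
  apply Subtype.ext
  show ι (θ x) = θ' (ι x)
  exact hθι x

end Fermat.Agent.M1.Link.ResCompat42
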