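/-
M1 / LINK, brick D RESQ / LK2(a) at the cusp `∞` of `X₀(N)` (helper42).

* `single_mul_derivative_laurentOf`, `single_mul_derivative_jqK`: `q d/dq` of the formal `j` is
  `S20.LowDJ.thetaJ`;
* `resInfFormula N : PrincipalPartX0_39.ResInfFormula N`: the residue at the `q`-adic place of
  `g • dj` is the constant coefficient of `g * θ_j`;
* `exists_principalPart`, `exists_principalPart_of_coeff`: helper39's LK2(b), now unconditional.
-/
import Mathlib
import Fermat.Agent.M1.Link.ResQ42
import Fermat.Agent.M1.Link.PrincipalPartX0_39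
import Fermat.Agent.S20.LowDJ

set_option autoImplicit false
set_option synthInstance.maxHeartbeats 400000
set_option maxHeartbeats 1000000

open HahnSeries AlgebraicCurve CongruenceSubgroup KaehlerDifferential
open Fermat.Agent.M1.Link.ResLaurent42 Fermat.Agent.X0

namespace Fermat.Agent.M1.Link.ResInf42

section Formal

variable {K : Type*} [Field K]

/-- `θ (q⁻¹ P) = q⁻¹ · Σ (n - 1) p_n qⁿ`. -/
theorem single_mul_derivative_laurentOf (P : PowerSeries K) :
    single (1 : ℤ) (1 : K) * LaurentSeries.derivative K (laurentOf 1 P) =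
      laurentOf 1 (PowerSeries.mk fun n => ((n : K) - 1) * PowerSeries.coeff n P) := by
  ext m
  show (T 1 * LaurentSeries.derivative K (laurentOf 1 P)).coeff m = _
  rw [coeff_T_mul, coeff_deriv, sub_add_cancel]
  unfold laurentOf
  show (m : K) * (T (-((1 : ℕ) : ℤ)) * _).coeff m = (T (-((1 : ℕ) : ℤ)) * _).coeff m
  rw [coeff_T_mul, coeff_T_mul]
  have e : m - -((1 : ℕ) : ℤ) = m + 1 := by push_cast; ring
  rw [e]
  change (m : K) * ((P : LaurentSeries K)).coeff (m + 1) =
    ((PowerSeries.mk fun n => ((n : K) - 1) * PowerSeries.coeff n P : PowerSeries K) :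
      LaurentSeries K).coeff (m + 1)
  rw [PowerSeries.coeff_coe, PowerSeries.coeff_coe]
  by_cases h : m + 1 < 0
  · rw [if_pos h, if_pos h, mul_zero]
  · rw [if_neg h, if_neg h, PowerSeries.coeff_mk]
    have h2 : (((m + 1).natAbs : ℕ) : K) = (m : K) + 1 := by
      have : (((m + 1).natAbs : ℕ) : ℤ) = m + 1 := by omega
      have := congrArg (fun z : ℤ => (z : K)) this
      simpa using this
    rw [h2, add_sub_cancel_right]

end Formal

open Fermat.Agent.S20.LowDJ in
/-- `q d/dq` of the formal `j` is `thetaJ`. -/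
theorem single_mul_derivative_jqK :
    single (1 : ℤ) (1 : Kbar) * LaurentSeries.derivative Kbar jqK = thetaJ := by
  rw [jqK_eq_laurentOf, single_mul_derivative_laurentOf]
  rfl

open Fermat.Agent.RR Fermat.Agent.S20.LowDJ Fermat.Agent.M1.Link.InfPlace39
  Fermat.Agent.M1.Link.PrincipalPartX0_39

variable (N : ℕ) [NeZero N]

/-- General form of LK2(a) at `∞`: `res_∞ (g df) = coeff_0 (g · q f')` for all `f, g ∈ F`. -/
theorem residue_infPlace_eq_coeff (f g : FF N) :
    LocalResMain.residue (HasCanDivInst.isGen N) (infPlace N) (g • D Kbar (FF N) f) =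
      ((g : LaurentSeries Kbar) *
        (single (1 : ℤ) (1 : Kbar) * LaurentSeries.derivative Kbar (f : LaurentSeries Kbar))).coeff
          0 :=
  ResQ42.resΩ_eq_coeff_theta_ringHom (infPlace N) (tauInf N) (tauInf_const N)
    (fun _ hf => infPlace_ord N hf)
    (LocalResMain.hres_of_isGen (HasCanDivInst.isGen N) (infPlace N)) f g

/-- **LK2(a)** in helper39's literal shape. -/
theorem resInfFormula : ResInfFormula N := by
  intro g
  rw [residue_infPlace_eq_coeff, coe_jF, single_mul_derivative_jqK]

/-- **LK2(b)**, unconditional (helper39's `exists_principalPart` with LK2(a) discharged). -/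
theorem exists_principalPart (c : ℕ →₀ ℤ)
    (hc : ∀ f : CuspForm (Gamma0 N) 2,
      ∑ n ∈ c.support, (c n : ℂ) * ModularFormClass.qCoeff f n = 0) :
    ∃ g : FF N, (∀ v : Place Kbar (FF N), v ≠ infPlace N → g ∈ v.toValuationSubring) ∧
      (∀ n : ℕ, 0 < n → (g : LaurentSeries Kbar).coeff (-(n : ℤ)) = (c n : Kbar)) ∧
      (g : LaurentSeries Kbar).coeff 0 = 0 :=
  PrincipalPartX0_39.exists_principalPart N (resInfFormula N) c hc

end Fermat.Agent.M1.Link.ResInf42
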