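/-
M1 (row 38, S44), chapter LINK, brick (SAT) (helper60).  Mathlib only.

SATURATION / "relations of the integral lattice are detected mod `p`".

Setting: `L ⊆ (ι → ℤ)` a `p`-saturated subgroup (`p • x ∈ L → x ∈ L`; think of the `q`-expansions
of the cusp forms of `S₂(Γ₀(N))` with integral coefficients), `b : σ → ι → ℤ` a finite family in `L`
which is linearly independent over a field of characteristic `0` and which detects the integral
relations of `L`.  Then a sequence `φ : ι → k` (`k` a field in which `p = 0`) which satisfies every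
finitely supported integral relation `c : ι →₀ ℤ` satisfied by `L` is a `k`-linear combination of
reductions mod `p` of elements of `L`:  `φ n = ∑ i, lam i * (b' i n : k)`, `b' i ∈ L`.

* `exists_minor`          : independent rows ⟹ a non-vanishing maximal minor (any field).
* `exists_coeffs_of_rel`  : (Cramer) rows independent mod `p` + `φ` kills the relations of the rows
                            ⟹ `φ` is a `k`-combination of the rows reduced mod `p`.
* `exists_modp_independent` : saturation step: replace `b` by `b'` in `L`, independent mod `p`,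
                            with the same integral relations.
* `sat_main`              : the combination.
-/
import Mathlib

set_option autoImplicit false
set_option linter.style.haveILetI false

namespace Fermat.Agent.M1.Link.Saturate60

open Matrix

/-! ### pairings -/

section Pair

variable {ι : Type*}

/-- the pairing of a finitely supported integral relation with a sequence in a ring `R`. -/
def pairR {R : Type*} [CommRing R] (c : ι →₀ ℤ) (a : ι → R) : R := c.sum fun n cn => (cn : R) * a n

variable {R : Type*} [CommRing R]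

theorem pairR_eq_linearCombination (c : ι →₀ ℤ) (a : ι → R) :
    pairR c a = Finsupp.linearCombination ℤ a c := by
  simp only [pairR, Finsupp.linearCombination_apply, zsmul_eq_mul]

theorem pairR_single (n : ι) (d : ℤ) (a : ι → R) : pairR (Finsupp.single n d) a = (d : R) * a n := by
  rw [pairR_eq_linearCombination, Finsupp.linearCombination_single, zsmul_eq_mul]

theorem pairR_add_left (c c' : ι →₀ ℤ) (a : ι → R) : pairR (c + c') a = pairR c a + pairR c' a := by
  simp only [pairR_eq_linearCombination, map_add]

theorem pairR_sub_left (c c' : ι →₀ ℤ) (a : ι → R) : pairR (c - c') a = pairR c a - pairR c' a := by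
  simp only [pairR_eq_linearCombination, map_sub]

theorem pairR_sum_left {τ : Type*} (s : Finset τ) (c : τ → ι →₀ ℤ) (a : ι → R) :
    pairR (∑ j ∈ s, c j) a = ∑ j ∈ s, pairR (c j) a := by
  simp only [pairR_eq_linearCombination, map_sum]

theorem pairR_add_right (c : ι →₀ ℤ) (a a' : ι → R) : pairR c (a + a') = pairR c a + pairR c a' := by
  simp only [pairR, Finsupp.sum, Pi.add_apply, mul_add, Finset.sum_add_distrib]

theorem pairR_sum_right {τ : Type*} (s : Finset τ) (c : ι →₀ ℤ) (a : τ → ι → R) :
    pairR c (∑ j ∈ s, a j) = ∑ j ∈ s, pairR c (a j) := by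
  simp only [pairR, Finsupp.sum, Finset.sum_apply, Finset.mul_sum]
  rw [Finset.sum_comm]

theorem pairR_smul_right (c : ι →₀ ℤ) (m : R) (a : ι → R) : pairR c (m • a) = m * pairR c a := by
  simp only [pairR, Finsupp.sum, Pi.smul_apply, smul_eq_mul, Finset.mul_sum]
  refine Finset.sum_congr rfl fun n _ => ?_
  ring

/-- pairing commutes with a ring homomorphism applied to an integral sequence. -/
theorem pairR_intCast (c : ι →₀ ℤ) (a : ι → ℤ) :
    pairR c (fun n => ((a n : ℤ) : R)) = ((pairR c a : ℤ) : R) := by
  simp only [pairR, Finsupp.sum, Int.cast_sum, Int.cast_mul, Int.cast_id]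

end Pair

/-! ### a non-vanishing maximal minor -/

section Minor

variable {σ ι K : Type*} [Fintype σ] [DecidableEq σ] [Field K]

/-- independent rows ⟹ the columns span `σ → K`. -/
theorem span_cols_eq_top (v : σ → ι → K) (hv : LinearIndependent K v) :
    Submodule.span K (Set.range fun (n : ι) (i : σ) => v i n) = ⊤ := by
  by_contra hne
  obtain ⟨f, hf0, hf⟩ := Submodule.exists_le_ker_of_lt_top _ (lt_top_iff_ne_top.mpr hne)
  apply hf0
  have hc : ∀ i, f (fun j => if i = j then 1 else 0) = 0 := by
    refine Fintype.linearIndependent_iff.mp hv (fun i => f (fun j => if i = j then 1 else 0)) ?_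
    funext n
    have hn : f (fun i => v i n) = 0 := hf (Submodule.subset_span ⟨n, rfl⟩)
    rw [LinearMap.pi_apply_eq_sum_univ] at hn
    simp only [Finset.sum_apply, Pi.smul_apply, smul_eq_mul, Pi.zero_apply]
    refine Eq.trans (Finset.sum_congr rfl fun i _ => ?_) hn
    rw [smul_eq_mul, mul_comm]
  refine LinearMap.ext fun x => ?_
  rw [LinearMap.pi_apply_eq_sum_univ]
  simp only [hc, smul_zero, Finset.sum_const_zero, LinearMap.zero_apply]

/-- independent rows ⟹ there are `|σ|` columns with non-vanishing determinant. -/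
theorem exists_minor (v : σ → ι → K) (hv : LinearIndependent K v) :
    ∃ e : σ → ι, (Matrix.of fun i j => v i (e j)).det ≠ 0 := by
  classical
  set col : ι → σ → K := fun n i => v i n with hcol
  obtain ⟨B, hBsub, hBspan, hBind⟩ := exists_linearIndependent K (Set.range col)
  rw [span_cols_eq_top v hv] at hBspan
  have hBfin : B.Finite := hBind.setFinite
  letI : Fintype B := hBfin.fintype
  -- `B` is a basis of `σ → K`
  let bas : Module.Basis B K (σ → K) := Module.Basis.mk hBind (by
    rw [Subtype.range_coe_subtype, Set.ofPred_mem_eq, hBspan])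
  have hcard : Fintype.card σ = Fintype.card B := by
    rw [← Module.finrank_fintype_fun_eq_card K, Module.finrank_eq_card_basis bas]
  let eqv : σ ≃ B := Fintype.equivOfCardEq hcard
  have hex : ∀ j : σ, ∃ n : ι, col n = (eqv j : σ → K) := fun j => hBsub (eqv j).2
  choose e he using hex
  refine ⟨e, ?_⟩
  have hcolind : LinearIndependent K (Matrix.of fun i j => v i (e j)).col := by
    have h1 : LinearIndependent K (fun j : σ => ((eqv j : B) : σ → K)) :=
      hBind.comp eqv eqv.injective
    convert h1 using 1
    funext j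
    rw [← he j]
    rfl
  have hunit := (Matrix.linearIndependent_cols_iff_isUnit).mp hcolind
  exact ((Matrix.isUnit_iff_isUnit_det _).mp hunit).ne_zero

end Minor

/-! ### Cramer: rows independent mod `p` -/

section Cramer

variable {σ ι : Type*} [Fintype σ] [DecidableEq σ] {p : ℕ} [Fact p.Prime]

/-- an integer prime to `p` is non-zero in a field where `p = 0`. -/
theorem intCast_ne_zero_of_not_dvd {k : Type*} [Field k] (hpk : (p : k) = 0) {D : ℤ}
    (hD : ¬ (p : ℤ) ∣ D) : (D : k) ≠ 0 := by
  intro h0
  have hp : Prime (p : ℤ) := Nat.prime_iff_prime_int.mp (Fact.out : p.Prime)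
  obtain ⟨x, y, hxy⟩ := (hp.irreducible.coprime_iff_not_dvd).mpr hD
  have h1 := congrArg (Int.cast : ℤ → k) hxy
  push_cast at h1
  rw [hpk, h0, mul_zero, mul_zero, add_zero] at h1
  exact zero_ne_one h1

/-- **(SAT), Cramer form.** If the rows `b i` are linearly independent mod `p` and `φ : ι → k`
(`p = 0` in the field `k`) satisfies every finitely supported integral relation satisfied by all
the rows, then `φ` is a `k`-linear combination of the rows reduced mod `p`. -/
theorem exists_coeffs_of_rel (b : σ → ι → ℤ)
    (hind : LinearIndependent (ZMod p) (fun i (n : ι) => (b i n : ZMod p)))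
    {k : Type*} [Field k] (hpk : (p : k) = 0) (φ : ι → k)
    (hφ : ∀ c : ι →₀ ℤ, (∀ i, pairR c (b i) = 0) → pairR c φ = 0) :
    ∃ lam : σ → k, ∀ n, φ n = ∑ i, lam i * (b i n : k) := by
  classical
  obtain ⟨e, he⟩ := exists_minor (fun i (n : ι) => (b i n : ZMod p)) hind
  set B : Matrix σ σ ℤ := Matrix.of fun i j => b i (e j) with hB
  set D : ℤ := B.det with hD
  have hDp : ¬ (p : ℤ) ∣ D := by
    intro hdvd
    apply he
    have h0 : ((D : ℤ) : ZMod p) = 0 := (ZMod.intCast_zmod_eq_zero_iff_dvd D p).mpr hdvd
    rw [hD, Int.cast_det] at h0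
    exact h0
  have hDk : (D : k) ≠ 0 := intCast_ne_zero_of_not_dvd hpk hDp
  let C : ι → σ → ℤ := fun n j => ∑ i, B.adjugate j i * b i n
  have h1 : ∀ i' i, ∑ j, B i' j * B.adjugate j i = if i' = i then D else 0 := by
    intro i' i
    have h2 := congrFun (congrFun (Matrix.mul_adjugate B) i') i
    simpa only [Matrix.mul_apply, Matrix.smul_apply, Matrix.one_apply, smul_eq_mul, mul_ite,
      mul_one, mul_zero] using h2
  have hrel : ∀ n, (D : k) * φ n = ∑ j, (C n j : k) * φ (e j) := by
    intro n
    have h3 := hφ (Finsupp.single n D - ∑ j, Finsupp.single (e j) (C n j)) ?_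
    · rw [pairR_sub_left, pairR_single, pairR_sum_left] at h3
      simp only [pairR_single] at h3
      exact sub_eq_zero.mp h3
    · intro i'
      rw [pairR_sub_left, pairR_single, pairR_sum_left]
      simp only [pairR_single, Int.cast_id]
      have h4 : ∑ j, C n j * b i' (e j) = ∑ i, (∑ j, B i' j * B.adjugate j i) * b i n := by
        simp only [C, Finset.sum_mul]
        rw [Finset.sum_comm]
        refine Finset.sum_congr rfl fun i _ => Finset.sum_congr rfl fun j _ => ?_
        simp only [hB, Matrix.of_apply]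
        ring
      rw [h4]
      simp only [h1, ite_mul, zero_mul, Finset.sum_ite_eq, Finset.mem_univ, if_true, sub_self]
  refine ⟨fun i => (D : k)⁻¹ * ∑ j, φ (e j) * (B.adjugate j i : k), fun n => ?_⟩
  have h5 : ∑ i, ((D : k)⁻¹ * ∑ j, φ (e j) * (B.adjugate j i : k)) * (b i n : k)
      = (D : k)⁻¹ * ∑ j, (C n j : k) * φ (e j) := by
    simp only [C, Int.cast_sum, Int.cast_mul, Finset.mul_sum, Finset.sum_mul]
    rw [Finset.sum_comm]
    refine Finset.sum_congr rfl fun j _ => Finset.sum_congr rfl fun i _ => ?_
    ring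
  rw [h5, ← hrel n, inv_mul_cancel_left₀ hDk]

end Cramer

/-! ### the saturation step -/

section Saturate

variable {σ ι : Type*} [Fintype σ] [DecidableEq σ] {p : ℕ} [Fact p.Prime]

/-- one step: if the rows are dependent mod `p`, replace one of them by `(∑ cᵢ bᵢ)/p`. -/
theorem saturate_step (L : AddSubgroup (ι → ℤ)) (hsat : ∀ x : ι → ℤ, (p : ℤ) • x ∈ L → x ∈ L)
    (e : σ → ι) (b : σ → ι → ℤ) (hbL : ∀ i, b i ∈ L)
    (hD : (Matrix.of fun i j => b i (e j)).det ≠ 0)
    (hdep : ¬ LinearIndependent (ZMod p) (fun i (n : ι) => (b i n : ZMod p))) :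
    ∃ b' : σ → ι → ℤ, (∀ i, b' i ∈ L) ∧
      (Matrix.of fun i j => b' i (e j)).det ≠ 0 ∧
      (Matrix.of fun i j => b' i (e j)).det.natAbs < (Matrix.of fun i j => b i (e j)).det.natAbs ∧
      ∀ c : ι →₀ ℤ, (∀ i, pairR c (b' i) = 0) → ∀ i, pairR c (b i) = 0 := by
  classical
  haveI : NeZero p := ⟨(Fact.out : p.Prime).ne_zero⟩
  obtain ⟨g, hg, i0, hi0⟩ := Fintype.not_linearIndependent_iff.mp hdep
  set ct : σ → ℤ := fun i => ((g i).val : ℤ) with hct
  have hct_cast : ∀ i, ((ct i : ℤ) : ZMod p) = g i := by
    intro i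
    simp only [hct]
    rw [Int.cast_natCast, ZMod.natCast_zmod_val]
  set y : ι → ℤ := ∑ i, ct i • b i with hy
  have hyL : y ∈ L := AddSubgroup.sum_mem _ fun i _ => AddSubgroup.zsmul_mem _ (hbL i) _
  have hydvd : ∀ n, (p : ℤ) ∣ y n := by
    intro n
    rw [← ZMod.intCast_zmod_eq_zero_iff_dvd]
    have h1 := congrFun hg n
    simp only [Finset.sum_apply, Pi.smul_apply, smul_eq_mul, Pi.zero_apply] at h1
    rw [hy]
    simp only [Finset.sum_apply, Pi.smul_apply, smul_eq_mul, Int.cast_sum, Int.cast_mul,
      hct_cast]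
    exact h1
  set x : ι → ℤ := fun n => y n / p with hx
  have hpx : (p : ℤ) • x = y := by
    funext n
    simp only [Pi.smul_apply, smul_eq_mul, hx]
    exact Int.mul_ediv_cancel' (hydvd n)
  have hxL : x ∈ L := hsat x (hpx ▸ hyL)
  set B : Matrix σ σ ℤ := Matrix.of fun i j => b i (e j) with hB
  set b' : σ → ι → ℤ := Function.update b i0 x with hb'
  have hB' : (Matrix.of fun i j => b' i (e j)) = B.updateRow i0 (fun j => x (e j)) := by
    ext i j
    simp only [Matrix.of_apply, Matrix.updateRow_apply, hb', Function.update_apply, hB]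
    split_ifs <;> rfl
  have hrow : (p : ℤ) • (fun j => x (e j)) = ∑ i, ct i • B i := by
    funext j
    have h2 := congrFun hpx (e j)
    simp only [Pi.smul_apply, smul_eq_mul] at h2
    simp only [Pi.smul_apply, smul_eq_mul, Finset.sum_apply, h2, hy, hB, Matrix.of_apply]
  have hdet : (p : ℤ) * (Matrix.of fun i j => b' i (e j)).det = ct i0 * B.det := by
    rw [hB', ← Matrix.det_updateRow_smul, hrow, Matrix.det_updateRow_sum, smul_eq_mul]
  have hct0_pos : 0 < ct i0 := by
    have : (g i0).val ≠ 0 := fun h => hi0 ((ZMod.val_eq_zero _).mp h)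
    simp only [hct]
    exact_mod_cast Nat.pos_of_ne_zero this
  have hct0_lt : ct i0 < p := by
    simp only [hct]
    exact_mod_cast ZMod.val_lt (g i0)
  have hD' : (Matrix.of fun i j => b' i (e j)).det ≠ 0 := by
    intro h0
    rw [h0, mul_zero] at hdet
    exact mul_ne_zero hct0_pos.ne' hD hdet.symm
  refine ⟨b', ?_, hD', ?_, ?_⟩
  · intro i
    simp only [hb', Function.update_apply]
    split_ifs
    · exact hxL
    · exact hbL i
  · have h3 := congrArg Int.natAbs hdet
    rw [Int.natAbs_mul, Int.natAbs_mul, Int.natAbs_natCast] at h3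
    have h4 : (ct i0).natAbs < p := by
      have := Int.natAbs_of_nonneg hct0_pos.le
      omega
    have h5 : 0 < B.det.natAbs := Int.natAbs_pos.mpr hD
    by_contra hle
    rw [not_lt] at hle
    have h6 : (ct i0).natAbs * B.det.natAbs < p * (Matrix.of fun i j => b' i (e j)).det.natAbs :=
      calc (ct i0).natAbs * B.det.natAbs < p * B.det.natAbs := Nat.mul_lt_mul_of_pos_right h4 h5
        _ ≤ p * (Matrix.of fun i j => b' i (e j)).det.natAbs := Nat.mul_le_mul_left _ hle
    omega
  · intro c hc i
    by_cases hi : i = i0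
    · subst hi
      have hcx : pairR c x = 0 := by
        have := hc i
        simpa only [hb', Function.update_self] using this
      have hcy : pairR c y = ∑ j, ct j * pairR c (b j) := by
        rw [hy, pairR_sum_right]
        refine Finset.sum_congr rfl fun j _ => ?_
        rw [pairR_smul_right]
      have hcy0 : pairR c y = 0 := by
        rw [← hpx, pairR_smul_right, hcx, mul_zero]
      have hothers : ∀ j, j ≠ i → pairR c (b j) = 0 := by
        intro j hj
        have := hc j
        simpa only [hb', Function.update_of_ne hj] using this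
      rw [hcy0, Finset.sum_eq_single i (fun j _ hj => by rw [hothers j hj, mul_zero])
        (fun h => absurd (Finset.mem_univ i) h)] at hcy
      rcases mul_eq_zero.mp hcy.symm with h | h
      · exact absurd h hct0_pos.ne'
      · exact h
    · have := hc i
      simpa only [hb', Function.update_of_ne hi] using this

/-- **saturation**: a family in a `p`-saturated subgroup `L ⊆ (ι → ℤ)` with a non-vanishing
maximal minor can be replaced by a family in `L`, linearly independent mod `p`, with no more
integral relations. -/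
theorem exists_modp_independent_of_minor (L : AddSubgroup (ι → ℤ))
    (hsat : ∀ x : ι → ℤ, (p : ℤ) • x ∈ L → x ∈ L) (e : σ → ι) :
    ∀ (d : ℕ) (b : σ → ι → ℤ), (∀ i, b i ∈ L) →
      (Matrix.of fun i j => b i (e j)).det ≠ 0 →
      (Matrix.of fun i j => b i (e j)).det.natAbs = d →
      ∃ b' : σ → ι → ℤ, (∀ i, b' i ∈ L) ∧
        LinearIndependent (ZMod p) (fun i (n : ι) => (b' i n : ZMod p)) ∧
        ∀ c : ι →₀ ℤ, (∀ i, pairR c (b' i) = 0) → ∀ i, pairR c (b i) = 0 := by
  intro d
  induction d using Nat.strong_induction_on with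
  | _ d ih =>
    intro b hbL hD hd
    by_cases hind : LinearIndependent (ZMod p) (fun i (n : ι) => (b i n : ZMod p))
    · exact ⟨b, hbL, hind, fun c hc => hc⟩
    · obtain ⟨b1, hb1L, hD1, hlt, hrel1⟩ := saturate_step L hsat e b hbL hD hind
      obtain ⟨b', hb'L, hind', hrel'⟩ := ih _ (hd ▸ hlt) b1 hb1L hD1 rfl
      exact ⟨b', hb'L, hind', fun c hc => hrel1 c (hrel' c hc)⟩

/-- **saturation**, with the minor supplied by independence over a field of characteristic `0`. -/
theorem exists_modp_independent {K : Type*} [Field K] [CharZero K] (L : AddSubgroup (ι → ℤ))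
    (hsat : ∀ x : ι → ℤ, (p : ℤ) • x ∈ L → x ∈ L)
    (b : σ → ι → ℤ) (hbL : ∀ i, b i ∈ L)
    (hb : LinearIndependent K (fun i (n : ι) => (b i n : K))) :
    ∃ b' : σ → ι → ℤ, (∀ i, b' i ∈ L) ∧
      LinearIndependent (ZMod p) (fun i (n : ι) => (b' i n : ZMod p)) ∧
      ∀ c : ι →₀ ℤ, (∀ i, pairR c (b' i) = 0) → ∀ i, pairR c (b i) = 0 := by
  classical
  obtain ⟨e, he⟩ := exists_minor (fun i (n : ι) => (b i n : K)) hb
  have hD : (Matrix.of fun i j => b i (e j)).det ≠ 0 := by
    intro h0
    apply he
    have h1 : (((Matrix.of fun i j => b i (e j)).det : ℤ) : K) = 0 := by rw [h0, Int.cast_zero]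
    rw [Int.cast_det] at h1
    exact h1
  exact exists_modp_independent_of_minor L hsat e _ b hbL hD rfl

/-- **(SAT), main form.**  `L ⊆ (ι → ℤ)` a `p`-saturated subgroup, `b` a finite family in `L`,
linearly independent over a field of characteristic `0`, detecting the integral relations of `L`.
A sequence `φ : ι → k` (`p = 0` in the field `k`) satisfying every integral relation of `L` is a
`k`-linear combination of reductions mod `p` of elements of `L`. -/
theorem sat_main {K : Type*} [Field K] [CharZero K] (L : AddSubgroup (ι → ℤ))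
    (hsat : ∀ x : ι → ℤ, (p : ℤ) • x ∈ L → x ∈ L)
    (b : σ → ι → ℤ) (hbL : ∀ i, b i ∈ L)
    (hb : LinearIndependent K (fun i (n : ι) => (b i n : K)))
    (hspan : ∀ c : ι →₀ ℤ, (∀ i, pairR c (b i) = 0) → ∀ y ∈ L, pairR c y = 0)
    {k : Type*} [Field k] (hpk : (p : k) = 0) (φ : ι → k)
    (hφ : ∀ c : ι →₀ ℤ, (∀ y ∈ L, pairR c y = 0) → pairR c φ = 0) :
    ∃ (b' : σ → ι → ℤ) (lam : σ → k), (∀ i, b' i ∈ L) ∧
      LinearIndependent (ZMod p) (fun i (n : ι) => (b' i n : ZMod p)) ∧
      ∀ n, φ n = ∑ i, lam i * (b' i n : k) := by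
  obtain ⟨b', hb'L, hind, hrel⟩ := exists_modp_independent (K := K) L hsat b hbL hb
  obtain ⟨lam, hlam⟩ := exists_coeffs_of_rel b' hind hpk φ
    (fun c hc => hφ c (hspan c (hrel c hc)))
  exact ⟨b', lam, hb'L, hind, hlam⟩

end Saturate

end Fermat.Agent.M1.Link.Saturate60
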